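import Fermat.Agent.S14.Defs

/-!
# S14, package CC (core): descent of a norm-residue character to the class group

If `lam : (ℤ/r)ˣ → A` kills the norms of all principal ideals prime to `r`, and every ideal class
contains an integral ideal of norm prime to `r` (which follows from the generation of the class
group by degree-one primes away from `r`), then `I ↦ lam (N I mod r)` descends to a character of
the class group.
-/

set_option autoImplicit false
set_option linter.unusedSectionVars false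

open NumberField

namespace Fermat.Agent.S14

section cc

variable {F : Type*} [Field F] [NumberField F] (r : ℕ) [Fact r.Prime]

/-- a unit of `ZMod r` whose value is the cast of `n` is `ZMod.unitOfCoprime n _`. -/
theorem cc_unit_eq {n : ℕ} {u : (ZMod r)ˣ} (h : (u : ZMod r) = (n : ZMod r)) :
    ∃ hn : n.Coprime r, u = ZMod.unitOfCoprime n hn := by
  have hn : n.Coprime r := (ZMod.isUnit_iff_coprime n r).mp (h ▸ u.isUnit)
  exact ⟨hn, Units.ext (by rw [ZMod.coe_unitOfCoprime]; exact h)⟩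

theorem cc_unit_mul {m n : ℕ} (hm : m.Coprime r) (hn : n.Coprime r) :
    ZMod.unitOfCoprime (m * n) (Nat.Coprime.mul_left hm hn) =
      ZMod.unitOfCoprime m hm * ZMod.unitOfCoprime n hn := by
  apply Units.ext
  simp [ZMod.coe_unitOfCoprime]

theorem cc_unit_pow {m : ℕ} (hm : m.Coprime r) (k : ℕ) :
    ZMod.unitOfCoprime (m ^ k) (Nat.Coprime.pow_left k hm) = ZMod.unitOfCoprime m hm ^ k := by
  apply Units.ext
  simp [ZMod.coe_unitOfCoprime]

/-- a class is "good" if it contains an integral ideal of norm prime to `r` -/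
def ccGood (c : ClassGroup (𝓞 F)) : Prop :=
  ∃ I : nonZeroDivisors (Ideal (𝓞 F)), (Ideal.absNorm (I : Ideal (𝓞 F))).Coprime r ∧
    ClassGroup.mk0 I = c

theorem cc_good_one : ccGood (F := F) r 1 :=
  ⟨1, by simp [Ideal.one_eq_top], map_one _⟩

variable {r}

theorem cc_good_mul {c d : ClassGroup (𝓞 F)} (hc : ccGood r c) (hd : ccGood r d) :
    ccGood r (c * d) := by
  obtain ⟨I, hI, rfl⟩ := hc
  obtain ⟨J, hJ, rfl⟩ := hd
  refine ⟨I * J, ?_, map_mul _ _ _⟩
  rw [Submonoid.coe_mul, map_mul]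
  exact Nat.Coprime.mul_left hI hJ

theorem cc_good_pow {c : ClassGroup (𝓞 F)} (hc : ccGood r c) (n : ℕ) : ccGood r (c ^ n) := by
  induction n with
  | zero => simpa using cc_good_one r
  | succ n ih => rw [pow_succ]; exact cc_good_mul ih hc

theorem cc_good_inv {c : ClassGroup (𝓞 F)} (hc : ccGood r c) : ccGood r c⁻¹ := by
  have h1 : c ^ (orderOf c - 1) * c = 1 := by
    rw [← pow_succ, Nat.sub_add_cancel (orderOf_pos c), pow_orderOf_eq_one]
  have h2 : c⁻¹ = c ^ (orderOf c - 1) := (eq_inv_of_mul_eq_one_left h1).symm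
  rw [h2]
  exact cc_good_pow hc _

/-- every class is good as soon as the degree-one primes away from `r` generate the class
group. -/
theorem cc_good_all
    (hgen : Subgroup.closure {c : ClassGroup (𝓞 F) | ∃ 𝔮 : nonZeroDivisors (Ideal (𝓞 F)),
      (𝔮 : Ideal (𝓞 F)).IsPrime ∧ (Ideal.absNorm (𝔮 : Ideal (𝓞 F))).Prime ∧
      Ideal.absNorm (𝔮 : Ideal (𝓞 F)) ∉ ({r} : Finset ℕ) ∧ c = ClassGroup.mk0 𝔮} = ⊤)
    (c : ClassGroup (𝓞 F)) : ccGood r c := by
  have hc : c ∈ Subgroup.closure {c : ClassGroup (𝓞 F) | ∃ 𝔮 : nonZeroDivisors (Ideal (𝓞 F)),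
      (𝔮 : Ideal (𝓞 F)).IsPrime ∧ (Ideal.absNorm (𝔮 : Ideal (𝓞 F))).Prime ∧
      Ideal.absNorm (𝔮 : Ideal (𝓞 F)) ∉ ({r} : Finset ℕ) ∧ c = ClassGroup.mk0 𝔮} := by
    rw [hgen]; exact Subgroup.mem_top c
  induction hc using Subgroup.closure_induction with
  | mem x hx =>
    obtain ⟨𝔮, -, hq, hqr, rfl⟩ := hx
    refine ⟨𝔮, ?_, rfl⟩
    rw [Finset.mem_singleton] at hqr
    exact (Nat.coprime_primes hq (Fact.out : r.Prime)).mpr hqr
  | one => exact cc_good_one r
  | mul x y _ _ hx hy => exact cc_good_mul hx hy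
  | inv x _ hx => exact cc_good_inv hx

variable {A : Type*} [Group A] (lam : (ZMod r)ˣ →* A)

/-- the value of the character on an integral ideal of norm prime to `r` -/
noncomputable def ccVal (I : nonZeroDivisors (Ideal (𝓞 F)))
    (hI : (Ideal.absNorm (I : Ideal (𝓞 F))).Coprime r) : A :=
  lam (ZMod.unitOfCoprime _ hI)

theorem cc_val_mul (I J : nonZeroDivisors (Ideal (𝓞 F)))
    (hI : (Ideal.absNorm (I : Ideal (𝓞 F))).Coprime r)
    (hJ : (Ideal.absNorm (J : Ideal (𝓞 F))).Coprime r)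
    (hIJ : (Ideal.absNorm ((I * J : nonZeroDivisors (Ideal (𝓞 F))) : Ideal (𝓞 F))).Coprime r) :
    ccVal lam (I * J) hIJ = ccVal lam I hI * ccVal lam J hJ := by
  unfold ccVal
  rw [← map_mul, ← cc_unit_mul r hI hJ]
  congr 1
  apply Units.ext
  simp [ZMod.coe_unitOfCoprime]

theorem cc_val_pow (I : nonZeroDivisors (Ideal (𝓞 F)))
    (hI : (Ideal.absNorm (I : Ideal (𝓞 F))).Coprime r) (k : ℕ)
    (hIk : (Ideal.absNorm ((I ^ k : nonZeroDivisors (Ideal (𝓞 F))) : Ideal (𝓞 F))).Coprime r) :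
    ccVal lam (I ^ k) hIk = ccVal lam I hI ^ k := by
  unfold ccVal
  rw [← map_pow, ← cc_unit_pow r hI k]
  congr 1
  apply Units.ext
  simp [ZMod.coe_unitOfCoprime]

/-- the value on a principal ideal is trivial -/
theorem cc_val_principal
    (hprin : ∀ (a : 𝓞 F) (u : (ZMod r)ˣ),
      (u : ZMod r) = (Ideal.absNorm (Ideal.span {a}) : ZMod r) → lam u = 1)
    (I : nonZeroDivisors (Ideal (𝓞 F)))
    (hI : (Ideal.absNorm (I : Ideal (𝓞 F))).Coprime r) (h1 : ClassGroup.mk0 I = 1) :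
    ccVal lam I hI = 1 := by
  rw [ClassGroup.mk0_eq_one_iff] at h1
  obtain ⟨a, ha⟩ := h1
  have ha' : (I : Ideal (𝓞 F)) = Ideal.span {a} := ha
  apply hprin a
  rw [ZMod.coe_unitOfCoprime, ha']

/-- the value only depends on the class -/
theorem cc_val_eq
    (hprin : ∀ (a : 𝓞 F) (u : (ZMod r)ˣ),
      (u : ZMod r) = (Ideal.absNorm (Ideal.span {a}) : ZMod r) → lam u = 1)
    (I J : nonZeroDivisors (Ideal (𝓞 F)))
    (hI : (Ideal.absNorm (I : Ideal (𝓞 F))).Coprime r)
    (hJ : (Ideal.absNorm (J : Ideal (𝓞 F))).Coprime r)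
    (h : ClassGroup.mk0 I = ClassGroup.mk0 J) : ccVal lam I hI = ccVal lam J hJ := by
  set n := orderOf (ClassGroup.mk0 J) with hn
  have hnpos : 0 < n := orderOf_pos _
  have hJk : ∀ k : ℕ, (Ideal.absNorm ((J ^ k : nonZeroDivisors (Ideal (𝓞 F))) :
      Ideal (𝓞 F))).Coprime r := by
    intro k
    rw [SubmonoidClass.coe_pow, map_pow]
    exact Nat.Coprime.pow_left k hJ
  have hIJ : (Ideal.absNorm ((I * J ^ (n - 1) : nonZeroDivisors (Ideal (𝓞 F))) :
      Ideal (𝓞 F))).Coprime r := by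
    rw [Submonoid.coe_mul, map_mul]
    exact Nat.Coprime.mul_left hI (hJk _)
  -- `I * J ^ (n - 1)` and `J ^ n` are principal
  have e1 : ClassGroup.mk0 (I * J ^ (n - 1)) = 1 := by
    rw [map_mul, map_pow, h, ← pow_succ', Nat.sub_add_cancel hnpos, hn, pow_orderOf_eq_one]
  have e2 : ClassGroup.mk0 (J ^ n) = 1 := by
    rw [map_pow, hn, pow_orderOf_eq_one]
  have v1 := cc_val_principal lam hprin _ hIJ e1
  have v2 := cc_val_principal lam hprin _ (hJk n) e2
  rw [cc_val_mul lam I (J ^ (n - 1)) hI (hJk _), cc_val_pow lam J hJ] at v1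
  rw [cc_val_pow lam J hJ] at v2
  -- group theory
  have v3 : ccVal lam J hJ ^ (n - 1) * ccVal lam J hJ = 1 := by
    rw [← pow_succ, Nat.sub_add_cancel hnpos]; exact v2
  calc ccVal lam I hI = ccVal lam I hI * (ccVal lam J hJ ^ (n - 1) * ccVal lam J hJ) := by
        rw [v3, mul_one]
    _ = (ccVal lam I hI * ccVal lam J hJ ^ (n - 1)) * ccVal lam J hJ := by rw [mul_assoc]
    _ = ccVal lam J hJ := by rw [v1, one_mul]

/-- **CC, core**: descent of the norm-residue character to the class group. -/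
theorem cc_exists_classChar
    (hgen : Subgroup.closure {c : ClassGroup (𝓞 F) | ∃ 𝔮 : nonZeroDivisors (Ideal (𝓞 F)),
      (𝔮 : Ideal (𝓞 F)).IsPrime ∧ (Ideal.absNorm (𝔮 : Ideal (𝓞 F))).Prime ∧
      Ideal.absNorm (𝔮 : Ideal (𝓞 F)) ∉ ({r} : Finset ℕ) ∧ c = ClassGroup.mk0 𝔮} = ⊤)
    (hprin : ∀ (a : 𝓞 F) (u : (ZMod r)ˣ),
      (u : ZMod r) = (Ideal.absNorm (Ideal.span {a}) : ZMod r) → lam u = 1) :
    ∃ ψ : ClassGroup (𝓞 F) →* A, ∀ (I : nonZeroDivisors (Ideal (𝓞 F))) (u : (ZMod r)ˣ),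
      (u : ZMod r) = (Ideal.absNorm (I : Ideal (𝓞 F)) : ZMod r) →
      ψ (ClassGroup.mk0 I) = lam u := by
  classical
  have hgood := cc_good_all hgen
  -- chosen representatives
  choose rep hrep1 hrep2 using hgood
  have key : ∀ (I : nonZeroDivisors (Ideal (𝓞 F)))
      (hI : (Ideal.absNorm (I : Ideal (𝓞 F))).Coprime r),
      ccVal lam (rep (ClassGroup.mk0 I)) (hrep1 _) = ccVal lam I hI :=
    fun I hI => cc_val_eq lam hprin _ _ _ _ (hrep2 _)
  refine ⟨MonoidHom.mk' (fun c => ccVal lam (rep c) (hrep1 c)) ?_, ?_⟩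
  · intro c d
    have hcd : (Ideal.absNorm ((rep c * rep d : nonZeroDivisors (Ideal (𝓞 F))) :
        Ideal (𝓞 F))).Coprime r := by
      rw [Submonoid.coe_mul, map_mul]
      exact Nat.Coprime.mul_left (hrep1 c) (hrep1 d)
    have hmk : ClassGroup.mk0 (rep c * rep d) = c * d := by
      rw [map_mul, hrep2, hrep2]
    have := key (rep c * rep d) hcd
    rw [hmk] at this
    rw [this, cc_val_mul lam _ _ (hrep1 c) (hrep1 d)]
  · intro I u hu
    obtain ⟨hI, rfl⟩ := cc_unit_eq r hu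
    exact key I hI

end cc

end Fermat.Agent.S14
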