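import Fermat.Agent.S14.Defs

/-!
# S14, package DN1 (core): density consequences of the prime-sum estimates

Everything here takes the prime-sum estimates of package AN5 (`primeSum_summable`,
`primeSum_univ_bound`, `primeSum_bad_bound`, `primeSum_subgroup_le`) as explicit hypotheses, so
that this file only depends on `Defs.lean`.

* `dn1_closure_degree_one_primes` : the classes of the degree-one primes (of norm outside a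
  finite set) generate the class group;
* `dn1_exists_inert_prime` : a Galois extension of prime degree has inert degree-one primes.
-/

set_option autoImplicit false

open NumberField IsDedekindDomain
open NumberField.Set

namespace Fermat.Agent.S14

/-! ## Elementary analysis -/

/-- `log (1 / (s - 1))` is unbounded on `(1, 2]`. -/
theorem dn1_log_unbounded {a B : ℝ} (ha : 0 < a)
    (h : ∀ s : ℝ, 1 < s → s ≤ 2 → a * Real.log (1 / (s - 1)) ≤ B) : False := by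
  have hB : 0 ≤ B := by
    have h2 := h 2 (by norm_num) le_rfl
    norm_num at h2
    exact h2
  set t := B / a + 1 with ht
  have ht0 : 0 < t := by positivity
  have h1 := h (1 + Real.exp (-t)) (by linarith [Real.exp_pos (-t)]) (by
    have : Real.exp (-t) ≤ 1 := Real.exp_le_one_iff.mpr (by linarith)
    linarith)
  have h2 : Real.log (1 / (1 + Real.exp (-t) - 1)) = t := by
    rw [add_sub_cancel_left, one_div, ← Real.exp_neg, neg_neg, Real.log_exp]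
  rw [h2] at h1
  have h3 : a * t = B + a := by
    rw [ht]
    field_simp
  linarith

section ZetaSum

variable {F : Type*} [Field F] [NumberField F]

/-- the partial prime sum as a sum of an indicator function -/
theorem dn1_zetaSum_eq (S : Set (HeightOneSpectrum (𝓞 F))) (s : ℝ) :
    primeIdealZetaSum S s =
      ∑' 𝔭 : HeightOneSpectrum (𝓞 F),
        S.indicator (fun 𝔭 => (Ideal.absNorm 𝔭.asIdeal : ℝ) ^ (-s)) 𝔭 := by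
  rw [primeIdealZetaSum_def]
  exact tsum_subtype S (fun 𝔭 : HeightOneSpectrum (𝓞 F) => (Ideal.absNorm 𝔭.asIdeal : ℝ) ^ (-s))

theorem dn1_term_nonneg (s : ℝ) (𝔭 : HeightOneSpectrum (𝓞 F)) :
    0 ≤ (Ideal.absNorm 𝔭.asIdeal : ℝ) ^ (-s) := by positivity

/-- monotonicity of the partial prime sums -/
theorem dn1_zetaSum_mono {S T : Set (HeightOneSpectrum (𝓞 F))} (hST : S ⊆ T) {s : ℝ}
    (hsum : Summable (fun 𝔭 : HeightOneSpectrum (𝓞 F) => (Ideal.absNorm 𝔭.asIdeal : ℝ) ^ (-s))) :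
    primeIdealZetaSum S s ≤ primeIdealZetaSum T s := by
  rw [dn1_zetaSum_eq, dn1_zetaSum_eq]
  exact Summable.tsum_le_tsum
    (fun 𝔭 => Set.indicator_le_indicator_of_subset hST (fun 𝔭 => dn1_term_nonneg s 𝔭) 𝔭)
    (hsum.indicator S) (hsum.indicator T)

/-- splitting of the full prime sum -/
theorem dn1_zetaSum_add_compl (S : Set (HeightOneSpectrum (𝓞 F))) {s : ℝ}
    (hsum : Summable (fun 𝔭 : HeightOneSpectrum (𝓞 F) => (Ideal.absNorm 𝔭.asIdeal : ℝ) ^ (-s))) :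
    primeIdealZetaSum S s + primeIdealZetaSum Sᶜ s =
      primeIdealZetaSum (Set.univ : Set (HeightOneSpectrum (𝓞 F))) s := by
  rw [primeIdealZetaSum_def, primeIdealZetaSum_def, primeIdealZetaSum_def,
    hsum.tsum_subtype_add_tsum_subtype_compl S]
  exact (tsum_univ (fun 𝔭 : HeightOneSpectrum (𝓞 F) => (Ideal.absNorm 𝔭.asIdeal : ℝ) ^ (-s))).symm

end ZetaSum

/-! ## Degree-one primes generate the class group -/

theorem dn1_closure_degree_one_primes (F : Type*) [Field F] [NumberField F] (S : Finset ℕ)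
    (hsum : ∀ s : ℝ, 1 < s → Summable (fun 𝔭 : HeightOneSpectrum (𝓞 F) =>
      (Ideal.absNorm 𝔭.asIdeal : ℝ) ^ (-s)))
    (huniv : ∃ C : ℝ, ∀ s : ℝ, 1 < s → s ≤ 2 →
      |primeIdealZetaSum (Set.univ : Set (HeightOneSpectrum (𝓞 F))) s -
        Real.log (1 / (s - 1))| ≤ C)
    (hbad : ∃ C : ℝ, ∀ s : ℝ, 1 < s →
      primeIdealZetaSum {𝔭 : HeightOneSpectrum (𝓞 F) |
        ¬ (Ideal.absNorm 𝔭.asIdeal).Prime ∨ Ideal.absNorm 𝔭.asIdeal ∈ S} s ≤ C)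
    (hsub : ∀ H : Subgroup (ClassGroup (𝓞 F)), ∃ C : ℝ, ∀ s : ℝ, 1 < s → s ≤ 2 →
      (H.index : ℝ) * primeIdealZetaSum
          {𝔭 : HeightOneSpectrum (𝓞 F) | primeClass 𝔭 ∈ H} s ≤
        Real.log (1 / (s - 1)) + C) :
    Subgroup.closure {c : ClassGroup (𝓞 F) | ∃ 𝔮 : nonZeroDivisors (Ideal (𝓞 F)),
      (𝔮 : Ideal (𝓞 F)).IsPrime ∧ (Ideal.absNorm (𝔮 : Ideal (𝓞 F))).Prime ∧
      Ideal.absNorm (𝔮 : Ideal (𝓞 F)) ∉ S ∧ c = ClassGroup.mk0 𝔮} = ⊤ := by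
  set H : Subgroup (ClassGroup (𝓞 F)) :=
    Subgroup.closure {c : ClassGroup (𝓞 F) | ∃ 𝔮 : nonZeroDivisors (Ideal (𝓞 F)),
      (𝔮 : Ideal (𝓞 F)).IsPrime ∧ (Ideal.absNorm (𝔮 : Ideal (𝓞 F))).Prime ∧
      Ideal.absNorm (𝔮 : Ideal (𝓞 F)) ∉ S ∧ c = ClassGroup.mk0 𝔮} with hH
  by_contra hne
  have hidx : 2 ≤ H.index := by
    have h0 : H.index ≠ 0 := Subgroup.index_ne_zero_of_finite
    have h1 : H.index ≠ 1 := fun h => hne (Subgroup.index_eq_one.mp h)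
    omega
  have hidx' : (2 : ℝ) ≤ (H.index : ℝ) := by exact_mod_cast hidx
  obtain ⟨C₁, hC₁⟩ := hsub H
  obtain ⟨C₂, hC₂⟩ := huniv
  obtain ⟨C₃, hC₃⟩ := hbad
  refine dn1_log_unbounded (a := (H.index : ℝ) - 1) (B := C₁ + H.index * (C₂ + C₃))
    (by linarith) ?_
  intro s hs1 hs2
  set Bad : Set (HeightOneSpectrum (𝓞 F)) :=
    {𝔭 | ¬ (Ideal.absNorm 𝔭.asIdeal).Prime ∨ Ideal.absNorm 𝔭.asIdeal ∈ S} with hBad
  set PH : Set (HeightOneSpectrum (𝓞 F)) := {𝔭 | primeClass 𝔭 ∈ H} with hPH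
  have hsplit := dn1_zetaSum_add_compl Bad (hsum s hs1)
  have hsubset : Badᶜ ⊆ PH := by
    intro 𝔭 h𝔭
    have h𝔭' : ¬ (¬ (Ideal.absNorm 𝔭.asIdeal).Prime ∨ Ideal.absNorm 𝔭.asIdeal ∈ S) := h𝔭
    rw [not_or, not_not] at h𝔭'
    replace h𝔭 := h𝔭'
    refine Subgroup.subset_closure
      ⟨⟨𝔭.asIdeal, mem_nonZeroDivisors_of_ne_zero 𝔭.ne_bot⟩, 𝔭.isPrime, h𝔭.1, h𝔭.2, rfl⟩
  have hmono := dn1_zetaSum_mono hsubset (hsum s hs1)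
  have h1 := hC₁ s hs1 hs2
  have h2 := abs_le.mp (hC₂ s hs1 hs2)
  have h3 := hC₃ s hs1
  have h4 : Real.log (1 / (s - 1)) - C₂ - C₃ ≤ primeIdealZetaSum PH s := by linarith [h2.1]
  have h5 : (H.index : ℝ) * (Real.log (1 / (s - 1)) - C₂ - C₃) ≤
      (H.index : ℝ) * primeIdealZetaSum PH s :=
    mul_le_mul_of_nonneg_left h4 (by linarith)
  nlinarith [h5, h1]

/-! ## Inert primes in a Galois extension of prime degree -/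

section Inert

variable (F M : Type*) [Field F] [Field M] [NumberField F] [NumberField M] [Algebra F M]

omit [NumberField M] in
/-- a prime of `𝓞 M` over a degree-one prime `𝔮` of `𝓞 F` lies over `(N 𝔮)` in `ℤ` -/
theorem dn1_liesOver_int (𝔮 : Ideal (𝓞 F)) (hℓ : (Ideal.absNorm 𝔮).Prime)
    (𝔔 : Ideal (𝓞 M)) (h𝔔 : 𝔔.IsPrime) (hlo : 𝔔.LiesOver 𝔮) :
    𝔔.LiesOver (Ideal.span {((Ideal.absNorm 𝔮 : ℕ) : ℤ)}) := by
  have hℓ' : Prime ((Ideal.absNorm 𝔮 : ℕ) : ℤ) := Nat.prime_iff_prime_int.mp hℓ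
  have hmax : (Ideal.span {((Ideal.absNorm 𝔮 : ℕ) : ℤ)}).IsMaximal :=
    PrincipalIdealRing.isMaximal_of_irreducible hℓ'.irreducible
  have h1 : ((Ideal.absNorm 𝔮 : ℕ) : 𝓞 F) ∈ 𝔮 := Ideal.absNorm_mem 𝔮
  have h2 : ((Ideal.absNorm 𝔮 : ℕ) : 𝓞 M) ∈ 𝔔 := by
    have h3 : 𝔮 ≤ 𝔔.under (𝓞 F) := hlo.over.le
    have h1' := h3 h1
    rw [Ideal.under_def, Ideal.mem_comap] at h1'
    simpa using h1'
  have h4 : Ideal.span {((Ideal.absNorm 𝔮 : ℕ) : ℤ)} ≤ 𝔔.under ℤ := by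
    rw [Ideal.span_singleton_le_iff_mem, Ideal.under_def, Ideal.mem_comap]
    simpa using h2
  have h5 : (𝔔.under ℤ).IsPrime := Ideal.IsPrime.under ℤ 𝔔
  exact ⟨hmax.eq_of_le h5.ne_top h4⟩

/-- primes above a degree-one prime whose norm does not divide the discriminant are unramified -/
theorem dn1_ramificationIdx_eq_one (𝔮 : Ideal (𝓞 F)) (hℓ : (Ideal.absNorm 𝔮).Prime)
    (hd : ¬ ((Ideal.absNorm 𝔮 : ℕ) : ℤ) ∣ discr M)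
    (𝔔 : Ideal (𝓞 M)) (h𝔔 : 𝔔.IsPrime) (hlo : 𝔔.LiesOver 𝔮) :
    𝔔.ramificationIdx (𝓞 F) = 1 := by
  have hℓ' : Prime ((Ideal.absNorm 𝔮 : ℕ) : ℤ) := Nat.prime_iff_prime_int.mp hℓ
  have h1 := (not_dvd_discr_iff_forall_liesOver M (𝓞 M) hℓ').mp hd
  have hlo' := dn1_liesOver_int F M 𝔮 hℓ 𝔔 h𝔔 hlo
  have h𝔔0 : 𝔔 ≠ ⊥ := by
    rintro rfl
    have h3 : Ideal.span {((Ideal.absNorm 𝔮 : ℕ) : ℤ)} = (⊥ : Ideal (𝓞 M)).under ℤ := hlo'.over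
    have h4 : ((Ideal.absNorm 𝔮 : ℕ) : ℤ) ∈ (⊥ : Ideal (𝓞 M)).under ℤ := by
      rw [← h3]
      exact Ideal.mem_span_singleton_self _
    rw [Ideal.under_def, Ideal.mem_comap, Ideal.mem_bot] at h4
    have h5 : ((Ideal.absNorm 𝔮 : ℕ) : 𝓞 M) = 0 := by simpa using h4
    have h6 : (Ideal.absNorm 𝔮 : ℕ) = 0 := by exact_mod_cast h5
    exact hℓ.ne_zero h6
  have hmax : 𝔔.IsMaximal := h𝔔.isMaximal h𝔔0
  have hunr : Algebra.IsUnramifiedAt ℤ 𝔔 := h1 𝔔 hmax hlo'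
  have hunr' : Algebra.IsUnramifiedAt (𝓞 F) 𝔔 :=
    Algebra.FormallyUnramified.of_restrictScalars ℤ (𝓞 F) (Localization.AtPrime 𝔔)
  exact Ideal.ramificationIdx_eq_one_of_isUnramifiedAt

/-- a non-inert, unramified prime of a Galois extension of prime degree splits completely -/
theorem dn1_split [IsGalois F M] (p : ℕ) [Fact p.Prime] (hdeg : Module.finrank F M = p)
    (𝔮 : Ideal (𝓞 F)) [h𝔮 : 𝔮.IsPrime]
    (he : ∀ 𝔔 : Ideal (𝓞 M), 𝔔.IsPrime → 𝔔.LiesOver 𝔮 → 𝔔.ramificationIdx (𝓞 F) = 1)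
    (hf : ∃ 𝔔 : Ideal (𝓞 M), 𝔔.IsPrime ∧ 𝔔.LiesOver 𝔮 ∧ 𝔔.inertiaDeg (𝓞 F) ≠ p) :
    (𝔮.primesOver (𝓞 M)).ncard = p ∧
      ∀ 𝔔 : Ideal (𝓞 M), 𝔔.IsPrime → 𝔔.LiesOver 𝔮 → 𝔔.inertiaDeg (𝓞 F) = 1 := by
  obtain ⟨𝔔₀, h1, h2, h3⟩ := hf
  have hmain := Ideal.ncard_primesOver_mul_ramificationIdxIn_mul_inertiaDegIn 𝔮 (𝓞 M) (M ≃ₐ[F] M)
  rw [IsGalois.card_aut_eq_finrank, hdeg,
    Ideal.ramificationIdxIn_eq_ramificationIdx 𝔮 𝔔₀ (M ≃ₐ[F] M), he 𝔔₀ h1 h2, one_mul,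
    Ideal.inertiaDegIn_eq_inertiaDeg 𝔮 𝔔₀ (M ≃ₐ[F] M)] at hmain
  have hp : p.Prime := Fact.out
  have hdvd : 𝔔₀.inertiaDeg (𝓞 F) ∣ p := Dvd.intro_left _ hmain
  have hf1 : 𝔔₀.inertiaDeg (𝓞 F) = 1 := by
    rcases (Nat.dvd_prime hp).mp hdvd with h | h
    · exact h
    · exact absurd h h3
  rw [hf1, mul_one] at hmain
  refine ⟨hmain, fun 𝔔 h4 h5 => ?_⟩
  rw [← Ideal.inertiaDegIn_eq_inertiaDeg 𝔮 𝔔 (M ≃ₐ[F] M),
    Ideal.inertiaDegIn_eq_inertiaDeg 𝔮 𝔔₀ (M ≃ₐ[F] M), hf1]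

/-- the height-one primes of `𝓞 M` over a height-one prime of `𝓞 F` -/
def dn1Over (𝔮 : HeightOneSpectrum (𝓞 F)) : Set (HeightOneSpectrum (𝓞 M)) :=
  {𝔓 | 𝔓.asIdeal.LiesOver 𝔮.asIdeal}

omit [NumberField F] [NumberField M] in
theorem dn1Over_ncard (𝔮 : HeightOneSpectrum (𝓞 F)) :
    (dn1Over F M 𝔮).ncard = (𝔮.asIdeal.primesOver (𝓞 M)).ncard := by
  have himg : (fun 𝔓 : HeightOneSpectrum (𝓞 M) => 𝔓.asIdeal) '' (dn1Over F M 𝔮) =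
      𝔮.asIdeal.primesOver (𝓞 M) := by
    ext Q
    constructor
    · rintro ⟨𝔓, h𝔓, rfl⟩
      exact ⟨𝔓.isPrime, h𝔓⟩
    · rintro ⟨hQ, hlo⟩
      have hQ0 : Q ≠ ⊥ := by
        rintro rfl
        have h1 : 𝔮.asIdeal = (⊥ : Ideal (𝓞 M)).under (𝓞 F) := hlo.over
        apply 𝔮.ne_bot
        rw [h1, Ideal.under_def]
        exact Ideal.comap_bot_of_injective _ (FaithfulSMul.algebraMap_injective (𝓞 F) (𝓞 M))
      exact ⟨⟨Q, hQ, hQ0⟩, hlo, rfl⟩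
  rw [← himg]
  exact (Set.ncard_image_of_injective _ (fun a b h => HeightOneSpectrum.ext h)).symm

/-- if every prime of a set `Good` of primes of `F` has exactly `p` primes of `M` above it, all
of the same norm, then `p` times the prime sum of `Good` is at most the prime sum of `M`. -/
theorem dn1_sum_le (Good : Set (HeightOneSpectrum (𝓞 F))) (p : ℕ) (hp : 0 < p)
    (hcard : ∀ 𝔮 ∈ Good, (dn1Over F M 𝔮).ncard = p)
    (hnorm : ∀ 𝔮 ∈ Good, ∀ 𝔓 ∈ dn1Over F M 𝔮,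
      Ideal.absNorm 𝔓.asIdeal = Ideal.absNorm 𝔮.asIdeal)
    {s : ℝ}
    (hsumM : Summable (fun 𝔓 : HeightOneSpectrum (𝓞 M) => (Ideal.absNorm 𝔓.asIdeal : ℝ) ^ (-s))) :
    (p : ℝ) * primeIdealZetaSum Good s ≤
      primeIdealZetaSum (Set.univ : Set (HeightOneSpectrum (𝓞 M))) s := by
  set A := primeIdealZetaSum (Set.univ : Set (HeightOneSpectrum (𝓞 M))) s with hA
  have hA0 : 0 ≤ A := primeIdealZetaSum_nonneg _ s
  have hA' : A = ∑' 𝔓 : HeightOneSpectrum (𝓞 M), (Ideal.absNorm 𝔓.asIdeal : ℝ) ^ (-s) := by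
    rw [hA, primeIdealZetaSum_def]
    exact tsum_univ (fun 𝔓 : HeightOneSpectrum (𝓞 M) => (Ideal.absNorm 𝔓.asIdeal : ℝ) ^ (-s))
  have hp' : (0 : ℝ) < p := by exact_mod_cast hp
  rw [← le_div_iff₀' hp', primeIdealZetaSum_def]
  refine tsum_le_of_sum_le' (div_nonneg hA0 hp'.le) (fun T => ?_)
  rw [le_div_iff₀' hp']
  have hfin : ∀ 𝔮 : Good, (dn1Over F M 𝔮.1).Finite := fun 𝔮 =>
    Set.finite_of_ncard_ne_zero (by rw [hcard 𝔮.1 𝔮.2]; exact hp.ne')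
  classical
  set U : Finset (HeightOneSpectrum (𝓞 M)) := T.biUnion (fun 𝔮 => (hfin 𝔮).toFinset) with hU
  have hdisj : (T : Set Good).PairwiseDisjoint (fun 𝔮 => (hfin 𝔮).toFinset) := by
    intro 𝔮 _ 𝔮' _ hne
    rw [Function.onFun, Finset.disjoint_left]
    intro 𝔓 h1 h2
    rw [Set.Finite.mem_toFinset] at h1 h2
    apply hne
    apply Subtype.ext
    apply HeightOneSpectrum.ext
    have e1 : 𝔮.1.asIdeal = 𝔓.asIdeal.under (𝓞 F) :=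
      (h1 : 𝔓.asIdeal.LiesOver 𝔮.1.asIdeal).over
    have e2 : 𝔮'.1.asIdeal = 𝔓.asIdeal.under (𝓞 F) :=
      (h2 : 𝔓.asIdeal.LiesOver 𝔮'.1.asIdeal).over
    rw [e1, e2]
  have hsumU : ∑ 𝔓 ∈ U, (Ideal.absNorm 𝔓.asIdeal : ℝ) ^ (-s) =
      (p : ℝ) * ∑ 𝔮 ∈ T, (Ideal.absNorm 𝔮.1.asIdeal : ℝ) ^ (-s) := by
    rw [hU, Finset.sum_biUnion hdisj, Finset.mul_sum]
    refine Finset.sum_congr rfl (fun 𝔮 _ => ?_)
    have h3 : ∀ 𝔓 ∈ (hfin 𝔮).toFinset, (Ideal.absNorm 𝔓.asIdeal : ℝ) ^ (-s) =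
        (Ideal.absNorm 𝔮.1.asIdeal : ℝ) ^ (-s) := by
      intro 𝔓 h𝔓
      rw [Set.Finite.mem_toFinset] at h𝔓
      rw [hnorm 𝔮.1 𝔮.2 𝔓 h𝔓]
    rw [Finset.sum_congr rfl h3, Finset.sum_const, nsmul_eq_mul]
    congr 1
    rw [← Set.ncard_eq_toFinset_card _ (hfin 𝔮), hcard 𝔮.1 𝔮.2]
  rw [← hsumU, hA']
  exact hsumM.sum_le_tsum U (fun 𝔓 _ => dn1_term_nonneg s 𝔓)

end Inert

theorem dn1_exists_inert_prime (F M : Type*) [Field F] [Field M] [NumberField F] [NumberField M]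
    [Algebra F M] [IsGalois F M] (p : ℕ) [Fact p.Prime] (hdeg : Module.finrank F M = p)
    (S : Finset ℕ)
    (hsumF : ∀ s : ℝ, 1 < s → Summable (fun 𝔭 : HeightOneSpectrum (𝓞 F) =>
      (Ideal.absNorm 𝔭.asIdeal : ℝ) ^ (-s)))
    (hsumM : ∀ s : ℝ, 1 < s → Summable (fun 𝔭 : HeightOneSpectrum (𝓞 M) =>
      (Ideal.absNorm 𝔭.asIdeal : ℝ) ^ (-s)))
    (hunivF : ∃ C : ℝ, ∀ s : ℝ, 1 < s → s ≤ 2 →
      |primeIdealZetaSum (Set.univ : Set (HeightOneSpectrum (𝓞 F))) s -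
        Real.log (1 / (s - 1))| ≤ C)
    (hunivM : ∃ C : ℝ, ∀ s : ℝ, 1 < s → s ≤ 2 →
      |primeIdealZetaSum (Set.univ : Set (HeightOneSpectrum (𝓞 M))) s -
        Real.log (1 / (s - 1))| ≤ C)
    (hbad : ∀ S' : Finset ℕ, ∃ C : ℝ, ∀ s : ℝ, 1 < s →
      primeIdealZetaSum {𝔭 : HeightOneSpectrum (𝓞 F) |
        ¬ (Ideal.absNorm 𝔭.asIdeal).Prime ∨ Ideal.absNorm 𝔭.asIdeal ∈ S'} s ≤ C) :
    ∃ 𝔮 : nonZeroDivisors (Ideal (𝓞 F)), (𝔮 : Ideal (𝓞 F)).IsPrime ∧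
      (Ideal.absNorm (𝔮 : Ideal (𝓞 F))).Prime ∧ Ideal.absNorm (𝔮 : Ideal (𝓞 F)) ∉ S ∧
      ∀ 𝔔 : Ideal (𝓞 M), 𝔔.IsPrime → 𝔔.LiesOver (𝔮 : Ideal (𝓞 F)) →
        𝔔.inertiaDeg (𝓞 F) = p := by
  have hp : p.Prime := Fact.out
  by_contra hcon
  push Not at hcon
  set S' : Finset ℕ := S ∪ (discr M).natAbs.primeFactors with hS'
  set Bad : Set (HeightOneSpectrum (𝓞 F)) :=
    {𝔭 | ¬ (Ideal.absNorm 𝔭.asIdeal).Prime ∨ Ideal.absNorm 𝔭.asIdeal ∈ S'} with hBad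
  have hgood : ∀ 𝔮 ∈ Badᶜ, (dn1Over F M 𝔮).ncard = p ∧
      ∀ 𝔓 ∈ dn1Over F M 𝔮, Ideal.absNorm 𝔓.asIdeal = Ideal.absNorm 𝔮.asIdeal := by
    intro 𝔮 h𝔮
    have h𝔮' : ¬ (¬ (Ideal.absNorm 𝔮.asIdeal).Prime ∨ Ideal.absNorm 𝔮.asIdeal ∈ S') := h𝔮
    rw [not_or, not_not] at h𝔮'
    obtain ⟨hℓ, hℓS'⟩ := h𝔮'
    have hℓS : Ideal.absNorm 𝔮.asIdeal ∉ S := fun h => hℓS' (Finset.mem_union_left _ h)
    have hℓd : ¬ ((Ideal.absNorm 𝔮.asIdeal : ℕ) : ℤ) ∣ discr M := by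
      intro h
      apply hℓS'
      apply Finset.mem_union_right
      rw [Nat.mem_primeFactors]
      exact ⟨hℓ, Int.natCast_dvd.mp h, Int.natAbs_ne_zero.mpr (discr_ne_zero M)⟩
    have := 𝔮.isPrime
    obtain ⟨𝔔₀, h1, h2, h3⟩ :=
      hcon ⟨𝔮.asIdeal, mem_nonZeroDivisors_of_ne_zero 𝔮.ne_bot⟩ 𝔮.isPrime hℓ hℓS
    obtain ⟨hn, hf⟩ := dn1_split F M p hdeg 𝔮.asIdeal
      (fun 𝔔 h4 h5 => dn1_ramificationIdx_eq_one F M 𝔮.asIdeal hℓ hℓd 𝔔 h4 h5)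
      ⟨𝔔₀, h1, h2, h3⟩
    refine ⟨by rw [dn1Over_ncard, hn], fun 𝔓 h𝔓 => ?_⟩
    have : 𝔓.asIdeal.LiesOver 𝔮.asIdeal := h𝔓
    have := 𝔓.isPrime
    rw [← Ideal.absNorm_pow_inertiaDeg 𝔮.asIdeal 𝔓.asIdeal, hf 𝔓.asIdeal 𝔓.isPrime h𝔓, pow_one]
  obtain ⟨C₁, hC₁⟩ := hunivM
  obtain ⟨C₂, hC₂⟩ := hunivF
  obtain ⟨C₃, hC₃⟩ := hbad S'
  have hp2 : (2 : ℝ) ≤ p := by exact_mod_cast hp.two_le
  refine dn1_log_unbounded (a := (p : ℝ) - 1) (B := C₁ + p * (C₂ + C₃)) (by linarith) ?_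
  intro s hs1 hs2
  have h1 := dn1_sum_le F M Badᶜ p hp.pos (fun 𝔮 h => (hgood 𝔮 h).1)
    (fun 𝔮 h => (hgood 𝔮 h).2) (hsumM s hs1)
  have hsplit := dn1_zetaSum_add_compl Bad (hsumF s hs1)
  have h2 := abs_le.mp (hC₁ s hs1 hs2)
  have h3 := abs_le.mp (hC₂ s hs1 hs2)
  have h4 := hC₃ s hs1
  have h5 : Real.log (1 / (s - 1)) - C₂ - C₃ ≤ primeIdealZetaSum Badᶜ s := by
    linarith [h3.1]
  have h6 : (p : ℝ) * (Real.log (1 / (s - 1)) - C₂ - C₃) ≤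
      (p : ℝ) * primeIdealZetaSum Badᶜ s :=
    mul_le_mul_of_nonneg_left h5 (by linarith)
  nlinarith [h6, h1, h2.2]

end Fermat.Agent.S14
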