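import Fermat.Agent.S14.PrimeSums
import Fermat.Agent.S14.DensityCore

/-!
# S14, package DN1: density consequences of the prime-sum estimates

* `closure_degree_one_primes` : the classes of the degree-one primes (of norm outside a finite
  set) generate the class group;
* `exists_inert_prime` : a Galois extension of prime degree has inert degree-one primes.

Both are `DensityCore.lean` fed with the prime-sum estimates of `PrimeSums.lean` (package AN5).
-/

set_option autoImplicit false

open NumberField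

namespace Fermat.Agent.S14

theorem closure_degree_one_primes (F : Type) [Field F] [NumberField F] (S : Finset ℕ) :
    Subgroup.closure {c : ClassGroup (𝓞 F) | ∃ 𝔮 : nonZeroDivisors (Ideal (𝓞 F)),
      (𝔮 : Ideal (𝓞 F)).IsPrime ∧ (Ideal.absNorm (𝔮 : Ideal (𝓞 F))).Prime ∧
      Ideal.absNorm (𝔮 : Ideal (𝓞 F)) ∉ S ∧ c = ClassGroup.mk0 𝔮} = ⊤ :=
  dn1_closure_degree_one_primes F S (fun _ hs => primeSum_summable F hs) (primeSum_univ_bound F)
    (primeSum_bad_bound F S) (primeSum_subgroup_le F)

theorem exists_inert_prime (F M : Type) [Field F] [Field M] [NumberField F] [NumberField M]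
    [Algebra F M] [IsGalois F M] (p : ℕ) [Fact p.Prime] (hdeg : Module.finrank F M = p)
    (S : Finset ℕ) :
    ∃ 𝔮 : nonZeroDivisors (Ideal (𝓞 F)), (𝔮 : Ideal (𝓞 F)).IsPrime ∧
      (Ideal.absNorm (𝔮 : Ideal (𝓞 F))).Prime ∧ Ideal.absNorm (𝔮 : Ideal (𝓞 F)) ∉ S ∧
      ∀ 𝔔 : Ideal (𝓞 M), 𝔔.IsPrime → 𝔔.LiesOver (𝔮 : Ideal (𝓞 F)) →
        𝔔.inertiaDeg (𝓞 F) = p :=
  dn1_exists_inert_prime F M p hdeg S (fun _ hs => primeSum_summable F hs)
    (fun _ hs => primeSum_summable M hs) (primeSum_univ_bound F) (primeSum_univ_bound M)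
    (primeSum_bad_bound F)

end Fermat.Agent.S14
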