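/-
S14 project, package CC: descent of a norm-residue character to the class group.

`exists_classChar` = `cc_exists_classChar` (ClassCharCore.lean) fed with the generation of the
class group by degree-one primes away from `r` (`closure_degree_one_primes`, Density.lean).
-/
import Fermat.Agent.S14.ClassCharCore
import Fermat.Agent.S14.Density

set_option autoImplicit false

open NumberField
open scoped Pointwise

namespace Fermat.Agent.S14

/-- ClassChar.lean : descent of a norm-residue character to the class group. -/
theorem exists_classChar (F : Type) [Field F] [NumberField F] (r : ℕ) [Fact r.Prime]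
    {A : Type} [Group A] (lam : (ZMod r)ˣ →* A)
    (hprin : ∀ (a : 𝓞 F) (u : (ZMod r)ˣ),
      (u : ZMod r) = (Ideal.absNorm (Ideal.span {a}) : ZMod r) → lam u = 1) :
    ∃ ψ : ClassGroup (𝓞 F) →* A, ∀ (I : nonZeroDivisors (Ideal (𝓞 F))) (u : (ZMod r)ˣ),
      (u : ZMod r) = (Ideal.absNorm (I : Ideal (𝓞 F)) : ZMod r) →
      ψ (ClassGroup.mk0 I) = lam u :=
  cc_exists_classChar lam (closure_degree_one_primes F {r}) hprin

end Fermat.Agent.S14
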