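/-
S14 project (class field theory route): shared definitions.

* `normClasses K L`      : the classes in `ClassGroup (𝓞 K)` of relative norms of nonzero ideals of `𝓞 L`
* `normClassGroup K L`   : the subgroup they form
* `IsFrobOver σ 𝔮`       : `σ ∈ Gal(L/K)` is a Frobenius element at every prime of `𝓞 L` above `𝔮`
* `classL F Ω s`, `primeClass 𝔭` : class-character L-series (real argument), class of a prime
* `TowerProp p K L`      : the number field tower produced by a non-split admissible extension
-/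
import Mathlib

set_option autoImplicit false

open NumberField

namespace Fermat.Agent.S14

section NormClasses

variable (K L : Type*) [Field K] [Field L] [NumberField K] [NumberField L] [Algebra K L]

/-- The set of ideal classes of `K` that contain the relative norm of a nonzero ideal of `𝓞 L`. -/
def normClasses : Set (ClassGroup (𝓞 K)) :=
  {c | ∃ (J : Ideal (𝓞 L)) (I : nonZeroDivisors (Ideal (𝓞 K))), J ≠ ⊥ ∧
      (I : Ideal (𝓞 K)) = Ideal.relNorm (𝓞 K) J ∧ c = ClassGroup.mk0 I}

/-- The subgroup of norm classes. -/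
noncomputable def normClassGroup : Subgroup (ClassGroup (𝓞 K)) :=
  Subgroup.closure (normClasses K L)

variable {K L}

theorem normClasses_one : (1 : ClassGroup (𝓞 K)) ∈ normClasses K L := by
  refine ⟨⊤, 1, top_ne_bot, ?_, ?_⟩
  · simp [Ideal.relNorm_top, Ideal.one_eq_top]
  · simp

theorem normClasses_mul {c d : ClassGroup (𝓞 K)} (hc : c ∈ normClasses K L)
    (hd : d ∈ normClasses K L) : c * d ∈ normClasses K L := by
  obtain ⟨J, I, hJ, hI, rfl⟩ := hc
  obtain ⟨J', I', hJ', hI', rfl⟩ := hd
  refine ⟨J * J', I * I', mul_ne_zero hJ hJ', ?_, (map_mul _ _ _).symm⟩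
  rw [Submonoid.coe_mul, hI, hI', map_mul]

theorem normClasses_pow {c : ClassGroup (𝓞 K)} (hc : c ∈ normClasses K L) (n : ℕ) :
    c ^ n ∈ normClasses K L := by
  induction n with
  | zero => simpa using normClasses_one
  | succ n ih => rw [pow_succ]; exact normClasses_mul ih hc

theorem normClasses_inv {c : ClassGroup (𝓞 K)} (hc : c ∈ normClasses K L) :
    c⁻¹ ∈ normClasses K L := by
  have h1 : c ^ (orderOf c - 1) * c = 1 := by
    rw [← pow_succ, Nat.sub_add_cancel (orderOf_pos c), pow_orderOf_eq_one]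
  have h2 : c⁻¹ = c ^ (orderOf c - 1) := (eq_inv_of_mul_eq_one_left h1).symm
  rw [h2]
  exact normClasses_pow hc _

/-- Membership in the norm class group is membership in the set of norm classes. -/
theorem mem_normClassGroup_iff {c : ClassGroup (𝓞 K)} :
    c ∈ normClassGroup K L ↔ c ∈ normClasses K L := by
  constructor
  · intro h
    induction h using Subgroup.closure_induction with
    | mem x hx => exact hx
    | one => exact normClasses_one
    | mul x y _ _ hx hy => exact normClasses_mul hx hy
    | inv x _ hx => exact normClasses_inv hx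
  · exact fun h => Subgroup.subset_closure h

/-- The class of the relative norm of a nonzero ideal is a norm class. -/
theorem mk0_relNorm_mem (J : Ideal (𝓞 L)) (hJ : J ≠ ⊥) (I : nonZeroDivisors (Ideal (𝓞 K)))
    (hI : (I : Ideal (𝓞 K)) = Ideal.relNorm (𝓞 K) J) :
    ClassGroup.mk0 I ∈ normClassGroup K L :=
  mem_normClassGroup_iff.mpr ⟨J, I, hJ, hI, rfl⟩

end NormClasses

section Frob

variable {K L : Type*} [Field K] [Field L] [NumberField K] [NumberField L] [Algebra K L]

/-- `σ` is a Frobenius element at every prime of `𝓞 L` lying over `𝔮`: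
`σ x ≡ x ^ N𝔮` modulo every such prime. -/
def IsFrobOver (σ : L ≃ₐ[K] L) (𝔮 : Ideal (𝓞 K)) : Prop :=
  ∀ 𝔔 : Ideal (𝓞 L), 𝔔.IsPrime → 𝔔.LiesOver 𝔮 →
    ∀ x : 𝓞 L, σ • x - x ^ Ideal.absNorm 𝔮 ∈ 𝔔

end Frob

section Analytic

/-- The L-series of a character of the class group, at a real argument. -/
noncomputable def classL (F : Type*) [Field F] [NumberField F] (Ω : ClassGroup (𝓞 F) →* ℂˣ)
    (s : ℝ) : ℂ :=
  ∑' I : nonZeroDivisors (Ideal (𝓞 F)),
    (Ω (ClassGroup.mk0 I) : ℂ) * (((Ideal.absNorm (I : Ideal (𝓞 F)) : ℝ) ^ (-s) : ℝ) : ℂ)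

/-- The class of a height one prime. -/
noncomputable def primeClass {F : Type*} [Field F] [NumberField F]
    (𝔭 : IsDedekindDomain.HeightOneSpectrum (𝓞 F)) : ClassGroup (𝓞 F) :=
  ClassGroup.mk0 ⟨𝔭.asIdeal, mem_nonZeroDivisors_of_ne_zero 𝔭.ne_bot⟩

end Analytic

/-- The number field tower attached to a non-split admissible extension: `K = ℚ(ζ_p)`,
`L/K` cyclic of degree `p`, unramified at all finite primes, `L/ℚ` Galois, and conjugation by
`τ ∈ Gal(L/ℚ)` acts on `Gal(L/K)` through the inverse of the cyclotomic character. -/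
structure TowerProp (p : ℕ) (K L : Type) [Field K] [Field L] [NumberField K] [NumberField L]
    [Algebra K L] : Prop where
  cyc : IsCyclotomicExtension {p} ℚ K
  galKL : IsGalois K L
  galQL : IsGalois ℚ L
  deg : Module.finrank K L = p
  unram : differentIdeal (𝓞 K) (𝓞 L) = ⊤
  conj : ∀ (τ : L ≃ₐ[ℚ] L) (σ : L ≃ₐ[K] L) (ζ : K) (k : ℕ), IsPrimitiveRoot ζ p →
    τ (algebraMap K L ζ) = algebraMap K L ζ ^ k →
    (τ * σ.restrictScalars ℚ * τ⁻¹) ^ k = σ.restrictScalars ℚ

end Fermat.Agent.S14
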