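/-
S14 project, package CN: the norm map on ideal class groups.
-/
import Fermat.Agent.S14.Defs

set_option autoImplicit false

open NumberField

namespace Fermat.Agent.S14

section

variable (K F : Type*) [Field K] [Field F] [NumberField K] [NumberField F] [Algebra K F]

/-- the relative norm of a nonzero ideal, as a nonzero ideal -/
noncomputable def cnRelNorm (I : nonZeroDivisors (Ideal (𝓞 F))) : nonZeroDivisors (Ideal (𝓞 K)) :=
  ⟨Ideal.relNorm (𝓞 K) (I : Ideal (𝓞 F)),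
    mem_nonZeroDivisors_of_ne_zero (fun h =>
      nonZeroDivisors.coe_ne_zero I (Ideal.relNorm_eq_bot_iff.mp h))⟩

theorem cnRelNorm_coe (I : nonZeroDivisors (Ideal (𝓞 F))) :
    ((cnRelNorm K F I : nonZeroDivisors (Ideal (𝓞 K))) : Ideal (𝓞 K)) =
      Ideal.relNorm (𝓞 K) (I : Ideal (𝓞 F)) := rfl

theorem cnRelNorm_mul (I J : nonZeroDivisors (Ideal (𝓞 F))) :
    cnRelNorm K F (I * J) = cnRelNorm K F I * cnRelNorm K F J := by
  apply Subtype.ext
  simp [cnRelNorm_coe, map_mul]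

/-- the class of the relative norm only depends on the class -/
theorem cn_mk0_relNorm_congr {I J : nonZeroDivisors (Ideal (𝓞 F))}
    (h : ClassGroup.mk0 I = ClassGroup.mk0 J) :
    ClassGroup.mk0 (cnRelNorm K F I) = ClassGroup.mk0 (cnRelNorm K F J) := by
  rw [ClassGroup.mk0_eq_mk0_iff] at h ⊢
  obtain ⟨x, y, hx, hy, hxy⟩ := h
  have hN : ∀ z : 𝓞 F, z ≠ 0 → Algebra.intNorm (𝓞 K) (𝓞 F) z ≠ 0 := by
    intro z hz h0
    have h1 : Ideal.relNorm (𝓞 K) (Ideal.span ({z} : Set (𝓞 F))) = ⊥ := by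
      rw [Ideal.relNorm_singleton, h0]
      simp
    rw [Ideal.relNorm_eq_bot_iff, Ideal.span_singleton_eq_bot] at h1
    exact hz h1
  refine ⟨Algebra.intNorm (𝓞 K) (𝓞 F) x, Algebra.intNorm (𝓞 K) (𝓞 F) y, hN x hx, hN y hy, ?_⟩
  have h2 := congrArg (Ideal.relNorm (𝓞 K)) hxy
  rw [map_mul, map_mul, Ideal.relNorm_singleton, Ideal.relNorm_singleton] at h2
  exact h2

/-- **Norm map on class groups.** -/
theorem exists_classNorm :
    ∃ nrm : ClassGroup (𝓞 F) →* ClassGroup (𝓞 K),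
      ∀ (I : nonZeroDivisors (Ideal (𝓞 F))) (I' : nonZeroDivisors (Ideal (𝓞 K))),
        (I' : Ideal (𝓞 K)) = Ideal.relNorm (𝓞 K) (I : Ideal (𝓞 F)) →
        nrm (ClassGroup.mk0 I) = ClassGroup.mk0 I' := by
  classical
  have hsurj := ClassGroup.mk0_surjective (R := 𝓞 F)
  let rep : ClassGroup (𝓞 F) → nonZeroDivisors (Ideal (𝓞 F)) := fun c => (hsurj c).choose
  have hrep : ∀ c, ClassGroup.mk0 (rep c) = c := fun c => (hsurj c).choose_spec
  let f : ClassGroup (𝓞 F) → ClassGroup (𝓞 K) := fun c => ClassGroup.mk0 (cnRelNorm K F (rep c))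
  have hf : ∀ I : nonZeroDivisors (Ideal (𝓞 F)),
      f (ClassGroup.mk0 I) = ClassGroup.mk0 (cnRelNorm K F I) := by
    intro I
    exact cn_mk0_relNorm_congr K F (hrep (ClassGroup.mk0 I))
  have hmul : ∀ c d, f (c * d) = f c * f d := by
    intro c d
    have h1 : c * d = ClassGroup.mk0 (rep c * rep d) := by
      rw [map_mul, hrep, hrep]
    rw [h1, hf, cnRelNorm_mul, map_mul]
  refine ⟨MonoidHom.mk' f hmul, ?_⟩
  intro I I' hI'
  have : I' = cnRelNorm K F I := Subtype.ext hI'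
  rw [this]
  exact hf I

end

end Fermat.Agent.S14
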