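/-
S14 project, crossing: the ambient field `L(ζ_r)` and the two auxiliary subfields.
-/
import Fermat.Agent.S14.Defs

set_option autoImplicit false

open NumberField

namespace Fermat.Agent.S14

section

variable (r : ℕ) [NeZero r] (K L : Type) [Field K] [Field L] [Algebra K L] [CharZero L]
  [IsGalois K L]

/-- restriction `Gal(L(ζ_r)/K) → Gal(L/K)` -/
noncomputable def crRes :
    (CyclotomicField r L ≃ₐ[K] CyclotomicField r L) →* (L ≃ₐ[K] L) :=
  AlgEquiv.restrictNormalHom L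

/-- the cyclotomic character `Gal(L(ζ_r)/K) → (ℤ/r)ˣ`:
`γ ζ = ζ ^ (crCyc γ).val` for `ζ = IsCyclotomicExtension.zeta r L (CyclotomicField r L)` -/
noncomputable def crCyc :
    (CyclotomicField r L ≃ₐ[K] CyclotomicField r L) →* (ZMod r)ˣ :=
  IsPrimitiveRoot.autToPow K (IsCyclotomicExtension.zeta_spec r L (CyclotomicField r L))

variable {r K L}

/-- the graph subgroup `{γ | γ|_L = lam (cyc γ)}`; its fixed field is `F` -/
noncomputable def crHF (lam : (ZMod r)ˣ →* (L ≃ₐ[K] L)) :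
    Subgroup (CyclotomicField r L ≃ₐ[K] CyclotomicField r L) :=
  MonoidHom.eqLocus (crRes r K L) (lam.comp (crCyc r K L))

/-- the subgroup `{γ | γ|_L = 1 ∧ lam (cyc γ) = 1}`; its fixed field is `M` -/
noncomputable def crHM (lam : (ZMod r)ˣ →* (L ≃ₐ[K] L)) :
    Subgroup (CyclotomicField r L ≃ₐ[K] CyclotomicField r L) :=
  (crRes r K L).ker ⊓ (lam.comp (crCyc r K L)).ker

/-- the field `F` -/
noncomputable def crF (lam : (ZMod r)ˣ →* (L ≃ₐ[K] L)) :
    IntermediateField K (CyclotomicField r L) :=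
  IntermediateField.fixedField (crHF lam)

/-- the field `M` -/
noncomputable def crM (lam : (ZMod r)ˣ →* (L ≃ₐ[K] L)) :
    IntermediateField K (CyclotomicField r L) :=
  IntermediateField.fixedField (crHM lam)

theorem mem_crHF_iff (lam : (ZMod r)ˣ →* (L ≃ₐ[K] L))
    (γ : CyclotomicField r L ≃ₐ[K] CyclotomicField r L) :
    γ ∈ crHF lam ↔ crRes r K L γ = lam (crCyc r K L γ) := Iff.rfl

theorem mem_crHM_iff (lam : (ZMod r)ˣ →* (L ≃ₐ[K] L))
    (γ : CyclotomicField r L ≃ₐ[K] CyclotomicField r L) :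
    γ ∈ crHM lam ↔ crRes r K L γ = 1 ∧ lam (crCyc r K L γ) = 1 := by
  simp [crHM, Subgroup.mem_inf, MonoidHom.mem_ker]

theorem crHM_le_crHF (lam : (ZMod r)ˣ →* (L ≃ₐ[K] L)) : crHM lam ≤ crHF lam := by
  intro γ hγ
  rw [mem_crHM_iff] at hγ
  rw [mem_crHF_iff, hγ.1, hγ.2]

theorem crF_le_crM (lam : (ZMod r)ˣ →* (L ≃ₐ[K] L)) : crF lam ≤ crM lam :=
  IntermediateField.fixedField_antitone (crHM_le_crHF lam)

end

end Fermat.Agent.S14
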