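/-
S14 project, package CF (core): Frobenius elements in `L(ζ_r)/K` and the auxiliary fields.

Everything is stated under the hypothesis `[IsGalois K (CyclotomicField r L)]` (supplied by
package CG); the exact skeleton statements are in `CrossFrob.lean`.

* `cf_crM_absNorm_mem_ker` (X1): a nonzero prime `𝔓` of `M` whose norm is `≡ u` mod `r` has
  `lam u = 1` (the Frobenius of `L(ζ_r)/M` at `𝔓` acts on `ζ_r` by `N𝔓`).
* `cf_exists_prime_crF_inertiaDeg_one` (X3): a prime `𝔮` of `K` with `N𝔮 ≡ u` mod `r` whose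
  Frobenius in `Gal(L/K)` is `lam u` has a prime of degree one above it in `F`.
-/
import Mathlib
import Fermat.Agent.S14.CrossDefs

set_option autoImplicit false
set_option linter.unusedSectionVars false

open NumberField

namespace Fermat.Agent.S14

section General

/-- a prime whose norm is a unit modulo `r` does not contain `r` -/
theorem cf_not_mem_of_unit {F : Type*} [Field F] [NumberField F] {r : ℕ} [Fact r.Prime]
    (𝔓 : Ideal (𝓞 F)) (h𝔓 : 𝔓.IsPrime) (u : (ZMod r)ˣ)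
    (hu : (u : ZMod r) = (Ideal.absNorm 𝔓 : ZMod r)) : (r : 𝓞 F) ∉ 𝔓 := by
  intro hr
  have hle : Ideal.span {(r : 𝓞 F)} ≤ 𝔓 := (Ideal.span_singleton_le_iff_mem 𝔓).mpr hr
  have hdvd := Ideal.absNorm_dvd_absNorm_of_le hle
  rw [Ideal.absNorm_span_singleton] at hdvd
  have hnorm : (Algebra.norm ℤ (r : 𝓞 F)).natAbs = r ^ Module.finrank ℤ (𝓞 F) := by
    have : (r : 𝓞 F) = algebraMap ℤ (𝓞 F) (r : ℤ) := by simp
    rw [this, Algebra.norm_algebraMap, Int.natAbs_pow, Int.natAbs_natCast]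
  rw [hnorm] at hdvd
  have hr' : r.Prime := Fact.out
  obtain ⟨j, -, hj⟩ := (Nat.dvd_prime_pow hr').mp hdvd
  have hj0 : j ≠ 0 := by
    rintro rfl
    rw [pow_zero, Ideal.absNorm_eq_one_iff] at hj
    exact h𝔓.ne_top hj
  have h0 : (Ideal.absNorm 𝔓 : ZMod r) = 0 := by
    rw [hj, Nat.cast_pow, ZMod.natCast_self, zero_pow hj0]
  rw [h0] at hu
  exact u.ne_zero hu

open Polynomial in
/-- an extension of finite fields all of whose elements are fixed by the `#k`-th power map has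
degree one -/
theorem cf_finrank_eq_one {k k' : Type*} [Field k] [Field k'] [Algebra k k'] [Finite k']
    (h : ∀ y : k', y ^ Nat.card k = y) : Module.finrank k k' = 1 := by
  have : Finite k := Finite.of_injective _ (algebraMap k k').injective
  have := Fintype.ofFinite k
  have := Fintype.ofFinite k'
  have hN : 1 < Fintype.card k := Fintype.one_lt_card
  have hcard : Fintype.card k' = Fintype.card k ^ Module.finrank k k' :=
    Module.card_eq_pow_finrank
  have hle : Fintype.card k' ≤ Fintype.card k := by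
    have := card_le_degree_of_subset_roots (R := k') (p := X ^ Fintype.card k - X)
      (Z := Finset.univ) fun x _ => by
        rw [mem_roots', IsRoot, eval_sub, eval_pow, eval_X]
        refine ⟨fun h0 => ?_, ?_⟩
        · have := congr_arg natDegree h0
          rw [FiniteField.X_pow_card_sub_X_natDegree_eq k' hN, natDegree_zero] at this
          omega
        · have := h x
          rw [Nat.card_eq_fintype_card] at this
          rw [this, sub_self]
    rwa [FiniteField.X_pow_card_sub_X_natDegree_eq k' hN, Finset.card_univ] at this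
  have hpos : 0 < Module.finrank k k' := Module.finrank_pos
  rw [hcard] at hle
  have : Module.finrank k k' ≤ 1 := by
    by_contra hgt
    push Not at hgt
    have := Nat.pow_lt_pow_right hN hgt
    rw [pow_one] at this
    omega
  omega

/-- if every residue class at `𝔔` is fixed by the `N 𝔮`-th power map, the inertia degree of `𝔔`
over `𝔮` is one -/
theorem cf_inertiaDeg_eq_one {K F : Type*} [Field K] [Field F] [NumberField K] [NumberField F]
    [Algebra K F] (𝔮 : Ideal (𝓞 K)) (h𝔮 : 𝔮.IsPrime) (h0 : 𝔮 ≠ ⊥)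
    (𝔔 : Ideal (𝓞 F)) (h𝔔 : 𝔔.IsPrime) (hlo : 𝔔.LiesOver 𝔮)
    (h : ∀ x : 𝓞 F, x ^ Ideal.absNorm 𝔮 - x ∈ 𝔔) : 𝔔.inertiaDeg (𝓞 K) = 1 := by
  have h𝔮max : 𝔮.IsMaximal := h𝔮.isMaximal h0
  have h𝔔0 : 𝔔 ≠ ⊥ := by
    rintro rfl
    apply h0
    rw [hlo.over]
    exact Ideal.under_bot (𝓞 K) (𝓞 F)
  have h𝔔max : 𝔔.IsMaximal := h𝔔.isMaximal h𝔔0
  rw [Ideal.inertiaDeg_eq_of_isMaximal 𝔮 𝔔]
  let _ : Field (𝓞 K ⧸ 𝔮) := Ideal.Quotient.field 𝔮
  let _ : Field (𝓞 F ⧸ 𝔔) := Ideal.Quotient.field 𝔔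
  have : Finite (𝓞 F ⧸ 𝔔) := Ideal.finiteQuotientOfFreeOfNeBot 𝔔 h𝔔0
  apply cf_finrank_eq_one
  intro y
  obtain ⟨x, rfl⟩ := Ideal.Quotient.mk_surjective y
  have hx := h x
  rw [← Ideal.Quotient.eq, map_pow] at hx
  rw [← hx]
  congr 1

end General

section Cross

variable {K L : Type} [Field K] [Field L] [NumberField K] [NumberField L] [Algebra K L]
    [IsGalois K L] {r : ℕ} [Fact r.Prime]

/-- the value of the cyclotomic character on an automorphism raising `ζ_r` to the `q`-th power -/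
theorem cf_cyc_eq (γ : CyclotomicField r L ≃ₐ[K] CyclotomicField r L) (q : ℕ)
    (h : γ (IsCyclotomicExtension.zeta r L (CyclotomicField r L)) =
      (IsCyclotomicExtension.zeta r L (CyclotomicField r L)) ^ q) :
    ((crCyc r K L γ : (ZMod r)ˣ) : ZMod r) = (q : ZMod r) := by
  have hr : r.Prime := Fact.out
  have hζ := IsCyclotomicExtension.zeta_spec r L (CyclotomicField r L)
  have hspec := IsPrimitiveRoot.autToPow_spec K hζ γ
  rw [h, ← pow_mod_orderOf _ q, ← hζ.eq_orderOf] at hspec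
  have hval := hζ.pow_inj (ZMod.val_lt _) (Nat.mod_lt q hr.pos) hspec
  have h2 : (((crCyc r K L γ : (ZMod r)ˣ) : ZMod r).val : ZMod r) = ((q % r : ℕ) : ZMod r) :=
    congr_arg _ hval
  rw [ZMod.natCast_val, ZMod.cast_id, ZMod.natCast_mod] at h2
  exact h2

/-- the cyclotomic character of a Frobenius element at a prime not above `r` -/
theorem cf_cyc_of_frob {R : Type*} [CommRing R] [Algebra R (𝓞 (CyclotomicField r L))]
    (φ : 𝓞 (CyclotomicField r L) →ₐ[R] 𝓞 (CyclotomicField r L))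
    (γ : CyclotomicField r L ≃ₐ[K] CyclotomicField r L)
    (hφ : ∀ x : 𝓞 (CyclotomicField r L),
      ((φ x : 𝓞 (CyclotomicField r L)) : CyclotomicField r L) = γ x)
    (Q : Ideal (𝓞 (CyclotomicField r L))) (hr : (r : 𝓞 (CyclotomicField r L)) ∉ Q)
    (H : φ.IsArithFrobAt Q) :
    ((crCyc r K L γ : (ZMod r)ˣ) : ZMod r) = (Nat.card (R ⧸ Q.under R) : ZMod r) := by
  have hζ := IsCyclotomicExtension.zeta_spec r L (CyclotomicField r L)
  apply cf_cyc_eq
  have h1 : hζ.toInteger ^ r = 1 := hζ.toInteger_isPrimitiveRoot.pow_eq_one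
  have h2 := H.apply_of_pow_eq_one h1 hr
  have h3 : ((φ hζ.toInteger : 𝓞 (CyclotomicField r L)) : CyclotomicField r L) =
      ((hζ.toInteger ^ Nat.card (R ⧸ Q.under R) : 𝓞 (CyclotomicField r L)) :
        CyclotomicField r L) := by rw [h2]
  rw [hφ] at h3
  push_cast at h3
  exact h3

/-- all primes are unramified when the different is trivial -/
theorem cf_isUnramifiedAt (hunr : differentIdeal (𝓞 K) (𝓞 L) = ⊤) (Q : Ideal (𝓞 L))
    [hQ : Q.IsPrime] : Algebra.IsUnramifiedAt (𝓞 K) Q := by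
  rw [← not_dvd_differentIdeal_iff, hunr, Ideal.dvd_iff_le, top_le_iff]
  exact hQ.ne_top

/-- (X1) a nonzero prime of `M` whose norm is `≡ u` modulo `r` has `lam u = 1` -/
theorem cf_crM_absNorm_mem_ker [IsGalois K (CyclotomicField r L)]
    (lam : (ZMod r)ˣ →* (L ≃ₐ[K] L))
    (𝔓 : Ideal (𝓞 (crM lam))) (h𝔓 : 𝔓.IsPrime) (h0 : 𝔓 ≠ ⊥) (u : (ZMod r)ˣ)
    (hu : (u : ZMod r) = (Ideal.absNorm 𝔓 : ZMod r)) : lam u = 1 := by
  have hGG : IsGaloisGroup (crHM lam) (𝓞 (crM lam)) (𝓞 (CyclotomicField r L)) := by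
    have : IsGaloisGroup (crHM lam) (crM lam) (CyclotomicField r L) :=
      IsGaloisGroup.subgroup _ K _ (crHM lam)
    exact IsGaloisGroup.of_isFractionRing (crHM lam) (𝓞 (crM lam)) (𝓞 (CyclotomicField r L))
      (crM lam) (CyclotomicField r L)
  -- a prime of `L(ζ_r)` above `𝔓` and a Frobenius element of `Gal(L(ζ_r)/M)` there
  obtain ⟨⟨𝔓', h𝔓', hlo⟩⟩ := 𝔓.nonempty_primesOver (S := 𝓞 (CyclotomicField r L))
  have h𝔓'0 : 𝔓' ≠ ⊥ := by
    rintro rfl
    apply h0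
    rw [hlo.over]
    exact Ideal.under_bot _ _
  have hfin : Finite (𝓞 (CyclotomicField r L) ⧸ 𝔓') :=
    Ideal.finiteQuotientOfFreeOfNeBot 𝔓' h𝔓'0
  obtain ⟨σ, hσ⟩ := IsArithFrobAt.exists_of_isInvariant (𝓞 (crM lam)) (crHM lam) 𝔓'
  have hr𝔓 : (r : 𝓞 (crM lam)) ∉ 𝔓 := cf_not_mem_of_unit 𝔓 h𝔓 u hu
  have hr𝔓' : (r : 𝓞 (CyclotomicField r L)) ∉ 𝔓' := by
    intro hmem
    apply hr𝔓
    rw [hlo.over, Ideal.mem_comap]
    simpa using hmem
  have hcyc := cf_cyc_of_frob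
    (MulSemiringAction.toAlgHom (𝓞 (crM lam)) (𝓞 (CyclotomicField r L)) σ)
    (σ : CyclotomicField r L ≃ₐ[K] CyclotomicField r L) (fun x => rfl) 𝔓' hr𝔓' hσ
  rw [← hlo.over] at hcyc
  have hcu : crCyc r K L (σ : CyclotomicField r L ≃ₐ[K] CyclotomicField r L) = u :=
    Units.ext (hcyc.trans hu.symm)
  have hmem := (mem_crHM_iff lam _).mp σ.2
  rw [← hcu]
  exact hmem.2

/-- (X3) a prime `𝔮` of `K` with `N𝔮 ≡ u` modulo `r` whose Frobenius in `Gal(L/K)` is `lam u`
has a prime of degree one above it in `F` -/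
theorem cf_exists_prime_crF_inertiaDeg_one [IsGalois K (CyclotomicField r L)]
    (hunr : differentIdeal (𝓞 K) (𝓞 L) = ⊤)
    (lam : (ZMod r)ˣ →* (L ≃ₐ[K] L)) (𝔮 : Ideal (𝓞 K)) (h𝔮 : 𝔮.IsPrime) (h0 : 𝔮 ≠ ⊥)
    (u : (ZMod r)ˣ) (hu : (u : ZMod r) = (Ideal.absNorm 𝔮 : ZMod r)) (σ : L ≃ₐ[K] L)
    (hσ : IsFrobOver σ 𝔮) (hlam : lam u = σ) :
    ∃ 𝔔 : Ideal (𝓞 (crF lam)), 𝔔.IsPrime ∧ 𝔔.LiesOver 𝔮 ∧ 𝔔.inertiaDeg (𝓞 K) = 1 := by
  -- a prime of `L(ζ_r)` above `𝔮` and a Frobenius element of `Gal(L(ζ_r)/K)` there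
  obtain ⟨⟨𝔓', h𝔓', hlo⟩⟩ := 𝔮.nonempty_primesOver (S := 𝓞 (CyclotomicField r L))
  have h𝔓'0 : 𝔓' ≠ ⊥ := by
    rintro rfl
    apply h0
    rw [hlo.over]
    exact Ideal.under_bot _ _
  have hfin : Finite (𝓞 (CyclotomicField r L) ⧸ 𝔓') :=
    Ideal.finiteQuotientOfFreeOfNeBot 𝔓' h𝔓'0
  obtain ⟨Fr, hFr⟩ := IsArithFrobAt.exists_of_isInvariant (𝓞 K)
    (CyclotomicField r L ≃ₐ[K] CyclotomicField r L) 𝔓'
  have hr𝔮 : (r : 𝓞 K) ∉ 𝔮 := cf_not_mem_of_unit 𝔮 h𝔮 u hu
  have hr𝔓' : (r : 𝓞 (CyclotomicField r L)) ∉ 𝔓' := by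
    intro hmem
    apply hr𝔮
    rw [hlo.over, Ideal.mem_comap]
    simpa using hmem
  -- its cyclotomic character is `u`
  have hcyc := cf_cyc_of_frob
    (MulSemiringAction.toAlgHom (𝓞 K) (𝓞 (CyclotomicField r L)) Fr) Fr (fun x => rfl) 𝔓'
    hr𝔓' hFr
  have hcu : crCyc r K L Fr = u := by
    apply Units.ext
    rw [hcyc, ← hlo.over, hu]
    rfl
  -- its restriction to `L` is `σ`, by uniqueness of Frobenius elements at unramified primes
  have hQlo : (𝔓'.under (𝓞 L)).LiesOver 𝔮 := by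
    constructor
    rw [Ideal.under_under, ← hlo.over]
  have hunrQ : Algebra.IsUnramifiedAt (𝓞 K) (𝔓'.under (𝓞 L)) := cf_isUnramifiedAt hunr _
  have h1 : IsArithFrobAt (𝓞 K) (crRes r K L Fr) (𝔓'.under (𝓞 L)) := by
    intro x
    rw [Ideal.mem_comap, map_sub, map_pow, Ideal.under_under]
    convert hFr (algebraMap (𝓞 L) (𝓞 (CyclotomicField r L)) x) using 2
    apply RingOfIntegers.ext
    exact AlgEquiv.restrictNormal_commutes Fr L (x : L)
  have h2 : IsArithFrobAt (𝓞 K) σ (𝔓'.under (𝓞 L)) := by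
    intro x
    have := hσ (𝔓'.under (𝓞 L)) inferInstance hQlo x
    rw [← hQlo.over]
    exact this
  have heq := AlgHom.IsArithFrobAt.eq_of_isUnramifiedAt h1 h2
    (fun x hx => mem_nonZeroDivisors_of_ne_zero (by rintro rfl; exact hx (Ideal.zero_mem _)))
  have hres : crRes r K L Fr = σ := by
    have hfaith : FaithfulSMul (L ≃ₐ[K] L) (𝓞 L) := IsGaloisGroup.faithful (𝓞 K)
    exact eq_of_smul_eq_smul fun x : 𝓞 L => congr($heq x)
  have hFrmem : Fr ∈ crHF lam := by rw [mem_crHF_iff, hres, hcu, hlam]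
  -- the prime of `F` below `𝔓'` has degree one: `Fr` fixes `F`
  refine ⟨𝔓'.under (𝓞 (crF lam)), inferInstance, ?_, ?_⟩
  · constructor
    rw [Ideal.under_under, ← hlo.over]
  · apply cf_inertiaDeg_eq_one 𝔮 h𝔮 h0 _ inferInstance
    · constructor
      rw [Ideal.under_under, ← hlo.over]
    · intro x
      rw [Ideal.mem_comap, map_sub, map_pow]
      have hfix : Fr • (algebraMap (𝓞 (crF lam)) (𝓞 (CyclotomicField r L)) x) =
          algebraMap (𝓞 (crF lam)) (𝓞 (CyclotomicField r L)) x := by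
        apply RingOfIntegers.ext
        have hx : ((x : crF lam) : CyclotomicField r L) ∈ crF lam := (x : crF lam).2
        exact hx ⟨Fr, hFrmem⟩
      have := hFr (algebraMap (𝓞 (crF lam)) (𝓞 (CyclotomicField r L)) x)
      rw [← hlo.over] at this
      have h3 : (MulSemiringAction.toAlgHom (𝓞 K) (𝓞 (CyclotomicField r L)) Fr)
          (algebraMap (𝓞 (crF lam)) (𝓞 (CyclotomicField r L)) x) =
          algebraMap (𝓞 (crF lam)) (𝓞 (CyclotomicField r L)) x := hfix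
      rw [h3] at this
      have := 𝔓'.neg_mem this
      rw [neg_sub] at this
      exact this

end Cross

end Fermat.Agent.S14
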