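/-
S14 project, package CG (CrossGalois): the Galois group of `L(ζ_r)/K`.

* `isGalois_cyclo`        : `L(ζ_r)/K` is Galois
* `exists_aut_res_cyc`    : `Gal(L(ζ_r)/K) → Gal(L/K) × (ℤ/r)ˣ` is onto (for `L/ℚ(ζ_p)` unramified, `r ≠ p`)
* `crRes_ker_le_inertia`  : `Gal(L(ζ_r)/L)` acts trivially modulo every prime above `r`

Route: `|disc L|` is a power of `p`, `|disc ℚ(ζ_r)|` a power of `r`, so `ℚ(ζ_r)` and `L` are linearly
disjoint with coprime differents; hence `[L(ζ_r) : L] = r - 1` and the ring of integers of `L(ζ_r)`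
is generated by the rings of integers of `L` and of `ℚ(ζ_r) `.
-/
import Fermat.Agent.S14.CrossDefs

set_option autoImplicit false

open NumberField
open scoped Pointwise

namespace Fermat.Agent.S14

/-- a prime ideal containing the prime `r` contains `μ - 1` for a primitive `r`-th root `μ` -/
theorem cg_sub_one_mem {R : Type*} [CommRing R] [IsDomain R] (r : ℕ) (hr : r.Prime) {μ : R}
    (hμ : IsPrimitiveRoot μ r) (P : Ideal R) [hP : P.IsPrime] (h : (r : R) ∈ P) : μ - 1 ∈ P := by
  obtain ⟨n, rfl⟩ : ∃ n, r = n + 1 := ⟨r - 1, by have := hr.pos; omega⟩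
  have hprod := hμ.prod_one_sub_pow_eq_order
  have h1 : ∏ k ∈ Finset.range n, (1 - μ ^ (k + 1)) ∈ P := by
    rw [hprod]
    exact_mod_cast h
  obtain ⟨k, hk, hk1⟩ := Ideal.IsPrime.prod_mem_iff.mp h1
  rw [Finset.mem_range] at hk
  have hcop : Nat.Coprime (k + 1) (n + 1) := by
    rw [Nat.coprime_comm]
    exact (Nat.Prime.coprime_iff_not_dvd hr).mpr (fun hd => by
      have := Nat.le_of_dvd (by omega) hd
      omega)
  obtain ⟨j, -, hj⟩ := Nat.exists_mul_mod_eq_one_of_coprime hcop hr.one_lt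
  have hpow : (μ ^ (k + 1)) ^ j = μ := by
    rw [← pow_mul, ← Nat.div_add_mod ((k + 1) * j) (n + 1), pow_add, pow_mul, hμ.pow_eq_one,
      one_pow, one_mul, hj, pow_one]
  have h2 : 1 - μ = (1 - μ ^ (k + 1)) * ∑ i ∈ Finset.range j, (μ ^ (k + 1)) ^ i := by
    rw [mul_neg_geom_sum, hpow]
  have h3 : 1 - μ ∈ P := by
    rw [h2]
    exact P.mul_mem_right _ hk1
  have : μ - 1 = -(1 - μ) := by ring
  rw [this]
  exact P.neg_mem h3


section
variable (p : ℕ) [Fact p.Prime] (K L : Type) [Field K] [Field L]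
    [NumberField K] [NumberField L] [Algebra K L] [IsCyclotomicExtension {p} ℚ K]
    [IsGalois K L] (r : ℕ) [Fact r.Prime]

theorem cg_exists_splitting : ∃ f : Polynomial K, f ≠ 0 ∧ Polynomial.IsSplittingField K L f := by
  obtain ⟨f, hf⟩ := Normal.exists_isSplittingField K L
  by_cases hf0 : f = 0
  · subst hf0
    refine ⟨1, one_ne_zero, ⟨?_, ?_⟩⟩
    · simp
    · have := hf.adjoin_rootSet
      simpa using this
  · exact ⟨f, hf0, hf⟩

theorem isGalois_cyclo : IsGalois K (CyclotomicField r L) := by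
  have hnorm : Normal K (CyclotomicField r L) := by
    obtain ⟨f, hf0, hf⟩ := cg_exists_splitting K L
    have h1 : Polynomial.IsSplittingField L (CyclotomicField r L)
        ((Polynomial.X ^ r - 1 : Polynomial K).map (algebraMap K L)) := by
      have := IsCyclotomicExtension.isSplittingField_X_pow_sub_one r L (CyclotomicField r L)
      simpa using this
    have hX : (Polynomial.X ^ r - 1 : Polynomial K) ≠ 0 :=
      Polynomial.X_pow_sub_C_ne_zero (Nat.Prime.pos Fact.out) (1 : K)
    have := Polynomial.IsSplittingField.mul (F := K) (K := L) (L := CyclotomicField r L) f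
      (Polynomial.X ^ r - 1) hf0 hX
    exact Normal.of_isSplittingField (f * (Polynomial.X ^ r - 1))
  exact { }

/-- `|disc L|` is a power of `p` when `L / ℚ(ζ_p)` is unramified -/
theorem cg_natAbs_discr (hunr : differentIdeal (𝓞 K) (𝓞 L) = ⊤) :
    (discr L).natAbs = (p ^ (p - 2)) ^ Module.finrank K L := by
  have h1 := natAbs_discr_eq_absNorm_differentIdeal_mul_natAbs_discr_pow K (𝓞 K) L (𝓞 L)
  rw [hunr, Ideal.absNorm_top, one_mul] at h1
  rw [h1]
  have h2 := IsCyclotomicExtension.Rat.discr_prime p K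
  rw [h2]
  simp [Int.natAbs_mul, Int.natAbs_pow]

/-- the subfield `ℚ(ζ_r)` of `L(ζ_r)` -/
noncomputable def cgF1 : IntermediateField ℚ (CyclotomicField r L) :=
  IntermediateField.adjoin ℚ {IsCyclotomicExtension.zeta r L (CyclotomicField r L)}

/-- the image of `L` in `L(ζ_r)` -/
noncomputable def cgF2 : IntermediateField ℚ (CyclotomicField r L) :=
  (IsScalarTower.toAlgHom ℚ L (CyclotomicField r L)).fieldRange

theorem cg_isCyclo : IsCyclotomicExtension {r} ℚ (cgF1 L r) :=
  (IsCyclotomicExtension.zeta_spec r L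
    (CyclotomicField r L)).intermediateField_adjoin_isCyclotomicExtension ℚ

theorem cg_natAbs_discr_F1 : (discr (cgF1 L r)).natAbs = r ^ (r - 2) := by
  have := cg_isCyclo L r
  have h2 := IsCyclotomicExtension.Rat.discr_prime r (cgF1 L r)
  rw [h2]
  simp [Int.natAbs_mul, Int.natAbs_pow]

/-- `L ≃ cgF2` -/
noncomputable def cgEquiv : L ≃ₐ[ℚ] cgF2 L r :=
  AlgEquiv.ofInjectiveField (IsScalarTower.toAlgHom ℚ L (CyclotomicField r L))

theorem cg_discr_F2 : discr (cgF2 L r) = discr L :=
  (discr_eq_discr_of_algEquiv L (cgEquiv L r)).symm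

theorem cg_coprime (hunr : differentIdeal (𝓞 K) (𝓞 L) = ⊤) (hrp : r ≠ p) :
    IsCoprime (discr (cgF1 L r)) (discr (cgF2 L r)) := by
  rw [Int.isCoprime_iff_nat_coprime, cg_natAbs_discr_F1, cg_discr_F2, cg_natAbs_discr p K L hunr]
  apply Nat.Coprime.pow_left
  apply Nat.Coprime.pow_right
  apply Nat.Coprime.pow_right
  exact (Nat.coprime_primes Fact.out Fact.out).mpr hrp

theorem cg_linearDisjoint (hunr : differentIdeal (𝓞 K) (𝓞 L) = ⊤) (hrp : r ≠ p) :
    (cgF1 L r).LinearDisjoint (cgF2 L r) := by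
  have := cg_isCyclo L r
  have : IsGalois ℚ (cgF1 L r) := IsCyclotomicExtension.isGalois {r} ℚ _
  exact linearDisjoint_of_isGalois_isCoprime_discr _ _ _ (cg_coprime p K L r hunr hrp)

theorem cg_zeta_mem : IsCyclotomicExtension.zeta r L (CyclotomicField r L) ∈ cgF1 L r :=
  IntermediateField.subset_adjoin ℚ _ (Set.mem_singleton _)

theorem cg_algebraMap_mem (l : L) : algebraMap L (CyclotomicField r L) l ∈ cgF2 L r :=
  ⟨l, rfl⟩

theorem cg_sup_eq_top : cgF1 L r ⊔ cgF2 L r = ⊤ := by
  rw [eq_top_iff]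
  intro x _
  have hx : x ∈ Algebra.adjoin L {IsCyclotomicExtension.zeta r L (CyclotomicField r L)} := by
    rw [IsCyclotomicExtension.adjoin_primitive_root_eq_top
      (IsCyclotomicExtension.zeta_spec r L (CyclotomicField r L))]
    trivial
  induction hx using Algebra.adjoin_induction with
  | mem y hy =>
    rw [Set.mem_singleton_iff] at hy
    subst hy
    exact (le_sup_left : cgF1 L r ≤ _) (cg_zeta_mem L r)
  | algebraMap l => exact (le_sup_right : cgF2 L r ≤ _) (cg_algebraMap_mem L r l)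
  | add a b _ _ ha hb => exact add_mem (ha trivial) (hb trivial)
  | mul a b _ _ ha hb => exact mul_mem (ha trivial) (hb trivial)

/-- `[L(ζ_r) : L] = r - 1` -/
theorem cg_finrank (hunr : differentIdeal (𝓞 K) (𝓞 L) = ⊤) (hrp : r ≠ p) :
    Module.finrank L (CyclotomicField r L) = r - 1 := by
  have := cg_isCyclo L r
  have h1 := (cg_linearDisjoint p K L r hunr hrp).finrank_right_eq_finrank (cg_sup_eq_top L r)
  rw [IsCyclotomicExtension.Rat.finrank r (cgF1 L r), Nat.totient_prime Fact.out] at h1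
  rw [← h1]
  exact Algebra.finrank_eq_of_equiv_equiv (cgEquiv L r).toRingEquiv (RingEquiv.refl _)
    (by ext x; rfl)

/-- an automorphism of `L(ζ_r)/K` is determined by its restriction to `L` and its action on `ζ_r` -/
theorem cg_eq_one_of (γ : CyclotomicField r L ≃ₐ[K] CyclotomicField r L)
    (h1 : crRes r K L γ = 1) (h2 : crCyc r K L γ = 1) : γ = 1 := by
  have hL : ∀ l : L, γ (algebraMap L (CyclotomicField r L) l) =
      algebraMap L (CyclotomicField r L) l := by
    intro l
    have := γ.restrictNormal_commutes L l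
    have h1' : γ.restrictNormal L = 1 := h1
    rw [h1'] at this
    exact this.symm
  have hζ : γ (IsCyclotomicExtension.zeta r L (CyclotomicField r L)) =
      IsCyclotomicExtension.zeta r L (CyclotomicField r L) := by
    have := (IsCyclotomicExtension.zeta_spec r L (CyclotomicField r L)).autToPow_spec K γ
    have h2' : (IsCyclotomicExtension.zeta_spec r L (CyclotomicField r L)).autToPow K γ = 1 := h2
    rw [h2'] at this
    have hr1 : Fact (1 < r) := ⟨(Fact.out : r.Prime).one_lt⟩
    simp only [Units.val_one, ZMod.val_one, pow_one] at this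
    exact this.symm
  ext x
  have hx : x ∈ Algebra.adjoin L {IsCyclotomicExtension.zeta r L (CyclotomicField r L)} := by
    rw [IsCyclotomicExtension.adjoin_primitive_root_eq_top
      (IsCyclotomicExtension.zeta_spec r L (CyclotomicField r L))]
    trivial
  induction hx using Algebra.adjoin_induction with
  | mem y hy =>
    rw [Set.mem_singleton_iff] at hy
    subst hy
    simpa using hζ
  | algebraMap l => simpa using hL l
  | add a b _ _ ha hb => simp only [map_add, ha, hb]
  | mul a b _ _ ha hb => simp only [map_mul, ha, hb]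

theorem exists_aut_res_cyc (hunr : differentIdeal (𝓞 K) (𝓞 L) = ⊤) (hrp : r ≠ p)
    (σ : L ≃ₐ[K] L) (u : (ZMod r)ˣ) :
    ∃ γ : CyclotomicField r L ≃ₐ[K] CyclotomicField r L,
      crRes r K L γ = σ ∧ crCyc r K L γ = u := by
  have hgal : IsGalois K (CyclotomicField r L) := isGalois_cyclo K L r
  let Φ : (CyclotomicField r L ≃ₐ[K] CyclotomicField r L) →* (L ≃ₐ[K] L) × (ZMod r)ˣ :=
    (crRes r K L).prod (crCyc r K L)
  have hinj : Function.Injective Φ := by
    rw [injective_iff_map_eq_one]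
    intro γ hγ
    have h1 : crRes r K L γ = 1 := congrArg Prod.fst hγ
    have h2 : crCyc r K L γ = 1 := congrArg Prod.snd hγ
    exact cg_eq_one_of K L r γ h1 h2
  have hcard : Nat.card (CyclotomicField r L ≃ₐ[K] CyclotomicField r L) =
      Nat.card ((L ≃ₐ[K] L) × (ZMod r)ˣ) := by
    rw [IsGalois.card_aut_eq_finrank, Nat.card_prod, IsGalois.card_aut_eq_finrank,
      ← Module.finrank_mul_finrank K L (CyclotomicField r L), cg_finrank p K L r hunr hrp,
      Nat.card_eq_fintype_card, ZMod.card_units]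
  have hbij : Function.Bijective Φ := (Nat.bijective_iff_injective_and_card Φ).mpr ⟨hinj, hcard⟩
  obtain ⟨γ, hγ⟩ := hbij.2 (σ, u)
  exact ⟨γ, congrArg Prod.fst hγ, congrArg Prod.snd hγ⟩

/-- the ring of integers of `L(ζ_r)` is generated by those of `ℚ(ζ_r)` and of `L` -/
theorem cg_range_sup (hunr : differentIdeal (𝓞 K) (𝓞 L) = ⊤) (hrp : r ≠ p) :
    (IsScalarTower.toAlgHom ℤ (𝓞 (cgF1 L r)) (𝓞 (CyclotomicField r L))).range ⊔
      (IsScalarTower.toAlgHom ℤ (𝓞 (cgF2 L r)) (𝓞 (CyclotomicField r L))).range = ⊤ := by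
  have h_cpr := cg_coprime p K L r hunr hrp
  have h_disj := cg_linearDisjoint p K L r hunr hrp
  refine IsDedekindDomain.range_sup_range_eq_top_of_isCoprime_differentIdeal ℤ
    (𝓞 (CyclotomicField r L)) (𝓞 (cgF1 L r)) (𝓞 (cgF2 L r)) h_disj ?_ ?_
  · simp [← IntermediateField.sup_toSubalgebra_of_left, cg_sup_eq_top]
  · exact isCoprime_differentIdeal_of_isCoprime_discr _ h_cpr

theorem cg_fix_algebraMap (γ : CyclotomicField r L ≃ₐ[K] CyclotomicField r L)
    (h1 : crRes r K L γ = 1) (l : L) :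
    γ (algebraMap L (CyclotomicField r L) l) = algebraMap L (CyclotomicField r L) l := by
  have := γ.restrictNormal_commutes L l
  have h1' : γ.restrictNormal L = 1 := h1
  rw [h1'] at this
  exact this.symm

theorem crRes_ker_le_inertia (hunr : differentIdeal (𝓞 K) (𝓞 L) = ⊤) (hrp : r ≠ p)
    (γ : CyclotomicField r L ≃ₐ[K] CyclotomicField r L) (hγ : crRes r K L γ = 1)
    (𝔓 : Ideal (𝓞 (CyclotomicField r L))) (h𝔓 : 𝔓.IsPrime)
    (hr : (r : 𝓞 (CyclotomicField r L)) ∈ 𝔓) (x : 𝓞 (CyclotomicField r L)) :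
    γ • x - x ∈ 𝔓 := by
  have hcoe : ∀ y : 𝓞 (CyclotomicField r L), ((γ • y : 𝓞 (CyclotomicField r L)) :
      CyclotomicField r L) = γ (y : CyclotomicField r L) := fun y => rfl
  let S : Subalgebra ℤ (𝓞 (CyclotomicField r L)) :=
    { carrier := {y | γ • y - y ∈ 𝔓}
      mul_mem' := by
        intro a b ha hb
        have e : γ • (a * b) - a * b = (γ • a) * (γ • b - b) + (γ • a - a) * b := by
          rw [smul_mul']; ring
        show γ • (a * b) - a * b ∈ 𝔓
        rw [e]
        exact 𝔓.add_mem (𝔓.mul_mem_left _ hb) (𝔓.mul_mem_right _ ha)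
      add_mem' := by
        intro a b ha hb
        have e : γ • (a + b) - (a + b) = (γ • a - a) + (γ • b - b) := by
          rw [smul_add]; ring
        show γ • (a + b) - (a + b) ∈ 𝔓
        rw [e]
        exact 𝔓.add_mem ha hb
      algebraMap_mem' := by
        intro n
        show γ • (algebraMap ℤ (𝓞 (CyclotomicField r L)) n) -
          algebraMap ℤ (𝓞 (CyclotomicField r L)) n ∈ 𝔓
        have e : γ • (algebraMap ℤ (𝓞 (CyclotomicField r L)) n) =
            algebraMap ℤ (𝓞 (CyclotomicField r L)) n := by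
          apply RingOfIntegers.ext
          rw [hcoe]
          simp
        rw [e, sub_self]
        exact 𝔓.zero_mem }
  suffices h : (⊤ : Subalgebra ℤ (𝓞 (CyclotomicField r L))) ≤ S from h trivial
  rw [← cg_range_sup p K L r hunr hrp, sup_le_iff]
  constructor
  · -- integers of `ℚ(ζ_r)`
    have hζ := IsCyclotomicExtension.zeta_spec r L (CyclotomicField r L)
    have hζ₁ : IsPrimitiveRoot (⟨IsCyclotomicExtension.zeta r L (CyclotomicField r L),
        cg_zeta_mem L r⟩ : cgF1 L r) r := IsPrimitiveRoot.coe_submonoidClass_iff.mp hζ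
    have := cg_isCyclo L r
    have htop := IsCyclotomicExtension.Rat.adjoin_singleton_eq_top hζ₁
    have hw : hζ.toInteger ∈ S := by
      show γ • hζ.toInteger - hζ.toInteger ∈ 𝔓
      have hsub : hζ.toInteger - 1 ∈ 𝔓 :=
        cg_sub_one_mem r Fact.out hζ.toInteger_isPrimitiveRoot 𝔓 hr
      have hpow : γ • hζ.toInteger = hζ.toInteger ^
          ((hζ.autToPow K γ : ZMod r).val) := by
        apply RingOfIntegers.ext
        rw [hcoe]
        have := hζ.autToPow_spec K γ
        have e2 : ∀ n : ℕ, ((hζ.toInteger ^ n : 𝓞 (CyclotomicField r L)) : CyclotomicField r L) =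
            IsCyclotomicExtension.zeta r L (CyclotomicField r L) ^ n :=
          fun n => map_pow (algebraMap (𝓞 (CyclotomicField r L)) (CyclotomicField r L))
            hζ.toInteger n
        rw [e2]
        exact this.symm
      rw [hpow]
      have e : hζ.toInteger ^ ((hζ.autToPow K γ : ZMod r).val) - hζ.toInteger =
          (hζ.toInteger - 1) * (∑ i ∈ Finset.range ((hζ.autToPow K γ : ZMod r).val),
            hζ.toInteger ^ i) - (hζ.toInteger - 1) := by
        rw [mul_geom_sum]; ring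
      rw [e]
      exact 𝔓.sub_mem (𝔓.mul_mem_right _ hsub) hsub
    rintro _ ⟨z, rfl⟩
    have hz : z ∈ Algebra.adjoin ℤ {hζ₁.toInteger} := by rw [htop]; trivial
    have hle : Algebra.adjoin ℤ {hζ₁.toInteger} ≤
        S.comap (IsScalarTower.toAlgHom ℤ (𝓞 (cgF1 L r)) (𝓞 (CyclotomicField r L))) := by
      rw [Algebra.adjoin_le_iff]
      intro w hw'
      rw [Set.mem_singleton_iff] at hw'
      subst hw'
      show (IsScalarTower.toAlgHom ℤ (𝓞 (cgF1 L r)) (𝓞 (CyclotomicField r L)))
        hζ₁.toInteger ∈ S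
      have e : (IsScalarTower.toAlgHom ℤ (𝓞 (cgF1 L r)) (𝓞 (CyclotomicField r L)))
          hζ₁.toInteger = hζ.toInteger := by
        apply RingOfIntegers.ext
        rfl
      rw [e]
      exact hw
    exact hle hz
  · -- integers of `L`
    rintro _ ⟨z, rfl⟩
    have e : γ • ((IsScalarTower.toAlgHom ℤ (𝓞 (cgF2 L r)) (𝓞 (CyclotomicField r L))) z) =
        (IsScalarTower.toAlgHom ℤ (𝓞 (cgF2 L r)) (𝓞 (CyclotomicField r L))) z := by
      apply RingOfIntegers.ext
      rw [hcoe]
      obtain ⟨l, hl⟩ := (z : cgF2 L r).2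
      have hl' : algebraMap L (CyclotomicField r L) l =
          (((IsScalarTower.toAlgHom ℤ (𝓞 (cgF2 L r)) (𝓞 (CyclotomicField r L))) z :
            𝓞 (CyclotomicField r L)) : CyclotomicField r L) := hl
      rw [← hl']
      exact cg_fix_algebraMap K L r γ hγ l
    exact (show γ • ((IsScalarTower.toAlgHom ℤ (𝓞 (cgF2 L r)) (𝓞 (CyclotomicField r L))) z) -
      (IsScalarTower.toAlgHom ℤ (𝓞 (cgF2 L r)) (𝓞 (CyclotomicField r L))) z ∈ 𝔓 by
        rw [e, sub_self]; exact 𝔓.zero_mem)

end
end Fermat.Agent.S14
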