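/-
S14 project, package CF: Frobenius elements in `L(ζ_r)/K` and the auxiliary fields `F ⊆ M`
(exact skeleton statements; proofs in `CrossFrobCore.lean`, Galois property from `CrossGalois.lean`).
-/
import Fermat.Agent.S14.CrossFrobCore
import Fermat.Agent.S14.CrossGalois

set_option autoImplicit false

open NumberField

namespace Fermat.Agent.S14

section
variable (p : ℕ) [Fact p.Prime] (K L : Type) [Field K] [Field L]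
    [NumberField K] [NumberField L] [Algebra K L] [IsCyclotomicExtension {p} ℚ K]
    [IsGalois K L] (r : ℕ) [Fact r.Prime]

/-! ## CrossFrob.lean -/

theorem crM_absNorm_mem_ker (lam : (ZMod r)ˣ →* (L ≃ₐ[K] L))
    (𝔓 : Ideal (𝓞 (crM lam))) (h𝔓 : 𝔓.IsPrime) (h0 : 𝔓 ≠ ⊥) (u : (ZMod r)ˣ)
    (hu : (u : ZMod r) = (Ideal.absNorm 𝔓 : ZMod r)) : lam u = 1 :=
  have := isGalois_cyclo K L r
  cf_crM_absNorm_mem_ker lam 𝔓 h𝔓 h0 u hu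

theorem exists_prime_crF_inertiaDeg_one (hunr : differentIdeal (𝓞 K) (𝓞 L) = ⊤)
    (lam : (ZMod r)ˣ →* (L ≃ₐ[K] L)) (𝔮 : Ideal (𝓞 K)) (h𝔮 : 𝔮.IsPrime) (h0 : 𝔮 ≠ ⊥)
    (u : (ZMod r)ˣ) (hu : (u : ZMod r) = (Ideal.absNorm 𝔮 : ZMod r)) (σ : L ≃ₐ[K] L)
    (hσ : IsFrobOver σ 𝔮) (hlam : lam u = σ) :
    ∃ 𝔔 : Ideal (𝓞 (crF lam)), 𝔔.IsPrime ∧ 𝔔.LiesOver 𝔮 ∧ 𝔔.inertiaDeg (𝓞 K) = 1 :=
  have := isGalois_cyclo K L r
  cf_exists_prime_crF_inertiaDeg_one hunr lam 𝔮 h𝔮 h0 u hu σ hσ hlam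

end

end Fermat.Agent.S14
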