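/-
S14 project, package CNm (helper13): norms from `F = crF lam` are `p`-th power residues mod `r`
(statement (X2) of the blueprint), proved from the three CrossGalois statements taken as
hypotheses (`hGal`, `hex`, `hin`).  `CrossNorm.lean` instantiates them.

Proof.  Let `𝔓 | r` be a prime of `L(ζ_r)`.  `ker res` acts trivially modulo `𝔓` (`hin`) and
`Γ = ker res · crHF` (`hex`, `lam` onto).  Hence for `a ∈ 𝓞 F`: `N_{F/K} a ≡ a ^ p` and, using a
Frobenius element `Fr` at `𝔓` (`Fr x ≡ x ^ r`, as `r ≡ 1 mod p` has degree one in `ℚ(ζ_p)`),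
`a ≡ a ^ r`, so `a ≡ c` with `c ∈ ℤ`.  So `N_{F/K} a` is a `p`-th power of an integer modulo
every prime of `K` above `r`, and so is `N_{F/ℚ} a = ∏_τ τ (N_{F/K} a)`.
-/
import Fermat.Agent.S14.CrossDefs

set_option autoImplicit false

open NumberField
open scoped Pointwise

namespace Fermat.Agent.S14

/-- In a ring modulo a prime ideal containing the prime number `r`, an element with
`x ^ r ≡ x` is congruent to a rational integer. -/
theorem cnm_exists_int {S : Type*} [CommRing S] (r : ℕ) [Fact r.Prime] (𝔓 : Ideal S)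
    (h𝔓 : 𝔓.IsPrime) (hr : (r : S) ∈ 𝔓) (x : S) (hx : x ^ r - x ∈ 𝔓) :
    ∃ c : ℤ, x - (c : S) ∈ 𝔓 := by
  have : CharP (S ⧸ 𝔓) r := by
    have h0 : ((r : ℕ) : S ⧸ 𝔓) = 0 := by
      have : (Ideal.Quotient.mk 𝔓) (r : S) = 0 := Ideal.Quotient.eq_zero_iff_mem.mpr hr
      simpa using this
    exact (CharP.charP_iff_prime_eq_zero (Fact.out : r.Prime)).mpr h0
  let f : ZMod r →+* S ⧸ 𝔓 := ZMod.castHom (dvd_refl r) (S ⧸ 𝔓)
  have key : (Finset.univ.val.map fun a : ZMod r => (Polynomial.X - Polynomial.C a)).prod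
      = Polynomial.X ^ r - Polynomial.X := by
    have h1 := FiniteField.roots_X_pow_card_sub_X (ZMod r)
    rw [ZMod.card] at h1
    have hr1 : 1 < r := (Fact.out : r.Prime).one_lt
    have hm : (Polynomial.X ^ r - Polynomial.X : Polynomial (ZMod r)).Monic :=
      Polynomial.monic_X_pow_sub (by simpa using hr1)
    have h2 := Polynomial.prod_multiset_X_sub_C_of_monic_of_roots_card_eq hm (by
      rw [h1, FiniteField.X_pow_card_sub_X_natDegree_eq _ hr1]; simp)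
    rw [h1] at h2
    exact h2
  have h3 := congrArg (fun q => Polynomial.eval₂ f (Ideal.Quotient.mk 𝔓 x) q) key
  have h4 : (Ideal.Quotient.mk 𝔓 x) ^ r - (Ideal.Quotient.mk 𝔓 x) = 0 := by
    rw [← map_pow, ← map_sub]; exact Ideal.Quotient.eq_zero_iff_mem.mpr hx
  simp only [Polynomial.eval₂_sub, Polynomial.eval₂_pow, Polynomial.eval₂_X, h4] at h3
  rw [Polynomial.eval₂_multiset_prod, Multiset.prod_eq_zero_iff] at h3
  simp only [Multiset.map_map, Multiset.mem_map, Function.comp] at h3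
  obtain ⟨c, -, hc⟩ := h3
  simp only [Polynomial.eval₂_sub, Polynomial.eval₂_X, Polynomial.eval₂_C] at hc
  refine ⟨(c.val : ℤ), ?_⟩
  rw [← Ideal.Quotient.eq_zero_iff_mem, map_sub, ← hc]
  congr 1
  rw [map_intCast, Int.cast_natCast, ZMod.natCast_val]
  rfl

/-- A prime of `ℚ(ζ_p)` above a rational prime `r ≡ 1 mod p` has residue field of size `r`. -/
theorem cnm_card_quot (p : ℕ) [Fact p.Prime] (K : Type) [Field K] [NumberField K]
    [IsCyclotomicExtension {p} ℚ K] (r : ℕ) [Fact r.Prime] (hrp : r ≠ p) (h1 : p ∣ r - 1)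
    (𝔭 : Ideal (𝓞 K)) (h𝔭 : 𝔭.IsPrime) (hr : (r : 𝓞 K) ∈ 𝔭) :
    Nat.card (𝓞 K ⧸ 𝔭) = r := by
  have : 𝔭.LiesOver (Ideal.span {(r : ℤ)}) := by
    constructor
    have hmax : (Ideal.span {(r : ℤ)}).IsMaximal :=
      PrincipalIdealRing.isMaximal_of_irreducible
        (Nat.prime_iff_prime_int.mp (Fact.out : r.Prime)).irreducible
    refine hmax.eq_of_le ?_ ?_
    · intro h
      have h1 : (1 : ℤ) ∈ 𝔭.under ℤ := h ▸ Submodule.mem_top
      rw [Ideal.mem_comap, map_one] at h1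
      exact h𝔭.ne_top ((Ideal.eq_top_iff_one _).mpr h1)
    · rw [Ideal.span_singleton_le_iff_mem, Ideal.mem_comap]
      simpa using hr
  have hnd : ¬ r ∣ p := by
    intro h
    rcases (Nat.dvd_prime (Fact.out : p.Prime)).mp h with h | h
    · exact (Fact.out : r.Prime).one_lt.ne' h
    · exact hrp h
  have h2 := IsCyclotomicExtension.Rat.inertiaDeg_eq_of_not_dvd r K 𝔭 hnd
  have h3 : orderOf ((r : ℕ) : ZMod p) = 1 := by
    rw [orderOf_eq_one_iff]
    have hr1 : 1 ≤ r := (Fact.out : r.Prime).one_lt.le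
    have : ((r - 1 : ℕ) : ZMod p) = 0 := (ZMod.natCast_eq_zero_iff _ _).mpr h1
    rw [Nat.cast_sub hr1] at this
    simpa [sub_eq_zero] using this
  rw [h3] at h2
  have h4 := Ideal.pow_inertiaDeg r 𝔭
  rw [h2, pow_one] at h4
  rw [h4, Ideal.absNorm_apply, Submodule.cardQuot_apply]

section
variable (p : ℕ) [Fact p.Prime] (K L : Type) [Field K] [Field L]
    [NumberField K] [NumberField L] [Algebra K L] [IsGalois K L] (r : ℕ) [Fact r.Prime]

/-- CrossGalois hypothesis: `(res, cyc) : Gal(L(ζ_r)/K) → Gal(L/K) × (ℤ/r)ˣ` is onto. -/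
def CnmEx : Prop :=
  ∀ (σ : L ≃ₐ[K] L) (u : (ZMod r)ˣ),
    ∃ γ : CyclotomicField r L ≃ₐ[K] CyclotomicField r L,
      crRes r K L γ = σ ∧ crCyc r K L γ = u

/-- CrossGalois hypothesis: `ker res` acts trivially modulo every prime above `r`. -/
def CnmIn : Prop :=
  ∀ γ : CyclotomicField r L ≃ₐ[K] CyclotomicField r L, crRes r K L γ = 1 →
    ∀ 𝔓 : Ideal (𝓞 (CyclotomicField r L)), 𝔓.IsPrime →
      (r : 𝓞 (CyclotomicField r L)) ∈ 𝔓 → ∀ x : 𝓞 (CyclotomicField r L), γ • x - x ∈ 𝔓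

/-- `Gal(L/K)` of prime order is commutative. -/
theorem cnm_comm (hdeg : Module.finrank K L = p) (σ τ : L ≃ₐ[K] L) : σ * τ = τ * σ := by
  have hcard : Nat.card (L ≃ₐ[K] L) = p := by
    rw [IsGalois.card_aut_eq_finrank, hdeg]
  have := isCyclic_of_prime_card hcard
  exact (IsCyclic.commGroup (α := L ≃ₐ[K] L)).mul_comm σ τ

/-- Every element of `Gal(L(ζ_r)/K)` has the same restriction to `L` as an element of `crHF`. -/
theorem cnm_exists_mem_crHF (hex : CnmEx K L r)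
    (lam : (ZMod r)ˣ →* (L ≃ₐ[K] L)) (hlam : Function.Surjective lam)
    (γ : CyclotomicField r L ≃ₐ[K] CyclotomicField r L) :
    ∃ h ∈ crHF lam, crRes r K L h = crRes r K L γ := by
  obtain ⟨u, hu⟩ := hlam (crRes r K L γ)
  obtain ⟨h, h1, h2⟩ := hex (crRes r K L γ) u
  refine ⟨h, ?_, h1⟩
  rw [mem_crHF_iff, h1, h2, hu]

theorem cnm_normal (hdeg : Module.finrank K L = p) (lam : (ZMod r)ˣ →* (L ≃ₐ[K] L)) :
    (crHF lam).Normal := by
  constructor
  intro n hn g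
  rw [mem_crHF_iff] at hn ⊢
  have h1 : crRes r K L (g * n * g⁻¹) = crRes r K L n := by
    rw [map_mul, map_mul, map_inv, cnm_comm p K L hdeg (crRes r K L g), mul_assoc,
      mul_inv_cancel, mul_one]
  have h2 : crCyc r K L (g * n * g⁻¹) = crCyc r K L n := by
    rw [map_mul, map_mul, map_inv, mul_comm (crCyc r K L g), mul_assoc, mul_inv_cancel, mul_one]
  rw [h1, h2, hn]

/-- the homomorphism `γ ↦ res γ * (lam (cyc γ))⁻¹` with kernel `crHF lam` -/
noncomputable def cnmPhi (hdeg : Module.finrank K L = p) (lam : (ZMod r)ˣ →* (L ≃ₐ[K] L)) :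
    (CyclotomicField r L ≃ₐ[K] CyclotomicField r L) →* (L ≃ₐ[K] L) :=
  MonoidHom.mk' (fun γ => crRes r K L γ * (lam (crCyc r K L γ))⁻¹) (by
    intro a b
    rw [map_mul, map_mul, map_mul, mul_inv_rev, mul_assoc, mul_assoc,
      cnm_comm p K L hdeg (lam (crCyc r K L b))⁻¹, ← mul_assoc (crRes r K L b),
      cnm_comm p K L hdeg (crRes r K L b), mul_assoc])

theorem cnmPhi_ker (hdeg : Module.finrank K L = p) (lam : (ZMod r)ˣ →* (L ≃ₐ[K] L)) :
    (cnmPhi p K L r hdeg lam).ker = crHF lam := by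
  ext γ
  rw [MonoidHom.mem_ker, mem_crHF_iff]
  change crRes r K L γ * (lam (crCyc r K L γ))⁻¹ = 1 ↔ _
  rw [mul_inv_eq_one]

theorem cnm_index (hdeg : Module.finrank K L = p) (hex : CnmEx K L r)
    (lam : (ZMod r)ˣ →* (L ≃ₐ[K] L)) : (crHF lam).index = p := by
  rw [← cnmPhi_ker p K L r hdeg lam, Subgroup.index_ker]
  have hsurj : Function.Surjective (cnmPhi p K L r hdeg lam) := by
    intro σ
    obtain ⟨γ, h1, h2⟩ := hex σ 1
    refine ⟨γ, ?_⟩
    change crRes r K L γ * (lam (crCyc r K L γ))⁻¹ = σ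
    rw [h1, h2, map_one, inv_one, mul_one]
  rw [MonoidHom.range_eq_top.mpr hsurj, Subgroup.card_top, IsGalois.card_aut_eq_finrank, hdeg]

theorem cnm_finrank (hdeg : Module.finrank K L = p) (hex : CnmEx K L r)
    (hGal : IsGalois K (CyclotomicField r L)) (lam : (ZMod r)ˣ →* (L ≃ₐ[K] L)) : Module.finrank K (crF lam) = p := by
  have hG : IsGalois K (CyclotomicField r L) := hGal
  have h1 : Module.finrank (crF lam) (CyclotomicField r L) = Nat.card (crHF lam) :=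
    IntermediateField.finrank_fixedField_eq_card _
  have h2 := Module.finrank_mul_finrank K (crF lam) (CyclotomicField r L)
  have h3 : Nat.card (CyclotomicField r L ≃ₐ[K] CyclotomicField r L) =
      Module.finrank K (CyclotomicField r L) := IsGalois.card_aut_eq_finrank _ _
  have h4 := (crHF lam).card_mul_index
  rw [cnm_index p K L r hdeg hex lam] at h4
  have hpos : 0 < Nat.card (crHF lam) := Nat.card_pos
  rw [h1, ← h3, ← h4, mul_comm] at h2
  exact Nat.eq_of_mul_eq_mul_left hpos h2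

theorem cnm_pow_sub_mem [IsCyclotomicExtension {p} ℚ K] (hex : CnmEx K L r)
    (hin : CnmIn K L r) (hGal : IsGalois K (CyclotomicField r L))
    (hrp : r ≠ p) (lam : (ZMod r)ˣ →* (L ≃ₐ[K] L)) (hlam : Function.Surjective lam)
    (h1 : p ∣ r - 1)
    (𝔓 : Ideal (𝓞 (CyclotomicField r L))) (h𝔓 : 𝔓.IsPrime)
    (hr : (r : 𝓞 (CyclotomicField r L)) ∈ 𝔓)
    (x : 𝓞 (CyclotomicField r L)) (hx : (x : CyclotomicField r L) ∈ crF lam) :
    x ^ r - x ∈ 𝔓 := by
  have hG : IsGalois K (CyclotomicField r L) := hGal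
  have hne : 𝔓 ≠ ⊥ := by
    rintro rfl
    have : (r : 𝓞 (CyclotomicField r L)) = 0 := by simpa using hr
    exact (Fact.out : r.Prime).ne_zero (by exact_mod_cast this)
  have : Finite (𝓞 (CyclotomicField r L) ⧸ 𝔓) := Ideal.finiteQuotientOfFreeOfNeBot 𝔓 hne
  obtain ⟨Fr, hFr⟩ := IsArithFrobAt.exists_of_isInvariant (𝓞 K)
    (CyclotomicField r L ≃ₐ[K] CyclotomicField r L) 𝔓
  have hcard : Nat.card (𝓞 K ⧸ 𝔓.under (𝓞 K)) = r :=
    cnm_card_quot p K r hrp h1 _ inferInstance (by rw [Ideal.mem_comap]; simpa using hr)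
  have hFr' : Fr • x - x ^ r ∈ 𝔓 := by
    have := hFr x
    rw [hcard] at this
    exact this
  obtain ⟨h, hh, hres⟩ := cnm_exists_mem_crHF K L r hex lam hlam Fr
  have hι : crRes r K L (h * Fr⁻¹) = 1 := by rw [map_mul, map_inv, hres, mul_inv_cancel]
  have hfix : h • x = x := by
    apply RingOfIntegers.ext
    have := (IntermediateField.mem_fixedField_iff (crHF lam) (x : CyclotomicField r L)).mp hx h hh
    exact this
  have h2 := hin (h * Fr⁻¹) hι 𝔓 h𝔓 hr (Fr • x)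
  rw [mul_smul, inv_smul_smul, hfix] at h2
  have h3 : x ^ r - x = -((x - Fr • x) + (Fr • x - x ^ r)) := by ring
  rw [h3]
  exact 𝔓.neg_mem (𝔓.add_mem h2 hFr')

theorem cnm_norm_sub_pow_mem (hdeg : Module.finrank K L = p) (hex : CnmEx K L r)
    (hin : CnmIn K L r) (hGal : IsGalois K (CyclotomicField r L))
    (lam : (ZMod r)ˣ →* (L ≃ₐ[K] L)) (hlam : Function.Surjective lam)
    (𝔓 : Ideal (𝓞 (CyclotomicField r L))) (h𝔓 : 𝔓.IsPrime)
    (hr : (r : 𝓞 (CyclotomicField r L)) ∈ 𝔓) (a : 𝓞 (crF lam)) :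
    algebraMap (𝓞 K) (𝓞 (CyclotomicField r L)) (RingOfIntegers.norm K a) -
      (algebraMap (𝓞 (crF lam)) (𝓞 (CyclotomicField r L)) a) ^ p ∈ 𝔓 := by
  have hG : IsGalois K (CyclotomicField r L) := hGal
  have hN := cnm_normal p K L r hdeg lam
  have hGF : IsGalois K (crF lam) := IsGalois.of_fixedField_normal_subgroup (crHF lam)
  set a' := algebraMap (𝓞 (crF lam)) (𝓞 (CyclotomicField r L)) a with ha'
  have hext : ∀ σ : (crF lam) ≃ₐ[K] (crF lam),
      ∃ γ : CyclotomicField r L ≃ₐ[K] CyclotomicField r L,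
      crRes r K L γ = 1 ∧
        ∀ y : crF lam, γ (y : CyclotomicField r L) = (σ y : CyclotomicField r L) := by
    intro σ
    obtain ⟨γ₀, hγ₀⟩ := AlgEquiv.restrictNormalHom_surjective (F := K)
      (CyclotomicField r L) (K₁ := crF lam) σ
    obtain ⟨h, hh, hres⟩ := cnm_exists_mem_crHF K L r hex lam hlam γ₀
    refine ⟨γ₀ * h⁻¹, by rw [map_mul, map_inv, hres, mul_inv_cancel], fun y => ?_⟩
    have h1 : h⁻¹ (y : CyclotomicField r L) = y :=
      (IntermediateField.mem_fixedField_iff (crHF lam) _).mp y.2 h⁻¹ (inv_mem hh)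
    rw [AlgEquiv.mul_apply, h1, ← hγ₀]
    exact (AlgEquiv.restrictNormal_commutes γ₀ (crF lam) y).symm
  choose γ hγ1 hγ2 using hext
  have hprod : algebraMap (𝓞 K) (𝓞 (CyclotomicField r L)) (RingOfIntegers.norm K a) =
      ∏ σ : (crF lam) ≃ₐ[K] (crF lam), γ σ • a' := by
    apply RingOfIntegers.ext
    have e1 : ((algebraMap (𝓞 K) (𝓞 (CyclotomicField r L)) (RingOfIntegers.norm K a) :
        𝓞 (CyclotomicField r L)) : CyclotomicField r L) =
        algebraMap (crF lam) (CyclotomicField r L)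
          (algebraMap K (crF lam) (Algebra.norm K (a : crF lam))) := by
      rw [← IsScalarTower.algebraMap_apply]
      rfl
    rw [e1, Algebra.norm_eq_prod_automorphisms, map_prod]
    have e2 : ((∏ σ : (crF lam) ≃ₐ[K] (crF lam), γ σ • a' : 𝓞 (CyclotomicField r L)) :
        CyclotomicField r L) = ∏ σ : (crF lam) ≃ₐ[K] (crF lam),
          ((γ σ • a' : 𝓞 (CyclotomicField r L)) : CyclotomicField r L) :=
      map_prod (algebraMap (𝓞 (CyclotomicField r L)) (CyclotomicField r L)) _ _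
    rw [e2]
    refine Finset.prod_congr rfl fun σ _ => ?_
    exact (hγ2 σ (a : crF lam)).symm
  rw [hprod, ← Ideal.Quotient.eq, map_prod, map_pow]
  have hmk : ∀ σ, Ideal.Quotient.mk 𝔓 (γ σ • a') = Ideal.Quotient.mk 𝔓 a' := fun σ =>
    Ideal.Quotient.eq.mpr (hin (γ σ) (hγ1 σ) 𝔓 h𝔓 hr a')
  rw [Finset.prod_congr rfl (fun σ _ => hmk σ), Finset.prod_const, Finset.card_univ]
  congr 1
  rw [← Nat.card_eq_fintype_card, IsGalois.card_aut_eq_finrank,
    cnm_finrank p K L r hdeg hex hGal lam]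

theorem cnm_exists_int_pow [IsCyclotomicExtension {p} ℚ K]
    (hdeg : Module.finrank K L = p) (hex : CnmEx K L r)
    (hin : CnmIn K L r) (hGal : IsGalois K (CyclotomicField r L))
    (hrp : r ≠ p) (lam : (ZMod r)ˣ →* (L ≃ₐ[K] L)) (hlam : Function.Surjective lam)
    (h1 : p ∣ r - 1) (a : 𝓞 (crF lam))
    (𝔭 : Ideal (𝓞 K)) (h𝔭 : 𝔭.IsPrime) (hr : (r : 𝓞 K) ∈ 𝔭) :
    ∃ c : ℤ, RingOfIntegers.norm K a - (c : 𝓞 K) ^ p ∈ 𝔭 := by
  have := h𝔭
  obtain ⟨⟨𝔓, h𝔓, hlo'⟩⟩ := Ideal.nonempty_primesOver (S := 𝓞 (CyclotomicField r L)) 𝔭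
  have hlo : 𝔓.comap (algebraMap (𝓞 K) (𝓞 (CyclotomicField r L))) = 𝔭 := hlo'.over.symm
  have hr' : (r : 𝓞 (CyclotomicField r L)) ∈ 𝔓 := by
    have : (r : 𝓞 K) ∈ 𝔓.comap (algebraMap (𝓞 K) (𝓞 (CyclotomicField r L))) := hlo ▸ hr
    rw [Ideal.mem_comap, map_natCast] at this
    exact this
  set a' := algebraMap (𝓞 (crF lam)) (𝓞 (CyclotomicField r L)) a with ha'
  have hC := cnm_pow_sub_mem p K L r hex hin hGal hrp lam hlam h1 𝔓 h𝔓 hr' a' (a : crF lam).2
  obtain ⟨c, hc⟩ := cnm_exists_int r 𝔓 h𝔓 hr' a' hC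
  have hD := cnm_norm_sub_pow_mem p K L r hdeg hex hin hGal lam hlam 𝔓 h𝔓 hr' a
  refine ⟨c, ?_⟩
  rw [← hlo, Ideal.mem_comap, map_sub, map_pow, map_intCast, ← Ideal.Quotient.eq, map_pow]
  rw [← Ideal.Quotient.eq, map_pow] at hD
  rw [← Ideal.Quotient.eq] at hc
  rw [hD, ← ha', hc]

end

/-- If `b ∈ 𝓞 K` (`K/ℚ` Galois) is a `p`-th power of a rational integer modulo every prime
above `r`, then so is its norm. -/
theorem cnm_norm_int {K : Type*} [Field K] [NumberField K] [IsGalois ℚ K] (r : ℕ)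
    [Fact r.Prime] (p : ℕ) (b : 𝓞 K)
    (h : ∀ 𝔭 : Ideal (𝓞 K), 𝔭.IsPrime → (r : 𝓞 K) ∈ 𝔭 → ∃ c : ℤ, b - (c : 𝓞 K) ^ p ∈ 𝔭) :
    ∃ C : ℤ, (r : ℤ) ∣ Algebra.norm ℤ b - C ^ p := by
  have hrprime : (Ideal.span {(r : ℤ)}).IsPrime := by
    rw [Ideal.span_singleton_prime (by exact_mod_cast (Fact.out : r.Prime).ne_zero)]
    exact Nat.prime_iff_prime_int.mp (Fact.out : r.Prime)
  obtain ⟨⟨𝔭₀, h𝔭₀, hlo'⟩⟩ := Ideal.nonempty_primesOver (S := 𝓞 K) (Ideal.span {(r : ℤ)})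
  have hlo : 𝔭₀.comap (algebraMap ℤ (𝓞 K)) = Ideal.span {(r : ℤ)} := hlo'.over.symm
  have hr0 : (r : 𝓞 K) ∈ 𝔭₀ := by
    have : (r : ℤ) ∈ 𝔭₀.comap (algebraMap ℤ (𝓞 K)) := hlo ▸ Ideal.mem_span_singleton_self _
    rw [Ideal.mem_comap] at this
    simpa using this
  have hτ : ∀ τ : K ≃ₐ[ℚ] K, ∃ c : ℤ,
      RingOfIntegers.mapRingHom (τ : K →+* K) b - (c : 𝓞 K) ^ p ∈ 𝔭₀ := by
    intro τ
    obtain ⟨c, hc⟩ := h (𝔭₀.comap (RingOfIntegers.mapRingHom (τ : K →+* K)))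
      (Ideal.comap_isPrime _ _) (by rw [Ideal.mem_comap, map_natCast]; exact hr0)
    refine ⟨c, ?_⟩
    rw [Ideal.mem_comap, map_sub, map_pow, map_intCast] at hc
    exact hc
  choose c hc using hτ
  refine ⟨∏ τ, c τ, ?_⟩
  have hprod : ((Algebra.norm ℤ b : ℤ) : 𝓞 K) =
      ∏ τ : K ≃ₐ[ℚ] K, RingOfIntegers.mapRingHom (τ : K →+* K) b := by
    apply RingOfIntegers.ext
    have e1 : (((Algebra.norm ℤ b : ℤ) : 𝓞 K) : K) = algebraMap ℚ K (Algebra.norm ℚ (b : K)) := by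
      rw [← Algebra.coe_norm_int]
      simp
    rw [e1, Algebra.norm_eq_prod_automorphisms]
    have e2 : ((∏ τ : K ≃ₐ[ℚ] K, RingOfIntegers.mapRingHom (τ : K →+* K) b : 𝓞 K) : K) =
        ∏ τ : K ≃ₐ[ℚ] K, ((RingOfIntegers.mapRingHom (τ : K →+* K) b : 𝓞 K) : K) :=
      map_prod (algebraMap (𝓞 K) K) _ _
    rw [e2]
    rfl
  have hmem : ((Algebra.norm ℤ b - (∏ τ, c τ) ^ p : ℤ) : 𝓞 K) ∈ 𝔭₀ := by
    push_cast
    rw [hprod, ← Ideal.Quotient.eq, map_prod, map_pow, map_prod, ← Finset.prod_pow]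
    refine Finset.prod_congr rfl fun τ _ => ?_
    rw [← map_pow]
    exact Ideal.Quotient.eq.mpr (hc τ)
  have h2 : (Algebra.norm ℤ b - (∏ τ, c τ) ^ p) ∈ 𝔭₀.comap (algebraMap ℤ (𝓞 K)) := by
    rw [Ideal.mem_comap]
    simpa using hmem
  rw [hlo, Ideal.mem_span_singleton] at h2
  exact h2

section
variable (p : ℕ) [Fact p.Prime] (K L : Type) [Field K] [Field L]
    [NumberField K] [NumberField L] [Algebra K L] [IsCyclotomicExtension {p} ℚ K]
    [IsGalois K L] (r : ℕ) [Fact r.Prime]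

/-- CrossNorm (X2), from the CrossGalois statements as hypotheses: norms of elements of `𝓞 F`
are in the kernel of `lam`. -/
theorem crF_norm_mem_ker_of (hp : p ≠ 2) (hdeg : Module.finrank K L = p)
    (hex : CnmEx K L r) (hin : CnmIn K L r) (hGal : IsGalois K (CyclotomicField r L))
    (hrp : r ≠ p)
    (lam : (ZMod r)ˣ →* (L ≃ₐ[K] L)) (hlam : Function.Surjective lam)
    (a : 𝓞 (crF lam)) (u : (ZMod r)ˣ)
    (hu : (u : ZMod r) = (Ideal.absNorm (Ideal.span {a}) : ZMod r)) : lam u = 1 := by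
  have hcard : Nat.card (L ≃ₐ[K] L) = p := by rw [IsGalois.card_aut_eq_finrank, hdeg]
  have h1 : p ∣ r - 1 := by
    have := Subgroup.card_dvd_of_surjective lam hlam
    rwa [hcard, Nat.card_eq_fintype_card, ZMod.card_units] at this
  have hKgal : IsGalois ℚ K := IsCyclotomicExtension.isGalois {p} ℚ K
  obtain ⟨C, hC⟩ := cnm_norm_int r p (RingOfIntegers.norm K a) (fun 𝔭 h𝔭 hr =>
    cnm_exists_int_pow p K L r hdeg hex hin hGal hrp lam hlam h1 a 𝔭 h𝔭 hr)
  have hnorm : Algebra.norm ℤ (RingOfIntegers.norm K a) = Algebra.norm ℤ a := by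
    have : ((Algebra.norm ℤ (RingOfIntegers.norm K a) : ℤ) : ℚ) =
        ((Algebra.norm ℤ a : ℤ) : ℚ) := by
      rw [Algebra.coe_norm_int, Algebra.coe_norm_int, RingOfIntegers.coe_norm,
        Algebra.norm_norm]
    exact_mod_cast this
  rw [hnorm] at hC
  rw [Ideal.absNorm_span_singleton] at hu
  have hodd : Odd p := (Fact.out : p.Prime).odd_of_ne_two hp
  obtain ⟨D, hD⟩ : ∃ D : ℤ, (u : ZMod r) = (D : ZMod r) ^ p := by
    have hNC : ((Algebra.norm ℤ a : ℤ) : ZMod r) = (C : ZMod r) ^ p := by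
      have := (ZMod.intCast_zmod_eq_zero_iff_dvd _ r).mpr hC
      push_cast at this
      exact sub_eq_zero.mp this
    rcases Int.natAbs_eq (Algebra.norm ℤ a) with h | h
    · refine ⟨C, ?_⟩
      rw [hu, ← hNC]
      conv_rhs => rw [h]
      simp
    · refine ⟨-C, ?_⟩
      rw [hu, Int.cast_neg, hodd.neg_pow, ← hNC]
      conv_rhs => rw [h]
      simp
  have hDu : IsUnit (D : ZMod r) := by
    have : IsUnit ((D : ZMod r) ^ p) := hD ▸ u.isUnit
    exact (isUnit_pow_iff (Fact.out : p.Prime).ne_zero).mp this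
  obtain ⟨w, hw⟩ := hDu
  have huw : u = w ^ p := by
    apply Units.ext
    rw [hD, Units.val_pow_eq_pow_val, hw]
  rw [huw, map_pow, ← hcard]
  exact pow_card_eq_one'

end

end Fermat.Agent.S14
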