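/-
S14 project, package CNm (helper13): `crF_norm_mem_ker`, the EXACT skeleton statement (X2),
= `crF_norm_mem_ker_of` (CrossNormCore.lean) fed with the CrossGalois statements.
-/
import Fermat.Agent.S14.CrossNormCore
import Fermat.Agent.S14.CrossGalois

set_option autoImplicit false

open NumberField
open scoped Pointwise

namespace Fermat.Agent.S14

section
variable (p : ℕ) [Fact p.Prime] (K L : Type) [Field K] [Field L]
    [NumberField K] [NumberField L] [Algebra K L] [IsCyclotomicExtension {p} ℚ K]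
    [IsGalois K L] (r : ℕ) [Fact r.Prime]

/-- CrossNorm (X2): norms of elements of `𝓞 F` are in the kernel of `lam`. -/
theorem crF_norm_mem_ker (hp : p ≠ 2) (hdeg : Module.finrank K L = p)
    (hunr : differentIdeal (𝓞 K) (𝓞 L) = ⊤) (hrp : r ≠ p)
    (lam : (ZMod r)ˣ →* (L ≃ₐ[K] L)) (hlam : Function.Surjective lam)
    (a : 𝓞 (crF lam)) (u : (ZMod r)ˣ)
    (hu : (u : ZMod r) = (Ideal.absNorm (Ideal.span {a}) : ZMod r)) : lam u = 1 :=
  crF_norm_mem_ker_of p K L r hp hdeg (exists_aut_res_cyc p K L r hunr hrp)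
    (crRes_ker_le_inertia p K L r hunr hrp) (isGalois_cyclo K L r) hrp lam hlam a u hu

end

end Fermat.Agent.S14
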