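/-
S14 project, package CX: the auxiliary fields `F ⊆ M` inside `L(ζ_r)` (packaging of
`crF lam`, `crM lam` together with the facts proved in CrossGalois, CrossFrob, CrossNorm).
-/
import Fermat.Agent.S14.CrossGalois
import Fermat.Agent.S14.CrossFrob
import Fermat.Agent.S14.CrossNorm

set_option autoImplicit false

open NumberField
open scoped Pointwise

namespace Fermat.Agent.S14

section

variable {K L : Type} [Field K] [Field L] [NumberField L] [Algebra K L]
  [IsGalois K L] {r : ℕ} [Fact r.Prime]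

/-- the inclusion `F → M` as an algebra structure -/
@[reducible] noncomputable def cxAlgFM (lam : (ZMod r)ˣ →* (L ≃ₐ[K] L)) : Algebra ↥(crF lam) ↥(crM lam) :=
  (IntermediateField.inclusion (crF_le_crM lam)).toRingHom.toAlgebra

theorem cx_mem_crM (lam : (ZMod r)ˣ →* (L ≃ₐ[K] L)) (x : L) :
    algebraMap L (CyclotomicField r L) x ∈ crM lam := by
  intro γ
  have hγ : crRes r K L (γ : CyclotomicField r L ≃ₐ[K] CyclotomicField r L) = 1 :=
    ((mem_crHM_iff lam _).mp γ.2).1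
  have h := AlgEquiv.restrictNormal_commutes
    (γ : CyclotomicField r L ≃ₐ[K] CyclotomicField r L) L x
  have h2 : (γ : CyclotomicField r L ≃ₐ[K] CyclotomicField r L).restrictNormal L = 1 := hγ
  rw [h2] at h
  exact h.symm

/-- the map `L → M` -/
noncomputable def cxHomLM (lam : (ZMod r)ˣ →* (L ≃ₐ[K] L)) : L →+* ↥(crM lam) :=
  (algebraMap L (CyclotomicField r L)).codRestrict (crM lam).toSubfield (cx_mem_crM lam)

/-- the algebra structure `L → M` -/
@[reducible] noncomputable def cxAlgLM (lam : (ZMod r)ˣ →* (L ≃ₐ[K] L)) : Algebra L ↥(crM lam) :=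
  (cxHomLM lam).toAlgebra

theorem cx_tower_KFM (lam : (ZMod r)ˣ →* (L ≃ₐ[K] L)) :
    letI := cxAlgFM lam
    IsScalarTower K ↥(crF lam) ↥(crM lam) := by
  let _ := cxAlgFM lam
  exact IsScalarTower.of_algebraMap_eq fun x => rfl

theorem cx_tower_KLM (lam : (ZMod r)ˣ →* (L ≃ₐ[K] L)) :
    letI := cxAlgLM lam
    IsScalarTower K L ↥(crM lam) := by
  let _ := cxAlgLM lam
  refine IsScalarTower.of_algebraMap_eq fun x => ?_
  apply Subtype.ext
  exact IsScalarTower.algebraMap_apply K L (CyclotomicField r L) x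

theorem cx_tower_FME (lam : (ZMod r)ˣ →* (L ≃ₐ[K] L)) :
    letI := cxAlgFM lam
    IsScalarTower ↥(crF lam) ↥(crM lam) (CyclotomicField r L) := by
  let _ := cxAlgFM lam
  exact IsScalarTower.of_algebraMap_eq fun x => rfl

instance cx_normal_crHM (lam : (ZMod r)ˣ →* (L ≃ₐ[K] L)) : (crHM lam).Normal := by
  unfold crHM
  infer_instance

end

section

theorem cx_isGalois_K_crM (K L : Type) [Field K] [Field L]
    [NumberField K] [NumberField L] [Algebra K L]
    [IsGalois K L] (r : ℕ) [Fact r.Prime] (lam : (ZMod r)ˣ →* (L ≃ₐ[K] L)) :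
    IsGalois K ↥(crM lam) := by
  have := isGalois_cyclo K L r
  exact IsGalois.of_fixedField_normal_subgroup (crHM lam)

theorem cx_isGalois (K L : Type) [Field K] [Field L]
    [NumberField K] [NumberField L] [Algebra K L]
    [IsGalois K L] (r : ℕ) [Fact r.Prime] (lam : (ZMod r)ˣ →* (L ≃ₐ[K] L)) :
    letI := cxAlgFM lam
    IsGalois ↥(crF lam) ↥(crM lam) := by
  let _ := cxAlgFM lam
  have := cx_tower_KFM lam
  have := cx_isGalois_K_crM K L r lam
  exact IsGalois.tower_top_of_isGalois K ↥(crF lam) ↥(crM lam)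

theorem cx_relIndex (p : ℕ) [Fact p.Prime] (K L : Type) [Field K] [Field L]
    [NumberField K] [NumberField L] [Algebra K L] [IsCyclotomicExtension {p} ℚ K]
    [IsGalois K L] (r : ℕ) [Fact r.Prime] (hdeg : Module.finrank K L = p)
    (hunr : differentIdeal (𝓞 K) (𝓞 L) = ⊤) (hrp : r ≠ p)
    (lam : (ZMod r)ˣ →* (L ≃ₐ[K] L)) (hlam : Function.Surjective lam) :
    (crHM lam).relIndex (crHF lam) = p := by
  have h1 : crHM lam ⊓ crHF lam = (crRes r K L).ker ⊓ crHF lam := by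
    ext γ
    simp only [Subgroup.mem_inf, mem_crHM_iff, mem_crHF_iff, MonoidHom.mem_ker]
    constructor
    · rintro ⟨⟨h1, -⟩, h3⟩
      exact ⟨h1, h3⟩
    · rintro ⟨h1, h3⟩
      refine ⟨⟨h1, ?_⟩, h3⟩
      rw [← h3, h1]
  rw [← Subgroup.inf_relIndex_right, h1, Subgroup.inf_relIndex_right, Subgroup.relIndex_ker]
  have h2 : Subgroup.map (crRes r K L) (crHF lam) = ⊤ := by
    rw [eq_top_iff]
    intro σ _
    obtain ⟨u, hu⟩ := hlam σ
    obtain ⟨γ, hγ1, hγ2⟩ := exists_aut_res_cyc p K L r hunr hrp σ u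
    refine ⟨γ, ?_, hγ1⟩
    change crRes r K L γ = lam (crCyc r K L γ)
    rw [hγ1, hγ2, hu]
  rw [h2, Subgroup.card_top, IsGalois.card_aut_eq_finrank, hdeg]

theorem cx_finrank (p : ℕ) [Fact p.Prime] (K L : Type) [Field K] [Field L]
    [NumberField K] [NumberField L] [Algebra K L] [IsCyclotomicExtension {p} ℚ K]
    [IsGalois K L] (r : ℕ) [Fact r.Prime] (hdeg : Module.finrank K L = p)
    (hunr : differentIdeal (𝓞 K) (𝓞 L) = ⊤) (hrp : r ≠ p)
    (lam : (ZMod r)ˣ →* (L ≃ₐ[K] L)) (hlam : Function.Surjective lam) :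
    letI := cxAlgFM lam
    Module.finrank ↥(crF lam) ↥(crM lam) = p := by
  let _ := cxAlgFM lam
  have := cx_tower_FME lam
  have := isGalois_cyclo K L r
  have hF : Module.finrank ↥(crF lam) (CyclotomicField r L) = Nat.card ↥(crHF lam) :=
    IntermediateField.finrank_fixedField_eq_card (crHF lam)
  have hM : Module.finrank ↥(crM lam) (CyclotomicField r L) = Nat.card ↥(crHM lam) :=
    IntermediateField.finrank_fixedField_eq_card (crHM lam)
  have htower := Module.finrank_mul_finrank ↥(crF lam) ↥(crM lam) (CyclotomicField r L)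
  have hrel := Subgroup.relIndex_mul_relIndex ⊥ (crHM lam) (crHF lam) bot_le (crHM_le_crHF lam)
  rw [Subgroup.relIndex_bot_left, Subgroup.relIndex_bot_left,
    cx_relIndex p K L r hdeg hunr hrp lam hlam] at hrel
  rw [hF, hM] at htower
  have hpos : 0 < Nat.card ↥(crHM lam) := Nat.card_pos
  have : Module.finrank ↥(crF lam) ↥(crM lam) * Nat.card ↥(crHM lam)
      = p * Nat.card ↥(crHM lam) := by rw [htower, ← hrel, mul_comm]
  exact Nat.eq_of_mul_eq_mul_right hpos this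

/-- CrossFields.lean : the auxiliary fields `F ⊆ M` (inside `L(ζ_r)`). -/
theorem exists_cross_fields (p : ℕ) [Fact p.Prime] (hp : p ≠ 2) (K L : Type) [Field K]
    [Field L] [NumberField K] [NumberField L] [Algebra K L] [IsCyclotomicExtension {p} ℚ K]
    [IsGalois K L] (hdeg : Module.finrank K L = p)
    (hunr : differentIdeal (𝓞 K) (𝓞 L) = ⊤) (r : ℕ) [Fact r.Prime] (hrp : r ≠ p)
    (lam : (ZMod r)ˣ →* (L ≃ₐ[K] L)) (hlam : Function.Surjective lam) :
    ∃ (F M : Type) (_ : Field F) (_ : Field M) (_ : NumberField F) (_ : NumberField M)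
      (_ : Algebra K F) (_ : Algebra F M) (_ : Algebra K M) (_ : Algebra L M)
      (_ : IsScalarTower K F M) (_ : IsScalarTower K L M) (_ : IsGalois F M),
      Module.finrank F M = p ∧
      (∀ (𝔓 : Ideal (𝓞 M)) (u : (ZMod r)ˣ), 𝔓.IsPrime → 𝔓 ≠ ⊥ →
        (u : ZMod r) = (Ideal.absNorm 𝔓 : ZMod r) → lam u = 1) ∧
      (∀ (a : 𝓞 F) (u : (ZMod r)ˣ),
        (u : ZMod r) = (Ideal.absNorm (Ideal.span {a}) : ZMod r) → lam u = 1) ∧
      (∀ (𝔮 : Ideal (𝓞 K)) (u : (ZMod r)ˣ) (σ : L ≃ₐ[K] L), 𝔮.IsPrime → 𝔮 ≠ ⊥ →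
        (u : ZMod r) = (Ideal.absNorm 𝔮 : ZMod r) → IsFrobOver σ 𝔮 → lam u = σ →
        ∃ 𝔔 : Ideal (𝓞 F), 𝔔.IsPrime ∧ 𝔔.LiesOver 𝔮 ∧ 𝔔.inertiaDeg (𝓞 K) = 1) := by
  refine ⟨↥(crF lam), ↥(crM lam), inferInstance, inferInstance, inferInstance, inferInstance,
    inferInstance, cxAlgFM lam, inferInstance, cxAlgLM lam, cx_tower_KFM lam, cx_tower_KLM lam,
    cx_isGalois K L r lam, cx_finrank p K L r hdeg hunr hrp lam hlam, ?_, ?_, ?_⟩
  · intro 𝔓 u h𝔓 h0 hu
    exact crM_absNorm_mem_ker K L r lam 𝔓 h𝔓 h0 u hu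
  · intro a u hu
    exact crF_norm_mem_ker p K L r hp hdeg hunr hrp lam hlam a u hu
  · intro 𝔮 u σ h𝔮 h0 hu hσ hl
    exact exists_prime_crF_inertiaDeg_one K L r hunr lam 𝔮 h𝔮 h0 u hu σ hσ hl

end

end Fermat.Agent.S14
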