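/-
S14 project, package CP (helper23): choice of the auxiliary prime `r` and of the character `lam`
for Artin's crossing.

Main result of this file: `cp_exists_aux_prime_of`, the statement of `exists_aux_prime` with the
DN1 statement (`exists_inert_prime`) as a hypothesis.  Route: `K = ℚ(ζ_p)`,
`u = q₂ q₁ ^ ((p-1) k)`, `F = K(ᵖ√u)`, `M = F(ᵖ√q₁)` (Kummer tower, `[M : F] = p`); a degree one
prime of `F` inert in `M`, of norm `r ∉ {p, q₁, q₂}`, gives `r ≡ 1 mod p`, `u` a `p`-th power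
modulo `r` and `q₁` not a `p`-th power modulo `r`; the character is then built from a generator of
the cyclic group `(ℤ/r)ˣ`.
-/
import Mathlib

set_option autoImplicit false

open NumberField Polynomial
open scoped Pointwise

namespace Fermat.Agent.S14

/-- exponents of an element killed by `p` only matter modulo `p` -/
theorem cp_zpow_eq {G : Type*} [Group G] {σ : G} {p : ℕ} (hσ : σ ^ p = 1) {m n : ℤ}
    (h : (p : ℤ) ∣ m - n) : σ ^ m = σ ^ n := by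
  obtain ⟨j, hj⟩ := h
  have : m = n + p * j := by linarith
  rw [this, zpow_add, zpow_mul, zpow_natCast, hσ, one_zpow, mul_one]

/-- the character of `(ℤ/r)ˣ` with prescribed values on a non-`p`-th power `u₁` and on `u₂` -/
theorem cp_exists_lam (p : ℕ) [Fact p.Prime] {G : Type} [Group G] (hG : Nat.card G = p)
    (σ : G) (k : ℕ) (r : ℕ) [Fact r.Prime] (hpr : p ∣ r - 1)
    (u₁ u₂ : (ZMod r)ˣ) (h1 : ∀ c : (ZMod r)ˣ, c ^ p ≠ u₁)
    (h2 : ∃ c : (ZMod r)ˣ, c ^ p = u₂ * u₁ ^ ((p - 1) * k)) :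
    ∃ lam : (ZMod r)ˣ →* G, lam u₁ = σ ∧ lam u₂ = σ ^ k := by
  have hp : p.Prime := Fact.out
  have hσp : σ ^ p = 1 := by
    have := pow_card_eq_one' (G := G) (x := σ)
    rwa [hG] at this
  obtain ⟨γ, hγ⟩ := IsCyclic.exists_generator (α := (ZMod r)ˣ)
  have hord : orderOf γ = r - 1 := by
    rw [orderOf_eq_card_of_forall_mem_zpowers hγ, Nat.card_eq_fintype_card, ZMod.card_units]
  obtain ⟨a, ha⟩ := Subgroup.mem_zpowers_iff.mp (hγ u₁)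
  obtain ⟨b, hb⟩ := Subgroup.mem_zpowers_iff.mp (hγ u₂)
  obtain ⟨c, hc⟩ := h2
  obtain ⟨t, ht⟩ := Subgroup.mem_zpowers_iff.mp (hγ c)
  -- `p ∤ a`
  have hpa : ¬ (p : ℤ) ∣ a := by
    rintro ⟨a', rfl⟩
    apply h1 (γ ^ a')
    rw [← ha, ← zpow_natCast, ← zpow_mul, mul_comm]
  -- `b ≡ a k mod p`
  have hpb : (p : ℤ) ∣ b - a * k := by
    have h3 : γ ^ ((p : ℤ) * t) = γ ^ (b + a * (((p - 1) * k : ℕ) : ℤ)) := by
      rw [zpow_add, zpow_mul γ a, zpow_natCast, ha, hb, mul_comm (p : ℤ) t, zpow_mul, ht,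
        zpow_natCast, hc]
    rw [zpow_eq_zpow_iff_modEq, hord] at h3
    have h4 : ((r - 1 : ℕ) : ℤ) ∣ (b + a * (((p - 1) * k : ℕ) : ℤ)) - (p : ℤ) * t :=
      (Int.modEq_iff_dvd.mp h3)
    have h5 : (p : ℤ) ∣ (b + a * (((p - 1) * k : ℕ) : ℤ)) - (p : ℤ) * t :=
      (Int.natCast_dvd_natCast.mpr hpr).trans h4
    have h6 : (((p - 1) * k : ℕ) : ℤ) = ((p : ℤ) - 1) * k := by
      rw [Nat.cast_mul, Nat.cast_sub hp.one_le, Nat.cast_one]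
    rw [h6] at h5
    have h7 : b - a * k = (b + a * (((p : ℤ) - 1) * k) - (p : ℤ) * t) - (p : ℤ) * (a * k - t) := by
      ring
    rw [h7]
    exact dvd_sub h5 (dvd_mul_right _ _)
  -- inverse of `a` modulo `p`
  have hcop : IsCoprime a (p : ℤ) := by
    rw [isCoprime_comm]
    exact (Nat.prime_iff_prime_int.mp hp).coprime_iff_not_dvd.mpr hpa
  obtain ⟨a', m, ham⟩ := hcop
  -- `a' * a + m * p = 1`
  have hdvd : orderOf (σ ^ a') ∣ orderOf γ := by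
    rw [hord]
    refine dvd_trans (orderOf_dvd_of_pow_eq_one ?_) hpr
    rw [← zpow_natCast, ← zpow_mul, mul_comm, zpow_mul, zpow_natCast, hσp, one_zpow]
  refine ⟨monoidHomOfForallMemZpowers hγ hdvd, ?_, ?_⟩
  · rw [← ha, map_zpow, monoidHomOfForallMemZpowers_apply_gen, ← zpow_mul]
    rw [← zpow_one σ]
    rw [← zpow_mul, one_mul]
    apply cp_zpow_eq hσp
    exact ⟨-m, by linarith⟩
  · rw [← hb, map_zpow, monoidHomOfForallMemZpowers_apply_gen, ← zpow_mul, ← zpow_natCast σ k]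
    apply cp_zpow_eq hσp
    obtain ⟨j, hj⟩ := hpb
    refine ⟨a' * j - m * k, ?_⟩
    have : b = a * k + p * j := by linarith
    rw [this]
    linear_combination (k : ℤ) * ham

/-- valuation of `q₁ ^ a * q₂ ^ b` at `q₁` -/
theorem cp_padicValRat_mul_pow (q₁ q₂ : ℕ) (hq₁ : q₁.Prime) (hq₂ : q₂.Prime) (hne : q₁ ≠ q₂)
    (a b : ℕ) : padicValRat q₁ ((q₁ : ℚ) ^ a * (q₂ : ℚ) ^ b) = a := by
  have := Fact.mk hq₁
  have := Fact.mk hq₂
  have h1 : (q₁ : ℚ) ≠ 0 := Nat.cast_ne_zero.mpr hq₁.ne_zero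
  have h2 : (q₂ : ℚ) ≠ 0 := Nat.cast_ne_zero.mpr hq₂.ne_zero
  rw [padicValRat.mul (pow_ne_zero _ h1) (pow_ne_zero _ h2), padicValRat.pow,
    padicValRat.pow, padicValRat.self hq₁.one_lt, padicValRat.of_nat,
    padicValNat_primes hne]
  simp

/-- the norm argument: a relation `c ^ p * (q₁ ^ a * q₂ ^ b) = q₁ ^ a' * q₂ ^ b'` in `ℚ(ζ_p)`
forces `a ≡ a'` and `b ≡ b'` modulo `p`. -/
theorem cp_norm_arg (p : ℕ) [Fact p.Prime] (K : Type) [Field K] [NumberField K]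
    [IsCyclotomicExtension {p} ℚ K] (q₁ q₂ : ℕ) (hq₁ : q₁.Prime) (hq₂ : q₂.Prime)
    (hne : q₁ ≠ q₂) (c : K) (a b a' b' : ℕ)
    (h : c ^ p * ((q₁ : K) ^ a * (q₂ : K) ^ b) = (q₁ : K) ^ a' * (q₂ : K) ^ b') :
    (p : ℤ) ∣ (a' : ℤ) - a ∧ (p : ℤ) ∣ (b' : ℤ) - b := by
  have hp : p.Prime := Fact.out
  have hfr : Module.finrank ℚ K = p - 1 := by
    rw [IsCyclotomicExtension.finrank (n := p) K
      (Polynomial.cyclotomic.irreducible_rat hp.pos), Nat.totient_prime hp]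
  have h1 : (q₁ : K) ≠ 0 := Nat.cast_ne_zero.mpr hq₁.ne_zero
  have h2 : (q₂ : K) ≠ 0 := Nat.cast_ne_zero.mpr hq₂.ne_zero
  have h1' : (q₁ : ℚ) ≠ 0 := Nat.cast_ne_zero.mpr hq₁.ne_zero
  have h2' : (q₂ : ℚ) ≠ 0 := Nat.cast_ne_zero.mpr hq₂.ne_zero
  have hc : c ≠ 0 := by
    rintro rfl
    rw [zero_pow hp.ne_zero, zero_mul] at h
    exact (mul_ne_zero (pow_ne_zero _ h1) (pow_ne_zero _ h2)) h.symm
  have hN : ∀ (x y : ℕ), Algebra.norm ℚ ((q₁ : K) ^ x * (q₂ : K) ^ y) =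
      ((q₁ : ℚ) ^ x * (q₂ : ℚ) ^ y) ^ (p - 1) := by
    intro x y
    have : ((q₁ : K) ^ x * (q₂ : K) ^ y) = algebraMap ℚ K ((q₁ : ℚ) ^ x * (q₂ : ℚ) ^ y) := by
      simp
    rw [this, Algebra.norm_algebraMap, hfr]
  have hnorm := congrArg (Algebra.norm ℚ) h
  rw [map_mul, map_pow, hN, hN] at hnorm
  set y := Algebra.norm ℚ c with hy
  have hy0 : y ≠ 0 := by
    rw [hy, Ne, Algebra.norm_eq_zero_iff]
    exact hc
  have key : ∀ (q₁ q₂ : ℕ) (hq₁ : q₁.Prime) (hq₂ : q₂.Prime) (hne : q₁ ≠ q₂) (a b a' b' : ℕ),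
      y ^ p * ((q₁ : ℚ) ^ a * (q₂ : ℚ) ^ b) ^ (p - 1) =
        ((q₁ : ℚ) ^ a' * (q₂ : ℚ) ^ b') ^ (p - 1) → (p : ℤ) ∣ (a' : ℤ) - a := by
    intro q₁ q₂ hq₁ hq₂ hne a b a' b' hnorm
    have := Fact.mk hq₁
    have h1' : (q₁ : ℚ) ≠ 0 := Nat.cast_ne_zero.mpr hq₁.ne_zero
    have h2' : (q₂ : ℚ) ≠ 0 := Nat.cast_ne_zero.mpr hq₂.ne_zero
    have hv := congrArg (padicValRat q₁) hnorm
    rw [padicValRat.mul (pow_ne_zero _ hy0)
      (pow_ne_zero _ (mul_ne_zero (pow_ne_zero _ h1') (pow_ne_zero _ h2'))),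
      padicValRat.pow, padicValRat.pow, padicValRat.pow,
      cp_padicValRat_mul_pow q₁ q₂ hq₁ hq₂ hne, cp_padicValRat_mul_pow q₁ q₂ hq₁ hq₂ hne] at hv
    have h3 : (p : ℤ) ∣ ((p - 1 : ℕ) : ℤ) * ((a' : ℤ) - a) := by
      refine ⟨padicValRat q₁ y, ?_⟩
      linarith
    have h4 : IsCoprime (p : ℤ) ((p - 1 : ℕ) : ℤ) := by
      rw [Nat.cast_sub hp.one_le, Nat.cast_one]
      exact ⟨1, -1, by ring⟩
    exact h4.dvd_of_dvd_mul_left h3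
  refine ⟨key q₁ q₂ hq₁ hq₂ hne a b a' b' hnorm, key q₂ q₁ hq₂ hq₁ hne.symm b a b' a' ?_⟩
  rw [mul_comm ((q₂ : ℚ) ^ b), mul_comm ((q₂ : ℚ) ^ b')]
  exact hnorm

/-- powers of an automorphism fixing `x` fix `x` -/
theorem cp_pow_fix {F E : Type*} [Field F] [Field E] [Algebra F E] (g : E ≃ₐ[F] E) (x : E)
    (h : g x = x) (i : ℕ) : (g ^ i) x = x := by
  induction i with
  | zero => simp
  | succ i ih => rw [pow_succ, AlgEquiv.mul_apply, h, ih]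

/-- Kummer theory, one step: if `X ^ p - u` is irreducible over a field `K` containing a
primitive `p`-th root of unity, then a `p`-th power in `K[ᵖ√u]` lying in `K` is of the form
`c ^ p * u ^ j` with `c ∈ K`, `j < p`. -/
theorem cp_kummer_step {K : Type} [Field K] (p : ℕ) [Fact p.Prime] (ζ : K)
    (hζ : IsPrimitiveRoot ζ p) (u : K) (H : Irreducible (X ^ p - C u)) (a : K)
    (β : AdjoinRoot (X ^ p - C u)) (hβ : β ^ p = AdjoinRoot.of _ a) :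
    ∃ (c : K) (j : ℕ), j < p ∧ c ^ p * u ^ j = a := by
  have hp : p.Prime := Fact.out
  have : NeZero p := ⟨hp.ne_zero⟩
  have := Fact.mk H
  have hζ' : (primitiveRoots p K).Nonempty := ⟨ζ, (mem_primitiveRoots hp.pos).mpr hζ⟩
  have : IsSplittingField K (AdjoinRoot (X ^ p - C u)) (X ^ p - C u) := isSplittingField_AdjoinRoot_X_pow_sub_C hζ' H
  have : IsGalois K (AdjoinRoot (X ^ p - C u)) := isGalois_of_isSplittingField_X_pow_sub_C hζ' H (AdjoinRoot (X ^ p - C u))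
  have : FiniteDimensional K (AdjoinRoot (X ^ p - C u)) := IsSplittingField.finiteDimensional (AdjoinRoot (X ^ p - C u)) (X ^ p - C u)
  set w : (AdjoinRoot (X ^ p - C u)) := AdjoinRoot.root (X ^ p - C u) with hw
  have hwp : w ^ p = algebraMap K (AdjoinRoot (X ^ p - C u)) u := root_X_pow_sub_C_pow p u
  set ζ₁ : (AdjoinRoot (X ^ p - C u)) := algebraMap K (AdjoinRoot (X ^ p - C u)) ζ with hζ₁def
  have hζ₁ : IsPrimitiveRoot ζ₁ p := hζ.map_of_injective (algebraMap K (AdjoinRoot (X ^ p - C u))).injective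
  by_cases ha : a = 0
  · refine ⟨0, 0, hp.pos, ?_⟩
    rw [ha, zero_pow hp.ne_zero, zero_mul]
  have hw0 : w ≠ 0 := root_X_pow_sub_C_ne_zero hp.one_lt u
  have hβ0 : β ≠ 0 := by
    intro h0
    rw [h0, zero_pow hp.ne_zero] at hβ
    exact ha ((map_eq_zero (AdjoinRoot.of (X ^ p - C u))).mp hβ.symm)
  -- the generator of the Galois group
  set g₁ : (AdjoinRoot (X ^ p - C u)) ≃ₐ[K] (AdjoinRoot (X ^ p - C u)) := autAdjoinRootXPowSubC p u hζ.toRootsOfUnity with hg₁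
  have hg₁w : g₁ w = ζ₁ * w := by
    rw [hg₁, hw, autAdjoinRootXPowSubC_root, Algebra.smul_def]
    rfl
  -- `g₁ β = ζ₁ ^ j * β`
  have h1 : (g₁ β / β) ^ p = 1 := by
    rw [div_pow, ← map_pow, hβ]
    have : g₁ (AdjoinRoot.of (X ^ p - C u) a) = AdjoinRoot.of (X ^ p - C u) a :=
      g₁.commutes a
    rw [this, div_self]
    rw [← hβ]
    exact pow_ne_zero _ hβ0
  obtain ⟨j, hj, hjβ⟩ := hζ₁.eq_pow_of_pow_eq_one h1
  have hg₁β : g₁ β = ζ₁ ^ j * β := by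
    rw [hjβ, div_mul_cancel₀ _ hβ0]
  -- `γ = β / w ^ j` is fixed by `g₁`
  set γ : (AdjoinRoot (X ^ p - C u)) := β / w ^ j with hγ
  have hg₁γ : g₁ γ = γ := by
    rw [hγ, map_div₀, map_pow, hg₁β, hg₁w, mul_pow]
    rw [mul_div_mul_left _ _ (pow_ne_zero _ (hζ₁.ne_zero hp.ne_zero))]
  -- hence by every automorphism
  have hfix : ∀ τ : (AdjoinRoot (X ^ p - C u)) ≃ₐ[K] (AdjoinRoot (X ^ p - C u)), τ γ = γ := by
    intro τ
    have h2 : (τ w / w) ^ p = 1 := by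
      rw [div_pow, ← map_pow, hwp, τ.commutes, ← hwp, div_self (pow_ne_zero _ hw0)]
    obtain ⟨i, _, hi⟩ := hζ₁.eq_pow_of_pow_eq_one h2
    have h3 : τ w = ζ₁ ^ i * w := by rw [hi, div_mul_cancel₀ _ hw0]
    have h4 : ∀ n : ℕ, (g₁ ^ n) w = ζ₁ ^ n * w := by
      intro n
      induction n with
      | zero => simp
      | succ n ih =>
        rw [pow_succ', AlgEquiv.mul_apply, ih, map_mul, map_pow, hg₁w]
        have : g₁ ζ₁ = ζ₁ := g₁.commutes ζ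
        rw [this]
        ring
    have h5 : (τ : (AdjoinRoot (X ^ p - C u)) →ₐ[K] (AdjoinRoot (X ^ p - C u))) = ((g₁ ^ i : (AdjoinRoot (X ^ p - C u)) ≃ₐ[K] (AdjoinRoot (X ^ p - C u))) : (AdjoinRoot (X ^ p - C u)) →ₐ[K] (AdjoinRoot (X ^ p - C u))) := by
      apply AdjoinRoot.algHom_ext
      change τ w = (g₁ ^ i) w
      rw [h3, h4]
    have h6 : τ γ = (g₁ ^ i) γ := by
      have := congrArg (fun f : (AdjoinRoot (X ^ p - C u)) →ₐ[K] (AdjoinRoot (X ^ p - C u)) => f γ) h5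
      simpa using this
    rw [h6, cp_pow_fix g₁ γ hg₁γ]
  obtain ⟨c, hc⟩ := (IsGalois.mem_range_algebraMap_iff_fixed γ).mpr hfix
  refine ⟨c, j, hj, ?_⟩
  apply (algebraMap K (AdjoinRoot (X ^ p - C u))).injective
  rw [map_mul, map_pow, map_pow, hc, ← hwp, hγ]
  change _ = AdjoinRoot.of (X ^ p - C u) a
  rw [← hβ, div_pow, ← pow_mul, ← pow_mul, mul_comm j p, div_mul_cancel₀]
  exact pow_ne_zero _ hw0

/-- The Kummer tower `F = K(ᵖ√u) ⊆ M = F(ᵖ√q₁)`, `u = q₂ q₁ ^ ((p-1) k)`, over `K = ℚ(ζ_p)`. -/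
theorem cp_tower_aux (p : ℕ) [Fact p.Prime] (K : Type) [Field K] [NumberField K]
    [IsCyclotomicExtension {p} ℚ K] (k q₁ q₂ : ℕ) (hq₁ : q₁.Prime) (hq₂ : q₂.Prime)
    (hne : q₁ ≠ q₂) :
    ∃ (F M : Type) (_ : Field F) (_ : Field M) (_ : NumberField F) (_ : NumberField M)
      (_ : Algebra F M) (_ : IsGalois F M), Module.finrank F M = p ∧
      ∃ (ζ w : F) (θ : M) (g : M ≃ₐ[F] M), IsPrimitiveRoot ζ p ∧
        w ^ p = ((q₂ * q₁ ^ ((p - 1) * k) : ℕ) : F) ∧ θ ^ p = ((q₁ : ℕ) : M) ∧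
        g θ = algebraMap F M ζ * θ := by
  have hp : p.Prime := Fact.out
  have : NeZero p := ⟨hp.ne_zero⟩
  have hζ : IsPrimitiveRoot (IsCyclotomicExtension.zeta p ℚ K) p :=
    IsCyclotomicExtension.zeta_spec p ℚ K
  generalize IsCyclotomicExtension.zeta p ℚ K = ζ at hζ
  obtain ⟨u, hu⟩ : ∃ u : K, u = ((q₂ * q₁ ^ ((p - 1) * k) : ℕ) : K) := ⟨_, rfl⟩
  have H₁ : Irreducible (X ^ p - C u) := by
    refine X_pow_sub_C_irreducible_of_prime hp (fun c hc => ?_)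
    have h1 : c ^ p * ((q₁ : K) ^ 0 * (q₂ : K) ^ 0) = (q₁ : K) ^ ((p - 1) * k) * (q₂ : K) ^ 1 := by
      rw [hc, hu]; push_cast; ring
    have h2 := (cp_norm_arg p K q₁ q₂ hq₁ hq₂ hne c 0 0 ((p - 1) * k) 1 h1).2
    have h3 : (p : ℤ) ∣ ((1 : ℕ) : ℤ) := by simpa using h2
    exact hp.one_lt.ne' (Nat.dvd_one.mp (Int.natCast_dvd_natCast.mp h3))
  have := Fact.mk H₁
  have H₂ : Irreducible (X ^ p - C ((q₁ : ℕ) : AdjoinRoot (X ^ p - C u))) := by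
    refine X_pow_sub_C_irreducible_of_prime hp (fun β hβ => ?_)
    have hβ' : β ^ p = AdjoinRoot.of (X ^ p - C u) ((q₁ : ℕ) : K) := by
      rw [hβ]
      exact (map_natCast _ _).symm
    obtain ⟨c, j, hj, hcj⟩ := cp_kummer_step p ζ hζ u H₁ _ β hβ'
    have h1 : c ^ p * ((q₁ : K) ^ ((p - 1) * k * j) * (q₂ : K) ^ j) =
        (q₁ : K) ^ 1 * (q₂ : K) ^ 0 := by
      have hj' : u ^ j = (q₁ : K) ^ ((p - 1) * k * j) * (q₂ : K) ^ j := by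
        rw [hu]; push_cast; ring
      rw [← hj', hcj]; simp
    obtain ⟨h2, h3⟩ := cp_norm_arg p K q₁ q₂ hq₁ hq₂ hne c ((p - 1) * k * j) j 1 0 h1
    have h4 : (p : ℤ) ∣ (j : ℤ) := by
      have : (p : ℤ) ∣ -(j : ℤ) := by simpa using h3
      exact (dvd_neg).mp this
    have h5 : j = 0 := Nat.eq_zero_of_dvd_of_lt (Int.natCast_dvd_natCast.mp h4) hj
    rw [h5] at h2
    have h6 : (p : ℤ) ∣ ((1 : ℕ) : ℤ) := by simpa using h2
    exact hp.one_lt.ne' (Nat.dvd_one.mp (Int.natCast_dvd_natCast.mp h6))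
  have := Fact.mk H₂
  have hζ' : (primitiveRoots p K).Nonempty := ⟨ζ, (mem_primitiveRoots hp.pos).mpr hζ⟩
  have : IsSplittingField K (AdjoinRoot (X ^ p - C u)) (X ^ p - C u) :=
    isSplittingField_AdjoinRoot_X_pow_sub_C hζ' H₁
  have : FiniteDimensional K (AdjoinRoot (X ^ p - C u)) :=
    IsSplittingField.finiteDimensional _ (X ^ p - C u)
  have hNF₁ : NumberField (AdjoinRoot (X ^ p - C u)) := NumberField.of_module_finite K _
  have hζ₁ : IsPrimitiveRoot (algebraMap K (AdjoinRoot (X ^ p - C u)) ζ) p :=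
    hζ.map_of_injective (algebraMap K (AdjoinRoot (X ^ p - C u))).injective
  have hdom : IsDomain (AdjoinRoot (X ^ p - C u)) := inferInstance
  have hζ₁' : (primitiveRoots p (AdjoinRoot (X ^ p - C u))).Nonempty :=
    ⟨_, (mem_primitiveRoots hp.pos).mpr hζ₁⟩
  have : IsSplittingField (AdjoinRoot (X ^ p - C u))
      (AdjoinRoot (X ^ p - C ((q₁ : ℕ) : AdjoinRoot (X ^ p - C u))))
      (X ^ p - C ((q₁ : ℕ) : AdjoinRoot (X ^ p - C u))) :=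
    isSplittingField_AdjoinRoot_X_pow_sub_C hζ₁' H₂
  have : FiniteDimensional (AdjoinRoot (X ^ p - C u))
      (AdjoinRoot (X ^ p - C ((q₁ : ℕ) : AdjoinRoot (X ^ p - C u)))) :=
    IsSplittingField.finiteDimensional _ (X ^ p - C ((q₁ : ℕ) : AdjoinRoot (X ^ p - C u)))
  have hNF : NumberField (AdjoinRoot (X ^ p - C ((q₁ : ℕ) : AdjoinRoot (X ^ p - C u)))) :=
    NumberField.of_module_finite (AdjoinRoot (X ^ p - C u)) _
  have hGal : IsGalois (AdjoinRoot (X ^ p - C u))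
      (AdjoinRoot (X ^ p - C ((q₁ : ℕ) : AdjoinRoot (X ^ p - C u)))) :=
    isGalois_of_isSplittingField_X_pow_sub_C hζ₁' H₂ _
  have hfr : Module.finrank (AdjoinRoot (X ^ p - C u))
      (AdjoinRoot (X ^ p - C ((q₁ : ℕ) : AdjoinRoot (X ^ p - C u)))) = p :=
    finrank_of_isSplittingField_X_pow_sub_C hζ₁' H₂ _
  refine ⟨AdjoinRoot (X ^ p - C u),
    AdjoinRoot (X ^ p - C ((q₁ : ℕ) : AdjoinRoot (X ^ p - C u))), inferInstance, inferInstance,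
    hNF₁, hNF, inferInstance, hGal, hfr, algebraMap K (AdjoinRoot (X ^ p - C u)) ζ,
    AdjoinRoot.root _, AdjoinRoot.root _,
    autAdjoinRootXPowSubC p _ hζ₁.toRootsOfUnity, hζ₁, ?_, ?_, ?_⟩
  · rw [root_X_pow_sub_C_pow]
    exact (congrArg (AdjoinRoot.of (X ^ p - C u)) hu).trans (map_natCast _ _)
  · rw [root_X_pow_sub_C_pow]
    exact map_natCast _ _
  · rw [autAdjoinRootXPowSubC_root, Algebra.smul_def]
    rfl

/-- The Kummer tower `F = ℚ(ζ_p, ᵖ√u) ⊆ M = F(ᵖ√q₁)`, `u = q₂ q₁ ^ ((p-1) k)`. -/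
theorem cp_tower (p : ℕ) [Fact p.Prime] (k q₁ q₂ : ℕ) (hq₁ : q₁.Prime) (hq₂ : q₂.Prime)
    (hne : q₁ ≠ q₂) :
    ∃ (F M : Type) (_ : Field F) (_ : Field M) (_ : NumberField F) (_ : NumberField M)
      (_ : Algebra F M) (_ : IsGalois F M), Module.finrank F M = p ∧
      ∃ (ζ w : F) (θ : M) (g : M ≃ₐ[F] M), IsPrimitiveRoot ζ p ∧
        w ^ p = ((q₂ * q₁ ^ ((p - 1) * k) : ℕ) : F) ∧ θ ^ p = ((q₁ : ℕ) : M) ∧
        g θ = algebraMap F M ζ * θ := by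
  have hp : p.Prime := Fact.out
  have : NeZero p := ⟨hp.ne_zero⟩
  have : IsCyclotomicExtension {p} ℚ (CyclotomicField p ℚ) :=
    CyclotomicField.isCyclotomicExtension p ℚ
  exact cp_tower_aux p (CyclotomicField p ℚ) k q₁ q₂ hq₁ hq₂ hne

theorem cp_coprime_not_mem {R : Type*} [CommRing R] (I : Ideal R) (hI : I ≠ ⊤) {m n : ℕ}
    (h : Nat.Coprime m n) (hm : (m : R) ∈ I) (hn : (n : R) ∈ I) : False := by
  obtain ⟨a, b, hab⟩ := Nat.isCoprime_iff_coprime.mpr h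
  apply hI
  rw [Ideal.eq_top_iff_one]
  have h1 : ((a : ℤ) : R) * (m : R) + ((b : ℤ) : R) * (n : R) = 1 := by
    have := congrArg (Int.cast : ℤ → R) hab
    simpa using this
  rw [← h1]
  exact I.add_mem (I.mul_mem_left _ hm) (I.mul_mem_left _ hn)

theorem cp_sub_one_not_mem {R : Type*} [CommRing R] [IsDomain R] (I : Ideal R) (hI : I ≠ ⊤)
    {p r : ℕ} (hp : p.Prime) (hpr : Nat.Coprime p r) {ζ : R} (hζ : IsPrimitiveRoot ζ p)
    (hr : (r : R) ∈ I) : ζ - 1 ∉ I := by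
  intro h
  have h1 : Ideal.Quotient.mk I ζ = 1 := by
    rw [← sub_eq_zero, ← map_one (Ideal.Quotient.mk I), ← map_sub]
    exact Ideal.Quotient.eq_zero_iff_mem.mpr h
  have h2 := congrArg (Ideal.Quotient.mk I) (hζ.geom_sum_eq_zero hp.one_lt)
  rw [map_sum, map_zero] at h2
  simp only [map_pow, h1, one_pow, Finset.sum_const, Finset.card_range, nsmul_eq_mul,
    mul_one] at h2
  have h3 : (p : R) ∈ I := by
    rw [← Ideal.Quotient.eq_zero_iff_mem, map_natCast]; exact h2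
  exact cp_coprime_not_mem I hI hpr h3 hr

/-- arithmetic at an inert degree one prime of the Kummer tower -/
theorem cp_arith (p : ℕ) [Fact p.Prime] (F M : Type) [Field F] [Field M] [NumberField F]
    [NumberField M] [Algebra F M] [IsGalois F M] (hdeg : Module.finrank F M = p)
    (ζ w : F) (θ : M) (g : M ≃ₐ[F] M) (hζ : IsPrimitiveRoot ζ p) (u q : ℕ) (hq : q.Prime)
    (hw : w ^ p = (u : F)) (hθ : θ ^ p = (q : M)) (hg : g θ = algebraMap F M ζ * θ)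
    (𝔮 : Ideal (𝓞 F)) (h𝔮 : 𝔮.IsPrime) (h0 : 𝔮 ≠ ⊥) (r : ℕ) (hr : r.Prime)
    (hN : Ideal.absNorm 𝔮 = r) (hrp : r ≠ p) (hrq : r ≠ q)
    (hin : ∀ 𝔔 : Ideal (𝓞 M), 𝔔.IsPrime → 𝔔.LiesOver 𝔮 → 𝔔.inertiaDeg (𝓞 F) = p) :
    p ∣ r - 1 ∧ (∃ c : ZMod r, c ^ p = (u : ZMod r)) ∧
      ∀ c : ZMod r, c ^ p ≠ (q : ZMod r) := by
  have hp : p.Prime := Fact.out
  have : NeZero p := ⟨hp.ne_zero⟩
  have : Fact r.Prime := ⟨hr⟩
  have hmax : 𝔮.IsMaximal := h𝔮.isMaximal h0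
  let _ := Ideal.Quotient.field 𝔮
  have hcard : Nat.card (𝓞 F ⧸ 𝔮) = r := by
    rw [← hN, Ideal.absNorm_apply, Submodule.cardQuot_apply]
  have : Finite (𝓞 F ⧸ 𝔮) := Nat.finite_of_card_ne_zero (by rw [hcard]; exact hr.ne_zero)
  let _ : Fintype (𝓞 F ⧸ 𝔮) := Fintype.ofFinite _
  have hcard' : Fintype.card (𝓞 F ⧸ 𝔮) = r := by rw [← Nat.card_eq_fintype_card, hcard]
  have hr𝔮 : (r : 𝓞 F) ∈ 𝔮 := by rw [← hN]; exact Ideal.absNorm_mem 𝔮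
  have hpr : Nat.Coprime p r := (Nat.coprime_primes hp hr).mpr (Ne.symm hrp)
  have hqr : Nat.Coprime q r := (Nat.coprime_primes hq hr).mpr (Ne.symm hrq)
  -- (b)
  have hζ' : IsPrimitiveRoot hζ.toInteger p := hζ.toInteger_isPrimitiveRoot
  have hz1 : Ideal.Quotient.mk 𝔮 hζ.toInteger ≠ 1 := by
    intro h
    apply cp_sub_one_not_mem 𝔮 h𝔮.ne_top hp hpr hζ' hr𝔮
    rw [← Ideal.Quotient.eq_zero_iff_mem, map_sub, map_one, h, sub_self]
  have hzp : Ideal.Quotient.mk 𝔮 hζ.toInteger ^ p = 1 := by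
    rw [← map_pow, hζ'.pow_eq_one, map_one]
  have hord : orderOf (Ideal.Quotient.mk 𝔮 hζ.toInteger) = p := orderOf_eq_prime hzp hz1
  have hz0 : Ideal.Quotient.mk 𝔮 hζ.toInteger ≠ 0 := by
    intro h
    rw [h, zero_pow hp.ne_zero] at hzp
    exact zero_ne_one hzp
  have hb : p ∣ r - 1 := by
    rw [← hord, ← hcard']
    exact orderOf_dvd_of_pow_eq_one (FiniteField.pow_card_sub_one_eq_one _ hz0)
  refine ⟨hb, ?_, ?_⟩
  · -- (c)
    have hchar : CharP (𝓞 F ⧸ 𝔮) r := charP_of_card_eq_prime hcard'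
    have hbij := ZMod.castHom_bijective (𝓞 F ⧸ 𝔮) hcard'
    have hwint : IsIntegral ℤ w := by
      apply IsIntegral.of_pow hp.pos
      rw [hw]
      have := isIntegral_algebraMap (R := ℤ) (A := F) (x := (u : ℤ))
      simpa using this
    obtain ⟨w', hw'⟩ : ∃ w' : 𝓞 F, algebraMap (𝓞 F) F w' = w := ⟨⟨w, hwint⟩, rfl⟩
    have hw'p : w' ^ p = (u : 𝓞 F) := by
      apply FaithfulSMul.algebraMap_injective (𝓞 F) F
      rw [map_pow, hw', hw, map_natCast]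
    obtain ⟨c, hc⟩ := hbij.2 (Ideal.Quotient.mk 𝔮 w')
    refine ⟨c, hbij.1 ?_⟩
    rw [map_pow, hc, ← map_pow, hw'p, map_natCast, map_natCast]
  · -- (d)
    intro c hc
    obtain ⟨𝔔, h𝔔max, h𝔔lo⟩ := Ideal.exists_maximal_ideal_liesOver_of_isIntegral (S := 𝓞 M) 𝔮
    have h𝔔p : 𝔔.IsPrime := h𝔔max.isPrime
    -- uniqueness of the prime above
    have hone : (Ideal.primesOver 𝔮 (𝓞 M)).ncard = 1 := by
      have key := Ideal.ncard_primesOver_mul_ramificationIdxIn_mul_inertiaDegIn 𝔮 (𝓞 M)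
        (M ≃ₐ[F] M)
      rw [Ideal.inertiaDegIn_eq_inertiaDeg 𝔮 𝔔 (M ≃ₐ[F] M), hin 𝔔 h𝔔p h𝔔lo,
        IsGalois.card_aut_eq_finrank, hdeg, ← mul_assoc] at key
      have h1 : (Ideal.primesOver 𝔮 (𝓞 M)).ncard * Ideal.ramificationIdxIn 𝔮 (𝓞 M) = 1 :=
        Nat.eq_of_mul_eq_mul_right hp.pos (by rw [key, one_mul])
      exact Nat.eq_one_of_mul_eq_one_right h1
    have hg𝔔 : g • 𝔔 = 𝔔 := by
      obtain ⟨P, hP⟩ := Set.ncard_eq_one.mp hone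
      have h1 : 𝔔 ∈ Ideal.primesOver 𝔮 (𝓞 M) := ⟨h𝔔p, h𝔔lo⟩
      have h2 : g • 𝔔 ∈ Ideal.primesOver 𝔮 (𝓞 M) := ⟨inferInstance, inferInstance⟩
      rw [hP, Set.mem_singleton_iff] at h1 h2
      exact h2.trans h1.symm
    have hr𝔔 : (r : 𝓞 M) ∈ 𝔔 := by
      have h1 : (r : 𝓞 F) ∈ 𝔔.under (𝓞 F) := by rw [← h𝔔lo.over]; exact hr𝔮
      have h2 : algebraMap (𝓞 F) (𝓞 M) (r : 𝓞 F) ∈ 𝔔 := h1
      simpa using h2
    have hθint : IsIntegral ℤ θ := by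
      apply IsIntegral.of_pow hp.pos
      rw [hθ]
      have := isIntegral_algebraMap (R := ℤ) (A := M) (x := (q : ℤ))
      simpa using this
    obtain ⟨θ', hθ'c⟩ : ∃ θ' : 𝓞 M, algebraMap (𝓞 M) M θ' = θ := ⟨⟨θ, hθint⟩, rfl⟩
    have hθ' : θ' ^ p = (q : 𝓞 M) := by
      apply FaithfulSMul.algebraMap_injective (𝓞 M) M
      rw [map_pow, hθ'c, hθ, map_natCast]
    have hζ'' : IsPrimitiveRoot (algebraMap (𝓞 F) (𝓞 M) hζ.toInteger) p :=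
      hζ'.map_of_injective (FaithfulSMul.algebraMap_injective (𝓞 F) (𝓞 M))
    -- `c₀ ^ p ≡ q` modulo `𝔔`
    have h1 : ((c.val : ℕ) : 𝓞 M) ^ p - (q : 𝓞 M) ∈ 𝔔 := by
      have h2 : ((c.val ^ p : ℕ) : ZMod r) = ((q : ℕ) : ZMod r) := by
        rw [Nat.cast_pow, ZMod.natCast_zmod_val, hc]
      have h3 : (r : ℤ) ∣ ((c.val ^ p : ℕ) : ℤ) - ((q : ℕ) : ℤ) := by
        have := (ZMod.intCast_eq_intCast_iff_dvd_sub ((q : ℕ) : ℤ) ((c.val ^ p : ℕ) : ℤ) r).mp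
          (by simpa using h2.symm)
        exact this
      obtain ⟨m, hm⟩ := h3
      have h4 : ((c.val : ℕ) : 𝓞 M) ^ p - (q : 𝓞 M) = (r : 𝓞 M) * (m : 𝓞 M) := by
        have := congrArg (Int.cast : ℤ → 𝓞 M) hm
        simpa using this
      rw [h4]
      exact 𝔔.mul_mem_right _ hr𝔔
    have h3 : θ' ^ p - ((c.val : ℕ) : 𝓞 M) ^ p ∈ 𝔔 := by
      rw [hθ']
      have := 𝔔.neg_mem h1
      simpa using this
    rw [hζ''.pow_sub_pow_eq_prod_sub_mul _ _ hp.pos] at h3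
    obtain ⟨η, hη, hmem⟩ := Ideal.IsPrime.prod_mem_iff.mp h3
    rw [mem_nthRootsFinset hp.pos] at hη
    obtain ⟨i, -, hi⟩ := hζ''.eq_pow_of_pow_eq_one hη
    -- apply `g`
    have hgζ : g • (algebraMap (𝓞 F) (𝓞 M) hζ.toInteger) = algebraMap (𝓞 F) (𝓞 M) hζ.toInteger :=
      smul_algebraMap g _
    have hgθ : g • θ' = algebraMap (𝓞 F) (𝓞 M) hζ.toInteger * θ' := by
      apply FaithfulSMul.algebraMap_injective (𝓞 M) M
      have e1 : algebraMap (𝓞 M) M (g • θ') = g (algebraMap (𝓞 M) M θ') := rfl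
      have e2 : algebraMap (𝓞 M) M (algebraMap (𝓞 F) (𝓞 M) hζ.toInteger) = algebraMap F M ζ := by
        rw [← IsScalarTower.algebraMap_apply (𝓞 F) (𝓞 M) M,
          IsScalarTower.algebraMap_apply (𝓞 F) F M]
        rfl
      rw [map_mul, e1, e2, hθ'c, hg]
    have h5 : g • (θ' - η * ((c.val : ℕ) : 𝓞 M)) ∈ 𝔔 := by
      have := Ideal.smul_mem_pointwise_smul g _ 𝔔 hmem
      rwa [hg𝔔] at this
    rw [smul_sub, smul_mul', hgθ, ← hi, smul_pow', hgζ] at h5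
    have h6 : g • ((c.val : ℕ) : 𝓞 M) = ((c.val : ℕ) : 𝓞 M) :=
      map_natCast (MulSemiringAction.toRingHom (M ≃ₐ[F] M) (𝓞 M) g) _
    rw [h6, hi] at h5
    have h7 : (algebraMap (𝓞 F) (𝓞 M) hζ.toInteger - 1) * θ' ∈ 𝔔 := by
      have := 𝔔.sub_mem h5 hmem
      have h8 : (algebraMap (𝓞 F) (𝓞 M) hζ.toInteger - 1) * θ' =
          (algebraMap (𝓞 F) (𝓞 M) hζ.toInteger * θ' - η * ((c.val : ℕ) : 𝓞 M)) -
            (θ' - η * ((c.val : ℕ) : 𝓞 M)) := by ring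
      rw [h8]; exact this
    rcases h𝔔p.mem_or_mem h7 with h9 | h9
    · exact cp_sub_one_not_mem 𝔔 h𝔔p.ne_top hp hpr hζ'' hr𝔔 h9
    · have h10 : (q : 𝓞 M) ∈ 𝔔 := by
        rw [← hθ']
        exact 𝔔.pow_mem_of_mem h9 p hp.pos
      exact cp_coprime_not_mem 𝔔 h𝔔p.ne_top hqr h10 hr𝔔

/-- `exists_aux_prime`, with the statement of DN1 (`exists_inert_prime`) as a hypothesis. -/
theorem cp_exists_aux_prime_of
    (hinert : ∀ (F M : Type) [Field F] [Field M] [NumberField F] [NumberField M]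
      [Algebra F M] [IsGalois F M] (p : ℕ) [Fact p.Prime] (_ : Module.finrank F M = p)
      (S : Finset ℕ),
      ∃ 𝔮 : nonZeroDivisors (Ideal (𝓞 F)), (𝔮 : Ideal (𝓞 F)).IsPrime ∧
        (Ideal.absNorm (𝔮 : Ideal (𝓞 F))).Prime ∧ Ideal.absNorm (𝔮 : Ideal (𝓞 F)) ∉ S ∧
        ∀ 𝔔 : Ideal (𝓞 M), 𝔔.IsPrime → 𝔔.LiesOver (𝔮 : Ideal (𝓞 F)) →
          𝔔.inertiaDeg (𝓞 F) = p)
    (p : ℕ) [Fact p.Prime] {G : Type} [Group G]
    (hG : Nat.card G = p) (σ : G) (k : ℕ) (q₁ q₂ : ℕ) (hq₁ : q₁.Prime)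
    (hq₂ : q₂.Prime) (hne : q₁ ≠ q₂) :
    ∃ (r : ℕ) (_ : Fact r.Prime) (lam : (ZMod r)ˣ →* G) (u₁ u₂ : (ZMod r)ˣ),
      r ≠ p ∧ (u₁ : ZMod r) = (q₁ : ZMod r) ∧ (u₂ : ZMod r) = (q₂ : ZMod r) ∧
      lam u₁ = σ ∧ lam u₂ = σ ^ k := by
  obtain ⟨F, M, _, _, _, _, _, _, hdeg, ζ, w, θ, g, hζ, hw, hθ, hg⟩ :=
    cp_tower p k q₁ q₂ hq₁ hq₂ hne
  obtain ⟨𝔮, h𝔮, hrprime, hrS, hin⟩ := hinert F M p hdeg {p, q₁, q₂}
  obtain ⟨r, hr⟩ : ∃ r : ℕ, Ideal.absNorm (𝔮 : Ideal (𝓞 F)) = r := ⟨_, rfl⟩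
  rw [hr] at hrprime hrS
  have hrp : r ≠ p := fun h => hrS (by simp [h])
  have hrq₁ : r ≠ q₁ := fun h => hrS (by simp [h])
  have hrq₂ : r ≠ q₂ := fun h => hrS (by simp [h])
  obtain ⟨hb, ⟨c, hc⟩, hd⟩ := cp_arith p F M hdeg ζ w θ g hζ (q₂ * q₁ ^ ((p - 1) * k)) q₁ hq₁
    hw hθ hg (𝔮 : Ideal (𝓞 F)) h𝔮 (nonZeroDivisors.coe_ne_zero 𝔮) r hrprime hr hrp hrq₁ hin
  have : Fact r.Prime := ⟨hrprime⟩
  have hc₁ : Nat.Coprime q₁ r := (Nat.coprime_primes hq₁ hrprime).mpr (Ne.symm hrq₁)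
  have hc₂ : Nat.Coprime q₂ r := (Nat.coprime_primes hq₂ hrprime).mpr (Ne.symm hrq₂)
  have h1 : ∀ c : (ZMod r)ˣ, c ^ p ≠ ZMod.unitOfCoprime q₁ hc₁ := by
    intro c' hc'
    apply hd (c' : ZMod r)
    rw [← Units.val_pow_eq_pow_val, hc', ZMod.coe_unitOfCoprime]
  have hcu : c ^ p = ((ZMod.unitOfCoprime q₂ hc₂ * ZMod.unitOfCoprime q₁ hc₁ ^ ((p - 1) * k) :
      (ZMod r)ˣ) : ZMod r) := by
    rw [hc]
    push_cast [ZMod.coe_unitOfCoprime]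
    rfl
  have hc0 : c ≠ 0 := by
    intro h0
    rw [h0, zero_pow (Fact.out : p.Prime).ne_zero] at hcu
    exact (Units.ne_zero _) hcu.symm
  have h2 : ∃ c : (ZMod r)ˣ, c ^ p =
      ZMod.unitOfCoprime q₂ hc₂ * ZMod.unitOfCoprime q₁ hc₁ ^ ((p - 1) * k) := by
    refine ⟨Units.mk0 c hc0, Units.ext ?_⟩
    rw [Units.val_pow_eq_pow_val, Units.val_mk0, hcu]
  obtain ⟨lam, hl1, hl2⟩ := cp_exists_lam p hG σ k r hb _ _ h1 h2
  exact ⟨r, ⟨hrprime⟩, lam, _, _, hrp, ZMod.coe_unitOfCoprime q₁ hc₁,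
    ZMod.coe_unitOfCoprime q₂ hc₂, hl1, hl2⟩

end Fermat.Agent.S14
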