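/-
S14 project, package CP (helper23): `exists_aux_prime`, the auxiliary prime `r` and the
character `lam` for Artin's crossing.  Proof in `CrossPrimeCore.lean`; the inert prime comes from
`exists_inert_prime` (DN1, `Density.lean`).
-/
import Fermat.Agent.S14.CrossPrimeCore
import Fermat.Agent.S14.Density

set_option autoImplicit false

open NumberField

namespace Fermat.Agent.S14

/-- CrossPrime.lean : choice of the auxiliary prime `r` and of the character `lam`. -/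
theorem exists_aux_prime (p : ℕ) [Fact p.Prime] (hp : p ≠ 2) {G : Type} [Group G]
    (hG : Nat.card G = p) (σ : G) (hσ : σ ≠ 1) (k : ℕ) (q₁ q₂ : ℕ) (hq₁ : q₁.Prime)
    (hq₂ : q₂.Prime) (hne : q₁ ≠ q₂) (hq₁p : q₁ ≠ p) (hq₂p : q₂ ≠ p) :
    ∃ (r : ℕ) (_ : Fact r.Prime) (lam : (ZMod r)ˣ →* G) (u₁ u₂ : (ZMod r)ˣ),
      r ≠ p ∧ (u₁ : ZMod r) = (q₁ : ZMod r) ∧ (u₂ : ZMod r) = (q₂ : ZMod r) ∧
      lam u₁ = σ ∧ lam u₂ = σ ^ k :=
  cp_exists_aux_prime_of
    (fun F M _ _ _ _ _ _ p _ hdeg S => exists_inert_prime F M p hdeg S) p hG σ k q₁ q₂ hq₁ hq₂ hne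

end Fermat.Agent.S14
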