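/-
S14 project, package AN3 (first half, no dependency on AN1/AN2): the class `L`-series at real
arguments as an honest Dirichlet series: summability, the identification with `LSeries` of the
coefficient sequence, and the simple pole of the Dedekind zeta function at `s = 1`.
-/
import Fermat.Agent.S14.Defs

set_option autoImplicit false

namespace Fermat.Agent.S14

open Ideal NumberField NumberField.InfinitePlace NumberField.Units
open scoped nonZeroDivisors Real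

section LS

variable (F : Type*) [Field F] [NumberField F]

theorem an3_finite_sphere (n : ℕ) :
    {I : (Ideal (𝓞 F))⁰ | absNorm (I : Ideal (𝓞 F)) = n}.Finite :=
  (finite_setOfPred_absNorm_le₀ n).subset fun _ h ↦ le_of_eq h

/-- the finite set of nonzero ideals of norm `n` -/
noncomputable def an3_sphere (n : ℕ) : Finset (Ideal (𝓞 F))⁰ :=
  (an3_finite_sphere F n).toFinset

/-- the finite set of nonzero ideals of norm at most `n` -/
noncomputable def an3_ball (n : ℕ) : Finset (Ideal (𝓞 F))⁰ :=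
  (finite_setOfPred_absNorm_le₀ (S := 𝓞 F) n).toFinset

variable {F}

theorem mem_an3_sphere {n : ℕ} {I : (Ideal (𝓞 F))⁰} :
    I ∈ an3_sphere F n ↔ absNorm (I : Ideal (𝓞 F)) = n := by
  simp [an3_sphere]

theorem mem_an3_ball {n : ℕ} {I : (Ideal (𝓞 F))⁰} :
    I ∈ an3_ball F n ↔ absNorm (I : Ideal (𝓞 F)) ≤ n := by
  simp [an3_ball]

theorem an3_sum_sphere {M : Type*} [AddCommMonoid M] (g : (Ideal (𝓞 F))⁰ → M) (n : ℕ) :
    ∑ k ∈ Finset.Icc 1 n, ∑ I ∈ an3_sphere F k, g I = ∑ I ∈ an3_ball F n, g I := by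
  classical
  rw [← Finset.sum_fiberwise_of_maps_to (s := an3_ball F n) (t := Finset.Icc 1 n)
    (g := fun I ↦ absNorm (I : Ideal (𝓞 F))) (fun I hI ↦ Finset.mem_Icc.mpr
      ⟨absNorm_pos_of_nonZeroDivisors I, mem_an3_ball.mp hI⟩)]
  refine Finset.sum_congr rfl fun k hk ↦ Finset.sum_congr ?_ fun _ _ ↦ rfl
  ext I
  simp only [mem_an3_sphere, Finset.mem_filter, mem_an3_ball]
  exact ⟨fun h ↦ ⟨h ▸ (Finset.mem_Icc.mp hk).2, h⟩, fun h ↦ h.2⟩

theorem an3_card_class (n : ℕ) (C : ClassGroup (𝓞 F)) [DecidableEq (ClassGroup (𝓞 F))] :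
    Nat.card {I : (Ideal (𝓞 F))⁰ // (absNorm (I : Ideal (𝓞 F)) : ℝ) ≤ (n : ℝ) ∧
      ClassGroup.mk0 I = C} = ((an3_ball F n).filter (fun I ↦ ClassGroup.mk0 I = C)).card := by
  refine Nat.subtype_card _ fun I ↦ ?_
  simp [mem_an3_ball]

theorem an3_card_ball (n : ℕ) :
    Nat.card {I : (Ideal (𝓞 F))⁰ // (absNorm (I : Ideal (𝓞 F)) : ℝ) ≤ (n : ℝ)} =
      (an3_ball F n).card := by
  refine Nat.subtype_card _ fun I ↦ ?_
  simp [mem_an3_ball]

variable (F)

/-- the coefficients of the class `L`-series -/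
noncomputable def an3_coeff (Ω : ClassGroup (𝓞 F) →* ℂˣ) (n : ℕ) : ℂ :=
  ∑ I ∈ an3_sphere F n, (Ω (ClassGroup.mk0 I) : ℂ)

variable {F}

theorem an3_sum_coeff (Ω : ClassGroup (𝓞 F) →* ℂˣ) (n : ℕ) :
    ∑ k ∈ Finset.Icc 1 n, an3_coeff F Ω k =
      ∑ C : ClassGroup (𝓞 F), (Ω C : ℂ) *
        (Nat.card {I : (Ideal (𝓞 F))⁰ // (absNorm (I : Ideal (𝓞 F)) : ℝ) ≤ (n : ℝ) ∧
          ClassGroup.mk0 I = C} : ℂ) := by
  classical
  unfold an3_coeff
  rw [an3_sum_sphere, ← Finset.sum_fiberwise (an3_ball F n) (fun I ↦ ClassGroup.mk0 I)]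
  refine Finset.sum_congr rfl fun C _ ↦ ?_
  rw [an3_card_class, Finset.sum_congr rfl (g := fun _ ↦ (Ω C : ℂ))
    (fun I hI ↦ by rw [(Finset.mem_filter.mp hI).2]), Finset.sum_const, nsmul_eq_mul, mul_comm]

theorem an3_norm_char (Ω : ClassGroup (𝓞 F) →* ℂˣ) (C : ClassGroup (𝓞 F)) :
    ‖(Ω C : ℂ)‖ = 1 := by
  refine Complex.norm_eq_one_of_pow_eq_one (n := Fintype.card (ClassGroup (𝓞 F))) ?_
    Fintype.card_ne_zero
  rw [← Units.val_pow_eq_pow_val, ← map_pow, pow_card_eq_one, map_one, Units.val_one]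

theorem an3_sum_char (Ω : ClassGroup (𝓞 F) →* ℂˣ) (hΩ : Ω ≠ 1) :
    ∑ C : ClassGroup (𝓞 F), (Ω C : ℂ) = 0 := by
  have h : (Units.coeHom ℂ).comp Ω ≠ 1 := by
    intro h
    apply hΩ
    ext C
    have := DFunLike.congr_fun h C
    simpa using this
  exact sum_hom_units_eq_zero _ h

theorem an3_norm_coeff_le (Ω : ClassGroup (𝓞 F) →* ℂˣ) (n : ℕ) :
    ‖an3_coeff F Ω n‖ ≤ ((an3_sphere F n).card : ℝ) := by
  unfold an3_coeff
  refine (norm_sum_le _ _).trans ?_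
  simp [an3_norm_char]

open Filter Topology Asymptotics

variable (F)

theorem an3_sum_card_sphere (n : ℕ) :
    ∑ k ∈ Finset.Icc 1 n, ((an3_sphere F k).card : ℝ) = ((an3_ball F n).card : ℝ) := by
  have := an3_sum_sphere (F := F) (fun _ ↦ (1 : ℝ)) n
  simpa using this

theorem an3_tendsto_ball :
    Tendsto (fun n : ℕ ↦ (∑ k ∈ Finset.Icc 1 n, ((an3_sphere F k).card : ℝ)) / (n : ℝ)) atTop
      (𝓝 (dedekindZeta_residue F)) := by
  refine ((Ideal.tendsto_norm_le_div_atTop₀ F).comp tendsto_natCast_atTop_atTop).congr fun n ↦ ?_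
  simp only [Function.comp_apply]
  rw [an3_sum_card_sphere, an3_card_ball]

theorem an3_lseriesSummable_card {s : ℝ} (hs : 1 < s) :
    LSeriesSummable (fun n ↦ (((an3_sphere F n).card : ℝ) : ℂ)) s := by
  refine LSeriesSummable_of_sum_norm_bigO_and_nonneg (r := 1) ?_ (fun _ ↦ Nat.cast_nonneg _)
    zero_le_one (by simpa using hs)
  exact isBigO_atTop_natCast_rpow_of_tendsto_div_rpow (a := dedekindZeta_residue F)
    (by simpa using an3_tendsto_ball F)

theorem an3_sphere_zero : an3_sphere F 0 = ∅ := by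
  ext I
  simp only [mem_an3_sphere, Finset.notMem_empty, iff_false]
  exact absNorm_ne_zero_of_nonZeroDivisors I

end LS

theorem classL_summable (F : Type*) [Field F] [NumberField F] {s : ℝ} (hs : 1 < s) :
    Summable (fun I : nonZeroDivisors (Ideal (𝓞 F)) =>
      (Ideal.absNorm (I : Ideal (𝓞 F)) : ℝ) ^ (-s)) := by
  have hpart : ∀ I : (Ideal (𝓞 F))⁰,
      ∃! n : ℕ, I ∈ ((an3_sphere F n : Finset _) : Set (Ideal (𝓞 F))⁰) := fun I ↦
    ⟨absNorm I.1, by simp [mem_an3_sphere], fun n hn ↦ by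
      simpa [mem_an3_sphere, eq_comm] using hn⟩
  rw [summable_partition (fun I ↦ Real.rpow_nonneg (Nat.cast_nonneg _) _) hpart]
  refine ⟨fun n ↦ (an3_sphere F n).summable
    (fun I : (Ideal (𝓞 F))⁰ ↦ (Ideal.absNorm (I : Ideal (𝓞 F)) : ℝ) ^ (-s)), ?_⟩
  refine (an3_lseriesSummable_card F hs).norm.congr fun n ↦ ?_
  rw [Finset.tsum_subtype' (an3_sphere F n)
    (fun I : (Ideal (𝓞 F))⁰ ↦ (Ideal.absNorm (I : Ideal (𝓞 F)) : ℝ) ^ (-s)),
    LSeries.norm_term_eq]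
  rcases eq_or_ne n 0 with rfl | hn
  · simp [an3_sphere_zero]
  · rw [if_neg hn, Finset.sum_congr rfl (g := fun _ ↦ (n : ℝ) ^ (-s))
      (fun I hI ↦ by rw [mem_an3_sphere.mp hI]), Finset.sum_const, nsmul_eq_mul,
      Complex.ofReal_re, Real.rpow_neg (Nat.cast_nonneg _), div_eq_mul_inv]
    simp

section LS2

variable {F : Type*} [Field F] [NumberField F]

theorem an3_lseriesHasSum (Ω : ClassGroup (𝓞 F) →* ℂˣ) {s : ℝ} (hs : 1 < s) :
    LSeriesHasSum (an3_coeff F Ω) s (classL F Ω s) := by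
  have hsum : Summable (fun I : (Ideal (𝓞 F))⁰ ↦ (Ω (ClassGroup.mk0 I) : ℂ) *
      (((absNorm (I : Ideal (𝓞 F)) : ℝ) ^ (-s) : ℝ) : ℂ)) := by
    refine Summable.of_norm ?_
    refine (classL_summable F hs).congr fun I ↦ ?_
    rw [norm_mul, an3_norm_char, one_mul, Complex.norm_real,
      Real.norm_of_nonneg (Real.rpow_nonneg (Nat.cast_nonneg _) _)]
  have h := hsum.hasSum.tsum_fiberwise (fun I : (Ideal (𝓞 F))⁰ ↦ absNorm (I : Ideal (𝓞 F)))
  have hterm : LSeries.term (an3_coeff F Ω) s = fun c : ℕ ↦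
      ∑' b : ((fun I : (Ideal (𝓞 F))⁰ ↦ absNorm (I : Ideal (𝓞 F))) ⁻¹' {c}),
        (Ω (ClassGroup.mk0 b.1) : ℂ) * (((absNorm (b.1 : Ideal (𝓞 F)) : ℝ) ^ (-s) : ℝ) : ℂ) := by
    funext n
    have hset : (fun I : (Ideal (𝓞 F))⁰ ↦ absNorm (I : Ideal (𝓞 F))) ⁻¹' {n} =
        ↑(an3_sphere F n) := by
      ext I
      simp [mem_an3_sphere]
    rw [hset, Finset.tsum_subtype' (an3_sphere F n) (fun I : (Ideal (𝓞 F))⁰ ↦
      (Ω (ClassGroup.mk0 I) : ℂ) * (((absNorm (I : Ideal (𝓞 F)) : ℝ) ^ (-s) : ℝ) : ℂ))]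
    rcases eq_or_ne n 0 with rfl | hn
    · simp [an3_sphere_zero]
    · rw [LSeries.term_of_ne_zero hn, an3_coeff, Finset.sum_div]
      refine Finset.sum_congr rfl fun I hI ↦ ?_
      rw [mem_an3_sphere.mp hI, Complex.ofReal_cpow (Nat.cast_nonneg _), Complex.ofReal_neg,
        Complex.cpow_neg, Complex.ofReal_natCast, div_eq_mul_inv]
  unfold LSeriesHasSum
  rw [hterm]
  exact h

theorem an3_classL_eq (Ω : ClassGroup (𝓞 F) →* ℂˣ) {s : ℝ} (hs : 1 < s) :
    classL F Ω s = LSeries (an3_coeff F Ω) s :=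
  (an3_lseriesHasSum Ω hs).LSeries_eq.symm

theorem an3_coeff_one : an3_coeff F 1 = fun n ↦ (((an3_sphere F n).card : ℝ) : ℂ) := by
  ext n
  simp [an3_coeff]

end LS2

theorem classL_one_tendsto (F : Type*) [Field F] [NumberField F] :
    ∃ κ : ℝ, 0 < κ ∧ Filter.Tendsto (fun s : ℝ => (s - 1) * (classL F 1 s).re)
      (nhdsWithin 1 (Set.Ioi 1)) (nhds κ) := by
  refine ⟨dedekindZeta_residue F, dedekindZeta_residue_pos F, ?_⟩
  have h := LSeries_tendsto_sub_mul_nhds_one_of_tendsto_sum_div_and_nonneg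
    (fun n ↦ ((an3_sphere F n).card : ℝ)) (an3_tendsto_ball F) (fun _ ↦ Nat.cast_nonneg _)
  have h2 := (Complex.continuous_re.tendsto _).comp h
  refine h2.congr' ?_
  filter_upwards [self_mem_nhdsWithin] with s hs
  rw [Function.comp_apply, an3_classL_eq 1 hs, an3_coeff_one,
    show ((s : ℂ) - 1) = ((s - 1 : ℝ) : ℂ) by simp, Complex.re_ofReal_mul]


end Fermat.Agent.S14
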