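import Mathlib

/-!
# S14, package AN1: lattice point counting with an error term

For a cone `X`, a function `F` homogeneous of degree `n = dim E` and a lattice `L`, the number of
points of `L` in `{x ∈ X | F x ≤ c}` is `c * vol {x ∈ X | F x ≤ 1} / covol L + O(c ^ (1 - 1/n))`
as soon as the frontier of `{x ∈ X | F x ≤ 1}` can be covered by `O(N ^ (n - 1))` balls of radius
`O(1 / N)` (Lipschitz principle).
-/

set_option autoImplicit false

namespace Fermat.Agent.S14

open MeasureTheory Module Submodule ZSpan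

section an1

variable {E : Type*} [NormedAddCommGroup E] [NormedSpace ℝ E] {ι : Type*} [Fintype ι]
  (b : Basis ι ℝ E)

omit [Fintype ι] in
/-- the fundamental domain of a basis is convex -/
theorem an1_convex_fundamentalDomain : Convex ℝ (fundamentalDomain b) := by
  intro x hx y hy a c ha hc hac
  rw [mem_fundamentalDomain] at hx hy ⊢
  intro i
  have := convex_Ico (0 : ℝ) 1 (hx i) (hy i) ha hc hac
  simpa [map_add, map_smul] using this

/-- the cell of the lattice point `ℓ`: the points whose "floor" is `ℓ` -/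
def an1Cell (ℓ : E) : Set E := {x | (floor b x : E) = ℓ}

theorem an1_cell_eq {ℓ : E} (hℓ : ℓ ∈ span ℤ (Set.range b)) :
    an1Cell b ℓ = (fun x => x + (-ℓ)) ⁻¹' fundamentalDomain b := by
  ext x
  simp only [an1Cell, Set.mem_ofPred_eq, Set.mem_preimage]
  constructor
  · intro h
    rw [← h, ← sub_eq_add_neg, ← fract_apply]
    exact fract_mem_fundamentalDomain b x
  · intro h
    have h1 := fract_eq_self.mpr h
    rw [fract_add_ZSpan b x (Submodule.neg_mem _ hℓ), fract_apply, ← sub_eq_add_neg] at h1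
    exact sub_right_injective h1

theorem an1_self_mem_cell {ℓ : E} (hℓ : ℓ ∈ span ℤ (Set.range b)) : ℓ ∈ an1Cell b ℓ :=
  floor_eq_self_of_mem b ℓ hℓ

theorem an1_cell_isPreconnected {ℓ : E} (hℓ : ℓ ∈ span ℤ (Set.range b)) :
    IsPreconnected (an1Cell b ℓ) := by
  rw [an1_cell_eq b hℓ]
  exact ((an1_convex_fundamentalDomain b).translate_preimage_left (-ℓ)).isPreconnected

/-- the number of lattice points in a ball is bounded independently of the centre -/
theorem an1_ncard_ball_le [ProperSpace E] (δ : ℝ) (hδ : ∀ p ∈ fundamentalDomain b, ‖p‖ ≤ δ)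
    (R : ℝ) (x : E) :
    (Metric.closedBall x R ∩ (span ℤ (Set.range b) : Set E)).ncard ≤
      (Metric.closedBall (0 : E) (R + δ) ∩ (span ℤ (Set.range b) : Set E)).ncard := by
  have hinj : Function.Injective (fun ℓ : E => ℓ - (floor b x : E)) := sub_left_injective
  rw [← Set.ncard_image_of_injective _ hinj]
  refine Set.ncard_le_ncard ?_ (setFinite_inter b Metric.isBounded_closedBall)
  rintro _ ⟨ℓ, ⟨hℓ1, hℓ2⟩, rfl⟩
  refine ⟨?_, Submodule.sub_mem _ hℓ2 (floor b x).2⟩
  rw [mem_closedBall_zero_iff]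
  have e : ℓ - (floor b x : E) = (ℓ - x) + fract b x := by rw [fract_apply]; abel
  show ‖ℓ - (floor b x : E)‖ ≤ R + δ
  rw [e]
  refine (norm_add_le _ _).trans (add_le_add ?_ (hδ _ (fract_mem_fundamentalDomain b x)))
  rw [← dist_eq_norm]; exact hℓ1

variable [MeasurableSpace E] [BorelSpace E]

theorem an1_cell_measurable {ℓ : E} (hℓ : ℓ ∈ span ℤ (Set.range b)) :
    MeasurableSet (an1Cell b ℓ) := by
  rw [an1_cell_eq b hℓ]
  exact (fundamentalDomain_measurableSet b).preimage (measurable_add_const _)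

theorem an1_cell_measure (μ : Measure E) [μ.IsAddHaarMeasure] {ℓ : E}
    (hℓ : ℓ ∈ span ℤ (Set.range b)) : μ (an1Cell b ℓ) = μ (fundamentalDomain b) := by
  rw [an1_cell_eq b hℓ]
  exact measure_preimage_add_right μ (-ℓ) _

/-- **Counting lattice points by cells**: the number of lattice points in `S` times the volume
of a cell differs from the volume of `S` by at most the total volume of the cells meeting the
frontier of `S`. -/
theorem an1_count_sub_vol [FiniteDimensional ℝ E] (μ : Measure E) [μ.IsAddHaarMeasure]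
    {S : Set E} (hSb : Bornology.IsBounded S) (hSm : MeasurableSet S) (Bad : Finset E)
    (hBad : ∀ x ∈ frontier S, (floor b x : E) ∈ Bad) :
    |(Nat.card (S ∩ (span ℤ (Set.range b) : Set E) : Set E) : ℝ) * μ.real (fundamentalDomain b)
        - μ.real S| ≤ Bad.card * μ.real (fundamentalDomain b) := by
  classical
  have hPb : Bornology.IsBounded (fundamentalDomain b) := fundamentalDomain_isBounded b
  have hPfin : μ (fundamentalDomain b) ≠ ⊤ := hPb.measure_lt_top.ne
  have hSfin : μ S ≠ ⊤ := hSb.measure_lt_top.ne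
  obtain ⟨δ, hδ⟩ := isBounded_iff_forall_norm_le.mp hPb
  obtain ⟨R₀, hR₀⟩ := isBounded_iff_forall_norm_le.mp hSb
  have hδ0 : 0 ≤ δ := (norm_nonneg _).trans (hδ 0 (by
    rw [mem_fundamentalDomain]; intro i; simp))
  -- the finite set of relevant lattice points
  have hGfin : (Metric.closedBall (0 : E) (R₀ + δ) ∩ (span ℤ (Set.range b) : Set E)).Finite :=
    setFinite_inter b Metric.isBounded_closedBall
  set G : Finset E := hGfin.toFinset with hG
  have hGmem : ∀ ℓ ∈ G, ℓ ∈ span ℤ (Set.range b) := by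
    intro ℓ hℓ
    rw [hG, Set.Finite.mem_toFinset] at hℓ
    exact hℓ.2
  have hfloorG : ∀ x ∈ S, (floor b x : E) ∈ G := by
    intro x hx
    rw [hG, Set.Finite.mem_toFinset]
    refine ⟨?_, (floor b x).2⟩
    rw [mem_closedBall_zero_iff]
    have e : (floor b x : E) = x - fract b x := by rw [fract_apply]; abel
    rw [e]
    exact (norm_sub_le _ _).trans (add_le_add (hR₀ x hx) (hδ _ (fract_mem_fundamentalDomain b x)))
  -- decomposition of `S`
  have hSeq : S = ⋃ ℓ ∈ G, (S ∩ an1Cell b ℓ) := by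
    ext x
    simp only [Set.mem_iUnion, Set.mem_inter_iff, exists_and_left, exists_prop]
    constructor
    · intro hx; exact ⟨hx, _, hfloorG x hx, rfl⟩
    · rintro ⟨hx, -⟩; exact hx
  have hdisj : (G : Set E).PairwiseDisjoint (fun ℓ => S ∩ an1Cell b ℓ) := by
    intro ℓ _ ℓ' _ hne
    rw [Function.onFun, Set.disjoint_left]
    rintro x ⟨-, hx⟩ ⟨-, hx'⟩
    exact hne (hx.symm.trans hx')
  have hvolS : μ.real S = ∑ ℓ ∈ G, μ.real (S ∩ an1Cell b ℓ) := by
    conv_lhs => rw [hSeq]
    exact measureReal_biUnion_finset hdisj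
      (fun ℓ hℓ => hSm.inter (an1_cell_measurable b (hGmem ℓ hℓ)))
      (fun ℓ _ => ne_top_of_le_ne_top hSfin (measure_mono Set.inter_subset_left))
  -- the count
  have hcount : (Nat.card (S ∩ (span ℤ (Set.range b) : Set E) : Set E) : ℝ) *
      μ.real (fundamentalDomain b) =
      ∑ ℓ ∈ G, (if ℓ ∈ S then μ.real (fundamentalDomain b) else 0) := by
    rw [Finset.sum_ite, Finset.sum_const_zero, add_zero, Finset.sum_const, nsmul_eq_mul]
    congr 2
    rw [Nat.card_coe_set_eq, ← Set.ncard_coe_finset]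
    congr 1
    ext ℓ
    simp only [Set.mem_inter_iff, SetLike.mem_coe, Finset.coe_filter, Set.mem_ofPred_eq]
    constructor
    · rintro ⟨hℓS, hℓL⟩
      refine ⟨?_, hℓS⟩
      have := hfloorG ℓ hℓS
      rwa [floor_eq_self_of_mem b ℓ hℓL] at this
    · rintro ⟨hℓG, hℓS⟩
      exact ⟨hℓS, hGmem ℓ hℓG⟩
  -- termwise comparison
  have hterm : ∀ ℓ ∈ G, |(if ℓ ∈ S then μ.real (fundamentalDomain b) else 0) -
      μ.real (S ∩ an1Cell b ℓ)| ≤ if ℓ ∈ Bad then μ.real (fundamentalDomain b) else 0 := by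
    intro ℓ hℓG
    have hℓ := hGmem ℓ hℓG
    have hCm : μ (an1Cell b ℓ) = μ (fundamentalDomain b) := an1_cell_measure b μ hℓ
    have hm0 : 0 ≤ μ.real (S ∩ an1Cell b ℓ) := measureReal_nonneg
    have hm1 : μ.real (S ∩ an1Cell b ℓ) ≤ μ.real (fundamentalDomain b) := by
      rw [measureReal_def, measureReal_def]
      refine ENNReal.toReal_mono hPfin ?_
      rw [← hCm]; exact measure_mono Set.inter_subset_right
    have hP0 : 0 ≤ μ.real (fundamentalDomain b) := measureReal_nonneg
    by_cases hB : ℓ ∈ Bad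
    · rw [if_pos hB]
      split_ifs
      · rw [abs_le]; constructor <;> linarith
      · rw [abs_le]; constructor <;> linarith
    · rw [if_neg hB]
      -- the cell does not meet the frontier
      have hfr : ∀ x ∈ an1Cell b ℓ, x ∉ frontier S := by
        intro x hx hxf
        apply hB
        have := hBad x hxf
        rwa [show (floor b x : E) = ℓ from hx] at this
      have hsub : an1Cell b ℓ ⊆ interior S ∪ (closure S)ᶜ := by
        intro x hx
        by_cases hxc : x ∈ closure S
        · left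
          by_contra hxi
          exact hfr x hx ⟨hxc, hxi⟩
        · right; exact hxc
      have hdisj' : Disjoint (interior S) (closure S)ᶜ := by
        rw [Set.disjoint_left]
        intro x hx hx'
        exact hx' (subset_closure (interior_subset hx))
      rcases (an1_cell_isPreconnected b hℓ).subset_or_subset isOpen_interior
          isClosed_closure.isOpen_compl hdisj' hsub with h | h
      · have hℓS : ℓ ∈ S := interior_subset (h (an1_self_mem_cell b hℓ))
        have : S ∩ an1Cell b ℓ = an1Cell b ℓ :=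
          Set.inter_eq_right.mpr (h.trans interior_subset)
        rw [if_pos hℓS, this, measureReal_def, measureReal_def, hCm, sub_self, abs_zero]
      · have hℓS : ℓ ∉ S := fun hS => h (an1_self_mem_cell b hℓ) (subset_closure hS)
        have : S ∩ an1Cell b ℓ = ∅ := by
          rw [Set.eq_empty_iff_forall_notMem]
          rintro x ⟨hxS, hxC⟩
          exact h hxC (subset_closure hxS)
        rw [if_neg hℓS, this, measureReal_empty, sub_self, abs_zero]
  rw [hcount, hvolS, ← Finset.sum_sub_distrib]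
  refine (Finset.abs_sum_le_sum_abs _ _).trans ((Finset.sum_le_sum hterm).trans ?_)
  rw [Finset.sum_ite, Finset.sum_const_zero, add_zero, Finset.sum_const, nsmul_eq_mul]
  refine mul_le_mul_of_nonneg_right ?_ measureReal_nonneg
  exact_mod_cast Finset.card_le_card (fun ℓ hℓ => (Finset.mem_filter.mp hℓ).2)

end an1

open Pointwise in
/-- **AN1** (Lipschitz principle with an error term). -/
theorem card_le_sub_le {E : Type*} [NormedAddCommGroup E] [InnerProductSpace ℝ E]
    [FiniteDimensional ℝ E] [MeasurableSpace E] [BorelSpace E] [Nontrivial E]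
    (L : Submodule ℤ E) [DiscreteTopology L] [IsZLattice ℝ L] {X : Set E} {F : E → ℝ}
    (hX : ∀ ⦃x⦄ ⦃r : ℝ⦄, x ∈ X → 0 < r → r • x ∈ X)
    (h₁ : ∀ x ⦃r : ℝ⦄, 0 ≤ r → F (r • x) = r ^ finrank ℝ E * (F x))
    (h₂ : Bornology.IsBounded {x ∈ X | F x ≤ 1}) (h₃ : MeasurableSet {x ∈ X | F x ≤ 1})
    (C₀ ρ : ℝ)
    (h₄ : ∀ N : ℕ, 0 < N → ∃ T : Finset E, (T.card : ℝ) ≤ C₀ * (N : ℝ) ^ (finrank ℝ E - 1) ∧
      frontier {x ∈ X | F x ≤ 1} ⊆ ⋃ x ∈ T, Metric.closedBall x (ρ / N)) :
    ∃ C : ℝ, ∀ c : ℝ, 1 ≤ c →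
      |(Nat.card ({x ∈ X | F x ≤ c} ∩ L : Set E) : ℝ) -
          c * (volume.real {x ∈ X | F x ≤ 1} / ZLattice.covolume L)| ≤
        C * c ^ (1 - 1 / (finrank ℝ E : ℝ)) := by
  classical
  have hn0 : 0 < finrank ℝ E := finrank_pos
  have hnR : (0 : ℝ) < (finrank ℝ E : ℝ) := by exact_mod_cast hn0
  set b₀ := Module.Free.chooseBasis ℤ L with hb₀
  set b := b₀.ofZLatticeBasis ℝ L with hb
  have hspan : span ℤ (Set.range b) = L := b₀.ofZLatticeBasis_span ℝ
  have hcov : ZLattice.covolume L = volume.real (fundamentalDomain b) :=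
    ZLattice.covolume_eq_measure_fundamentalDomain L volume
      (ZLattice.isAddFundamentalDomain b₀ volume)
  have hcovpos : 0 < volume.real (fundamentalDomain b) := by
    rw [← hcov]; exact ZLattice.covolume_pos L volume
  obtain ⟨δ, hδ⟩ := isBounded_iff_forall_norm_le.mp (fundamentalDomain_isBounded b)
  have hδ0 : 0 ≤ δ := (norm_nonneg _).trans (hδ 0 (by
    rw [mem_fundamentalDomain]; intro i; simp))
  set D : Set E := {x ∈ X | F x ≤ 1} with hD
  set M : ℕ := (Metric.closedBall (0 : E) (|ρ| + δ + δ) ∩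
    (span ℤ (Set.range b) : Set E)).ncard with hM
  refine ⟨|C₀| * 2 ^ (finrank ℝ E - 1) * M, fun c hc => ?_⟩
  have hc0 : 0 < c := by linarith
  -- the scaling factor
  set t : ℝ := c ^ ((finrank ℝ E : ℝ)⁻¹) with ht
  have ht1 : 1 ≤ t := Real.one_le_rpow hc (inv_nonneg.mpr hnR.le)
  have ht0 : 0 < t := by linarith
  have htn : t ^ finrank ℝ E = c := by
    rw [ht, ← Real.rpow_natCast, ← Real.rpow_mul hc0.le, inv_mul_cancel₀ hnR.ne', Real.rpow_one]
  have htn1 : t ^ (finrank ℝ E - 1) = c ^ (1 - 1 / (finrank ℝ E : ℝ)) := by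
    rw [ht, ← Real.rpow_natCast, ← Real.rpow_mul hc0.le]
    congr 1
    rw [Nat.cast_sub hn0, Nat.cast_one]
    field_simp
  -- the set
  have hS : {x ∈ X | F x ≤ c} = t • D := by
    ext x
    rw [Set.mem_smul_set_iff_inv_smul_mem₀ ht0.ne']
    simp only [hD, Set.mem_ofPred_eq]
    rw [h₁ _ (inv_pos.mpr ht0).le, inv_pow, htn, inv_mul_le_iff₀ hc0, mul_one]
    constructor
    · rintro ⟨hx, hF⟩; exact ⟨hX hx (inv_pos.mpr ht0), hF⟩
    · rintro ⟨hx, hF⟩
      refine ⟨?_, hF⟩
      have := hX hx ht0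
      rwa [smul_smul, mul_inv_cancel₀ ht0.ne', one_smul] at this
  -- the number of balls
  set N : ℕ := ⌈t⌉₊ with hN
  have hN0 : 0 < N := Nat.ceil_pos.mpr ht0
  have hNR : (0 : ℝ) < N := by exact_mod_cast hN0
  have hNt : t ≤ N := Nat.le_ceil t
  have hN2 : (N : ℝ) ≤ 2 * t := by
    have := Nat.ceil_lt_add_one ht0.le
    linarith
  obtain ⟨T, hTcard, hTcov⟩ := h₄ N hN0
  -- the bad lattice points
  have hfinx : ∀ x : E, (Metric.closedBall (t • x) (|ρ| + δ) ∩
      (span ℤ (Set.range b) : Set E)).Finite :=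
    fun x => setFinite_inter b Metric.isBounded_closedBall
  set Bad : Finset E := T.biUnion (fun x => (hfinx x).toFinset) with hBaddef
  have hBadcard : (Bad.card : ℝ) ≤ T.card * M := by
    have h1 : Bad.card ≤ ∑ x ∈ T, ((hfinx x).toFinset).card := Finset.card_biUnion_le
    have h2 : ∑ x ∈ T, ((hfinx x).toFinset).card ≤ ∑ _x ∈ T, M := by
      refine Finset.sum_le_sum fun x _ => ?_
      rw [← Set.ncard_eq_toFinset_card _ (hfinx x)]
      exact an1_ncard_ball_le b δ hδ (|ρ| + δ) (t • x)
    rw [Finset.sum_const, smul_eq_mul] at h2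
    exact_mod_cast h1.trans h2
  have hBad : ∀ y ∈ frontier (t • D), (floor b y : E) ∈ Bad := by
    intro y hy
    -- `y = t • z` with `z` in the frontier of `D`
    have hfr : frontier (t • D) = (fun x : E => t • x) '' frontier D := by
      have := (Homeomorph.smulOfNeZero t ht0.ne').image_frontier D
      rw [← Set.image_smul]
      exact this.symm
    rw [hfr] at hy
    obtain ⟨z, hz, rfl⟩ := hy
    have hz' := hTcov hz
    simp only [Set.mem_iUnion, exists_prop] at hz'
    obtain ⟨x, hxT, hzx⟩ := hz'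
    rw [Metric.mem_closedBall, dist_eq_norm] at hzx
    have hdist : ‖t • z - t • x‖ ≤ |ρ| := by
      rw [← smul_sub, norm_smul, Real.norm_eq_abs, abs_of_pos ht0]
      calc t * ‖z - x‖ ≤ t * (ρ / N) := mul_le_mul_of_nonneg_left hzx ht0.le
        _ ≤ t * (|ρ| / N) := by
          refine mul_le_mul_of_nonneg_left ?_ ht0.le
          exact div_le_div_of_nonneg_right (le_abs_self ρ) hNR.le
        _ = |ρ| * (t / N) := by ring
        _ ≤ |ρ| * 1 := by
          refine mul_le_mul_of_nonneg_left ?_ (abs_nonneg ρ)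
          rw [div_le_one hNR]; exact hNt
        _ = |ρ| := mul_one _
    rw [hBaddef, Finset.mem_biUnion]
    refine ⟨x, hxT, ?_⟩
    rw [Set.Finite.mem_toFinset]
    refine ⟨?_, (floor b (t • z)).2⟩
    rw [Metric.mem_closedBall, dist_eq_norm]
    have e : (floor b (t • z) : E) - t • x = (t • z - t • x) - fract b (t • z) := by
      rw [fract_apply]; abel
    rw [e]
    exact (norm_sub_le _ _).trans
      (add_le_add hdist (hδ _ (fract_mem_fundamentalDomain b (t • z))))
  have key := an1_count_sub_vol b volume (h₂.smul₀ t) (h₃.const_smul₀ t) Bad hBad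
  -- the volume of `t • D`
  have hvol : volume.real (t • D) = c * volume.real D := by
    rw [measureReal_def, Measure.addHaar_smul, ENNReal.toReal_mul,
      ENNReal.toReal_ofReal (abs_nonneg _), abs_of_pos (pow_pos ht0 _), htn, measureReal_def]
  have hLset : (L : Set E) = (span ℤ (Set.range b) : Set E) := by rw [hspan]
  rw [hS, hcov, hLset]
  rw [hvol] at key
  set V := volume.real (fundamentalDomain b) with hV
  set cnt : ℝ := (Nat.card (t • D ∩ (span ℤ (Set.range b) : Set E) : Set E) : ℝ) with hcnt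
  -- divide by the covolume
  have h5 : |cnt - c * (volume.real D / V)| ≤ Bad.card := by
    have e : cnt - c * (volume.real D / V) = (cnt * V - c * volume.real D) / V := by
      field_simp
    rw [e, abs_div, abs_of_pos hcovpos, div_le_iff₀ hcovpos]
    exact key
  refine h5.trans (hBadcard.trans ?_)
  have hC0 : 0 ≤ C₀ * (N : ℝ) ^ (finrank ℝ E - 1) := le_trans (Nat.cast_nonneg _) hTcard
  have h6 : (T.card : ℝ) ≤ |C₀| * 2 ^ (finrank ℝ E - 1) * c ^ (1 - 1 / (finrank ℝ E : ℝ)) := by
    calc (T.card : ℝ) ≤ C₀ * (N : ℝ) ^ (finrank ℝ E - 1) := hTcard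
      _ ≤ |C₀| * (N : ℝ) ^ (finrank ℝ E - 1) :=
        mul_le_mul_of_nonneg_right (le_abs_self _) (by positivity)
      _ ≤ |C₀| * (2 * t) ^ (finrank ℝ E - 1) :=
        mul_le_mul_of_nonneg_left (pow_le_pow_left₀ hNR.le hN2 _) (abs_nonneg _)
      _ = |C₀| * 2 ^ (finrank ℝ E - 1) * c ^ (1 - 1 / (finrank ℝ E : ℝ)) := by
        rw [mul_pow, htn1]; ring
  calc (T.card : ℝ) * M
      ≤ (|C₀| * 2 ^ (finrank ℝ E - 1) * c ^ (1 - 1 / (finrank ℝ E : ℝ))) * M :=
        mul_le_mul_of_nonneg_right h6 (Nat.cast_nonneg _)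
    _ = |C₀| * 2 ^ (finrank ℝ E - 1) * M * c ^ (1 - 1 / (finrank ℝ E : ℝ)) := by ring

end Fermat.Agent.S14
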