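import Mathlib

/-
S14 package AN2 (helper2): Lipschitz covering of the frontier of the norm-one region.
The frontier of `normLeOne F` is contained in the image of the boundary of a cube of
dimension `n - 1` (faces of the parameter cube, signs and angles) under a Lipschitz map,
hence is covered by `C₀ N^(n-1)` balls of radius `ρ / N`.
-/

set_option autoImplicit false

open NumberField

namespace Fermat.Agent.S14

/-- One-dimensional grid approximation. -/
lemma an2_grid (N : ℕ) (hN : 0 < N) (t : ℝ) (h0 : 0 ≤ t) (h1 : t ≤ 1) :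
    ∃ k : Fin N, |t - ((k : ℕ) : ℝ) / N| ≤ 1 / N := by
  have hN' : (0:ℝ) < N := Nat.cast_pos.mpr hN
  have hm : min ⌊(N:ℝ) * t⌋₊ (N - 1) < N :=
    lt_of_le_of_lt (min_le_right _ _) (Nat.sub_lt hN one_pos)
  refine ⟨⟨min ⌊(N:ℝ) * t⌋₊ (N - 1), hm⟩, ?_⟩
  have hNt : 0 ≤ (N:ℝ) * t := by positivity
  have hlow : ((min ⌊(N:ℝ) * t⌋₊ (N - 1) : ℕ) : ℝ) ≤ N * t :=
    le_trans (Nat.cast_le.mpr (min_le_left _ _)) (Nat.floor_le hNt)
  have hup : (N:ℝ) * t ≤ ((min ⌊(N:ℝ) * t⌋₊ (N - 1) : ℕ) : ℝ) + 1 := by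
    rcases le_total ⌊(N:ℝ) * t⌋₊ (N - 1) with h | h
    · rw [min_eq_left h]
      exact (Nat.lt_floor_add_one _).le
    · rw [min_eq_right h]
      have : ((N - 1 : ℕ) : ℝ) + 1 = N := by
        rw [Nat.cast_sub hN]; simp
      rw [this]
      nlinarith
  have heq : t - ((min ⌊(N:ℝ) * t⌋₊ (N - 1) : ℕ) : ℝ) / N
      = (N * t - ((min ⌊(N:ℝ) * t⌋₊ (N - 1) : ℕ) : ℝ)) / N := by
    field_simp
  show |t - ((min ⌊(N:ℝ) * t⌋₊ (N - 1) : ℕ) : ℝ) / N| ≤ 1 / N
  rw [heq, abs_div, abs_of_pos hN']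
  apply div_le_div_of_nonneg_right _ hN'.le
  rw [abs_le]; constructor <;> linarith

/-- Covering of a face of the unit cube by a grid. -/
lemma an2_face_cover {ι : Type*} [Fintype ι] [DecidableEq ι] (N : ℕ) (hN : 0 < N) (i₀ : ι)
    (e : ℝ) :
    ∃ G : Finset (ι → ℝ), G.card ≤ N ^ (Fintype.card ι - 1) ∧
      (∀ g ∈ G, g i₀ = e ∧ ∀ i, i ≠ i₀ → g i ∈ Set.Icc (0:ℝ) 1) ∧
      ∀ t : ι → ℝ, t i₀ = e → (∀ i, t i ∈ Set.Icc (0:ℝ) 1) → ∃ g ∈ G, ‖t - g‖ ≤ 1 / N := by
  classical
  have hN' : (0:ℝ) < N := Nat.cast_pos.mpr hN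
  let φ : ({i // i ≠ i₀} → Fin N) → (ι → ℝ) :=
    fun k i => if h : i = i₀ then e else ((k ⟨i, h⟩ : ℕ) : ℝ) / N
  refine ⟨Finset.univ.image φ, ?_, ?_, ?_⟩
  · refine Finset.card_image_le.trans ?_
    rw [Finset.card_univ, Fintype.card_fun, Fintype.card_fin, Fintype.card_subtype_compl,
      Fintype.card_subtype_eq]
  · intro g hg
    obtain ⟨k, -, rfl⟩ := Finset.mem_image.mp hg
    refine ⟨by simp [φ], fun i hi => ?_⟩
    simp only [φ, dif_neg hi]
    constructor
    · positivity
    · rw [div_le_one hN']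
      exact_mod_cast (k ⟨i, hi⟩).2.le
  · intro t ht0 ht
    have hk : ∀ i : {i // i ≠ i₀}, ∃ k : Fin N, |t i.1 - ((k : ℕ) : ℝ) / N| ≤ 1 / N :=
      fun i => an2_grid N hN (t i.1) (ht i.1).1 (ht i.1).2
    choose k hk using hk
    refine ⟨φ k, Finset.mem_image.mpr ⟨k, Finset.mem_univ _, rfl⟩, ?_⟩
    rw [pi_norm_le_iff_of_nonneg (by positivity)]
    intro i
    by_cases hi : i = i₀
    · subst hi
      simp [φ, ht0, hN'.le]
    · simp only [Pi.sub_apply, φ, dif_neg hi, Real.norm_eq_abs]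
      exact hk ⟨i, hi⟩

/-- Approximation of a point of the unit circle by `N`-th roots of unity. -/
lemma an2_angle (N : ℕ) (hN : 0 < N) (u : ℂ) (hu : ‖u‖ = 1) :
    ∃ k : Fin N, ‖u - Complex.exp (2 * Real.pi * Complex.I * (((k : ℕ) : ℝ) / N : ℝ))‖
      ≤ 2 * Real.pi / N := by
  have hN' : (0:ℝ) < N := Nat.cast_pos.mpr hN
  have hpi : (0:ℝ) < 2 * Real.pi := by positivity
  -- an angle in `[0, 2π]`
  obtain ⟨θ, hθ0, hθ1, hθ⟩ : ∃ θ : ℝ, 0 ≤ θ ∧ θ ≤ 2 * Real.pi ∧
      u = Complex.exp (Complex.I * (θ : ℂ)) := by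
    have h1 : u = Complex.exp (Complex.I * (u.arg : ℂ)) := by
      have := Complex.norm_mul_exp_arg_mul_I u
      rw [hu, Complex.ofReal_one, one_mul] at this
      rw [mul_comm]; exact this.symm
    by_cases h : 0 ≤ u.arg
    · exact ⟨u.arg, h, (Complex.arg_le_pi u).trans (by linarith [Real.pi_pos]), h1⟩
    · refine ⟨u.arg + 2 * Real.pi, ?_, ?_, ?_⟩
      · linarith [Complex.neg_pi_lt_arg u, Real.pi_pos]
      · have := not_le.mp h; linarith
      · have h2 : Complex.exp (Complex.I * (2 * (Real.pi : ℂ))) = 1 := by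
          rw [mul_comm]; exact Complex.exp_two_pi_mul_I
        push_cast
        rw [mul_add, Complex.exp_add, h2, mul_one]
        exact h1
  obtain ⟨k, hk⟩ := an2_grid N hN (θ / (2 * Real.pi)) (by positivity)
    (by rw [div_le_one hpi]; exact hθ1)
  refine ⟨k, ?_⟩
  have e1 : u - Complex.exp (2 * Real.pi * Complex.I * (((k : ℕ) : ℝ) / N : ℝ))
      = Complex.exp (2 * Real.pi * Complex.I * (((k : ℕ) : ℝ) / N : ℝ)) *
        (Complex.exp (Complex.I * ((θ - 2 * Real.pi * (((k : ℕ) : ℝ) / N) : ℝ) : ℂ)) - 1) := by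
    rw [mul_sub, mul_one, ← Complex.exp_add, hθ]
    congr 2
    push_cast
    ring
  have e2 : ‖Complex.exp (2 * Real.pi * Complex.I * (((k : ℕ) : ℝ) / N : ℝ))‖ = 1 := by
    have : (2 * Real.pi * Complex.I * (((k : ℕ) : ℝ) / N : ℝ) : ℂ)
        = ((2 * Real.pi * (((k : ℕ) : ℝ) / N) : ℝ) : ℂ) * Complex.I := by
      push_cast; ring
    rw [this, Complex.norm_exp_ofReal_mul_I]
  rw [e1, norm_mul, e2, one_mul]
  refine Real.norm_exp_I_mul_ofReal_sub_one_le.trans ?_
  rw [Real.norm_eq_abs]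
  have e3 : θ - 2 * Real.pi * (((k : ℕ) : ℝ) / N)
      = 2 * Real.pi * (θ / (2 * Real.pi) - ((k : ℕ) : ℝ) / N) := by
    field_simp
  rw [e3, abs_mul, abs_of_pos hpi]
  calc 2 * Real.pi * |θ / (2 * Real.pi) - ((k : ℕ) : ℝ) / N| ≤ 2 * Real.pi * (1 / N) := by gcongr
    _ = 2 * Real.pi / N := by ring

section NF

open NumberField.mixedEmbedding NumberField.mixedEmbedding.fundamentalCone
  NumberField.InfinitePlace NumberField.Units.dirichletUnitTheorem

variable (K : Type*) [Field K] [NumberField K]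

open scoped Classical in
/-- The parametrisation `t ↦ t_{w₀} • expMapBasis (t with 0 at w₀)` of `compactSet K`. -/
noncomputable def an2Phi (t : realSpace K) : realSpace K :=
  t w₀ • expMapBasis (fun w => if w = w₀ then 0 else t w)

open scoped Classical in
lemma an2Phi_contDiff : ContDiff ℝ 1 (an2Phi K) := by
  rw [contDiff_pi]
  intro w
  let Lz : realSpace K →L[ℝ] realSpace K :=
    ContinuousLinearMap.pi fun w' => if w' = w₀ then 0 else ContinuousLinearMap.proj w'
  let L : realSpace K →L[ℝ] ℝ :=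
    (ContinuousLinearMap.proj w).comp
      (((completeBasis K).equivFunL.symm : realSpace K →L[ℝ] realSpace K).comp Lz)
  have hfun : (fun t => an2Phi K t w)
      = fun t : realSpace K => t w₀ * Real.exp ((w.mult : ℝ)⁻¹ * L t) := by
    ext t
    simp only [an2Phi, Pi.smul_apply, smul_eq_mul, expMapBasis_apply, expMap_apply]
    have e : ((completeBasis K).equivFunL.symm : realSpace K →L[ℝ] realSpace K) (Lz t)
        = (completeBasis K).equivFun.symm (fun w => if w = w₀ then 0 else t w) := by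
      show (completeBasis K).equivFun.symm (Lz t) = _
      congr 1
      ext w'
      simp only [Lz, ContinuousLinearMap.pi_apply]
      split_ifs <;> simp
    simp only [L, ContinuousLinearMap.comp_apply, ContinuousLinearMap.proj_apply]
    rw [e]
  rw [hfun]
  exact (contDiff_apply ℝ ℝ w₀).mul (Real.contDiff_exp.comp (contDiff_const.mul L.contDiff))

open scoped Classical in
lemma an2Phi_lipschitz :
    ∃ Lc : NNReal, LipschitzOnWith Lc (an2Phi K) (Set.univ.pi fun _ => Set.Icc (0:ℝ) 1) :=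
  LocallyLipschitzOn.exists_lipschitzOnWith_of_compact
    (isCompact_univ_pi fun _ => isCompact_Icc)
    (an2Phi_contDiff K).locallyLipschitz.locallyLipschitzOn

open scoped Classical in
lemma an2Phi_bound :
    ∃ R : ℝ, ∀ t ∈ (Set.univ.pi fun _ => Set.Icc (0:ℝ) 1 : Set (realSpace K)),
      ∀ w, |an2Phi K t w| ≤ R := by
  obtain ⟨R, hR⟩ := (isCompact_univ_pi fun _ : InfinitePlace K => isCompact_Icc (a := (0:ℝ))
    (b := 1)).exists_bound_of_continuousOn (an2Phi_contDiff K).continuous.continuousOn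
  exact ⟨R, fun t ht w => (norm_le_pi_norm (an2Phi K t) w).trans (hR t ht)⟩

open scoped Classical in
lemma an2_boundary_subset (x : realSpace K) (hx : x ∈ compactSet K)
    (hx' : x ∉ expMapBasis '' interior (paramSet K)) :
    ∃ t : realSpace K, (∀ w, t w ∈ Set.Icc (0:ℝ) 1) ∧ (∃ w, t w = 0 ∨ t w = 1) ∧
      an2Phi K t = x := by
  obtain ⟨c, hc, _, ⟨y, hy, rfl⟩, rfl⟩ := hx
  have hy0 : y w₀ = 0 := by simpa using hy w₀ (Set.mem_univ _)
  have hyw : ∀ w, w ≠ w₀ → y w ∈ Set.Icc (0:ℝ) 1 := fun w hw => by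
    simpa [hw] using hy w (Set.mem_univ _)
  let t : realSpace K := fun w => if w = w₀ then c else y w
  have ht : ∀ w, t w ∈ Set.Icc (0:ℝ) 1 := by
    intro w
    by_cases h : w = w₀
    · simp only [t, if_pos h]; exact hc
    · simp only [t, if_neg h]; exact hyw w h
  have hΦ : an2Phi K t = c • expMapBasis y := by
    simp only [an2Phi, t, if_pos]
    congr 2
    ext w
    split_ifs with h
    · rw [h, hy0]
    · rfl
  refine ⟨t, ht, ?_, hΦ⟩
  by_contra hcon
  push Not at hcon
  apply hx'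
  have hc0 : 0 < c := lt_of_le_of_ne hc.1 (by
    have := (hcon w₀).1; simp only [t, if_pos] at this; exact Ne.symm this)
  have hc1 : c < 1 := lt_of_le_of_ne hc.2 (by
    have := (hcon w₀).2; simp only [t, if_pos] at this; exact this)
  refine ⟨fun w => if w = w₀ then Real.log c else y w, ?_, ?_⟩
  · rw [interior_paramSet, Set.mem_univ_pi]
    intro w
    by_cases h : w = w₀
    · simp only [if_pos h]
      exact Real.log_neg hc0 hc1
    · simp only [if_neg h]
      have h1 := hcon w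
      simp only [t, if_neg h] at h1
      exact ⟨lt_of_le_of_ne (hyw w h).1 (Ne.symm h1.1), lt_of_le_of_ne (hyw w h).2 h1.2⟩
  · show expMapBasis (fun w => if w = w₀ then Real.log c else y w) = c • expMapBasis y
    rw [expMapBasis_apply'', if_pos rfl, Real.exp_log hc0]
    congr 2
    ext w
    by_cases h : w = w₀
    · simp only [if_pos h]; rw [h, hy0]
    · simp only [if_neg h]

/-- The centre attached to a point `b` of the real space, signs `ε` and angles `k`. -/
noncomputable def an2Center (N : ℕ) (b : realSpace K)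
    (ε : {w : InfinitePlace K // IsReal w} → Bool)
    (k : {w : InfinitePlace K // IsComplex w} → Fin N) : mixedSpace K :=
  (fun w => (if ε w then 1 else -1) * b w.1,
   fun w => (b w.1 : ℂ) * Complex.exp (2 * Real.pi * Complex.I * (((k w : ℕ) : ℝ) / N : ℝ)))

open scoped Classical in
lemma an2_center_close (N : ℕ) (hN : 0 < N) (x : mixedSpace K) (b : realSpace K) (δ R : ℝ)
    (hδ : 0 ≤ δ) (hR : ∀ w, |b w| ≤ R) (hb : ‖normAtAllPlaces x - b‖ ≤ δ) :
    ∃ ε k, ‖x - an2Center K N b ε k‖ ≤ δ + R * (2 * Real.pi / N) := by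
  have hN' : (0:ℝ) < N := Nat.cast_pos.mpr hN
  have hb' : ∀ w, |normAtPlace w x - b w| ≤ δ := by
    intro w
    have := (pi_norm_le_iff_of_nonneg hδ).mp hb w
    simpa using this
  have hR0 : 0 ≤ R := (abs_nonneg _).trans (hR w₀)
  have hu : ∀ w : {w : InfinitePlace K // IsComplex w}, ∃ u : ℂ, ‖u‖ = 1 ∧
      x.2 w = ((‖x.2 w‖ : ℝ) : ℂ) * u := by
    intro w
    by_cases h : x.2 w = 0
    · exact ⟨1, by simp, by simp [h]⟩
    · have h' : ((‖x.2 w‖ : ℝ) : ℂ) ≠ 0 := by exact_mod_cast norm_ne_zero_iff.mpr h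
      refine ⟨x.2 w / ((‖x.2 w‖ : ℝ) : ℂ), ?_, ?_⟩
      · rw [norm_div, Complex.norm_real, norm_norm, div_self (norm_ne_zero_iff.mpr h)]
      · rw [mul_div_cancel₀ _ h']
  choose u hu1 hu2 using hu
  have hk := fun w => an2_angle N hN (u w) (hu1 w)
  choose k hk using hk
  refine ⟨fun w => decide (0 ≤ x.1 w), k, ?_⟩
  have hD : 0 ≤ δ + R * (2 * Real.pi / N) := by positivity
  rw [Prod.norm_def, max_le_iff]
  constructor
  · rw [pi_norm_le_iff_of_nonneg hD]
    intro w
    have h1 := hb' w.1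
    rw [normAtPlace_apply_of_isReal w.2] at h1
    have h2 : 0 ≤ R * (2 * Real.pi / N) := by positivity
    simp only [an2Center, Prod.fst_sub, Pi.sub_apply, Real.norm_eq_abs] at h1 ⊢
    by_cases h : 0 ≤ x.1 w
    · simp only [h, decide_true, if_true, one_mul]
      rw [abs_of_nonneg h] at h1
      linarith
    · simp only [h, decide_false, Bool.false_eq_true, if_false]
      rw [abs_of_neg (not_le.mp h)] at h1
      have : x.1 w - -1 * b w.1 = -(-x.1 w - b w.1) := by ring
      rw [this, abs_neg]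
      linarith
  · rw [pi_norm_le_iff_of_nonneg hD]
    intro w
    have h1 := hb' w.1
    rw [normAtPlace_apply_of_isComplex w.2] at h1
    simp only [an2Center, Prod.snd_sub, Pi.sub_apply]
    set E := Complex.exp (2 * Real.pi * Complex.I * (((k w : ℕ) : ℝ) / N : ℝ)) with hE
    have e1 : x.2 w - (b w.1 : ℂ) * E
        = ((‖x.2 w‖ - b w.1 : ℝ) : ℂ) * u w + (b w.1 : ℂ) * (u w - E) := by
      conv_lhs => rw [hu2 w]
      push_cast
      ring
    rw [e1]
    calc ‖((‖x.2 w‖ - b w.1 : ℝ) : ℂ) * u w + (b w.1 : ℂ) * (u w - E)‖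
        ≤ ‖((‖x.2 w‖ - b w.1 : ℝ) : ℂ) * u w‖ + ‖(b w.1 : ℂ) * (u w - E)‖ := norm_add_le _ _
      _ = |‖x.2 w‖ - b w.1| * 1 + |b w.1| * ‖u w - E‖ := by
        rw [norm_mul, norm_mul, Complex.norm_real, Complex.norm_real, hu1 w, Real.norm_eq_abs,
          Real.norm_eq_abs]
      _ ≤ δ * 1 + R * (2 * Real.pi / N) := by
        gcongr
        · exact hR _
        · exact hk w
      _ = δ + R * (2 * Real.pi / N) := by ring


end NF

open NumberField.mixedEmbedding NumberField.mixedEmbedding.fundamentalCone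
  NumberField.mixedEmbedding.euclidean in
open scoped Classical in
theorem normLeOne_frontier_cover (F : Type*) [Field F] [NumberField F] :
    ∃ C₀ ρ : ℝ, ∀ N : ℕ, 0 < N → ∃ T : Finset (euclidean.mixedSpace F),
      (T.card : ℝ) ≤ C₀ * (N : ℝ) ^ (Module.finrank ℚ F - 1) ∧
      frontier ((toMixed F) ⁻¹' (normLeOne F)) ⊆ ⋃ x ∈ T, Metric.closedBall x (ρ / N) := by
  obtain ⟨Lc, hLc⟩ := an2Phi_lipschitz F
  obtain ⟨R, hR⟩ := an2Phi_bound F
  let S : (mixedSpace F) →L[ℝ] euclidean.mixedSpace F :=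
    ((toMixed F).symm : mixedSpace F →L[ℝ] euclidean.mixedSpace F)
  refine ⟨2 * Fintype.card (InfinitePlace F) * 2 ^ InfinitePlace.nrRealPlaces F,
    ‖S‖ * ((Lc : ℝ) + R * (2 * Real.pi)), fun N hN => ?_⟩
  have hN' : (0:ℝ) < N := Nat.cast_pos.mpr hN
  have hG := fun (q : InfinitePlace F × ℝ) =>
    an2_face_cover (ι := InfinitePlace F) N hN q.1 q.2
  choose G hGcard hGmem hGcov using hG
  let TB : Finset (realSpace F) :=
    ((Finset.univ : Finset (InfinitePlace F)) ×ˢ ({0, 1} : Finset ℝ)).biUnion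
      (fun q => (G q).image (an2Phi F))
  let T : Finset (euclidean.mixedSpace F) :=
    (TB ×ˢ ((Finset.univ : Finset ({w : InfinitePlace F // InfinitePlace.IsReal w} → Bool)) ×ˢ
      (Finset.univ : Finset ({w : InfinitePlace F // InfinitePlace.IsComplex w} → Fin N)))).image
      (fun q => S (an2Center F N q.1 q.2.1 q.2.2))
  refine ⟨T, ?_, ?_⟩
  · -- cardinality
    have h1 : TB.card ≤ (Fintype.card (InfinitePlace F) * 2) *
        N ^ (Fintype.card (InfinitePlace F) - 1) := by
      refine Finset.card_biUnion_le.trans ?_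
      refine (Finset.sum_le_card_nsmul _ _ (N ^ (Fintype.card (InfinitePlace F) - 1))
        (fun q _ => Finset.card_image_le.trans (hGcard q))).trans ?_
      rw [Finset.card_product, Finset.card_univ, smul_eq_mul]
      gcongr
      exact Finset.card_le_two
    have h2 : T.card ≤ TB.card *
        (2 ^ InfinitePlace.nrRealPlaces F * N ^ InfinitePlace.nrComplexPlaces F) := by
      refine Finset.card_image_le.trans ?_
      rw [Finset.card_product, Finset.card_product, Finset.card_univ, Finset.card_univ,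
        Fintype.card_fun, Fintype.card_fun, Fintype.card_bool, Fintype.card_fin]
    have h3 : Fintype.card (InfinitePlace F) - 1 + InfinitePlace.nrComplexPlaces F
        = Module.finrank ℚ F - 1 := by
      have e1 := InfinitePlace.card_eq_nrRealPlaces_add_nrComplexPlaces F
      have e2 := InfinitePlace.card_add_two_mul_card_eq_rank F
      have e3 : 0 < Fintype.card (InfinitePlace F) := Fintype.card_pos
      omega
    calc (T.card : ℝ) ≤ (((Fintype.card (InfinitePlace F) * 2) *
          N ^ (Fintype.card (InfinitePlace F) - 1) *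
          (2 ^ InfinitePlace.nrRealPlaces F * N ^ InfinitePlace.nrComplexPlaces F) : ℕ) : ℝ) := by
          exact_mod_cast h2.trans (Nat.mul_le_mul_right _ h1)
      _ = 2 * Fintype.card (InfinitePlace F) * 2 ^ InfinitePlace.nrRealPlaces F *
          (N : ℝ) ^ (Module.finrank ℚ F - 1) := by
          rw [← h3, pow_add]; push_cast; ring
  · intro x' hx'
    have hxfr : toMixed F x' ∈ frontier (normLeOne F) := by
      have : x' ∈ (toMixed F) ⁻¹' frontier (normLeOne F) := by
        rw [show ((toMixed F) ⁻¹' frontier (normLeOne F))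
          = frontier ((toMixed F) ⁻¹' normLeOne F) from
            (toMixed F).toHomeomorph.preimage_frontier _]
        exact hx'
      exact this
    set x := toMixed F x' with hx
    have hx1 : normAtAllPlaces x ∈ compactSet F :=
      closure_normLeOne_subset F (frontier_subset_closure hxfr)
    have hx2 : normAtAllPlaces x ∉ expMapBasis '' interior (paramSet F) := by
      intro h
      exact hxfr.2 (subset_interior_normLeOne F h)
    obtain ⟨t, ht, ⟨w', hw'⟩, hΦ⟩ := an2_boundary_subset F _ hx1 hx2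
    obtain ⟨e, he, hte⟩ : ∃ e : ℝ, e ∈ ({0, 1} : Finset ℝ) ∧ t w' = e := by
      rcases hw' with h | h
      · exact ⟨0, by simp, h⟩
      · exact ⟨1, by simp, h⟩
    obtain ⟨g, hg, hgt⟩ := hGcov (w', e) t hte ht
    have hgc : g ∈ (Set.univ.pi fun _ => Set.Icc (0:ℝ) 1 : Set (realSpace F)) := by
      intro w _
      by_cases h : w = w'
      · rw [h, (hGmem (w', e) g hg).1]
        simp only [Finset.mem_insert, Finset.mem_singleton] at he
        rcases he with rfl | rfl <;> simp
      · exact (hGmem (w', e) g hg).2 w h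
    have htc : t ∈ (Set.univ.pi fun _ => Set.Icc (0:ℝ) 1 : Set (realSpace F)) :=
      fun w _ => ht w
    have hb : ‖normAtAllPlaces x - an2Phi F g‖ ≤ (Lc : ℝ) / N := by
      rw [← hΦ, ← dist_eq_norm]
      refine (hLc.dist_le_mul t htc g hgc).trans ?_
      rw [dist_eq_norm, div_eq_mul_one_div]
      gcongr
    obtain ⟨ε, k, hεk⟩ := an2_center_close F N hN x (an2Phi F g) ((Lc : ℝ) / N) R
      (by positivity) (hR g hgc) hb
    have hmem : S (an2Center F N (an2Phi F g) ε k) ∈ T := by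
      refine Finset.mem_image.mpr ⟨(an2Phi F g, ε, k), ?_, rfl⟩
      simp only [Finset.mem_product, Finset.mem_univ, and_true]
      exact Finset.mem_biUnion.mpr ⟨(w', e), by simp [he], Finset.mem_image_of_mem _ hg⟩
    refine Set.mem_iUnion₂.mpr ⟨_, hmem, ?_⟩
    rw [Metric.mem_closedBall, dist_eq_norm]
    have hxS : x' = S x := by simp [S, hx]
    rw [hxS, ← map_sub]
    refine (S.le_opNorm _).trans ?_
    calc ‖S‖ * ‖x - an2Center F N (an2Phi F g) ε k‖
        ≤ ‖S‖ * ((Lc : ℝ) / N + R * (2 * Real.pi / N)) := by gcongr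
      _ = ‖S‖ * ((Lc : ℝ) + R * (2 * Real.pi)) / N := by ring

end Fermat.Agent.S14
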