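/-
S14 project, package AN3: ideal counting in a class with an error term (from the Lipschitz
principle AN1 and the covering of the frontier of `normLeOne` AN2), and boundedness of the class
`L`-series of a nontrivial character on `(1, 2]`.
The statements `classL_summable` and `classL_one_tendsto` are in `ClassCountBase.lean`.
-/
import Fermat.Agent.S14.ClassCountBase
import Fermat.Agent.S14.LipCount
import Fermat.Agent.S14.NormLeOneCover

set_option autoImplicit false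

namespace Fermat.Agent.S14

open Ideal NumberField NumberField.InfinitePlace NumberField.mixedEmbedding
  NumberField.mixedEmbedding.euclidean NumberField.mixedEmbedding.fundamentalCone Submodule
  NumberField.Units
open scoped nonZeroDivisors Real

section Count

variable (K : Type*) [Field K] [NumberField K]
variable {C : ClassGroup (𝓞 K)} {J : (Ideal (𝓞 K))⁰} {s : ℝ}

theorem an3_aux₁ (hJ : ClassGroup.mk0 J = C⁻¹) :
    Nat.card {I : (Ideal (𝓞 K))⁰ // absNorm (I : Ideal (𝓞 K)) ≤ s ∧ ClassGroup.mk0 I = C}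
      = Nat.card {I : (Ideal (𝓞 K))⁰ // (J : Ideal (𝓞 K)) ∣ I ∧ IsPrincipal (I : Ideal (𝓞 K)) ∧
        absNorm (I : Ideal (𝓞 K)) ≤ s * absNorm (J : Ideal (𝓞 K))} := by
  simp_rw [← nonZeroDivisors_dvd_iff_dvd_coe]
  refine Nat.card_congr ?_
  refine ((Equiv.dvd J).subtypeEquiv fun I ↦ ?_).trans
    (Equiv.subtypeSubtypeEquivSubtypeInter (fun I : (Ideal (𝓞 K))⁰ ↦ J ∣ I) _)
  rw [← ClassGroup.mk0_eq_one_iff (SetLike.coe_mem _)]
  simp_rw [Equiv.dvd_apply, Submonoid.coe_mul, ← Submonoid.mul_def, _root_.map_mul, hJ,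
    inv_mul_eq_one, Nat.cast_mul, mul_comm s, eq_comm, and_comm, and_congr_left_iff]
  exact fun _ ↦
    (mul_le_mul_iff_of_pos_left (Nat.cast_pos.mpr (absNorm_pos_of_nonZeroDivisors J))).symm

open scoped Classical in
noncomputable def an3_aux₂ :
    ↑({x | x ∈ (toMixed K) ⁻¹' fundamentalCone K ∧ mixedEmbedding.norm ((toMixed K) x) ≤ s} ∩
      (ZLattice.comap ℝ (idealLattice K ((FractionalIdeal.mk0 K) J)) (toMixed K).toLinearMap))
        ≃ {a : idealSet K J // mixedEmbedding.norm (a : mixedSpace K) ≤ s} := by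
  rw [ZLattice.coe_comap]
  refine (((toMixed K).toEquiv.image _).trans (Equiv.subtypeEquivProp ?_)).trans
    (Equiv.subtypeSubtypeEquivSubtypeInter _ (mixedEmbedding.norm · ≤ s)).symm
  ext
  simp_rw [mem_idealSet, Set.mem_image, Set.mem_inter_iff, Set.mem_preimage, SetLike.mem_coe,
    mem_idealLattice, FractionalIdeal.coe_mk0]
  constructor
  · rintro ⟨_, ⟨⟨hx₁, hx₂⟩, _, ⟨x, hx₃, rfl⟩, h⟩, rfl⟩
    exact ⟨⟨hx₁, x, hx₃, h⟩, hx₂⟩
  · rintro ⟨⟨hx₁, ⟨x, hx₂, rfl⟩⟩, hx₃⟩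
    exact ⟨(toMixed K).symm (mixedEmbedding K x), ⟨⟨hx₁, hx₃⟩, ⟨(x : K), by simp [hx₂], rfl⟩⟩, rfl⟩

/-- the lattice-point count with error term, for the ideal lattice of `J` -/
theorem an3_lattice_count (J : (Ideal (𝓞 K))⁰) :
    ∃ A : ℝ, ∀ c : ℝ, 1 ≤ c →
      |(Nat.card {a : idealSet K J // mixedEmbedding.norm (a : mixedSpace K) ≤ c} : ℝ) -
        c * ((2 ^ nrRealPlaces K * (2 * π) ^ nrComplexPlaces K * regulator K) /
            (Real.sqrt |(discr K : ℝ)| * (absNorm (J : Ideal (𝓞 K)) : ℝ)))| ≤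
        A * c ^ (1 - 1 / (Module.finrank ℚ K : ℝ)) := by
  classical
  have h₁ : ∀ s : ℝ,
    {x | x ∈ toMixed K ⁻¹' fundamentalCone K ∧ mixedEmbedding.norm (toMixed K x) ≤ s} =
      toMixed K ⁻¹' {x | x ∈ fundamentalCone K ∧ mixedEmbedding.norm x ≤ s} := fun _ ↦ rfl
  have h₂ : {x | x ∈ fundamentalCone K ∧ mixedEmbedding.norm x ≤ 1} = normLeOne K := by ext; simp
  have h₃ : (absNorm J.1 : ℝ) ≠ 0 := (Nat.cast_ne_zero.mpr (absNorm_ne_zero_of_nonZeroDivisors J))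
  obtain ⟨C₀, ρ, hcov⟩ := normLeOne_frontier_cover K
  obtain ⟨A, hA⟩ := card_le_sub_le
    (ZLattice.comap ℝ (mixedEmbedding.idealLattice K (FractionalIdeal.mk0 K J))
      (toMixed K).toLinearMap)
    (F := fun x ↦ mixedEmbedding.norm (toMixed K x)) (X := (toMixed K) ⁻¹' (fundamentalCone K))
    (fun _ _ _ h ↦ by rwa [Set.mem_preimage, map_smul, smul_mem_iff_mem h.ne'])
    (fun _ _ h ↦ by rw [map_smul, mixedEmbedding.norm_smul, euclidean.finrank, abs_of_nonneg h])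
    ((toMixed K).antilipschitz.isBounded_preimage (isBounded_normLeOne K))
    ((toMixed K).continuous.measurable (measurableSet_normLeOne K)) C₀ ρ
    (fun N hN ↦ by
      obtain ⟨T, hT₁, hT₂⟩ := hcov N hN
      refine ⟨T, ?_, ?_⟩
      · rwa [euclidean.finrank]
      · rwa [h₁, h₂])
  refine ⟨A, fun c hc ↦ ?_⟩
  have := hA c hc
  rw [Nat.card_congr (an3_aux₂ K), euclidean.finrank] at this
  convert this using 4
  rw [h₁, h₂, MeasureTheory.measureReal_def, (volumePreserving_toMixed K).measure_preimage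
      (measurableSet_normLeOne K).nullMeasurableSet, volume_normLeOne, ZLattice.covolume_comap
      _ _ _ (volumePreserving_toMixed K), covolume_idealLattice, ENNReal.toReal_mul,
      ENNReal.toReal_mul, ENNReal.toReal_pow, ENNReal.toReal_pow, ENNReal.toReal_ofNat,
      ENNReal.coe_toReal, NNReal.coe_real_pi, ENNReal.toReal_ofReal (regulator_pos K).le,
      FractionalIdeal.coe_mk0, FractionalIdeal.coeIdeal_absNorm, Rat.cast_natCast]
  have h₄ : Real.sqrt |(discr K : ℝ)| ≠ 0 :=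
    (Real.sqrt_pos_of_pos <| abs_pos.mpr (Int.cast_ne_zero.mpr (discr_ne_zero K))).ne'
  rw [mul_pow, inv_pow]
  field_simp

end Count

theorem classCount_sub_le (F : Type*) [Field F] [NumberField F] (C : ClassGroup (𝓞 F)) :
    ∃ A : ℝ, ∀ s : ℝ, 1 ≤ s →
      |(Nat.card {I : nonZeroDivisors (Ideal (𝓞 F)) //
          Ideal.absNorm (I : Ideal (𝓞 F)) ≤ s ∧ ClassGroup.mk0 I = C} : ℝ) -
        s * ((2 ^ nrRealPlaces F * (2 * Real.pi) ^ nrComplexPlaces F * regulator F) /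
            (torsionOrder F * Real.sqrt |(discr F : ℝ)|))| ≤
        A * s ^ (1 - 1 / (Module.finrank ℚ F : ℝ)) := by
  obtain ⟨J, hJ⟩ := ClassGroup.mk0_surjective C⁻¹
  obtain ⟨A, hA⟩ := an3_lattice_count F J
  have hN : (1 : ℝ) ≤ (absNorm (J : Ideal (𝓞 F)) : ℝ) := by
    exact_mod_cast absNorm_pos_of_nonZeroDivisors J
  have hw : (0 : ℝ) < (torsionOrder F : ℝ) := Nat.cast_pos.mpr (torsionOrder_pos F)
  have hd : (0 : ℝ) ≤ 1 - 1 / (Module.finrank ℚ F : ℝ) := by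
    have : (1 : ℝ) ≤ (Module.finrank ℚ F : ℝ) := by
      exact_mod_cast Module.finrank_pos (R := ℚ) (M := F)
    rw [sub_nonneg, div_le_one (by linarith)]
    exact this
  refine ⟨|A| * (absNorm (J : Ideal (𝓞 F)) : ℝ) ^ (1 - 1 / (Module.finrank ℚ F : ℝ)) /
    (torsionOrder F : ℝ), fun s hs ↦ ?_⟩
  have hs0 : (0 : ℝ) ≤ s := by linarith
  have hc : (1 : ℝ) ≤ s * (absNorm (J : Ideal (𝓞 F)) : ℝ) := by nlinarith
  have h := hA _ hc
  rw [an3_aux₁ F hJ]
  rw [← card_isPrincipal_dvd_norm_le, Nat.cast_mul] at h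
  set n : ℝ := (Nat.card {I : (Ideal (𝓞 F))⁰ // (J : Ideal (𝓞 F)) ∣ I ∧
    IsPrincipal (I : Ideal (𝓞 F)) ∧
      absNorm (I : Ideal (𝓞 F)) ≤ s * absNorm (J : Ideal (𝓞 F))} : ℝ) with hn
  have hN0 : (absNorm (J : Ideal (𝓞 F)) : ℝ) ≠ 0 := by linarith
  have h₄ : Real.sqrt |(discr F : ℝ)| ≠ 0 :=
    (Real.sqrt_pos_of_pos <| abs_pos.mpr (Int.cast_ne_zero.mpr (discr_ne_zero F))).ne'
  have e1 : n - s * ((2 ^ nrRealPlaces F * (2 * Real.pi) ^ nrComplexPlaces F * regulator F) /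
            (torsionOrder F * Real.sqrt |(discr F : ℝ)|)) =
      (n * (torsionOrder F : ℝ) - s * (absNorm (J : Ideal (𝓞 F)) : ℝ) *
        ((2 ^ nrRealPlaces F * (2 * π) ^ nrComplexPlaces F * regulator F) /
            (Real.sqrt |(discr F : ℝ)| * (absNorm (J : Ideal (𝓞 F)) : ℝ)))) /
        (torsionOrder F : ℝ) := by
    field_simp
  rw [e1, abs_div, abs_of_pos hw, div_le_iff₀ hw]
  refine h.trans ?_
  rw [Real.mul_rpow hs0 (by linarith)]
  have h5 : 0 ≤ s ^ (1 - 1 / (Module.finrank ℚ F : ℝ)) := Real.rpow_nonneg hs0 _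
  have h6 : 0 ≤ (absNorm (J : Ideal (𝓞 F)) : ℝ) ^ (1 - 1 / (Module.finrank ℚ F : ℝ)) :=
    Real.rpow_nonneg (by linarith) _
  have h7 : A ≤ |A| := le_abs_self A
  calc A * (s ^ (1 - 1 / (Module.finrank ℚ F : ℝ)) *
        (absNorm (J : Ideal (𝓞 F)) : ℝ) ^ (1 - 1 / (Module.finrank ℚ F : ℝ)))
      ≤ |A| * (s ^ (1 - 1 / (Module.finrank ℚ F : ℝ)) *
        (absNorm (J : Ideal (𝓞 F)) : ℝ) ^ (1 - 1 / (Module.finrank ℚ F : ℝ))) :=
        mul_le_mul_of_nonneg_right h7 (mul_nonneg h5 h6)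
    _ = _ := by field_simp


theorem classL_bounded (F : Type*) [Field F] [NumberField F] (Ω : ClassGroup (𝓞 F) →* ℂˣ)
    (hΩ : Ω ≠ 1) : ∃ B : ℝ, ∀ s : ℝ, 1 < s → s ≤ 2 → ‖classL F Ω s‖ ≤ B := by
  classical
  have hd : (1 : ℝ) ≤ (Module.finrank ℚ F : ℝ) := by
    exact_mod_cast Module.finrank_pos (R := ℚ) (M := F)
  set r : ℝ := 1 - 1 / (Module.finrank ℚ F : ℝ) with hr
  have hr0 : 0 ≤ r := by
    rw [hr, sub_nonneg, div_le_one (by linarith)]
    exact hd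
  have hr1 : r < 1 := by
    rw [hr]
    have : 0 < 1 / (Module.finrank ℚ F : ℝ) := by positivity
    linarith
  choose A hA using fun C ↦ classCount_sub_le F C
  set A₀ : ℝ := ∑ C, |A C| with hA₀
  have hA₀0 : 0 ≤ A₀ := Finset.sum_nonneg fun _ _ ↦ abs_nonneg _
  -- the partial sums of the coefficients are `O(n ^ r)`
  have hS : ∀ n : ℕ, 1 ≤ n →
      ‖∑ k ∈ Finset.Icc 1 n, an3_coeff F Ω k‖ ≤ A₀ * (n : ℝ) ^ r := by
    intro n hn
    set κ₀ : ℝ := (2 ^ nrRealPlaces F * (2 * Real.pi) ^ nrComplexPlaces F * regulator F) /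
            (torsionOrder F * Real.sqrt |(discr F : ℝ)|) with hκ₀
    have h0 : ∑ C : ClassGroup (𝓞 F), (Ω C : ℂ) * (((n : ℝ) * κ₀ : ℝ) : ℂ) = 0 := by
      rw [← Finset.sum_mul, an3_sum_char Ω hΩ, zero_mul]
    rw [an3_sum_coeff, ← sub_zero (∑ C : ClassGroup (𝓞 F), _), ← h0, ← Finset.sum_sub_distrib]
    refine (norm_sum_le _ _).trans ?_
    rw [hA₀, Finset.sum_mul]
    refine Finset.sum_le_sum fun C _ ↦ ?_
    rw [← mul_sub, norm_mul, an3_norm_char, one_mul]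
    have h1 := hA C n (by exact_mod_cast hn)
    have h2 : ((Nat.card {I : (Ideal (𝓞 F))⁰ // (absNorm (I : Ideal (𝓞 F)) : ℝ) ≤ (n : ℝ) ∧
          ClassGroup.mk0 I = C} : ℂ) - (((n : ℝ) * κ₀ : ℝ) : ℂ)) =
        (((Nat.card {I : (Ideal (𝓞 F))⁰ // (absNorm (I : Ideal (𝓞 F)) : ℝ) ≤ (n : ℝ) ∧
          ClassGroup.mk0 I = C} : ℝ) - (n : ℝ) * κ₀ : ℝ) : ℂ) := by
      push_cast
      ring
    rw [h2, Complex.norm_real, Real.norm_eq_abs]
    refine h1.trans ?_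
    exact mul_le_mul_of_nonneg_right (le_abs_self _) (Real.rpow_nonneg (Nat.cast_nonneg _) _)
  have hO : (fun n : ℕ ↦ ∑ k ∈ Finset.Icc 1 n, an3_coeff F Ω k) =O[Filter.atTop]
      fun n ↦ (n : ℝ) ^ r := by
    refine Asymptotics.IsBigO.of_bound A₀ (Filter.eventually_atTop.mpr ⟨1, fun n hn ↦ ?_⟩)
    rw [Real.norm_of_nonneg (Real.rpow_nonneg (Nat.cast_nonneg _) _)]
    exact hS n hn
  refine ⟨2 * (A₀ / (1 - r)), fun s hs hs2 ↦ ?_⟩
  have hsr : r < s := hr1.trans hs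
  rw [an3_classL_eq Ω hs, LSeries_eq_mul_integral _ hr0 (by simpa using hsr)
    (an3_lseriesHasSum Ω hs).LSeriesSummable hO, norm_mul, Complex.norm_real,
    Real.norm_of_nonneg (by linarith)]
  have hint : MeasureTheory.IntegrableOn (fun t : ℝ ↦ A₀ * t ^ (r - s - 1)) (Set.Ioi 1) :=
    (integrableOn_Ioi_rpow_of_lt (by linarith) zero_lt_one).const_mul A₀
  have hle : ‖∫ t in Set.Ioi (1 : ℝ), (∑ k ∈ Finset.Icc 1 ⌊t⌋₊, an3_coeff F Ω k) *
      (t : ℂ) ^ (-((s : ℂ) + 1))‖ ≤ ∫ t in Set.Ioi (1 : ℝ), A₀ * t ^ (r - s - 1) := by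
    refine MeasureTheory.norm_integral_le_of_norm_le hint ?_
    refine (MeasureTheory.ae_restrict_iff' measurableSet_Ioi).mpr
      (Filter.Eventually.of_forall fun t ht ↦ ?_)
    have ht1 : (1 : ℝ) < t := ht
    have ht0 : (0 : ℝ) < t := by linarith
    have hfl : 1 ≤ ⌊t⌋₊ := Nat.le_floor (by exact_mod_cast ht1.le)
    rw [norm_mul, Complex.norm_cpow_eq_rpow_re_of_pos ht0]
    have hre : (-((s : ℂ) + 1)).re = -(s + 1) := by simp
    rw [hre]
    have h3 : ((⌊t⌋₊ : ℝ)) ^ r ≤ t ^ r :=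
      Real.rpow_le_rpow (Nat.cast_nonneg _) (Nat.floor_le ht0.le) hr0
    have h4 : t ^ (r - s - 1) = t ^ r * t ^ (-(s + 1)) := by
      rw [← Real.rpow_add ht0]
      congr 1
      ring
    rw [h4, ← mul_assoc]
    refine mul_le_mul_of_nonneg_right ?_ (Real.rpow_nonneg ht0.le _)
    exact (hS _ hfl).trans (mul_le_mul_of_nonneg_left h3 hA₀0)
  have hval : ∫ t in Set.Ioi (1 : ℝ), A₀ * t ^ (r - s - 1) = A₀ / (s - r) := by
    rw [MeasureTheory.integral_const_mul, integral_Ioi_rpow_of_lt (by linarith) zero_lt_one,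
      Real.one_rpow]
    have : s - r ≠ 0 := by linarith
    have : r - s - 1 + 1 ≠ 0 := by
      intro h
      apply this
      linarith
    field_simp
    ring
  rw [hval] at hle
  have h5 : A₀ / (s - r) ≤ A₀ / (1 - r) :=
    div_le_div_of_nonneg_left hA₀0 (by linarith) (by linarith)
  have h6 : 0 ≤ A₀ / (1 - r) := div_nonneg hA₀0 (by linarith)
  calc s * ‖∫ t in Set.Ioi (1 : ℝ), (∑ k ∈ Finset.Icc 1 ⌊t⌋₊, an3_coeff F Ω k) *
      (t : ℂ) ^ (-((s : ℂ) + 1))‖ ≤ s * (A₀ / (1 - r)) :=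
        mul_le_mul_of_nonneg_left (hle.trans h5) (by linarith)
    _ ≤ 2 * (A₀ / (1 - r)) := mul_le_mul_of_nonneg_right hs2 h6

end Fermat.Agent.S14
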