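/-
S14 project, package AN4: Euler product of the class-character L-series.

Main result: `classL_hasProd`.
-/
import Mathlib
import Fermat.Agent.S14.Defs

set_option autoImplicit false

open NumberField Filter Topology IsDedekindDomain

namespace Fermat.Agent.S14

section AN4

variable (F : Type*) [Field F] [NumberField F]

/-- The L-series defining the Dedekind zeta function is summable at real `s > 1`
(deduced from the class number formula of Mathlib). -/
theorem an4_lseriesSummable {s : ℝ} (hs : 1 < s) :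
    LSeriesSummable
      (fun n ↦ (Nat.card {I : Ideal (𝓞 F) // Ideal.absNorm I = n} : ℂ)) (s : ℂ) := by
  by_contra hns
  have h0 : ∀ t : ℝ, 1 < t → t ≤ s → dedekindZeta F (t : ℂ) = 0 := by
    intro t _ hts
    have hnt : ¬ LSeriesSummable
        (fun n ↦ (Nat.card {I : Ideal (𝓞 F) // Ideal.absNorm I = n} : ℂ)) (t : ℂ) :=
      fun h => hns (h.of_re_le_re (by simpa using hts))
    exact tsum_eq_zero_of_not_summable hnt
  have h1 := tendsto_sub_one_mul_dedekindZeta_nhdsGT F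
  have h2 : Tendsto (fun s : ℝ ↦ ((s : ℂ) - 1) * dedekindZeta F s) (𝓝[>] 1) (𝓝 0) := by
    refine tendsto_const_nhds.congr' ?_
    filter_upwards [Ioc_mem_nhdsGT hs] with t ht
    rw [h0 t ht.1 ht.2, mul_zero]
  have h3 := tendsto_nhds_unique h1 h2
  exact dedekindZeta_residue_ne_zero F (by exact_mod_cast h3)

/-- `∑ N(I)^(-s)` over the nonzero ideals converges for `s > 1`. -/
theorem an4_summable_norm {s : ℝ} (hs : 1 < s) :
    Summable (fun I : nonZeroDivisors (Ideal (𝓞 F)) =>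
      (Ideal.absNorm (I : Ideal (𝓞 F)) : ℝ) ^ (-s)) := by
  have hL := (an4_lseriesSummable F hs).norm
  simp only [LSeries.norm_term_eq] at hL
  let φ : nonZeroDivisors (Ideal (𝓞 F)) → ℕ := fun I => Ideal.absNorm (I : Ideal (𝓞 F))
  have hfin : ∀ n : ℕ, Finite {I : Ideal (𝓞 F) // Ideal.absNorm I = n} := fun n =>
    (Ideal.finite_setOfPred_absNorm_eq n).to_subtype
  have hinj : ∀ n : ℕ, Function.Injective
      (fun I : {I : nonZeroDivisors (Ideal (𝓞 F)) // φ I = n} =>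
        (⟨I.1.1, I.2⟩ : {I : Ideal (𝓞 F) // Ideal.absNorm I = n})) := by
    intro n I J h
    apply Subtype.ext
    apply Subtype.ext
    exact congrArg (fun x : {I : Ideal (𝓞 F) // Ideal.absNorm I = n} => x.1) h
  have hfin' : ∀ n : ℕ, Finite {I : nonZeroDivisors (Ideal (𝓞 F)) // φ I = n} := fun n =>
    haveI := hfin n
    Finite.of_injective _ (hinj n)
  refine (Equiv.sigmaFiberEquiv φ).summable_iff.mp ?_
  refine (summable_sigma_of_nonneg
    (fun x => Real.rpow_nonneg (Nat.cast_nonneg _) _)).mpr ⟨fun n => ?_, ?_⟩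
  · have := hfin' n
    exact Summable.of_finite
  · refine Summable.of_nonneg_of_le
      (fun n => tsum_nonneg fun _ => Real.rpow_nonneg (Nat.cast_nonneg _) _) (fun n => ?_) hL
    have := hfin n
    have := hfin' n
    have h1 : ∀ y : {I : nonZeroDivisors (Ideal (𝓞 F)) // φ I = n},
        (Ideal.absNorm (((Equiv.sigmaFiberEquiv φ) ⟨n, y⟩ :
          nonZeroDivisors (Ideal (𝓞 F))) : Ideal (𝓞 F)) : ℝ) ^ (-s) = (n : ℝ) ^ (-s) := by
      intro y
      have : Ideal.absNorm (y.1 : Ideal (𝓞 F)) = n := y.2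
      simp [Equiv.sigmaFiberEquiv, this]
    rw [tsum_congr h1, tsum_const, nsmul_eq_mul]
    by_cases hn : n = 0
    · subst hn
      have hempty : IsEmpty {I : nonZeroDivisors (Ideal (𝓞 F)) // φ I = 0} := by
        refine ⟨fun I => ?_⟩
        exact nonZeroDivisors.coe_ne_zero I.1 (Ideal.absNorm_eq_zero_iff.mp I.2)
      simp
    · rw [if_neg hn, Complex.norm_natCast, Complex.ofReal_re, Real.rpow_neg (Nat.cast_nonneg _),
        div_eq_mul_inv]
      gcongr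
      exact Nat.card_le_card_of_injective _ (hinj n)

/-- Characters of the (finite) class group take values of norm one. -/
theorem an4_norm_char (Ω : ClassGroup (𝓞 F) →* ℂˣ) (c : ClassGroup (𝓞 F)) :
    ‖(Ω c : ℂ)‖ = 1 := by
  have h1 : c ^ Fintype.card (ClassGroup (𝓞 F)) = 1 := pow_card_eq_one
  have h2 : (Ω c : ℂ) ^ Fintype.card (ClassGroup (𝓞 F)) = 1 := by
    rw [← Units.val_pow_eq_pow_val, ← map_pow, h1, map_one, Units.val_one]
  exact Complex.norm_eq_one_of_pow_eq_one h2 Fintype.card_ne_zero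

/-- The general term of `classL`, as a monoid homomorphism on nonzero ideals. -/
noncomputable def an4_term (Ω : ClassGroup (𝓞 F) →* ℂˣ) (s : ℝ) :
    nonZeroDivisors (Ideal (𝓞 F)) →* ℂ where
  toFun I := (Ω (ClassGroup.mk0 I) : ℂ) *
    (((Ideal.absNorm (I : Ideal (𝓞 F)) : ℝ) ^ (-s) : ℝ) : ℂ)
  map_one' := by simp
  map_mul' I J := by
    simp only [map_mul, Units.val_mul, Submonoid.coe_mul, Nat.cast_mul]
    rw [Real.mul_rpow (Nat.cast_nonneg _) (Nat.cast_nonneg _), Complex.ofReal_mul]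
    ring

theorem an4_term_apply (Ω : ClassGroup (𝓞 F) →* ℂˣ) (s : ℝ)
    (I : nonZeroDivisors (Ideal (𝓞 F))) :
    an4_term F Ω s I = (Ω (ClassGroup.mk0 I) : ℂ) *
      (((Ideal.absNorm (I : Ideal (𝓞 F)) : ℝ) ^ (-s) : ℝ) : ℂ) := rfl

theorem an4_norm_term (Ω : ClassGroup (𝓞 F) →* ℂˣ) (s : ℝ)
    (I : nonZeroDivisors (Ideal (𝓞 F))) :
    ‖an4_term F Ω s I‖ = (Ideal.absNorm (I : Ideal (𝓞 F)) : ℝ) ^ (-s) := by
  rw [an4_term_apply, norm_mul, an4_norm_char, one_mul, Complex.norm_real,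
    Real.norm_of_nonneg (Real.rpow_nonneg (Nat.cast_nonneg _) _)]

theorem an4_summable_norm_term (Ω : ClassGroup (𝓞 F) →* ℂˣ) {s : ℝ} (hs : 1 < s) :
    Summable (fun I : nonZeroDivisors (Ideal (𝓞 F)) => ‖an4_term F Ω s I‖) := by
  simp only [an4_norm_term]
  exact an4_summable_norm F hs

theorem an4_summable_term (Ω : ClassGroup (𝓞 F) →* ℂˣ) {s : ℝ} (hs : 1 < s) :
    Summable (fun I : nonZeroDivisors (Ideal (𝓞 F)) => an4_term F Ω s I) :=
  (an4_summable_norm_term F Ω hs).of_norm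

/-- A height one prime as a nonzero ideal. -/
noncomputable def an4_prime (𝔭 : HeightOneSpectrum (𝓞 F)) : nonZeroDivisors (Ideal (𝓞 F)) :=
  ⟨𝔭.asIdeal, mem_nonZeroDivisors_of_ne_zero 𝔭.ne_bot⟩

theorem an4_norm_term_prime_lt_one (Ω : ClassGroup (𝓞 F) →* ℂˣ) {s : ℝ} (hs : 1 < s)
    (𝔭 : HeightOneSpectrum (𝓞 F)) : ‖an4_term F Ω s (an4_prime F 𝔭)‖ < 1 := by
  rw [an4_norm_term]
  have h0 : Ideal.absNorm 𝔭.asIdeal ≠ 0 := fun h => 𝔭.ne_bot (Ideal.absNorm_eq_zero_iff.mp h)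
  have h1 : Ideal.absNorm 𝔭.asIdeal ≠ 1 := fun h =>
    𝔭.isPrime.ne_top (Ideal.absNorm_eq_one_iff.mp h)
  have h2 : (1 : ℝ) < (Ideal.absNorm 𝔭.asIdeal : ℝ) := by
    have : 1 < Ideal.absNorm 𝔭.asIdeal := by omega
    exact_mod_cast this
  exact Real.rpow_lt_one_of_one_lt_of_neg h2 (by linarith)

/-- The nonzero ideals all of whose prime factors lie in `S`. -/
def an4_supp (S : Finset (HeightOneSpectrum (𝓞 F))) : Set (nonZeroDivisors (Ideal (𝓞 F))) :=
  {I | ∀ 𝔭 : HeightOneSpectrum (𝓞 F), (I : Ideal (𝓞 F)) ≤ 𝔭.asIdeal → 𝔭 ∈ S}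

omit [NumberField F] in
theorem an4_supp_empty : an4_supp F ∅ = {1} := by
  ext I
  simp only [an4_supp, Set.mem_ofPred_eq, Finset.notMem_empty, imp_false, Set.mem_singleton_iff]
  constructor
  · intro h
    by_contra hI
    have hI' : (I : Ideal (𝓞 F)) ≠ ⊤ := fun h' =>
      hI (Subtype.ext (by simpa [Ideal.one_eq_top] using h'))
    obtain ⟨𝔪, h𝔪, hle⟩ := Ideal.exists_le_maximal _ hI'
    have hIne : (I : Ideal (𝓞 F)) ≠ ⊥ := nonZeroDivisors.coe_ne_zero I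
    have h𝔪ne : 𝔪 ≠ ⊥ := fun h0 => hIne (le_bot_iff.mp (h0 ▸ hle))
    exact h ⟨𝔪, h𝔪.isPrime, h𝔪ne⟩ hle
  · rintro rfl 𝔭 hle
    exact 𝔭.isPrime.ne_top (top_le_iff.mp (by simpa [Ideal.one_eq_top] using hle))

variable {F}

/-- Multiplication by a power of a new prime. -/
noncomputable def an4_mulMap (𝔭 : HeightOneSpectrum (𝓞 F)) (S : Finset (HeightOneSpectrum (𝓞 F)))
    (h : 𝔭 ∉ S) (x : ℕ × an4_supp F S) : an4_supp F (Finset.cons 𝔭 S h) :=
  ⟨an4_prime F 𝔭 ^ x.1 * x.2.1, by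
    intro 𝔮 hle
    have hle' : 𝔭.asIdeal ^ x.1 * (x.2.1 : Ideal (𝓞 F)) ≤ 𝔮.asIdeal := by
      simpa [an4_prime] using hle
    rcases (𝔮.isPrime.mul_le).mp hle' with h1 | h2
    · have h3 : 𝔭.asIdeal ≤ 𝔮.asIdeal := 𝔮.isPrime.le_of_pow_le h1
      have h4 : 𝔭 = 𝔮 := HeightOneSpectrum.ext (𝔭.isMaximal.eq_of_le 𝔮.isPrime.ne_top h3)
      subst h4
      exact Finset.mem_cons_self _ _
    · exact Finset.mem_cons.mpr (Or.inr (x.2.2 𝔮 h2))⟩

theorem an4_mulMap_coe (𝔭 : HeightOneSpectrum (𝓞 F)) (S : Finset (HeightOneSpectrum (𝓞 F)))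
    (h : 𝔭 ∉ S) (x : ℕ × an4_supp F S) :
    ((an4_mulMap 𝔭 S h x : an4_supp F (Finset.cons 𝔭 S h)) : nonZeroDivisors (Ideal (𝓞 F)))
      = an4_prime F 𝔭 ^ x.1 * x.2.1 := rfl

theorem an4_mulMap_injective (𝔭 : HeightOneSpectrum (𝓞 F))
    (S : Finset (HeightOneSpectrum (𝓞 F))) (h : 𝔭 ∉ S) :
    Function.Injective (an4_mulMap 𝔭 S h) := by
  rintro ⟨n, J, hJ⟩ ⟨m, J', hJ'⟩ heq
  have heq' : 𝔭.asIdeal ^ n * (J : Ideal (𝓞 F)) = 𝔭.asIdeal ^ m * (J' : Ideal (𝓞 F)) := by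
    have h1 := congrArg (fun x : an4_supp F (Finset.cons 𝔭 S h) =>
      ((x : nonZeroDivisors (Ideal (𝓞 F))) : Ideal (𝓞 F))) heq
    simpa [an4_mulMap, an4_prime] using h1
  have hJ𝔭 : ¬ (J : Ideal (𝓞 F)) ≤ 𝔭.asIdeal := fun hle => h (hJ 𝔭 hle)
  have hJ'𝔭 : ¬ (J' : Ideal (𝓞 F)) ≤ 𝔭.asIdeal := fun hle => h (hJ' 𝔭 hle)
  have key : ∀ (a b : ℕ) (A B : Ideal (𝓞 F)), ¬ A ≤ 𝔭.asIdeal →
      𝔭.asIdeal ^ a * A = 𝔭.asIdeal ^ b * B → b ≤ a := by
    intro a b A B hA hAB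
    by_contra hlt
    replace hlt := not_le.mp hlt
    obtain ⟨k, rfl⟩ := Nat.exists_eq_add_of_lt hlt
    rw [pow_add, pow_add, mul_assoc, mul_assoc] at hAB
    have h2 := mul_left_cancel₀ (pow_ne_zero a 𝔭.ne_bot) hAB
    apply hA
    rw [h2, pow_one]
    exact Ideal.mul_le_right.trans Ideal.mul_le_left
  have hnm : n = m := le_antisymm (key m n J' J hJ'𝔭 heq'.symm) (key n m J J' hJ𝔭 heq')
  subst hnm
  have hJJ' : (J : Ideal (𝓞 F)) = J' := mul_left_cancel₀ (pow_ne_zero n 𝔭.ne_bot) heq'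
  have hJJ : J = J' := Subtype.ext hJJ'
  subst hJJ
  rfl

theorem an4_mulMap_surjective (𝔭 : HeightOneSpectrum (𝓞 F))
    (S : Finset (HeightOneSpectrum (𝓞 F))) (h : 𝔭 ∉ S) :
    Function.Surjective (an4_mulMap 𝔭 S h) := by
  rintro ⟨I, hI⟩
  have hI0 : (I : Ideal (𝓞 F)) ≠ 0 := nonZeroDivisors.coe_ne_zero I
  have hfin : FiniteMultiplicity 𝔭.asIdeal (I : Ideal (𝓞 F)) :=
    FiniteMultiplicity.of_not_isUnit (by rw [Ideal.isUnit_iff]; exact 𝔭.isPrime.ne_top) hI0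
  obtain ⟨J, hJ, hnd⟩ := hfin.exists_eq_pow_mul_and_not_dvd
  have hJ0 : J ≠ 0 := by
    rintro rfl
    exact hI0 (by rw [hJ, mul_zero])
  refine ⟨(multiplicity 𝔭.asIdeal (I : Ideal (𝓞 F)),
    ⟨⟨J, mem_nonZeroDivisors_of_ne_zero hJ0⟩, ?_⟩), Subtype.ext (Subtype.ext ?_)⟩
  · intro 𝔮 hle
    have hle' : J ≤ 𝔮.asIdeal := hle
    have h1 : (I : Ideal (𝓞 F)) ≤ 𝔮.asIdeal := by
      rw [hJ]
      exact Ideal.mul_le_right.trans hle'
    rcases Finset.mem_cons.mp (hI 𝔮 h1) with h2 | h2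
    · subst h2
      exact absurd (Ideal.dvd_iff_le.mpr hle') hnd
    · exact h2
  · simp [an4_mulMap, an4_prime, ← hJ]

variable (F)

/-- The sum of the general term over the ideals supported in `S` is the finite Euler product. -/
theorem an4_tsum_supp (Ω : ClassGroup (𝓞 F) →* ℂˣ) {s : ℝ} (hs : 1 < s)
    (S : Finset (HeightOneSpectrum (𝓞 F))) :
    ∑' I : an4_supp F S, an4_term F Ω s I =
      ∏ 𝔭 ∈ S, (1 - an4_term F Ω s (an4_prime F 𝔭))⁻¹ := by
  induction S using Finset.cons_induction with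
  | empty =>
    rw [Finset.prod_empty, an4_supp_empty, tsum_singleton (1 : nonZeroDivisors (Ideal (𝓞 F)))
      (fun I => an4_term F Ω s I), map_one]
  | cons 𝔭 S h ih =>
    rw [Finset.prod_cons, ← ih,
      ← tsum_geometric_of_norm_lt_one (an4_norm_term_prime_lt_one F Ω hs 𝔭)]
    have hsum : Summable (fun I : an4_supp F (Finset.cons 𝔭 S h) => an4_term F Ω s I) :=
      (an4_summable_term F Ω hs).subtype _
    have hsumS : Summable (fun I : an4_supp F S => an4_term F Ω s I) :=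
      (an4_summable_term F Ω hs).subtype _
    have hgeo : Summable (fun n : ℕ => an4_term F Ω s (an4_prime F 𝔭) ^ n) :=
      summable_geometric_of_norm_lt_one (an4_norm_term_prime_lt_one F Ω hs 𝔭)
    let e : ℕ × an4_supp F S ≃ an4_supp F (Finset.cons 𝔭 S h) :=
      Equiv.ofBijective _ ⟨an4_mulMap_injective 𝔭 S h, an4_mulMap_surjective 𝔭 S h⟩
    have hcomp : ∀ x : ℕ × an4_supp F S,
        an4_term F Ω s (e x) = an4_term F Ω s (an4_prime F 𝔭) ^ x.1 * an4_term F Ω s x.2 := by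
      intro x
      have : ((e x : an4_supp F (Finset.cons 𝔭 S h)) : nonZeroDivisors (Ideal (𝓞 F)))
          = an4_prime F 𝔭 ^ x.1 * x.2.1 := rfl
      rw [this, map_mul, map_pow]
    have hprod : Summable (fun x : ℕ × an4_supp F S =>
        an4_term F Ω s (an4_prime F 𝔭) ^ x.1 * an4_term F Ω s x.2) := by
      have := (e.summable_iff (f := fun I : an4_supp F (Finset.cons 𝔭 S h) =>
        an4_term F Ω s I)).mpr hsum
      exact this.congr hcomp
    rw [hgeo.tsum_mul_tsum hsumS hprod, ← e.tsum_eq]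
    exact tsum_congr hcomp

end AN4

/-- **Euler product** for the class-character L-series. -/
theorem classL_hasProd (F : Type*) [Field F] [NumberField F] (Ω : ClassGroup (𝓞 F) →* ℂˣ)
    {s : ℝ} (hs : 1 < s) :
    HasProd (fun 𝔭 : IsDedekindDomain.HeightOneSpectrum (𝓞 F) =>
      (1 - (Ω (primeClass 𝔭) : ℂ) * (((Ideal.absNorm 𝔭.asIdeal : ℝ) ^ (-s) : ℝ) : ℂ))⁻¹)
      (classL F Ω s) := by
  have hprod : ∀ S : Finset (HeightOneSpectrum (𝓞 F)),
      ∏ 𝔭 ∈ S, (1 - (Ω (primeClass 𝔭) : ℂ) *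
        (((Ideal.absNorm 𝔭.asIdeal : ℝ) ^ (-s) : ℝ) : ℂ))⁻¹ =
      ∑' I, (an4_supp F S).indicator (fun I => an4_term F Ω s I) I := by
    intro S
    rw [← tsum_subtype (an4_supp F S) (fun I => an4_term F Ω s I), an4_tsum_supp F Ω hs S]
    rfl
  rw [HasProd, SummationFilter.unconditional_filter]
  simp_rw [hprod]
  unfold classL
  refine tendsto_tsum_of_dominated_convergence (bound := fun I => ‖an4_term F Ω s I‖)
    (an4_summable_norm_term F Ω hs) ?_ ?_
  · intro I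
    have hfinite : {v : HeightOneSpectrum (𝓞 F) | v.asIdeal ∣ (I : Ideal (𝓞 F))}.Finite :=
      Ideal.finite_factors (nonZeroDivisors.coe_ne_zero I)
    refine tendsto_const_nhds.congr' ?_
    filter_upwards [eventually_ge_atTop hfinite.toFinset] with S hS
    rw [Set.indicator_of_mem]
    · rfl
    · intro 𝔮 hle
      exact hS (hfinite.mem_toFinset.mpr (Ideal.dvd_iff_le.mpr hle))
  · filter_upwards with S I
    exact norm_indicator_le_norm_self _ _

end Fermat.Agent.S14
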