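/-
S14 project, package AN5 (helper15): prime ideal sums.  Core lemmas, stated with the
analytic inputs (AN3: summability / boundedness / residue, AN4: Euler product) as hypotheses.
All names are prefixed `an5`.
-/
import Fermat.Agent.S14.Defs

set_option autoImplicit false

open NumberField IsDedekindDomain Filter Topology

namespace Fermat.Agent.S14

/-- termwise lower bound for an Euler factor -/
theorem an5_exp_le_norm_inv (z : ℂ) (hz : ‖z‖ ≤ 1 / 2) :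
    Real.exp (z.re - ‖z‖ ^ 2) ≤ ‖(1 - z)⁻¹‖ := by
  have hne : (1 : ℂ) - z ≠ 0 := by
    intro h
    have hz1 : z = 1 := by linear_combination -h
    rw [hz1] at hz
    norm_num at hz
  have hpos : 0 < ‖1 - z‖ := norm_pos_iff.mpr hne
  have hsq : ‖1 - z‖ ^ 2 ≤ Real.exp (-(z.re - ‖z‖ ^ 2)) ^ 2 := by
    have h1 : ‖1 - z‖ ^ 2 = 1 - 2 * z.re + ‖z‖ ^ 2 := by
      rw [Complex.sq_norm, Complex.sq_norm, Complex.normSq_apply, Complex.normSq_apply]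
      simp only [Complex.sub_re, Complex.one_re, Complex.sub_im, Complex.one_im]
      ring
    have h2 : Real.exp (-(z.re - ‖z‖ ^ 2)) ^ 2 = Real.exp (2 * (-(z.re - ‖z‖ ^ 2))) := by
      rw [← Real.exp_nat_mul]
      norm_num
    rw [h1, h2]
    have := Real.add_one_le_exp (2 * (-(z.re - ‖z‖ ^ 2)))
    nlinarith [sq_nonneg ‖z‖]
  have hle : ‖1 - z‖ ≤ Real.exp (-(z.re - ‖z‖ ^ 2)) :=
    (pow_le_pow_iff_left₀ hpos.le (Real.exp_pos _).le two_ne_zero).mp hsq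
  rw [norm_inv, le_inv_comm₀ (Real.exp_pos _) hpos, ← Real.exp_neg]
  exact hle

/-- termwise upper bound for a real Euler factor -/
theorem an5_inv_le_exp (x : ℝ) (h0 : 0 ≤ x) (h1 : x ≤ 1 / 2) :
    (1 - x)⁻¹ ≤ Real.exp (x + 2 * x ^ 2) := by
  have hpos : 0 < 1 - x := by linarith
  have hpos2 : 0 < 1 + (x + 2 * x ^ 2) := by positivity
  rw [inv_le_comm₀ hpos (Real.exp_pos _), ← Real.exp_neg]
  have h2 : Real.exp (-(x + 2 * x ^ 2)) ≤ (1 + (x + 2 * x ^ 2))⁻¹ := by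
    rw [Real.exp_neg]
    apply inv_anti₀ hpos2
    linarith [Real.add_one_le_exp (x + 2 * x ^ 2)]
  refine h2.trans ?_
  rw [inv_le_iff_one_le_mul₀ hpos2]
  nlinarith [mul_nonneg (sq_nonneg x) (by linarith : (0:ℝ) ≤ 1 - 2 * x)]

theorem an5_exp_le_inv (x : ℝ) (h1 : x < 1) : Real.exp x ≤ (1 - x)⁻¹ := by
  have hpos : 0 < 1 - x := by linarith
  rw [le_inv_comm₀ (Real.exp_pos _) hpos, ← Real.exp_neg]
  exact Real.one_sub_le_exp_neg x

theorem an5_exp_tsum_le_of_hasProd {ι : Type*} (f a : ι → ℝ) (L : ℝ) (hf : HasProd f L)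
    (ha : Summable a) (h : ∀ i, Real.exp (a i) ≤ f i) : Real.exp (∑' i, a i) ≤ L := by
  have h1 : Tendsto (fun T : Finset ι => Real.exp (∑ i ∈ T, a i)) atTop
      (𝓝 (Real.exp (∑' i, a i))) :=
    (Real.continuous_exp.tendsto _).comp (by simpa [HasSum] using ha.hasSum)
  have h2 : Tendsto (fun T : Finset ι => ∏ i ∈ T, f i) atTop (𝓝 L) := by
    simpa [HasProd] using hf
  refine le_of_tendsto_of_tendsto' h1 h2 fun T => ?_
  rw [Real.exp_sum]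
  exact Finset.prod_le_prod (fun i _ => (Real.exp_pos _).le) (fun i _ => h i)

theorem an5_le_exp_tsum_of_hasProd {ι : Type*} (f a : ι → ℝ) (L : ℝ) (hf : HasProd f L)
    (ha : Summable a) (h0 : ∀ i, 0 ≤ f i) (h : ∀ i, f i ≤ Real.exp (a i)) :
    L ≤ Real.exp (∑' i, a i) := by
  have h1 : Tendsto (fun T : Finset ι => Real.exp (∑ i ∈ T, a i)) atTop
      (𝓝 (Real.exp (∑' i, a i))) :=
    (Real.continuous_exp.tendsto _).comp (by simpa [HasSum] using ha.hasSum)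
  have h2 : Tendsto (fun T : Finset ι => ∏ i ∈ T, f i) atTop (𝓝 L) := by
    simpa [HasProd] using hf
  refine le_of_tendsto_of_tendsto' h2 h1 fun T => ?_
  rw [Real.exp_sum]
  exact Finset.prod_le_prod (fun i _ => h0 i) (fun i _ => h i)


/-- the nonzero ideal attached to a height one prime -/
noncomputable def an5Ideal {F : Type*} [Field F] [NumberField F]
    (𝔭 : HeightOneSpectrum (𝓞 F)) : nonZeroDivisors (Ideal (𝓞 F)) :=
  ⟨𝔭.asIdeal, mem_nonZeroDivisors_of_ne_zero 𝔭.ne_bot⟩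

theorem an5Ideal_coe {F : Type*} [Field F] [NumberField F]
    (𝔭 : HeightOneSpectrum (𝓞 F)) :
    ((an5Ideal 𝔭 : nonZeroDivisors (Ideal (𝓞 F))) : Ideal (𝓞 F)) = 𝔭.asIdeal := rfl

theorem an5Ideal_injective (F : Type*) [Field F] [NumberField F] :
    Function.Injective (an5Ideal (F := F)) := by
  intro 𝔭 𝔮 h
  apply HeightOneSpectrum.ext
  rw [← an5Ideal_coe 𝔭, ← an5Ideal_coe 𝔮, h]

/-- the term `N𝔭^{-s}` -/
noncomputable def an5X (F : Type*) [Field F] [NumberField F] (s : ℝ)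
    (𝔭 : HeightOneSpectrum (𝓞 F)) : ℝ := (Ideal.absNorm 𝔭.asIdeal : ℝ) ^ (-s)

/-- the real Dedekind zeta sum -/
noncomputable def an5Zeta (F : Type*) [Field F] [NumberField F] (s : ℝ) : ℝ :=
  ∑' I : nonZeroDivisors (Ideal (𝓞 F)), (Ideal.absNorm (I : Ideal (𝓞 F)) : ℝ) ^ (-s)

section basic

variable (F : Type*) [Field F] [NumberField F]

theorem an5_summable_of {s : ℝ}
    (h : Summable (fun I : nonZeroDivisors (Ideal (𝓞 F)) =>
      (Ideal.absNorm (I : Ideal (𝓞 F)) : ℝ) ^ (-s))) :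
    Summable (an5X F s) := by
  have h1 := h.comp_injective (an5Ideal_injective F)
  refine h1.congr fun 𝔭 => ?_
  rw [Function.comp_apply, an5Ideal_coe, an5X]

variable {F}

theorem an5_two_le_absNorm (𝔭 : HeightOneSpectrum (𝓞 F)) : 2 ≤ Ideal.absNorm 𝔭.asIdeal := by
  have h0 : Ideal.absNorm 𝔭.asIdeal ≠ 0 := by
    rw [Ne, Ideal.absNorm_eq_zero_iff]; exact 𝔭.ne_bot
  have h1 : Ideal.absNorm 𝔭.asIdeal ≠ 1 := by
    rw [Ne, Ideal.absNorm_eq_one_iff]; exact 𝔭.isPrime.ne_top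
  omega

theorem an5X_pos (s : ℝ) (𝔭 : HeightOneSpectrum (𝓞 F)) : 0 < an5X F s 𝔭 := by
  have h2 : (2 : ℝ) ≤ (Ideal.absNorm 𝔭.asIdeal : ℝ) := by exact_mod_cast an5_two_le_absNorm 𝔭
  exact Real.rpow_pos_of_pos (by linarith) _

theorem an5X_le_half {s : ℝ} (hs : 1 ≤ s) (𝔭 : HeightOneSpectrum (𝓞 F)) :
    an5X F s 𝔭 ≤ 1 / 2 := by
  have h2 : (2 : ℝ) ≤ (Ideal.absNorm 𝔭.asIdeal : ℝ) := by exact_mod_cast an5_two_le_absNorm 𝔭
  calc (Ideal.absNorm 𝔭.asIdeal : ℝ) ^ (-s) ≤ (2 : ℝ) ^ (-s) :=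
        Real.rpow_le_rpow_of_nonpos (by norm_num) h2 (by linarith)
    _ ≤ (2 : ℝ) ^ (-1 : ℝ) := Real.rpow_le_rpow_of_exponent_le (by norm_num) (by linarith)
    _ = 1 / 2 := by norm_num

theorem an5X_anti {s t : ℝ} (hst : s ≤ t) (𝔭 : HeightOneSpectrum (𝓞 F)) :
    an5X F t 𝔭 ≤ an5X F s 𝔭 := by
  have h2 : (2 : ℝ) ≤ (Ideal.absNorm 𝔭.asIdeal : ℝ) := by exact_mod_cast an5_two_le_absNorm 𝔭
  exact Real.rpow_le_rpow_of_exponent_le (by linarith) (by linarith)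

theorem an5X_sq_le {s : ℝ} (hs : 1 ≤ s) (𝔭 : HeightOneSpectrum (𝓞 F)) :
    an5X F s 𝔭 ^ 2 ≤ an5X F 2 𝔭 := by
  have h2 : (2 : ℝ) ≤ (Ideal.absNorm 𝔭.asIdeal : ℝ) := by exact_mod_cast an5_two_le_absNorm 𝔭
  have h0 : (0 : ℝ) ≤ (Ideal.absNorm 𝔭.asIdeal : ℝ) := by linarith
  unfold an5X
  rw [← Real.rpow_natCast, ← Real.rpow_mul h0]
  exact Real.rpow_le_rpow_of_exponent_le (by linarith) (by push_cast; linarith)

theorem an5_norm_hom {G : Type*} [Group G] [Finite G] (Ω : G →* ℂˣ) (g : G) :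
    ‖(Ω g : ℂ)‖ = 1 := by
  have h : (Ω g : ℂ) ^ (Nat.card G) = 1 := by
    rw [← Units.val_pow_eq_pow_val, ← map_pow, pow_card_eq_one', map_one, Units.val_one]
  exact Complex.norm_eq_one_of_pow_eq_one h Nat.card_pos.ne'

end basic



section euler

variable {F : Type*} [Field F] [NumberField F]

theorem an5X_sq_summable {s : ℝ} (hs : 1 ≤ s) (h2 : Summable (an5X F 2)) :
    Summable (fun 𝔭 => an5X F s 𝔭 ^ 2) :=
  Summable.of_nonneg_of_le (fun _ => sq_nonneg _) (fun 𝔭 => an5X_sq_le hs 𝔭) h2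

theorem an5X_sq_tsum_le {s : ℝ} (hs : 1 ≤ s) (h2 : Summable (an5X F 2)) :
    ∑' 𝔭, an5X F s 𝔭 ^ 2 ≤ ∑' 𝔭, an5X F 2 𝔭 :=
  (an5X_sq_summable hs h2).tsum_le_tsum (fun 𝔭 => an5X_sq_le hs 𝔭) h2

theorem an5_re_summable (Ω : ClassGroup (𝓞 F) →* ℂˣ) {s : ℝ} (hsum : Summable (an5X F s)) :
    Summable (fun 𝔭 => (Ω (primeClass 𝔭) : ℂ).re * an5X F s 𝔭) := by
  refine Summable.of_norm_bounded hsum fun 𝔭 => ?_
  rw [norm_mul, Real.norm_eq_abs, Real.norm_eq_abs, abs_of_pos (an5X_pos s 𝔭)]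
  have h1 : |(Ω (primeClass 𝔭) : ℂ).re| ≤ 1 := by
    have := Complex.abs_re_le_norm (Ω (primeClass 𝔭) : ℂ)
    rwa [an5_norm_hom] at this
  exact mul_le_of_le_one_left (an5X_pos s 𝔭).le h1

/-- Lower bound for the absolute value of an Euler product. -/
theorem an5_exp_le_norm (Ω : ClassGroup (𝓞 F) →* ℂˣ) {s : ℝ} (hs : 1 ≤ s) (L : ℂ)
    (hsum : Summable (an5X F s)) (h2 : Summable (an5X F 2))
    (hprod : HasProd (fun 𝔭 : HeightOneSpectrum (𝓞 F) =>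
      (1 - (Ω (primeClass 𝔭) : ℂ) * (((Ideal.absNorm 𝔭.asIdeal : ℝ) ^ (-s) : ℝ) : ℂ))⁻¹) L) :
    Real.exp ((∑' 𝔭, (Ω (primeClass 𝔭) : ℂ).re * an5X F s 𝔭) - ∑' 𝔭, an5X F s 𝔭 ^ 2) ≤ ‖L‖ := by
  have hsq := an5X_sq_summable hs h2
  have hre := an5_re_summable Ω hsum
  rw [← (hre.hasSum.sub hsq.hasSum).tsum_eq]
  refine an5_exp_tsum_le_of_hasProd _ _ _ hprod.norm (hre.sub hsq) fun 𝔭 => ?_
  have hz : ‖(Ω (primeClass 𝔭) : ℂ) * (((Ideal.absNorm 𝔭.asIdeal : ℝ) ^ (-s) : ℝ) : ℂ)‖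
      = an5X F s 𝔭 := by
    rw [norm_mul, an5_norm_hom, one_mul, Complex.norm_real, Real.norm_eq_abs]
    exact abs_of_pos (an5X_pos s 𝔭)
  have := an5_exp_le_norm_inv
    ((Ω (primeClass 𝔭) : ℂ) * (((Ideal.absNorm 𝔭.asIdeal : ℝ) ^ (-s) : ℝ) : ℂ))
    (by rw [hz]; exact an5X_le_half hs 𝔭)
  rw [hz, Complex.re_mul_ofReal] at this
  exact this

end euler


section zeta

variable (F : Type*) [Field F] [NumberField F]

theorem an5_classL_one (s : ℝ) : classL F 1 s = ((an5Zeta F s : ℝ) : ℂ) := by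
  unfold classL an5Zeta
  rw [Complex.ofReal_tsum]
  refine tsum_congr fun I => ?_
  simp

theorem an5_classL_one_re (s : ℝ) : (classL F 1 s).re = an5Zeta F s := by
  rw [an5_classL_one, Complex.ofReal_re]

theorem an5_one_le_absNorm (I : nonZeroDivisors (Ideal (𝓞 F))) :
    (1 : ℝ) ≤ (Ideal.absNorm (I : Ideal (𝓞 F)) : ℝ) := by
  have h : Ideal.absNorm (I : Ideal (𝓞 F)) ≠ 0 := by
    rw [Ne, Ideal.absNorm_eq_zero_iff]
    exact nonZeroDivisors.coe_ne_zero I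
  exact_mod_cast Nat.one_le_iff_ne_zero.mpr h

theorem an5_one_le_zeta {s : ℝ}
    (h : Summable (fun I : nonZeroDivisors (Ideal (𝓞 F)) =>
      (Ideal.absNorm (I : Ideal (𝓞 F)) : ℝ) ^ (-s))) : 1 ≤ an5Zeta F s := by
  have h1 := h.le_tsum (1 : nonZeroDivisors (Ideal (𝓞 F))) (fun j _ => by positivity)
  simpa [an5Zeta, Ideal.one_eq_top] using h1

theorem an5_zeta_anti {s t : ℝ} (hst : s ≤ t)
    (hs : Summable (fun I : nonZeroDivisors (Ideal (𝓞 F)) =>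
      (Ideal.absNorm (I : Ideal (𝓞 F)) : ℝ) ^ (-s)))
    (ht : Summable (fun I : nonZeroDivisors (Ideal (𝓞 F)) =>
      (Ideal.absNorm (I : Ideal (𝓞 F)) : ℝ) ^ (-t))) : an5Zeta F t ≤ an5Zeta F s := by
  refine ht.tsum_le_tsum (fun I => ?_) hs
  exact Real.rpow_le_rpow_of_exponent_le (an5_one_le_absNorm F I) (by linarith)

/-- The real Euler product of the zeta sum. -/
theorem an5_zeta_hasProd {s : ℝ} (hs : 1 ≤ s)
    (hI : Summable (fun I : nonZeroDivisors (Ideal (𝓞 F)) =>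
      (Ideal.absNorm (I : Ideal (𝓞 F)) : ℝ) ^ (-s)))
    (hprod : HasProd (fun 𝔭 : HeightOneSpectrum (𝓞 F) =>
      (1 - ((1 : ClassGroup (𝓞 F) →* ℂˣ) (primeClass 𝔭) : ℂ) *
        (((Ideal.absNorm 𝔭.asIdeal : ℝ) ^ (-s) : ℝ) : ℂ))⁻¹) (classL F 1 s)) :
    HasProd (fun 𝔭 => (1 - an5X F s 𝔭)⁻¹) (an5Zeta F s) := by
  have h1 := hprod.norm
  rw [an5_classL_one, Complex.norm_real, Real.norm_eq_abs,
    abs_of_nonneg (zero_le_one.trans (an5_one_le_zeta F hI))] at h1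
  have e2 : (fun 𝔭 : HeightOneSpectrum (𝓞 F) => (1 - an5X F s 𝔭)⁻¹) = fun 𝔭 =>
      ‖(1 - ((1 : ClassGroup (𝓞 F) →* ℂˣ) (primeClass 𝔭) : ℂ) *
        (((Ideal.absNorm 𝔭.asIdeal : ℝ) ^ (-s) : ℝ) : ℂ))⁻¹‖ := by
    funext 𝔭
    have hx : an5X F s 𝔭 ≤ 1 / 2 := an5X_le_half hs 𝔭
    have e : (1 : ℂ) - ((1 : ClassGroup (𝓞 F) →* ℂˣ) (primeClass 𝔭) : ℂ) *
          (((Ideal.absNorm 𝔭.asIdeal : ℝ) ^ (-s) : ℝ) : ℂ) = ((1 - an5X F s 𝔭 : ℝ) : ℂ) := by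
      rw [MonoidHom.one_apply, Units.val_one, one_mul, Complex.ofReal_sub, Complex.ofReal_one]
      rfl
    rw [e, norm_inv, Complex.norm_real, Real.norm_eq_abs, abs_of_pos (by linarith)]
  rw [e2]
  exact h1

theorem an5_exp_le_zeta {s : ℝ} (hs : 1 ≤ s) (hsum : Summable (an5X F s))
    (hP : HasProd (fun 𝔭 => (1 - an5X F s 𝔭)⁻¹) (an5Zeta F s)) :
    Real.exp (∑' 𝔭, an5X F s 𝔭) ≤ an5Zeta F s :=
  an5_exp_tsum_le_of_hasProd _ _ _ hP hsum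
    (fun 𝔭 => an5_exp_le_inv _ (by linarith [an5X_le_half hs 𝔭]))

theorem an5_zeta_le_exp {s : ℝ} (hs : 1 ≤ s) (hsum : Summable (an5X F s))
    (h2 : Summable (an5X F 2))
    (hP : HasProd (fun 𝔭 => (1 - an5X F s 𝔭)⁻¹) (an5Zeta F s)) :
    an5Zeta F s ≤ Real.exp (∑' 𝔭, an5X F s 𝔭 + 2 * ∑' 𝔭, an5X F s 𝔭 ^ 2) := by
  have hsq := an5X_sq_summable hs h2
  have hsum' : Summable (fun 𝔭 => an5X F s 𝔭 + 2 * an5X F s 𝔭 ^ 2) :=
    hsum.add (hsq.mul_left 2)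
  have e : ∑' 𝔭, (an5X F s 𝔭 + 2 * an5X F s 𝔭 ^ 2) =
      ∑' 𝔭, an5X F s 𝔭 + 2 * ∑' 𝔭, an5X F s 𝔭 ^ 2 := by
    rw [hsum.tsum_add (hsq.mul_left 2), tsum_mul_left]
  rw [← e]
  exact an5_le_exp_tsum_of_hasProd _ _ _ hP hsum'
    (fun 𝔭 => inv_nonneg.mpr (by linarith [an5X_le_half hs 𝔭]))
    (fun 𝔭 => an5_inv_le_exp _ (an5X_pos s 𝔭).le (an5X_le_half hs 𝔭))

/-- `(s - 1) ζ(s)` is bounded above and below on `(1, 2]`. -/
theorem an5_res_bounds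
    (hI : ∀ s : ℝ, 1 < s → Summable (fun I : nonZeroDivisors (Ideal (𝓞 F)) =>
      (Ideal.absNorm (I : Ideal (𝓞 F)) : ℝ) ^ (-s)))
    (hres : ∃ κ : ℝ, 0 < κ ∧ Tendsto (fun s : ℝ => (s - 1) * (classL F 1 s).re)
      (𝓝[>] 1) (𝓝 κ)) :
    ∃ c₁ c₂ : ℝ, 0 < c₁ ∧ ∀ s : ℝ, 1 < s → s ≤ 2 →
      c₁ ≤ (s - 1) * an5Zeta F s ∧ (s - 1) * an5Zeta F s ≤ c₂ := by
  obtain ⟨κ, hκ, hT⟩ := hres
  simp_rw [an5_classL_one_re] at hT
  obtain ⟨δ, hδ, hδ'⟩ := (Metric.tendsto_nhdsWithin_nhds.mp hT) (κ / 2) (half_pos hκ)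
  have hm : 0 < min δ 1 := lt_min hδ one_pos
  have hδ₁ : min δ 1 / 2 < δ := by
    have := min_le_left δ 1
    linarith
  refine ⟨min (κ / 2) (min δ 1 / 2), max (3 * κ / 2) (an5Zeta F (1 + min δ 1 / 2)),
    lt_min (half_pos hκ) (half_pos hm), fun s hs1 hs2 => ?_⟩
  by_cases hsd : s < 1 + min δ 1 / 2
  · have hd : dist s 1 < δ := by
      rw [Real.dist_eq, abs_of_pos (by linarith)]
      linarith
    have h3 := hδ' (Set.mem_Ioi.mpr hs1) hd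
    rw [Real.dist_eq, abs_lt] at h3
    constructor
    · exact (min_le_left _ _).trans (by linarith)
    · exact le_trans (by linarith) (le_max_left _ _)
  · rw [not_lt] at hsd
    have hz1 : 1 ≤ an5Zeta F s := an5_one_le_zeta F (hI s hs1)
    have hz2 : an5Zeta F s ≤ an5Zeta F (1 + min δ 1 / 2) :=
      an5_zeta_anti F hsd (hI _ (by linarith)) (hI s hs1)
    constructor
    · calc min (κ / 2) (min δ 1 / 2) ≤ min δ 1 / 2 := min_le_right _ _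
        _ ≤ (s - 1) * 1 := by linarith
        _ ≤ (s - 1) * an5Zeta F s := mul_le_mul_of_nonneg_left hz1 (by linarith)
    · calc (s - 1) * an5Zeta F s ≤ 1 * an5Zeta F (1 + min δ 1 / 2) :=
            mul_le_mul (by linarith) hz2 (by linarith) (by norm_num)
        _ ≤ max (3 * κ / 2) (an5Zeta F (1 + min δ 1 / 2)) := by
            rw [one_mul]
            exact le_max_right _ _

end zeta


section univ

variable (F : Type*) [Field F] [NumberField F]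

theorem an5_primeIdealZetaSum_univ (s : ℝ) :
    NumberField.Set.primeIdealZetaSum (Set.univ : Set (HeightOneSpectrum (𝓞 F))) s =
      ∑' 𝔭, an5X F s 𝔭 := by
  rw [NumberField.Set.primeIdealZetaSum_def]
  exact tsum_univ (an5X F s)

/-- `∑_𝔭 N𝔭^{-s} ≤ log ζ(s) ≤ ∑_𝔭 N𝔭^{-s} + 2 ∑_𝔭 N𝔭^{-2}`. -/
theorem an5_log_zeta_bounds {s : ℝ} (hs : 1 < s)
    (hI : ∀ s : ℝ, 1 < s → Summable (fun I : nonZeroDivisors (Ideal (𝓞 F)) =>
      (Ideal.absNorm (I : Ideal (𝓞 F)) : ℝ) ^ (-s)))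
    (hprod : HasProd (fun 𝔭 : HeightOneSpectrum (𝓞 F) =>
      (1 - ((1 : ClassGroup (𝓞 F) →* ℂˣ) (primeClass 𝔭) : ℂ) *
        (((Ideal.absNorm 𝔭.asIdeal : ℝ) ^ (-s) : ℝ) : ℂ))⁻¹) (classL F 1 s)) :
    ∑' 𝔭, an5X F s 𝔭 ≤ Real.log (an5Zeta F s) ∧
      Real.log (an5Zeta F s) ≤ ∑' 𝔭, an5X F s 𝔭 + 2 * ∑' 𝔭, an5X F 2 𝔭 := by
  have h2 : Summable (an5X F 2) := an5_summable_of F (hI 2 (by norm_num))
  have hsum := an5_summable_of F (hI s hs)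
  have hP := an5_zeta_hasProd F hs.le (hI s hs) hprod
  have hlow := an5_exp_le_zeta F hs.le hsum hP
  have hup := an5_zeta_le_exp F hs.le hsum h2 hP
  have hz1 := an5_one_le_zeta F (hI s hs)
  have hzpos : 0 < an5Zeta F s := by linarith
  have hsq := an5X_sq_tsum_le hs.le h2
  constructor
  · rw [← Real.log_exp (∑' 𝔭, an5X F s 𝔭)]
    exact Real.log_le_log (Real.exp_pos _) hlow
  · have h3 : Real.log (an5Zeta F s) ≤ ∑' 𝔭, an5X F s 𝔭 + 2 * ∑' 𝔭, an5X F s 𝔭 ^ 2 := by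
      rw [← Real.log_exp (∑' 𝔭, an5X F s 𝔭 + 2 * ∑' 𝔭, an5X F s 𝔭 ^ 2)]
      exact Real.log_le_log hzpos hup
    linarith

theorem an5_log_zeta_eq {s : ℝ} (hs : 1 < s) (hz : 0 < an5Zeta F s) :
    Real.log (an5Zeta F s) = Real.log (1 / (s - 1)) + Real.log ((s - 1) * an5Zeta F s) := by
  rw [Real.log_mul (by linarith) hz.ne', one_div, Real.log_inv]
  ring

theorem an5_univ_bound
    (hI : ∀ s : ℝ, 1 < s → Summable (fun I : nonZeroDivisors (Ideal (𝓞 F)) =>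
      (Ideal.absNorm (I : Ideal (𝓞 F)) : ℝ) ^ (-s)))
    (hprod : ∀ s : ℝ, 1 < s → HasProd (fun 𝔭 : HeightOneSpectrum (𝓞 F) =>
      (1 - ((1 : ClassGroup (𝓞 F) →* ℂˣ) (primeClass 𝔭) : ℂ) *
        (((Ideal.absNorm 𝔭.asIdeal : ℝ) ^ (-s) : ℝ) : ℂ))⁻¹) (classL F 1 s))
    (hres : ∃ κ : ℝ, 0 < κ ∧ Tendsto (fun s : ℝ => (s - 1) * (classL F 1 s).re)
      (𝓝[>] 1) (𝓝 κ)) :
    ∃ C : ℝ, ∀ s : ℝ, 1 < s → s ≤ 2 →
      |NumberField.Set.primeIdealZetaSum (Set.univ : Set (HeightOneSpectrum (𝓞 F))) s -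
        Real.log (1 / (s - 1))| ≤ C := by
  obtain ⟨c₁, c₂, hc₁, hc⟩ := an5_res_bounds F hI hres
  refine ⟨|Real.log c₁| + |Real.log c₂| + 2 * ∑' 𝔭, an5X F 2 𝔭, fun s hs1 hs2 => ?_⟩
  obtain ⟨hl1, hl2⟩ := an5_log_zeta_bounds F hs1 hI (hprod s hs1)
  have hz1 := an5_one_le_zeta F (hI s hs1)
  have hzpos : 0 < an5Zeta F s := by linarith
  obtain ⟨hb1, hb2⟩ := hc s hs1 hs2
  have hb1' : Real.log c₁ ≤ Real.log ((s - 1) * an5Zeta F s) := Real.log_le_log hc₁ hb1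
  have hb2' : Real.log ((s - 1) * an5Zeta F s) ≤ Real.log c₂ :=
    Real.log_le_log (lt_of_lt_of_le hc₁ hb1) hb2
  have hlog := an5_log_zeta_eq F hs1 hzpos
  have h20 : 0 ≤ ∑' 𝔭, an5X F 2 𝔭 := tsum_nonneg fun 𝔭 => (an5X_pos 2 𝔭).le
  rw [an5_primeIdealZetaSum_univ, abs_le]
  constructor
  · linarith [neg_abs_le (Real.log c₁), abs_nonneg (Real.log c₂)]
  · linarith [le_abs_self (Real.log c₂), abs_nonneg (Real.log c₁)]

end univ


section subgroup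

/-- Orthogonality of the characters of a finite abelian group. -/
theorem an5_sum_char {Q : Type*} [CommGroup Q] [Finite Q] [Fintype (Q →* ℂˣ)] [DecidableEq Q]
    (g : Q) : ∑ ω : Q →* ℂˣ, (ω g : ℂ) = if g = 1 then (Nat.card Q : ℂ) else 0 := by
  have : NeZero (Monoid.exponent Q) := ⟨Monoid.exponent_ne_zero_of_finite⟩
  split_ifs with hg
  · subst hg
    simp only [map_one, Units.val_one, Finset.sum_const, Finset.card_univ, nsmul_eq_mul, mul_one]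
    rw [← Nat.card_eq_fintype_card, CommGroup.card_monoidHom_of_hasEnoughRootsOfUnity Q ℂ]
  · obtain ⟨χ, hχ⟩ := CommGroup.exists_apply_ne_one_of_hasEnoughRootsOfUnity Q ℂ hg
    have hχ' : (χ g : ℂ) ≠ 1 := fun h => hχ (Units.ext h)
    refine eq_zero_of_mul_eq_self_left hχ' ?_
    rw [Finset.mul_sum]
    exact Fintype.sum_bijective _ (Group.mulLeft_bijective χ) _ _
      fun ω => by simp [MonoidHom.mul_apply]

variable (F : Type*) [Field F] [NumberField F]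

theorem an5_subgroup_le (H : Subgroup (ClassGroup (𝓞 F)))
    (hI : ∀ s : ℝ, 1 < s → Summable (fun I : nonZeroDivisors (Ideal (𝓞 F)) =>
      (Ideal.absNorm (I : Ideal (𝓞 F)) : ℝ) ^ (-s)))
    (hprod : ∀ (Ω : ClassGroup (𝓞 F) →* ℂˣ) (s : ℝ), 1 < s →
      HasProd (fun 𝔭 : HeightOneSpectrum (𝓞 F) =>
        (1 - (Ω (primeClass 𝔭) : ℂ) * (((Ideal.absNorm 𝔭.asIdeal : ℝ) ^ (-s) : ℝ) : ℂ))⁻¹)
        (classL F Ω s))
    (hbdd : ∀ Ω : ClassGroup (𝓞 F) →* ℂˣ, Ω ≠ 1 →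
      ∃ B : ℝ, ∀ s : ℝ, 1 < s → s ≤ 2 → ‖classL F Ω s‖ ≤ B)
    (hres : ∃ κ : ℝ, 0 < κ ∧ Tendsto (fun s : ℝ => (s - 1) * (classL F 1 s).re)
      (𝓝[>] 1) (𝓝 κ)) :
    ∃ C : ℝ, ∀ s : ℝ, 1 < s → s ≤ 2 →
      (H.index : ℝ) * NumberField.Set.primeIdealZetaSum
          {𝔭 : HeightOneSpectrum (𝓞 F) | primeClass 𝔭 ∈ H} s ≤
        Real.log (1 / (s - 1)) + C := by
  classical
  have : NeZero (Monoid.exponent (ClassGroup (𝓞 F) ⧸ H)) :=
    ⟨Monoid.exponent_ne_zero_of_finite⟩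
  have : Finite ((ClassGroup (𝓞 F) ⧸ H) →* ℂˣ) := by
    apply Nat.finite_of_card_ne_zero
    rw [CommGroup.card_monoidHom_of_hasEnoughRootsOfUnity (ClassGroup (𝓞 F) ⧸ H) ℂ]
    exact Nat.card_pos.ne'
  let _ : Fintype ((ClassGroup (𝓞 F) ⧸ H) →* ℂˣ) := Fintype.ofFinite _
  let Om : ((ClassGroup (𝓞 F) ⧸ H) →* ℂˣ) → (ClassGroup (𝓞 F) →* ℂˣ) :=
    fun ω => ω.comp (QuotientGroup.mk' H)
  have hOm_apply : ∀ ω c, Om ω c = ω (QuotientGroup.mk c) := fun ω c => rfl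
  have hOm1 : ∀ ω, ω ≠ 1 → Om ω ≠ 1 := by
    intro ω hω h
    apply hω
    apply MonoidHom.ext
    intro q
    obtain ⟨c, rfl⟩ := QuotientGroup.mk'_surjective H q
    have h1 := congrArg (fun Ω : ClassGroup (𝓞 F) →* ℂˣ => Ω c) h
    simp only [MonoidHom.one_apply] at h1
    rw [MonoidHom.one_apply]
    exact h1
  have hOm_one : Om 1 = 1 := by
    ext c
    rw [hOm_apply, MonoidHom.one_apply, MonoidHom.one_apply]
  have hB : ∀ ω : (ClassGroup (𝓞 F) ⧸ H) →* ℂˣ, ∃ B : ℝ, ω ≠ 1 →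
      ∀ s : ℝ, 1 < s → s ≤ 2 → ‖classL F (Om ω) s‖ ≤ B := by
    intro ω
    by_cases hω : ω = 1
    · exact ⟨0, fun h => absurd hω h⟩
    · obtain ⟨B, hB⟩ := hbdd (Om ω) (hOm1 ω hω)
      exact ⟨B, fun _ => hB⟩
  choose B hB using hB
  obtain ⟨c₁, c₂, hc₁, hc⟩ := an5_res_bounds F hI hres
  have h2 : Summable (an5X F 2) := an5_summable_of F (hI 2 (by norm_num))
  refine ⟨∑ ω : (ClassGroup (𝓞 F) ⧸ H) →* ℂˣ,
    (|Real.log c₂| + |Real.log (B ω)| + ∑' 𝔭, an5X F 2 𝔭), fun s hs1 hs2 => ?_⟩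
  have hsum := an5_summable_of F (hI s hs1)
  have key : ∀ 𝔭 : HeightOneSpectrum (𝓞 F),
      ∑ ω : (ClassGroup (𝓞 F) ⧸ H) →* ℂˣ, ((Om ω) (primeClass 𝔭) : ℂ).re * an5X F s 𝔭 =
        Set.indicator {𝔭 : HeightOneSpectrum (𝓞 F) | primeClass 𝔭 ∈ H}
          (fun 𝔭 => (H.index : ℝ) * an5X F s 𝔭) 𝔭 := by
    intro 𝔭
    rw [← Finset.sum_mul]
    have h1 : ∑ ω : (ClassGroup (𝓞 F) ⧸ H) →* ℂˣ, ((Om ω) (primeClass 𝔭) : ℂ).re =
        (∑ ω : (ClassGroup (𝓞 F) ⧸ H) →* ℂˣ,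
          (ω (QuotientGroup.mk (primeClass 𝔭)) : ℂ)).re := by
      rw [Complex.re_sum]
      exact Finset.sum_congr rfl fun ω _ => rfl
    rw [h1, an5_sum_char]
    by_cases hmem : primeClass 𝔭 ∈ H
    · rw [if_pos ((QuotientGroup.eq_one_iff _).mpr hmem), Set.indicator_of_mem
        (show 𝔭 ∈ {𝔭 : HeightOneSpectrum (𝓞 F) | primeClass 𝔭 ∈ H} from hmem),
        Complex.natCast_re]
      rfl
    · rw [if_neg (fun h => hmem ((QuotientGroup.eq_one_iff _).mp h)),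
        Set.indicator_of_notMem
          (show 𝔭 ∉ {𝔭 : HeightOneSpectrum (𝓞 F) | primeClass 𝔭 ∈ H} from hmem),
        Complex.zero_re, zero_mul]
  have hLHS : (H.index : ℝ) * NumberField.Set.primeIdealZetaSum
      {𝔭 : HeightOneSpectrum (𝓞 F) | primeClass 𝔭 ∈ H} s =
      ∑ ω : (ClassGroup (𝓞 F) ⧸ H) →* ℂˣ,
        ∑' 𝔭, ((Om ω) (primeClass 𝔭) : ℂ).re * an5X F s 𝔭 := by
    have e : ∀ x : {𝔭 : HeightOneSpectrum (𝓞 F) | primeClass 𝔭 ∈ H},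
        (H.index : ℝ) * (Ideal.absNorm x.1.asIdeal : ℝ) ^ (-s) =
          (fun 𝔭 => (H.index : ℝ) * an5X F s 𝔭) x.1 := fun x => rfl
    rw [NumberField.Set.primeIdealZetaSum_def, ← tsum_mul_left, tsum_congr e]
    rw [tsum_subtype {𝔭 : HeightOneSpectrum (𝓞 F) | primeClass 𝔭 ∈ H}
      (fun 𝔭 => (H.index : ℝ) * an5X F s 𝔭)]
    rw [← Summable.tsum_finsetSum (fun ω _ => an5_re_summable (Om ω) hsum)]
    exact tsum_congr fun 𝔭 => (key 𝔭).symm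
  rw [hLHS]
  have hterm : ∀ ω : (ClassGroup (𝓞 F) ⧸ H) →* ℂˣ,
      ∑' 𝔭, ((Om ω) (primeClass 𝔭) : ℂ).re * an5X F s 𝔭 ≤
      (if ω = 1 then Real.log (1 / (s - 1)) else 0) +
        (|Real.log c₂| + |Real.log (B ω)| + ∑' 𝔭, an5X F 2 𝔭) := by
    intro ω
    have h3 := an5_exp_le_norm (Om ω) hs1.le (classL F (Om ω) s) hsum h2 (hprod (Om ω) s hs1)
    have hLpos : 0 < ‖classL F (Om ω) s‖ := lt_of_lt_of_le (Real.exp_pos _) h3
    have h4 : (∑' 𝔭, ((Om ω) (primeClass 𝔭) : ℂ).re * an5X F s 𝔭) - ∑' 𝔭, an5X F s 𝔭 ^ 2 ≤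
        Real.log ‖classL F (Om ω) s‖ := by
      rw [← Real.log_exp ((∑' 𝔭, ((Om ω) (primeClass 𝔭) : ℂ).re * an5X F s 𝔭) -
        ∑' 𝔭, an5X F s 𝔭 ^ 2)]
      exact Real.log_le_log (Real.exp_pos _) h3
    have hsq := an5X_sq_tsum_le hs1.le h2
    by_cases hω : ω = 1
    · rw [if_pos hω]
      rw [hω, hOm_one] at h4
      rw [hω, hOm_one]
      have hz1 := an5_one_le_zeta F (hI s hs1)
      have hzpos : 0 < an5Zeta F s := by linarith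
      rw [an5_classL_one, Complex.norm_real, Real.norm_eq_abs, abs_of_pos hzpos,
        an5_log_zeta_eq F hs1 hzpos] at h4
      obtain ⟨hb1, hb2⟩ := hc s hs1 hs2
      have hb2' : Real.log ((s - 1) * an5Zeta F s) ≤ Real.log c₂ :=
        Real.log_le_log (lt_of_lt_of_le hc₁ hb1) hb2
      linarith [le_abs_self (Real.log c₂), abs_nonneg (Real.log (B 1))]
    · rw [if_neg hω, zero_add]
      have h5 : Real.log ‖classL F (Om ω) s‖ ≤ Real.log (B ω) :=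
        Real.log_le_log hLpos (hB ω hω s hs1 hs2)
      linarith [le_abs_self (Real.log (B ω)), abs_nonneg (Real.log c₂)]
  refine (Finset.sum_le_sum fun ω _ => hterm ω).trans (le_of_eq ?_)
  rw [Finset.sum_add_distrib, Finset.sum_ite_eq' Finset.univ (1 : (ClassGroup (𝓞 F) ⧸ H) →* ℂˣ)
    (fun _ => Real.log (1 / (s - 1))), if_pos (Finset.mem_univ _)]

end subgroup


section bad

theorem an5_card_fiber_le (F : Type*) [Field F] [NumberField F] (m : ℕ)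
    (T : Finset (HeightOneSpectrum (𝓞 F)))
    (hT : ∀ 𝔭 ∈ T, Ideal.absNorm (Ideal.under ℤ 𝔭.asIdeal) = m) :
    T.card ≤ Module.finrank ℚ F := by
  classical
  rcases T.eq_empty_or_nonempty with rfl | ⟨𝔭₀, h𝔭₀⟩
  · simp
  have hm : m.Prime := by
    have h1 := hT 𝔭₀ h𝔭₀
    have : NeZero 𝔭₀.asIdeal := ⟨𝔭₀.ne_bot⟩
    rw [← h1]
    exact Nat.absNorm_under_prime 𝔭₀.asIdeal
  have hpp : (Ideal.span {(m : ℤ)}).IsPrime := by
    rw [Ideal.span_singleton_prime (by exact_mod_cast hm.ne_zero)]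
    exact Nat.prime_iff_prime_int.mp hm
  have hfin : ((Ideal.span {(m : ℤ)}).primesOver (𝓞 F)).Finite :=
    Algebra.QuasiFinite.finite_primesOver _
  let _ : Fintype ((Ideal.span {(m : ℤ)}).primesOver (𝓞 F)) := hfin.fintype
  have hsum := Ideal.sum_ramification_inertia_eq_finrank (Ideal.span {(m : ℤ)}) (𝓞 F)
  rw [RingOfIntegers.rank] at hsum
  have hmem : ∀ 𝔭 ∈ T, 𝔭.asIdeal ∈ (Ideal.span {(m : ℤ)}).primesOver (𝓞 F) := by
    intro 𝔭 h𝔭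
    refine ⟨𝔭.isPrime, ?_⟩
    have h1 := hT 𝔭 h𝔭
    rw [Ideal.liesOver_iff, ← h1, Int.ideal_span_absNorm_eq_self]
  calc T.card = (T.attach.image (fun 𝔭 =>
        (⟨𝔭.1.asIdeal, hmem 𝔭.1 𝔭.2⟩ : (Ideal.span {(m : ℤ)}).primesOver (𝓞 F)))).card := by
        rw [Finset.card_image_of_injective, Finset.card_attach]
        intro a b hab
        have h1 : a.1.asIdeal = b.1.asIdeal := congrArg Subtype.val hab
        exact Subtype.ext (HeightOneSpectrum.ext h1)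
    _ ≤ Fintype.card ((Ideal.span {(m : ℤ)}).primesOver (𝓞 F)) := Finset.card_le_univ _
    _ = ∑ _q : (Ideal.span {(m : ℤ)}).primesOver (𝓞 F), 1 := by simp
    _ ≤ ∑ q : (Ideal.span {(m : ℤ)}).primesOver (𝓞 F),
          q.1.ramificationIdx ℤ * q.1.inertiaDeg ℤ := by
        refine Finset.sum_le_sum fun q _ => ?_
        have : q.1.IsPrime := q.2.1
        exact Nat.mul_pos (Ideal.ramificationIdx_pos q.1 ℤ) (Ideal.inertiaDeg_pos q.1 ℤ)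
    _ = Module.finrank ℚ F := hsum


variable (F : Type*) [Field F] [NumberField F]

/-- Bound for a prime whose norm is not a rational prime. -/
theorem an5X_le_of_not_prime {s : ℝ} (hs : 1 ≤ s) (𝔭 : HeightOneSpectrum (𝓞 F))
    (h : ¬ (Ideal.absNorm 𝔭.asIdeal).Prime) :
    an5X F s 𝔭 ≤ ((Ideal.absNorm (Ideal.under ℤ 𝔭.asIdeal) : ℕ) : ℝ) ^ (-2 : ℝ) := by
  have : NeZero 𝔭.asIdeal := ⟨𝔭.ne_bot⟩
  have : 𝔭.asIdeal.IsPrime := 𝔭.isPrime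
  have hqp : (Ideal.absNorm (Ideal.under ℤ 𝔭.asIdeal)).Prime := Nat.absNorm_under_prime 𝔭.asIdeal
  have hpow : Ideal.absNorm (Ideal.under ℤ 𝔭.asIdeal) ^ 𝔭.asIdeal.inertiaDeg ℤ =
      Ideal.absNorm 𝔭.asIdeal :=
    Ideal.pow_inertiaDeg (Ideal.absNorm (Ideal.under ℤ 𝔭.asIdeal)) 𝔭.asIdeal
  have hf1 : 0 < 𝔭.asIdeal.inertiaDeg ℤ := Ideal.inertiaDeg_pos 𝔭.asIdeal ℤ
  have hf2 : 2 ≤ 𝔭.asIdeal.inertiaDeg ℤ := by
    by_contra hlt
    have h1 : 𝔭.asIdeal.inertiaDeg ℤ = 1 := by omega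
    rw [h1, pow_one] at hpow
    exact h (hpow ▸ hqp)
  have hq1 : (1 : ℝ) ≤ (Ideal.absNorm (Ideal.under ℤ 𝔭.asIdeal) : ℝ) := by
    exact_mod_cast hqp.one_le
  have hge : ((Ideal.absNorm (Ideal.under ℤ 𝔭.asIdeal) : ℕ) : ℝ) ^ 2 ≤
      (Ideal.absNorm 𝔭.asIdeal : ℝ) := by
    rw [← hpow]
    push_cast
    exact pow_le_pow_right₀ hq1 hf2
  calc an5X F s 𝔭 = (Ideal.absNorm 𝔭.asIdeal : ℝ) ^ (-s) := rfl
    _ ≤ (((Ideal.absNorm (Ideal.under ℤ 𝔭.asIdeal) : ℕ) : ℝ) ^ 2) ^ (-s) :=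
        Real.rpow_le_rpow_of_nonpos (by positivity) hge (by linarith)
    _ ≤ (((Ideal.absNorm (Ideal.under ℤ 𝔭.asIdeal) : ℕ) : ℝ) ^ 2) ^ (-1 : ℝ) :=
        Real.rpow_le_rpow_of_exponent_le (by nlinarith) (by linarith)
    _ = ((Ideal.absNorm (Ideal.under ℤ 𝔭.asIdeal) : ℕ) : ℝ) ^ (-2 : ℝ) := by
        rw [← Real.rpow_natCast, ← Real.rpow_mul (by linarith)]
        norm_num

theorem an5_finite_norm_mem (S : Finset ℕ) :
    {𝔭 : HeightOneSpectrum (𝓞 F) | Ideal.absNorm 𝔭.asIdeal ∈ S}.Finite := by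
  have h1 : {I : Ideal (𝓞 F) | Ideal.absNorm I ∈ S}.Finite := by
    have h2 : {I : Ideal (𝓞 F) | Ideal.absNorm I ∈ S} =
        ⋃ n ∈ S, {I : Ideal (𝓞 F) | Ideal.absNorm I = n} := by
      ext I
      simp
    rw [h2]
    exact Set.Finite.biUnion S.finite_toSet fun n _ => Ideal.finite_setOfPred_absNorm_eq n
  refine Set.Finite.of_finite_image (f := fun 𝔭 : HeightOneSpectrum (𝓞 F) => 𝔭.asIdeal)
    (h1.subset ?_) ?_
  · rintro _ ⟨𝔭, h𝔭, rfl⟩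
    exact h𝔭
  · intro a _ b _ hab
    exact HeightOneSpectrum.ext hab

theorem an5_sum_comp_le {ι : Type*} (u : Finset ι) (q : ι → ℕ) (h : ℕ → ℝ)
    (h0 : ∀ m, 0 ≤ h m) (hs : Summable h) (n : ℕ)
    (hn : ∀ (m : ℕ) (v : Finset ι), v ⊆ u → (∀ x ∈ v, q x = m) → v.card ≤ n) :
    ∑ x ∈ u, h (q x) ≤ n * ∑' m, h m := by
  classical
  rw [Finset.sum_comp h q]
  calc ∑ m ∈ u.image q, (u.filter (fun x => q x = m)).card • h m
      ≤ ∑ m ∈ u.image q, (n : ℝ) * h m := by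
        refine Finset.sum_le_sum fun m _ => ?_
        rw [nsmul_eq_mul]
        have h1 : (u.filter (fun x => q x = m)).card ≤ n :=
          hn m _ (Finset.filter_subset _ _) (fun x hx => (Finset.mem_filter.mp hx).2)
        exact mul_le_mul_of_nonneg_right (by exact_mod_cast h1) (h0 m)
    _ = n * ∑ m ∈ u.image q, h m := by rw [Finset.mul_sum]
    _ ≤ n * ∑' m, h m :=
        mul_le_mul_of_nonneg_left (hs.sum_le_tsum _ (fun m _ => h0 m)) (by positivity)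

/-- The sum over a finite set of primes of non-prime norm is bounded. -/
theorem an5_sum_not_prime_le {s : ℝ} (hs : 1 ≤ s) (u : Finset (HeightOneSpectrum (𝓞 F)))
    (hu : ∀ 𝔭 ∈ u, ¬ (Ideal.absNorm 𝔭.asIdeal).Prime) :
    ∑ 𝔭 ∈ u, an5X F s 𝔭 ≤ (Module.finrank ℚ F : ℝ) * ∑' m : ℕ, (m : ℝ) ^ (-2 : ℝ) := by
  have hsumN : Summable (fun m : ℕ => (m : ℝ) ^ (-2 : ℝ)) :=
    Real.summable_nat_rpow.mpr (by norm_num)
  refine (Finset.sum_le_sum fun 𝔭 h𝔭 => an5X_le_of_not_prime F hs 𝔭 (hu 𝔭 h𝔭)).trans ?_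
  exact an5_sum_comp_le u (fun 𝔭 => Ideal.absNorm (Ideal.under ℤ 𝔭.asIdeal))
    (fun m : ℕ => (m : ℝ) ^ (-2 : ℝ)) (fun m => by positivity) hsumN _
    (fun m v _ hv => an5_card_fiber_le F m v hv)

/-- The sum over a finite set of primes with norm in `S` is bounded. -/
theorem an5_sum_norm_mem_le {s : ℝ} (hs : 1 ≤ s) (S : Finset ℕ)
    (u : Finset (HeightOneSpectrum (𝓞 F))) (hu : ∀ 𝔭 ∈ u, Ideal.absNorm 𝔭.asIdeal ∈ S) :
    ∑ 𝔭 ∈ u, an5X F s 𝔭 ≤ ((an5_finite_norm_mem F S).toFinset.card : ℝ) := by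
  calc ∑ 𝔭 ∈ u, an5X F s 𝔭 ≤ ∑ 𝔭 ∈ u, (1 : ℝ) :=
        Finset.sum_le_sum fun 𝔭 _ => (an5X_le_half hs 𝔭).trans (by norm_num)
    _ = (u.card : ℝ) := by simp
    _ ≤ ((an5_finite_norm_mem F S).toFinset.card : ℝ) := by
        have h3 : u ⊆ (an5_finite_norm_mem F S).toFinset := by
          intro 𝔭 h𝔭
          rw [Set.Finite.mem_toFinset]
          exact hu 𝔭 h𝔭
        exact_mod_cast Finset.card_le_card h3

theorem an5_bad_bound (S : Finset ℕ) :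
    ∃ C : ℝ, ∀ s : ℝ, 1 < s →
      NumberField.Set.primeIdealZetaSum {𝔭 : HeightOneSpectrum (𝓞 F) |
        ¬ (Ideal.absNorm 𝔭.asIdeal).Prime ∨ Ideal.absNorm 𝔭.asIdeal ∈ S} s ≤ C := by
  classical
  refine ⟨((an5_finite_norm_mem F S).toFinset.card : ℝ) +
    (Module.finrank ℚ F : ℝ) * ∑' m : ℕ, (m : ℝ) ^ (-2 : ℝ), fun s hs => ?_⟩
  rw [NumberField.Set.primeIdealZetaSum_def]
  refine Real.tsum_le_of_sum_le (fun x => by positivity) fun u => ?_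
  -- transport the finite sum to `HeightOneSpectrum`
  have e : ∑ x ∈ u, (Ideal.absNorm x.1.asIdeal : ℝ) ^ (-s) =
      ∑ 𝔭 ∈ u.map (Function.Embedding.subtype _), an5X F s 𝔭 := by
    rw [Finset.sum_map]
    rfl
  rw [e, ← Finset.sum_filter_add_sum_filter_not (u.map (Function.Embedding.subtype _))
    (fun 𝔭 => Ideal.absNorm 𝔭.asIdeal ∈ S)]
  have hb1 := an5_sum_norm_mem_le F hs.le S
    ((u.map (Function.Embedding.subtype _)).filter (fun 𝔭 => Ideal.absNorm 𝔭.asIdeal ∈ S))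
    (fun 𝔭 h𝔭 => (Finset.mem_filter.mp h𝔭).2)
  have hb2 := an5_sum_not_prime_le F hs.le
    ((u.map (Function.Embedding.subtype _)).filter (fun 𝔭 => ¬ Ideal.absNorm 𝔭.asIdeal ∈ S))
    (fun 𝔭 h𝔭 => by
      obtain ⟨h1, h2⟩ := Finset.mem_filter.mp h𝔭
      obtain ⟨x, _, rfl⟩ := Finset.mem_map.mp h1
      rcases x.2 with h | h
      · exact h
      · exact absurd h h2)
  linarith

end bad

end Fermat.Agent.S14
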