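/-
S14 project, package AN5 (helper15): prime ideal sums -- the exact skeleton statements.
Proofs are in `PrimeSumsCore.lean` (with the analytic inputs as hypotheses); the inputs are
AN3 (`ClassCount.lean`, `ClassCountBase.lean`) and AN4 (`EulerProduct.lean`).
-/
import Fermat.Agent.S14.PrimeSumsCore
import Fermat.Agent.S14.ClassCount
import Fermat.Agent.S14.EulerProduct

set_option autoImplicit false

open NumberField
open scoped Pointwise

namespace Fermat.Agent.S14

open NumberField.Set in
theorem primeSum_summable (F : Type*) [Field F] [NumberField F] {s : ℝ} (hs : 1 < s) :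
    Summable (fun 𝔭 : IsDedekindDomain.HeightOneSpectrum (𝓞 F) =>
      (Ideal.absNorm 𝔭.asIdeal : ℝ) ^ (-s)) :=
  an5_summable_of F (classL_summable F hs)

open NumberField.Set in
theorem primeSum_univ_bound (F : Type*) [Field F] [NumberField F] :
    ∃ C : ℝ, ∀ s : ℝ, 1 < s → s ≤ 2 →
      |primeIdealZetaSum (Set.univ : Set (IsDedekindDomain.HeightOneSpectrum (𝓞 F))) s -
        Real.log (1 / (s - 1))| ≤ C :=
  an5_univ_bound F (fun _ hs => classL_summable F hs) (fun _ hs => classL_hasProd F 1 hs)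
    (classL_one_tendsto F)

open NumberField.Set in
theorem primeSum_bad_bound (F : Type*) [Field F] [NumberField F] (S : Finset ℕ) :
    ∃ C : ℝ, ∀ s : ℝ, 1 < s →
      primeIdealZetaSum {𝔭 : IsDedekindDomain.HeightOneSpectrum (𝓞 F) |
        ¬ (Ideal.absNorm 𝔭.asIdeal).Prime ∨ Ideal.absNorm 𝔭.asIdeal ∈ S} s ≤ C :=
  an5_bad_bound F S

open NumberField.Set in
theorem primeSum_subgroup_le (F : Type*) [Field F] [NumberField F]
    (H : Subgroup (ClassGroup (𝓞 F))) :
    ∃ C : ℝ, ∀ s : ℝ, 1 < s → s ≤ 2 →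
      (H.index : ℝ) * primeIdealZetaSum
          {𝔭 : IsDedekindDomain.HeightOneSpectrum (𝓞 F) | primeClass 𝔭 ∈ H} s ≤
        Real.log (1 / (s - 1)) + C :=
  an5_subgroup_le F H (fun _ hs => classL_summable F hs) (fun Ω _ hs => classL_hasProd F Ω hs)
    (fun Ω hΩ => classL_bounded F Ω hΩ) (classL_one_tendsto F)

end Fermat.Agent.S14
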