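/-
S14 project, package DN2 (core): the "second inequality" consumer, with the analytic inputs
(AN5 prime sums for `F` and `M`, DN1 generation of `Cl_M` by degree one primes) as hypotheses.
The exported statement `ker_le_normClassGroup` is in `SecondIneq.lean`.

`ker_le_normClassGroup`: for a Galois extension `M/F` of number fields of prime degree `p` and a
nontrivial character `ψ : Cl_F → A` (`|A| = p`) that kills the classes `[𝔔]^f` of the primes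
away from `N₀`, the kernel of `ψ` consists of norm classes.

Proof: (A) `N(Cl_M) ≤ ker ψ`, since `Cl_M` is generated by the classes of degree one primes
(DN1) and the ideal norm descends to class groups (CN); (B) `[Cl_F : N(Cl_M)] ≤ p`, by comparing
the prime sums of `M` and of the primes of `F` whose class is a norm (AN5); (C) `[Cl_F : ker ψ] = p`.
-/
import Fermat.Agent.S14.ClassNorm

set_option autoImplicit false

open NumberField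
open scoped Pointwise

namespace Fermat.Agent.S14

/-- Abstract comparison: if `idx * a s ≤ log (1/(s-1)) + C₁` and `log (1/(s-1)) - C₂ ≤ p * a s`
for all `s ∈ (1, 2]`, then `idx ≤ p`. -/
theorem dn2_le_of_log_bounds (idx p : ℕ) (a : ℝ → ℝ) (C₁ C₂ : ℝ)
    (h₁ : ∀ s : ℝ, 1 < s → s ≤ 2 → (idx : ℝ) * a s ≤ Real.log (1 / (s - 1)) + C₁)
    (h₂ : ∀ s : ℝ, 1 < s → s ≤ 2 → Real.log (1 / (s - 1)) - C₂ ≤ (p : ℝ) * a s) :
    idx ≤ p := by
  by_contra hlt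
  have hlt' : (p : ℝ) + 1 ≤ (idx : ℝ) := by exact_mod_cast Nat.lt_of_not_le hlt
  set L : ℝ := max 0 ((p : ℝ) * C₁ + (idx : ℝ) * C₂) + 1 with hL
  have hLpos : 0 < L := by positivity
  have hLgt : (p : ℝ) * C₁ + (idx : ℝ) * C₂ < L := by
    have := le_max_right 0 ((p : ℝ) * C₁ + (idx : ℝ) * C₂)
    linarith
  set s : ℝ := 1 + Real.exp (-L) with hs
  have hs1 : 1 < s := by have := Real.exp_pos (-L); linarith
  have hs2 : s ≤ 2 := by
    have : Real.exp (-L) ≤ 1 := Real.exp_le_one_iff.mpr (by linarith)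
    linarith
  have hlog : Real.log (1 / (s - 1)) = L := by
    rw [hs, add_sub_cancel_left, one_div, ← Real.exp_neg, neg_neg, Real.log_exp]
  have e1 := h₁ s hs1 hs2
  have e2 := h₂ s hs1 hs2
  rw [hlog] at e1 e2
  have hp0 : (0 : ℝ) ≤ p := Nat.cast_nonneg p
  have hi0 : (0 : ℝ) ≤ idx := Nat.cast_nonneg idx
  have e3 : (idx : ℝ) * (L - C₂) ≤ (p : ℝ) * (L + C₁) := by
    calc (idx : ℝ) * (L - C₂) ≤ (idx : ℝ) * ((p : ℝ) * a s) :=
          mul_le_mul_of_nonneg_left e2 hi0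
      _ = (p : ℝ) * ((idx : ℝ) * a s) := by ring
      _ ≤ (p : ℝ) * (L + C₁) := mul_le_mul_of_nonneg_left e1 hp0
  nlinarith

/-- Fibre bound: if every fibre of `π` has at most `n` elements and `g ≥ 0` is summable, then
`∑ g ∘ π ≤ n * ∑ g` (and the left side is summable). -/
theorem dn2_tsum_comp_le {α β : Type*} (π : α → β) (n : ℕ)
    (hfib : ∀ (b : β) (s : Finset α), (∀ a ∈ s, π a = b) → s.card ≤ n)
    (g : β → ℝ) (hg0 : ∀ b, 0 ≤ g b) (hg : Summable g) :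
    Summable (fun a => g (π a)) ∧ ∑' a, g (π a) ≤ (n : ℝ) * ∑' b, g b := by
  classical
  have key : ∀ s : Finset α, ∑ a ∈ s, g (π a) ≤ (n : ℝ) * ∑' b, g b := by
    intro s
    rw [Finset.sum_comp g π]
    calc ∑ b ∈ s.image π, (s.filter (fun a => π a = b)).card • g b
        ≤ ∑ b ∈ s.image π, (n : ℝ) * g b := by
          refine Finset.sum_le_sum fun b _ => ?_
          rw [nsmul_eq_mul]
          refine mul_le_mul_of_nonneg_right ?_ (hg0 b)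
          exact_mod_cast hfib b _ (fun a ha => (Finset.mem_filter.mp ha).2)
      _ = (n : ℝ) * ∑ b ∈ s.image π, g b := by rw [Finset.mul_sum]
      _ ≤ (n : ℝ) * ∑' b, g b :=
          mul_le_mul_of_nonneg_left (hg.sum_le_tsum _ (fun b _ => hg0 b)) (Nat.cast_nonneg n)
  have hsum : Summable (fun a => g (π a)) :=
    summable_of_sum_le (fun a => hg0 (π a)) key
  exact ⟨hsum, hsum.tsum_le_of_sum_le key⟩

/-- Part (C): the final group theory. -/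
theorem dn2_ker_le_of_index_le {G A : Type*} [Group G] [Group A] [Finite G] (p : ℕ)
    [Fact p.Prime] (hA : Nat.card A = p) (ψ : G →* A) (hψ : ∃ c, ψ c ≠ 1)
    (H : Subgroup G) (hle : H ≤ ψ.ker) (hidx : H.index ≤ p) : ψ.ker ≤ H := by
  have hp : p.Prime := Fact.out
  have hrange : Nat.card ψ.range = p := by
    have hdvd : Nat.card ψ.range ∣ p := hA ▸ Subgroup.card_subgroup_dvd_card ψ.range
    rcases (Nat.dvd_prime hp).mp hdvd with h1 | h1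
    · exfalso
      obtain ⟨c, hc⟩ := hψ
      have hbot : ψ.range = ⊥ := Subgroup.card_eq_one.mp h1
      have : ψ c ∈ ψ.range := ⟨c, rfl⟩
      rw [hbot, Subgroup.mem_bot] at this
      exact hc this
    · exact h1
  have hker : ψ.ker.index = p := by rw [Subgroup.index_ker, hrange]
  have hmul := Subgroup.relIndex_mul_index hle
  rw [hker] at hmul
  have hH0 : H.index ≠ 0 := Subgroup.index_ne_zero_of_finite
  have hrel : H.relIndex ψ.ker = 1 := by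
    have hr0 : H.relIndex ψ.ker ≠ 0 := by
      intro h0; rw [h0, zero_mul] at hmul; exact hH0 hmul.symm
    have : H.relIndex ψ.ker * p ≤ 1 * p := by rw [hmul, one_mul]; exact hidx
    have := Nat.le_of_mul_le_mul_right this hp.pos
    omega
  exact Subgroup.relIndex_eq_one.mp hrel

section

variable (F M : Type*) [Field F] [Field M] [NumberField F] [NumberField M] [Algebra F M]

/-- A prime `𝔓` of `𝓞 M` with prime absolute norm: its contraction `𝔮` to `𝓞 F` is a nonzero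
prime with the same absolute norm, inertia degree `1`, and `relNorm 𝔓 = 𝔮`. -/
theorem dn2_under_of_prime_norm (𝔓 : Ideal (𝓞 M)) (hP : 𝔓.IsPrime) (h0 : 𝔓 ≠ ⊥)
    (hq : (Ideal.absNorm 𝔓).Prime) :
    (𝔓.under (𝓞 F)).IsPrime ∧ 𝔓.under (𝓞 F) ≠ ⊥ ∧
      Ideal.absNorm (𝔓.under (𝓞 F)) = Ideal.absNorm 𝔓 ∧ 𝔓.inertiaDeg (𝓞 F) = 1 ∧
      Ideal.relNorm (𝓞 F) 𝔓 = 𝔓.under (𝓞 F) := by
  have hPm : 𝔓.IsMaximal := Ring.DimensionLEOne.maximalOfPrime h0 hP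
  have hup : (𝔓.under (𝓞 F)).IsPrime := inferInstance
  have hu0 : 𝔓.under (𝓞 F) ≠ ⊥ := by
    intro hbot
    have : 𝔓.LiesOver (⊥ : Ideal (𝓞 F)) := ⟨hbot.symm⟩
    exact h0 (Ideal.eq_bot_of_liesOver_bot (𝓞 F) 𝔓)
  have hum : (𝔓.under (𝓞 F)).IsMaximal := Ring.DimensionLEOne.maximalOfPrime hu0 hup
  have hlo : 𝔓.LiesOver (𝔓.under (𝓞 F)) := ⟨rfl⟩
  have hrel : Ideal.relNorm (𝓞 F) 𝔓 = (𝔓.under (𝓞 F)) ^ 𝔓.inertiaDeg (𝓞 F) :=
    Ideal.relNorm_eq_pow_of_isMaximal 𝔓 (𝔓.under (𝓞 F))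
  have habs : Ideal.absNorm (𝔓.under (𝓞 F)) ^ 𝔓.inertiaDeg (𝓞 F) = Ideal.absNorm 𝔓 := by
    rw [← map_pow, ← hrel, Ideal.absNorm_relNorm]
  obtain ⟨h1, h2⟩ := (Nat.Prime.pow_eq_iff hq).mp habs
  refine ⟨hup, hu0, h1, h2, ?_⟩
  rw [hrel, h2, pow_one]

/-- At most `[M : F]` primes of `𝓞 M` lie over a given nonzero prime of `𝓞 F`. -/
theorem dn2_card_primes_over_le (𝔮 : Ideal (𝓞 F)) (h𝔮 : 𝔮.IsPrime) (h0 : 𝔮 ≠ ⊥)
    (s : Finset (Ideal (𝓞 M))) (hs : ∀ 𝔓 ∈ s, 𝔓.IsPrime ∧ 𝔓.under (𝓞 F) = 𝔮) :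
    s.card ≤ Module.finrank F M := by
  classical
  have hmax : 𝔮.IsMaximal := Ring.DimensionLEOne.maximalOfPrime h0 h𝔮
  have hfin : Module.finrank (𝓞 F) (𝓞 M) = Module.finrank F M :=
    (IsFractionRing.finrank_eq (𝓞 F) F (𝓞 M) M).symm
  have hsum := Ideal.sum_ramification_inertia_eq_finrank 𝔮 (𝓞 M)
  rw [hfin] at hsum
  rw [← hsum]
  have hmem : ∀ 𝔓 ∈ s, 𝔓 ∈ 𝔮.primesOver (𝓞 M) := fun 𝔓 h𝔓 =>
    ⟨(hs 𝔓 h𝔓).1, ⟨(hs 𝔓 h𝔓).2.symm⟩⟩
  calc s.card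
      = (s.attach.image (fun 𝔓 => (⟨𝔓.1, hmem 𝔓.1 𝔓.2⟩ : 𝔮.primesOver (𝓞 M)))).card := by
        rw [Finset.card_image_of_injective, Finset.card_attach]
        intro a b hab
        exact Subtype.ext (congrArg (fun x : 𝔮.primesOver (𝓞 M) => x.1) hab)
    _ ≤ (Finset.univ : Finset (𝔮.primesOver (𝓞 M))).card :=
        Finset.card_le_card (Finset.subset_univ _)
    _ = ∑ q : 𝔮.primesOver (𝓞 M), 1 := by simp
    _ ≤ ∑ q : 𝔮.primesOver (𝓞 M), q.1.ramificationIdx (𝓞 F) * q.1.inertiaDeg (𝓞 F) := by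
        refine Finset.sum_le_sum fun q _ => ?_
        have : q.1.IsPrime := q.2.1
        exact Nat.one_le_iff_ne_zero.mpr
          (Nat.mul_ne_zero (Ideal.ramificationIdx_pos (R := 𝓞 F) q.1).ne'
            (Ideal.inertiaDeg_pos (R := 𝓞 F) q.1).ne')

open NumberField.Set in
/-- Part (B): the second inequality `[Cl_F : N(Cl_M)] ≤ [M : F]`, from the prime sum estimates. -/
theorem dn2_index_normClassGroup_le
    (hsumF : ∀ s : ℝ, 1 < s → Summable (fun 𝔭 : IsDedekindDomain.HeightOneSpectrum (𝓞 F) =>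
      (Ideal.absNorm 𝔭.asIdeal : ℝ) ^ (-s)))
    (hsumM : ∀ s : ℝ, 1 < s → Summable (fun 𝔭 : IsDedekindDomain.HeightOneSpectrum (𝓞 M) =>
      (Ideal.absNorm 𝔭.asIdeal : ℝ) ^ (-s)))
    (hunivM : ∃ C : ℝ, ∀ s : ℝ, 1 < s → s ≤ 2 →
      |primeIdealZetaSum (Set.univ : Set (IsDedekindDomain.HeightOneSpectrum (𝓞 M))) s -
        Real.log (1 / (s - 1))| ≤ C)
    (hbadM : ∃ C : ℝ, ∀ s : ℝ, 1 < s →
      primeIdealZetaSum {𝔭 : IsDedekindDomain.HeightOneSpectrum (𝓞 M) |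
        ¬ (Ideal.absNorm 𝔭.asIdeal).Prime ∨ Ideal.absNorm 𝔭.asIdeal ∈ (∅ : Finset ℕ)} s ≤ C)
    (hsubF : ∃ C : ℝ, ∀ s : ℝ, 1 < s → s ≤ 2 →
      ((normClassGroup F M).index : ℝ) * primeIdealZetaSum
          {𝔭 : IsDedekindDomain.HeightOneSpectrum (𝓞 F) | primeClass 𝔭 ∈ normClassGroup F M} s ≤
        Real.log (1 / (s - 1)) + C) :
    (normClassGroup F M).index ≤ Module.finrank F M := by
  classical
  obtain ⟨C₁, hC₁⟩ := hsubF
  obtain ⟨CM, hCM⟩ := hunivM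
  obtain ⟨Cb, hCb⟩ := hbadM
  refine dn2_le_of_log_bounds _ _ (fun s => primeIdealZetaSum
    {𝔭 : IsDedekindDomain.HeightOneSpectrum (𝓞 F) | primeClass 𝔭 ∈ normClassGroup F M} s)
    C₁ (CM + Cb) hC₁ ?_
  intro s hs1 hs2
  have h1 := hCM s hs1 hs2
  have h2 := hCb s hs1
  have hsumM := hsumM s hs1
  have hsumF := hsumF s hs1
  set T : Set (IsDedekindDomain.HeightOneSpectrum (𝓞 F)) :=
    {𝔭 | primeClass 𝔭 ∈ normClassGroup F M} with hT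
  set Bad : Set (IsDedekindDomain.HeightOneSpectrum (𝓞 M)) :=
    {𝔭 | ¬ (Ideal.absNorm 𝔭.asIdeal).Prime ∨ Ideal.absNorm 𝔭.asIdeal ∈ (∅ : Finset ℕ)} with hBad
  have hsplit : primeIdealZetaSum (Set.univ : Set (IsDedekindDomain.HeightOneSpectrum (𝓞 M))) s =
      primeIdealZetaSum Bad s +
        ∑' 𝔓 : ↥(Badᶜ), (Ideal.absNorm 𝔓.1.asIdeal : ℝ) ^ (-s) := by
    rw [primeIdealZetaSum_def, primeIdealZetaSum_def, tsum_univ
      (fun 𝔭 : IsDedekindDomain.HeightOneSpectrum (𝓞 M) => (Ideal.absNorm 𝔭.asIdeal : ℝ) ^ (-s)),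
      ← hsumM.tsum_subtype_add_tsum_subtype_compl Bad]
  have hgood : ∀ 𝔓 : ↥(Badᶜ), (Ideal.absNorm 𝔓.1.asIdeal).Prime := by
    rintro ⟨𝔓, h𝔓⟩
    by_contra hnp
    exact h𝔓 (Or.inl hnp)
  have hfacts := fun 𝔓 : ↥(Badᶜ) =>
    dn2_under_of_prime_norm F M 𝔓.1.asIdeal 𝔓.1.isPrime 𝔓.1.ne_bot (hgood 𝔓)
  have hmemT : ∀ 𝔓 : ↥(Badᶜ), 𝔓.1.under (𝓞 F) ∈ T := by
    intro 𝔓
    exact mk0_relNorm_mem 𝔓.1.asIdeal 𝔓.1.ne_bot _ (hfacts 𝔓).2.2.2.2.symm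
  let π : ↥(Badᶜ) → ↥T := fun 𝔓 => ⟨𝔓.1.under (𝓞 F), hmemT 𝔓⟩
  let g : ↥T → ℝ := fun 𝔮 => (Ideal.absNorm 𝔮.1.asIdeal : ℝ) ^ (-s)
  have hg0 : ∀ b, 0 ≤ g b := fun b => Real.rpow_nonneg (Nat.cast_nonneg _) _
  have hg : Summable g := hsumF.subtype T
  have hfib : ∀ (b : ↥T) (fs : Finset ↥(Badᶜ)), (∀ a ∈ fs, π a = b) →
      fs.card ≤ Module.finrank F M := by
    intro b fs hfs
    have hinj : Function.Injective (fun a : ↥(Badᶜ) => a.1.asIdeal) := by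
      intro a a' haa
      exact Subtype.ext (IsDedekindDomain.HeightOneSpectrum.ext haa)
    rw [← Finset.card_image_of_injective fs hinj]
    refine dn2_card_primes_over_le F M b.1.asIdeal b.1.isPrime b.1.ne_bot _ ?_
    intro 𝔓 h𝔓
    obtain ⟨a, ha, rfl⟩ := Finset.mem_image.mp h𝔓
    refine ⟨a.1.isPrime, ?_⟩
    have := hfs a ha
    exact congrArg (fun x : ↥T => x.1.asIdeal) this
  obtain ⟨-, hle⟩ := dn2_tsum_comp_le π (Module.finrank F M) hfib g hg0 hg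
  have hcongr : ∑' 𝔓 : ↥(Badᶜ), (Ideal.absNorm 𝔓.1.asIdeal : ℝ) ^ (-s) = ∑' a, g (π a) := by
    refine tsum_congr fun 𝔓 => ?_
    show _ = (Ideal.absNorm (𝔓.1.asIdeal.under (𝓞 F)) : ℝ) ^ (-s)
    rw [(hfacts 𝔓).2.2.1]
  have hTdef : primeIdealZetaSum T s = ∑' b, g b := primeIdealZetaSum_def T s
  rw [hsplit, hcongr] at h1
  have h3 := (abs_le.mp h1).1
  show _ ≤ (Module.finrank F M : ℝ) * primeIdealZetaSum T s
  rw [hTdef]
  linarith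

end

section

variable (F M : Type) [Field F] [Field M] [NumberField F] [NumberField M] [Algebra F M]

/-- Part (A): the norm class group is contained in the kernel of `ψ`. -/
theorem dn2_normClassGroup_le_ker {A : Type} [Group A] (ψ : ClassGroup (𝓞 F) →* A)
    (N₀ : ℕ) (hN₀ : N₀ ≠ 0)
    (h : ∀ (𝔔 : nonZeroDivisors (Ideal (𝓞 F))) (𝔓 : Ideal (𝓞 M)),
      (𝔔 : Ideal (𝓞 F)).IsPrime → 𝔓.IsPrime → 𝔓.LiesOver (𝔔 : Ideal (𝓞 F)) →
      (Ideal.absNorm (𝔔 : Ideal (𝓞 F))).Coprime N₀ →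
      ψ (ClassGroup.mk0 𝔔) ^ (𝔓.inertiaDeg (𝓞 F)) = 1)
    (hclos : Subgroup.closure {c : ClassGroup (𝓞 M) | ∃ 𝔮 : nonZeroDivisors (Ideal (𝓞 M)),
      (𝔮 : Ideal (𝓞 M)).IsPrime ∧ (Ideal.absNorm (𝔮 : Ideal (𝓞 M))).Prime ∧
      Ideal.absNorm (𝔮 : Ideal (𝓞 M)) ∉ N₀.primeFactors ∧ c = ClassGroup.mk0 𝔮} = ⊤) :
    normClassGroup F M ≤ ψ.ker := by
  obtain ⟨nrm, hnrm⟩ := exists_classNorm F M
  have key : ∀ c : ClassGroup (𝓞 M), ψ (nrm c) = 1 := by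
    have hle : Subgroup.closure {c : ClassGroup (𝓞 M) | ∃ 𝔮 : nonZeroDivisors (Ideal (𝓞 M)),
        (𝔮 : Ideal (𝓞 M)).IsPrime ∧ (Ideal.absNorm (𝔮 : Ideal (𝓞 M))).Prime ∧
        Ideal.absNorm (𝔮 : Ideal (𝓞 M)) ∉ N₀.primeFactors ∧ c = ClassGroup.mk0 𝔮} ≤
        (ψ.comp nrm).ker := by
      rw [Subgroup.closure_le]
      rintro c ⟨𝔓, hP, hq, hS, rfl⟩
      have h0 : (𝔓 : Ideal (𝓞 M)) ≠ ⊥ := nonZeroDivisors.coe_ne_zero 𝔓
      obtain ⟨hup, hu0, hnorm, hf, hrel⟩ := dn2_under_of_prime_norm F M 𝔓 hP h0 hq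
      have hlo : (𝔓 : Ideal (𝓞 M)).LiesOver ((𝔓 : Ideal (𝓞 M)).under (𝓞 F)) := ⟨rfl⟩
      have hcop : (Ideal.absNorm ((𝔓 : Ideal (𝓞 M)).under (𝓞 F))).Coprime N₀ := by
        rw [hnorm, Nat.Prime.coprime_iff_not_dvd hq]
        intro hdvd
        exact hS (Nat.mem_primeFactors.mpr ⟨hq, hdvd, hN₀⟩)
      have h1 := h ⟨(𝔓 : Ideal (𝓞 M)).under (𝓞 F), mem_nonZeroDivisors_of_ne_zero hu0⟩
        𝔓 hup hP hlo hcop
      rw [hf, pow_one] at h1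
      rw [SetLike.mem_coe, MonoidHom.mem_ker, MonoidHom.comp_apply,
        hnrm 𝔓 ⟨(𝔓 : Ideal (𝓞 M)).under (𝓞 F), mem_nonZeroDivisors_of_ne_zero hu0⟩ hrel.symm]
      exact h1
    intro c
    have hc : c ∈ Subgroup.closure {c : ClassGroup (𝓞 M) |
        ∃ 𝔮 : nonZeroDivisors (Ideal (𝓞 M)),
        (𝔮 : Ideal (𝓞 M)).IsPrime ∧ (Ideal.absNorm (𝔮 : Ideal (𝓞 M))).Prime ∧
        Ideal.absNorm (𝔮 : Ideal (𝓞 M)) ∉ N₀.primeFactors ∧ c = ClassGroup.mk0 𝔮} := by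
      rw [hclos]; exact Subgroup.mem_top c
    exact hle hc
  intro c hc
  rw [mem_normClassGroup_iff] at hc
  obtain ⟨J, I, hJ, hI, rfl⟩ := hc
  rw [MonoidHom.mem_ker, ← hnrm ⟨J, mem_nonZeroDivisors_of_ne_zero hJ⟩ I hI]
  exact key _

end

open NumberField.Set in
/-- **DN2, core form.**  The kernel of a nontrivial character of `Cl_F` of prime order
`p = [M : F]` that kills `[𝔔]^{f(𝔓|𝔔)}` for the primes `𝔔` away from `N₀` consists of norm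
classes from `M`; the analytic inputs are hypotheses. -/
theorem dn2_ker_le_normClassGroup_core (F M : Type) [Field F] [Field M] [NumberField F]
    [NumberField M] [Algebra F M] (p : ℕ) [Fact p.Prime] (hdeg : Module.finrank F M = p)
    {A : Type} [Group A] (hA : Nat.card A = p) (ψ : ClassGroup (𝓞 F) →* A)
    (hψ : ∃ c, ψ c ≠ 1) (N₀ : ℕ) (hN₀ : N₀ ≠ 0)
    (h : ∀ (𝔔 : nonZeroDivisors (Ideal (𝓞 F))) (𝔓 : Ideal (𝓞 M)),
      (𝔔 : Ideal (𝓞 F)).IsPrime → 𝔓.IsPrime → 𝔓.LiesOver (𝔔 : Ideal (𝓞 F)) →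
      (Ideal.absNorm (𝔔 : Ideal (𝓞 F))).Coprime N₀ →
      ψ (ClassGroup.mk0 𝔔) ^ (𝔓.inertiaDeg (𝓞 F)) = 1)
    (hsumF : ∀ s : ℝ, 1 < s → Summable (fun 𝔭 : IsDedekindDomain.HeightOneSpectrum (𝓞 F) =>
      (Ideal.absNorm 𝔭.asIdeal : ℝ) ^ (-s)))
    (hsumM : ∀ s : ℝ, 1 < s → Summable (fun 𝔭 : IsDedekindDomain.HeightOneSpectrum (𝓞 M) =>
      (Ideal.absNorm 𝔭.asIdeal : ℝ) ^ (-s)))
    (hunivM : ∃ C : ℝ, ∀ s : ℝ, 1 < s → s ≤ 2 →
      |primeIdealZetaSum (Set.univ : Set (IsDedekindDomain.HeightOneSpectrum (𝓞 M))) s -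
        Real.log (1 / (s - 1))| ≤ C)
    (hbadM : ∃ C : ℝ, ∀ s : ℝ, 1 < s →
      primeIdealZetaSum {𝔭 : IsDedekindDomain.HeightOneSpectrum (𝓞 M) |
        ¬ (Ideal.absNorm 𝔭.asIdeal).Prime ∨ Ideal.absNorm 𝔭.asIdeal ∈ (∅ : Finset ℕ)} s ≤ C)
    (hsubF : ∃ C : ℝ, ∀ s : ℝ, 1 < s → s ≤ 2 →
      ((normClassGroup F M).index : ℝ) * primeIdealZetaSum
          {𝔭 : IsDedekindDomain.HeightOneSpectrum (𝓞 F) | primeClass 𝔭 ∈ normClassGroup F M} s ≤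
        Real.log (1 / (s - 1)) + C)
    (hclos : Subgroup.closure {c : ClassGroup (𝓞 M) | ∃ 𝔮 : nonZeroDivisors (Ideal (𝓞 M)),
      (𝔮 : Ideal (𝓞 M)).IsPrime ∧ (Ideal.absNorm (𝔮 : Ideal (𝓞 M))).Prime ∧
      Ideal.absNorm (𝔮 : Ideal (𝓞 M)) ∉ N₀.primeFactors ∧ c = ClassGroup.mk0 𝔮} = ⊤) :
    ∀ c, ψ c = 1 → c ∈ normClassGroup F M := by
  have hle := dn2_normClassGroup_le_ker F M ψ N₀ hN₀ h hclos
  have hidx : (normClassGroup F M).index ≤ p :=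
    hdeg ▸ dn2_index_normClassGroup_le F M hsumF hsumM hunivM hbadM hsubF
  have hker := dn2_ker_le_of_index_le p hA ψ hψ (normClassGroup F M) hle hidx
  intro c hc
  exact hker (MonoidHom.mem_ker.mpr hc)

end Fermat.Agent.S14
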