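/-
S14 project, package DN2: the "second inequality" consumer.

`ker_le_normClassGroup`: for a Galois extension `M/F` of number fields of prime degree `p` and a
nontrivial character `ψ : Cl_F → A` (`|A| = p`) that kills the classes `[𝔔]^f` of the primes
away from `N₀`, the kernel of `ψ` consists of norm classes.

Proof (in `SecondIneqCore.lean`): (A) `N(Cl_M) ≤ ker ψ`, since `Cl_M` is generated by the classes
of degree one primes (DN1) and the ideal norm descends to class groups (CN);
(B) `[Cl_F : N(Cl_M)] ≤ p`, by comparing the prime sums of `M` and of the primes of `F` whose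
class is a norm (AN5); (C) `[Cl_F : ker ψ] = p`.
-/
import Fermat.Agent.S14.SecondIneqCore
import Fermat.Agent.S14.PrimeSums
import Fermat.Agent.S14.Density

set_option autoImplicit false

open NumberField
open scoped Pointwise

namespace Fermat.Agent.S14

/-- **DN2.**  The kernel of a nontrivial character of `Cl_F` of prime order `p = [M : F]` that
kills `[𝔔]^{f(𝔓|𝔔)}` for the primes `𝔔` away from `N₀` consists of norm classes from `M`. -/
theorem ker_le_normClassGroup (F M : Type) [Field F] [Field M] [NumberField F] [NumberField M]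
    [Algebra F M] [IsGalois F M] (p : ℕ) [Fact p.Prime] (hdeg : Module.finrank F M = p)
    {A : Type} [Group A] (hA : Nat.card A = p) (ψ : ClassGroup (𝓞 F) →* A)
    (hψ : ∃ c, ψ c ≠ 1) (N₀ : ℕ) (hN₀ : N₀ ≠ 0)
    (h : ∀ (𝔔 : nonZeroDivisors (Ideal (𝓞 F))) (𝔓 : Ideal (𝓞 M)),
      (𝔔 : Ideal (𝓞 F)).IsPrime → 𝔓.IsPrime → 𝔓.LiesOver (𝔔 : Ideal (𝓞 F)) →
      (Ideal.absNorm (𝔔 : Ideal (𝓞 F))).Coprime N₀ →
      ψ (ClassGroup.mk0 𝔔) ^ (𝔓.inertiaDeg (𝓞 F)) = 1) :
    ∀ c, ψ c = 1 → c ∈ normClassGroup F M :=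
  dn2_ker_le_normClassGroup_core F M p hdeg hA ψ hψ N₀ hN₀ h
    (fun _ hs => primeSum_summable F hs) (fun _ hs => primeSum_summable M hs)
    (primeSum_univ_bound M) (primeSum_bad_bound M ∅)
    (primeSum_subgroup_le F (normClassGroup F M))
    (closure_degree_one_primes M N₀.primeFactors)

end Fermat.Agent.S14
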