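/-
S14 project, package CR: Artin's crossing lemma with one auxiliary prime.
-/
import Fermat.Agent.S14.CrossPrime
import Fermat.Agent.S14.CrossFields
import Fermat.Agent.S14.ClassChar
import Fermat.Agent.S14.SecondIneq
import Fermat.Agent.S14.ClassNorm

set_option autoImplicit false

open NumberField
open scoped Pointwise

namespace Fermat.Agent.S14

/-- the absolute norm of a prime in terms of the prime below and the inertia degree -/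
theorem cr_absNorm_eq_pow {K F : Type} [Field K] [Field F] [NumberField K] [NumberField F]
    [Algebra K F] (𝔮 : Ideal (𝓞 K)) (h𝔮 : 𝔮.IsPrime) (h0 : 𝔮 ≠ ⊥) (𝔔 : Ideal (𝓞 F))
    (h𝔔 : 𝔔.IsPrime) (hlo : 𝔔.LiesOver 𝔮) :
    Ideal.relNorm (𝓞 K) 𝔔 = 𝔮 ^ 𝔔.inertiaDeg (𝓞 K) ∧
      Ideal.absNorm 𝔔 = Ideal.absNorm 𝔮 ^ 𝔔.inertiaDeg (𝓞 K) := by
  have h𝔔0 : 𝔔 ≠ ⊥ := Ideal.ne_bot_of_liesOver_of_ne_bot h0 𝔔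
  have := h𝔮.isMaximal h0
  have := h𝔔.isMaximal h𝔔0
  have h1 := Ideal.relNorm_eq_pow_of_isMaximal 𝔔 𝔮
  refine ⟨h1, ?_⟩
  rw [← Ideal.absNorm_relNorm (𝓞 K) (𝓞 F) 𝔔, h1, map_pow]

/-- **Artin's crossing lemma.** -/
theorem crossing (p : ℕ) [Fact p.Prime] (hp : p ≠ 2) (K L : Type) [Field K] [Field L]
    [NumberField K] [NumberField L] [Algebra K L] [IsCyclotomicExtension {p} ℚ K]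
    [IsGalois K L] (hdeg : Module.finrank K L = p)
    (hunr : differentIdeal (𝓞 K) (𝓞 L) = ⊤)
    (𝔮₁ 𝔮₂ : nonZeroDivisors (Ideal (𝓞 K)))
    (h₁ : (𝔮₁ : Ideal (𝓞 K)).IsPrime) (h₂ : (𝔮₂ : Ideal (𝓞 K)).IsPrime)
    (hq₁ : (Ideal.absNorm (𝔮₁ : Ideal (𝓞 K))).Prime)
    (hq₂ : (Ideal.absNorm (𝔮₂ : Ideal (𝓞 K))).Prime)
    (hne : Ideal.absNorm (𝔮₁ : Ideal (𝓞 K)) ≠ Ideal.absNorm (𝔮₂ : Ideal (𝓞 K)))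
    (hp₁ : Ideal.absNorm (𝔮₁ : Ideal (𝓞 K)) ≠ p) (hp₂ : Ideal.absNorm (𝔮₂ : Ideal (𝓞 K)) ≠ p)
    (σ : L ≃ₐ[K] L) (hσ : σ ≠ 1) (hF₁ : IsFrobOver σ (𝔮₁ : Ideal (𝓞 K))) (k : ℕ)
    (hF₂ : IsFrobOver (σ ^ k) (𝔮₂ : Ideal (𝓞 K))) :
    ClassGroup.mk0 𝔮₂ * (ClassGroup.mk0 𝔮₁ ^ k)⁻¹ ∈ normClassGroup K L := by
  classical
  have hG : Nat.card (L ≃ₐ[K] L) = p := by rw [IsGalois.card_aut_eq_finrank, hdeg]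
  obtain ⟨r, hr, lam, u₁, u₂, hrp, hu₁, hu₂, hl₁, hl₂⟩ :=
    exists_aux_prime p hp hG σ hσ k _ _ hq₁ hq₂ hne hp₁ hp₂
  have hsurj : Function.Surjective lam := by
    rw [← MonoidHom.range_eq_top, eq_top_iff, ← zpowers_eq_top_of_prime_card hG hσ,
      Subgroup.zpowers_le]
    exact ⟨u₁, hl₁⟩
  obtain ⟨F, M, _, _, _, _, _, _, _, _, _, _, _, hFM, X1, X2, X3⟩ :=
    exists_cross_fields p hp K L hdeg hunr r hrp lam hsurj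
  obtain ⟨ψ, hψ⟩ := exists_classChar F r lam X2
  have h10 : (𝔮₁ : Ideal (𝓞 K)) ≠ ⊥ := nonZeroDivisors.coe_ne_zero 𝔮₁
  have h20 : (𝔮₂ : Ideal (𝓞 K)) ≠ ⊥ := nonZeroDivisors.coe_ne_zero 𝔮₂
  obtain ⟨𝔔₁, hP₁, hlo₁, hf₁⟩ := X3 𝔮₁ u₁ σ h₁ h10 hu₁ hF₁ hl₁
  obtain ⟨𝔔₂, hP₂, hlo₂, hf₂⟩ := X3 𝔮₂ u₂ (σ ^ k) h₂ h20 hu₂ hF₂ hl₂
  have hQ₁0 : 𝔔₁ ≠ ⊥ := Ideal.ne_bot_of_liesOver_of_ne_bot h10 𝔔₁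
  have hQ₂0 : 𝔔₂ ≠ ⊥ := Ideal.ne_bot_of_liesOver_of_ne_bot h20 𝔔₂
  obtain ⟨hR₁, hN₁⟩ := cr_absNorm_eq_pow _ h₁ h10 𝔔₁ hP₁ hlo₁
  obtain ⟨hR₂, hN₂⟩ := cr_absNorm_eq_pow _ h₂ h20 𝔔₂ hP₂ hlo₂
  rw [hf₁, pow_one] at hR₁ hN₁
  rw [hf₂, pow_one] at hR₂ hN₂
  set Q₁ : nonZeroDivisors (Ideal (𝓞 F)) := ⟨𝔔₁, mem_nonZeroDivisors_of_ne_zero hQ₁0⟩ with hQ₁
  set Q₂ : nonZeroDivisors (Ideal (𝓞 F)) := ⟨𝔔₂, mem_nonZeroDivisors_of_ne_zero hQ₂0⟩ with hQ₂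
  have hψ₁ : ψ (ClassGroup.mk0 Q₁) = σ := by
    rw [hψ Q₁ u₁ (by rw [hu₁, hQ₁]; simp only [hN₁]), hl₁]
  have hψ₂ : ψ (ClassGroup.mk0 Q₂) = σ ^ k := by
    rw [hψ Q₂ u₂ (by rw [hu₂, hQ₂]; simp only [hN₂]), hl₂]
  -- second inequality
  have hker := ker_le_normClassGroup F M p hFM hG ψ
    ⟨ClassGroup.mk0 Q₁, by rw [hψ₁]; exact hσ⟩ r (NeZero.ne r) (by
      intro 𝔔 𝔓 h𝔔 h𝔓 hlo hcop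
      have h𝔔0 : (𝔔 : Ideal (𝓞 F)) ≠ ⊥ := nonZeroDivisors.coe_ne_zero 𝔔
      have h𝔓0 : 𝔓 ≠ ⊥ := Ideal.ne_bot_of_liesOver_of_ne_bot h𝔔0 𝔓
      obtain ⟨-, hN⟩ := cr_absNorm_eq_pow _ h𝔔 h𝔔0 𝔓 h𝔓 hlo
      rw [hψ 𝔔 (ZMod.unitOfCoprime _ hcop) (ZMod.coe_unitOfCoprime _ hcop), ← map_pow]
      refine X1 𝔓 _ h𝔓 h𝔓0 ?_
      rw [Units.val_pow_eq_pow_val, ZMod.coe_unitOfCoprime, hN, Nat.cast_pow])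
  have hc : ψ (ClassGroup.mk0 Q₂ * (ClassGroup.mk0 Q₁ ^ k)⁻¹) = 1 := by
    rw [map_mul, map_inv, map_pow, hψ₁, hψ₂, mul_inv_cancel]
  have hmem := hker _ hc
  rw [mem_normClassGroup_iff] at hmem
  obtain ⟨J, I, hJ, hI, hcI⟩ := hmem
  obtain ⟨nrm, hnrm⟩ := exists_classNorm K F
  have e₁ : nrm (ClassGroup.mk0 Q₁) = ClassGroup.mk0 𝔮₁ := hnrm Q₁ 𝔮₁ hR₁.symm
  have e₂ : nrm (ClassGroup.mk0 Q₂) = ClassGroup.mk0 𝔮₂ := hnrm Q₂ 𝔮₂ hR₂.symm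
  have e₃ : nrm (ClassGroup.mk0 Q₂ * (ClassGroup.mk0 Q₁ ^ k)⁻¹) =
      ClassGroup.mk0 𝔮₂ * (ClassGroup.mk0 𝔮₁ ^ k)⁻¹ := by
    rw [map_mul, map_inv, map_pow, e₁, e₂]
  rw [← e₃, hcI]
  have hI0 : Ideal.relNorm (𝓞 K) (I : Ideal (𝓞 F)) ≠ ⊥ := fun h =>
    nonZeroDivisors.coe_ne_zero I (Ideal.relNorm_eq_bot_iff.mp h)
  set I' : nonZeroDivisors (Ideal (𝓞 K)) :=
    ⟨Ideal.relNorm (𝓞 K) (I : Ideal (𝓞 F)), mem_nonZeroDivisors_of_ne_zero hI0⟩ with hI'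
  rw [hnrm I I' rfl]
  refine mk0_relNorm_mem (Ideal.relNorm (𝓞 L) J) (fun h => hJ (Ideal.relNorm_eq_bot_iff.mp h))
    I' ?_
  rw [hI', Subtype.coe_mk, hI, Ideal.relNorm_relNorm (𝓞 K) (𝓞 F) J,
    Ideal.relNorm_relNorm (𝓞 K) (𝓞 L) J]

end Fermat.Agent.S14
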