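import Mathlib
import Fermat.Agent.S14.Defs
import Fermat.Agent.Kummer.Hilbert94
import Fermat.Agent.Kummer.Hilbert92

set_option autoImplicit false
set_option linter.unusedSectionVars false

open NumberField
open scoped Pointwise nonZeroDivisors

namespace Fermat.Agent.S14

/-! ## General lemmas -/

/-- A monoid hom on nonzero ideals killing the principal ideals descends to the class group. -/
theorem fi_classLift {R : Type*} [CommRing R] [IsDedekindDomain R] {G : Type*} [CommGroup G]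
    (f : (Ideal R)⁰ →* G)
    (hf : ∀ I : (Ideal R)⁰, (∃ x : R, (I : Ideal R) = Ideal.span {x}) → f I = 1) :
    ∃ Φ : ClassGroup R →* G, ∀ I : (Ideal R)⁰, Φ (ClassGroup.mk0 I) = f I := by
  have key : ∀ I J : (Ideal R)⁰, ClassGroup.mk0 I = ClassGroup.mk0 J → f I = f J := by
    intro I J h
    obtain ⟨x, y, hx, hy, hxy⟩ := ClassGroup.mk0_eq_mk0_iff.mp h
    have hX : Ideal.span {x} ∈ (Ideal R)⁰ :=
      mem_nonZeroDivisors_of_ne_zero (by simpa using hx)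
    have hY : Ideal.span {y} ∈ (Ideal R)⁰ :=
      mem_nonZeroDivisors_of_ne_zero (by simpa using hy)
    have h1 : (⟨Ideal.span {x}, hX⟩ : (Ideal R)⁰) * I = ⟨Ideal.span {y}, hY⟩ * J :=
      Subtype.ext hxy
    have h2 := congrArg f h1
    rw [map_mul, map_mul, hf ⟨Ideal.span {x}, hX⟩ ⟨x, rfl⟩, hf ⟨Ideal.span {y}, hY⟩ ⟨y, rfl⟩,
      one_mul, one_mul] at h2
    exact h2
  have hsurj := ClassGroup.mk0_surjective (R := R)
  have hΦ : ∀ I : (Ideal R)⁰, f (Function.surjInv hsurj (ClassGroup.mk0 I)) = f I :=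
    fun I => key _ _ (Function.surjInv_eq hsurj _)
  refine ⟨MonoidHom.mk' (fun c => f (Function.surjInv hsurj c)) ?_, hΦ⟩
  intro a b
  obtain ⟨I, rfl⟩ := hsurj a
  obtain ⟨J, rfl⟩ := hsurj b
  rw [← map_mul, hΦ, hΦ, hΦ, map_mul]

/-- If the fibres of `f : A → X` lie in cosets of `H`, then `H` has finite index at most
`card X`. -/
theorem fi_index_le {A : Type*} [Group A] (H : Subgroup A) {X : Type*} [Finite X] (f : A → X)
    (hf : ∀ a b : A, f a = f b → a⁻¹ * b ∈ H) : H.index ≠ 0 ∧ H.index ≤ Nat.card X := by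
  have hinj : Function.Injective (fun q : A ⧸ H => f q.out) := by
    intro q q' h
    have h1 := hf _ _ h
    rw [← QuotientGroup.eq] at h1
    rw [← QuotientGroup.out_eq' q, ← QuotientGroup.out_eq' q']
    exact h1
  have : Finite (A ⧸ H) := Finite.of_injective _ hinj
  refine ⟨?_, ?_⟩
  · rw [Subgroup.index]
    exact Nat.card_pos.ne'
  · rw [Subgroup.index]
    exact Nat.card_le_card_of_injective _ hinj

/-- If the fibres of `f : A → X` lie in cosets of `H`, then `card A ≤ card X * card H`. -/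
theorem fi_card_le_mul {C : Type*} [Group C] [Finite C] (A H : Subgroup C) {X : Type*}
    [Finite X] (f : A → X) (hf : ∀ a b : A, f a = f b → (a : C) / (b : C) ∈ H) :
    Nat.card A ≤ Nat.card X * Nat.card H := by
  classical
  let r : X → A := fun x => if h : ∃ a, f a = x then h.choose else 1
  have hr : ∀ a : A, f (r (f a)) = f a := by
    intro a
    have h : ∃ b, f b = f a := ⟨a, rfl⟩
    simp only [r, dif_pos h]
    exact h.choose_spec
  let g : A → X × H := fun a => (f a, ⟨(a : C) / (r (f a) : C), hf _ _ (hr a).symm⟩)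
  have hg : Function.Injective g := by
    intro a b h
    have h1 : f a = f b := congrArg Prod.fst h
    have h2 : (a : C) / (r (f a) : C) = (b : C) / (r (f b) : C) :=
      congrArg (fun z => ((z.2 : H) : C)) h
    rw [h1] at h2
    exact Subtype.ext (div_left_injective h2)
  have h3 := Nat.card_le_card_of_injective g hg
  rwa [Nat.card_prod] at h3

/-! ## Galois action and norm on ideals and classes -/

section maps

variable {K L : Type} [Field K] [Field L] [NumberField K] [NumberField L] [Algebra K L]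

theorem fi_smulCommClass : SMulCommClass (L ≃ₐ[K] L) (𝓞 K) (𝓞 L) :=
  ⟨fun σ a x => by
    apply RingOfIntegers.ext
    change σ (algebraMap (𝓞 L) L (algebraMap (𝓞 K) (𝓞 L) a * x)) =
      algebraMap (𝓞 L) L (algebraMap (𝓞 K) (𝓞 L) a * σ • x)
    rw [map_mul, map_mul, map_mul]
    change σ (algebraMap K L (a : K)) * σ (x : L) = algebraMap K L (a : K) * σ (x : L)
    rw [AlgEquiv.commutes]⟩

theorem fi_smul_ne_bot (σ : L ≃ₐ[K] L) {I : Ideal (𝓞 L)} (hI : I ≠ ⊥) : σ • I ≠ ⊥ :=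
  (smul_ne_zero_iff_ne σ).mpr hI

theorem fi_smul_span (σ : L ≃ₐ[K] L) (x : 𝓞 L) :
    σ • (Ideal.span {x} : Ideal (𝓞 L)) = Ideal.span {σ • x} := by
  rw [Ideal.smul_closure, Set.smul_set_singleton]

theorem fi_span_ne_bot {R : Type*} [CommRing R] {x : R} (hx : x ≠ 0) :
    (Ideal.span {x} : Ideal R) ≠ ⊥ := by
  rwa [Ne, Ideal.span_singleton_eq_bot]

/-- the action of `σ` on nonzero ideals -/
noncomputable def fiSmulHom (σ : L ≃ₐ[K] L) : (Ideal (𝓞 L))⁰ →* (Ideal (𝓞 L))⁰ where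
  toFun I := ⟨σ • (I : Ideal (𝓞 L)),
    mem_nonZeroDivisors_of_ne_zero (fi_smul_ne_bot σ (nonZeroDivisors.coe_ne_zero I))⟩
  map_one' := Subtype.ext (smul_one σ)
  map_mul' _ _ := Subtype.ext (smul_mul' σ _ _)

theorem coe_fiSmulHom (σ : L ≃ₐ[K] L) (I : (Ideal (𝓞 L))⁰) :
    ((fiSmulHom σ I : (Ideal (𝓞 L))⁰) : Ideal (𝓞 L)) = σ • (I : Ideal (𝓞 L)) := rfl

/-- the relative norm on nonzero ideals -/
noncomputable def fiNormHom : (Ideal (𝓞 L))⁰ →* (Ideal (𝓞 K))⁰ where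
  toFun I := ⟨Ideal.relNorm (𝓞 K) (I : Ideal (𝓞 L)), mem_nonZeroDivisors_of_ne_zero (by
    intro h
    exact nonZeroDivisors.coe_ne_zero I (Ideal.relNorm_eq_bot_iff.mp h))⟩
  map_one' := Subtype.ext (by
    change Ideal.relNorm (𝓞 K) (1 : Ideal (𝓞 L)) = 1
    exact map_one _)
  map_mul' I J := Subtype.ext (by
    change Ideal.relNorm (𝓞 K) ((I : Ideal (𝓞 L)) * (J : Ideal (𝓞 L))) = _
    exact map_mul _ _ _)

theorem coe_fiNormHom (I : (Ideal (𝓞 L))⁰) :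
    ((fiNormHom (K := K) I : (Ideal (𝓞 K))⁰) : Ideal (𝓞 K)) =
      Ideal.relNorm (𝓞 K) (I : Ideal (𝓞 L)) := rfl

/-- the action of `σ` on the class group -/
theorem fi_exists_classAut (σ : L ≃ₐ[K] L) :
    ∃ s : ClassGroup (𝓞 L) →* ClassGroup (𝓞 L),
      ∀ I : (Ideal (𝓞 L))⁰, s (ClassGroup.mk0 I) = ClassGroup.mk0 (fiSmulHom σ I) := by
  refine fi_classLift (ClassGroup.mk0.comp (fiSmulHom σ)) ?_
  rintro I ⟨x, hx⟩
  rw [MonoidHom.comp_apply, ClassGroup.mk0_eq_one_iff, coe_fiSmulHom, hx, fi_smul_span]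
  exact ⟨⟨σ • x, rfl⟩⟩

/-- the norm map on class groups -/
theorem fi_exists_classNorm :
    ∃ nrm : ClassGroup (𝓞 L) →* ClassGroup (𝓞 K),
      ∀ I : (Ideal (𝓞 L))⁰, nrm (ClassGroup.mk0 I) = ClassGroup.mk0 (fiNormHom I) := by
  refine fi_classLift (ClassGroup.mk0.comp (fiNormHom (K := K) (L := L))) ?_
  rintro I ⟨x, hx⟩
  rw [MonoidHom.comp_apply, ClassGroup.mk0_eq_one_iff, coe_fiNormHom, hx,
    Ideal.relNorm_singleton]
  exact ⟨⟨_, rfl⟩⟩

theorem fi_normHom_smul (σ : L ≃ₐ[K] L) (I : (Ideal (𝓞 L))⁰) :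
    fiNormHom (K := K) (fiSmulHom σ I) = fiNormHom I := by
  have := fi_smulCommClass (K := K) (L := L)
  exact Subtype.ext (Ideal.relNorm_smul (𝓞 K) σ (I : Ideal (𝓞 L)))

end maps

/-! ## The norm operator `∏ i < p, σ ^ i` -/

section norms

variable {K L : Type} [Field K] [Field L] [NumberField K] [NumberField L] [Algebra K L]

theorem fi_prod_shift {M : Type*} [CommMonoid M] (f : ℕ → M) (p : ℕ) (h : f p = f 0) :
    ∏ i ∈ Finset.range p, f (i + 1) = ∏ i ∈ Finset.range p, f i := by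
  cases p with
  | zero => simp
  | succ q => rw [Finset.prod_range_succ, Finset.prod_range_succ', h]

/-- the norm operator `∏ i < p, σ ^ i` on `𝓞 L` -/
noncomputable def fiNm (σ : L ≃ₐ[K] L) (p : ℕ) (x : 𝓞 L) : 𝓞 L :=
  ∏ i ∈ Finset.range p, (σ ^ i) • x

theorem coe_fiNm (σ : L ≃ₐ[K] L) (p : ℕ) (x : 𝓞 L) :
    ((fiNm σ p x : 𝓞 L) : L) = ∏ i ∈ Finset.range p, (σ ^ i) (x : L) := by
  change algebraMap (𝓞 L) L (∏ i ∈ Finset.range p, (σ ^ i) • x) = _
  rw [map_prod]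
  rfl

theorem fiNm_mul (σ : L ≃ₐ[K] L) (p : ℕ) (x y : 𝓞 L) :
    fiNm σ p (x * y) = fiNm σ p x * fiNm σ p y := by
  simp only [fiNm, smul_mul', Finset.prod_mul_distrib]

theorem fiNm_ne_zero (σ : L ≃ₐ[K] L) (p : ℕ) {x : 𝓞 L} (hx : x ≠ 0) : fiNm σ p x ≠ 0 :=
  Finset.prod_ne_zero_iff.mpr fun _ _ => (smul_ne_zero_iff_ne _).mpr hx

theorem fiNm_smul (σ : L ≃ₐ[K] L) {p : ℕ} (hσp : σ ^ p = 1) (x : 𝓞 L) :
    fiNm σ p (σ • x) = fiNm σ p x := by
  unfold fiNm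
  have h := fi_prod_shift (fun i => (σ ^ i) • x) p (by simp [hσp])
  rw [← h]
  refine Finset.prod_congr rfl fun i _ => ?_
  rw [smul_smul, pow_succ]

theorem smul_fiNm (σ : L ≃ₐ[K] L) {p : ℕ} (hσp : σ ^ p = 1) (x : 𝓞 L) :
    σ • fiNm σ p x = fiNm σ p x := by
  unfold fiNm
  rw [Finset.smul_prod']
  have h := fi_prod_shift (fun i => (σ ^ i) • x) p (by simp [hσp])
  rw [← h]
  refine Finset.prod_congr rfl fun i _ => ?_
  rw [smul_smul, pow_succ']

theorem fiNm_unit (σ : L ≃ₐ[K] L) (p : ℕ) (ε : (𝓞 L)ˣ) :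
    fiNm σ p (ε : 𝓞 L) = ((Kummer.unitsNorm σ p ε : (𝓞 L)ˣ) : 𝓞 L) := by
  rw [Kummer.unitsNorm_apply, Units.coe_prod]
  rfl

theorem fi_prod_smul_span (σ : L ≃ₐ[K] L) (p : ℕ) (x : 𝓞 L) :
    ∏ i ∈ Finset.range p, (σ ^ i) • (Ideal.span {x} : Ideal (𝓞 L)) =
      Ideal.span {fiNm σ p x} := by
  simp only [fi_smul_span]
  rw [Ideal.prod_span_singleton]
  rfl

theorem fi_prod_smul_smul (σ : L ≃ₐ[K] L) {p : ℕ} (hσp : σ ^ p = 1) (A : Ideal (𝓞 L)) :
    ∏ i ∈ Finset.range p, (σ ^ i) • (σ • A) = ∏ i ∈ Finset.range p, (σ ^ i) • A := by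
  have h := fi_prod_shift (fun i => (σ ^ i) • A) p (by simp [hσp])
  rw [← h]
  refine Finset.prod_congr rfl fun i _ => ?_
  rw [smul_smul, pow_succ]

/-- an ambiguous class gives a unit -/
theorem fi_exists_unit (σ : L ≃ₐ[K] L) {p : ℕ} (hσp : σ ^ p = 1) {A : Ideal (𝓞 L)}
    (hA : A ≠ ⊥) {x y : 𝓞 L} (h : Ideal.span {x} * σ • A = Ideal.span {y} * A) :
    ∃ u : (𝓞 L)ˣ, fiNm σ p x * u = fiNm σ p y := by
  have h1 : ∏ i ∈ Finset.range p, (σ ^ i) • (Ideal.span {x} * σ • A) =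
      ∏ i ∈ Finset.range p, (σ ^ i) • (Ideal.span {y} * A) := by rw [h]
  simp only [smul_mul', Finset.prod_mul_distrib] at h1
  rw [fi_prod_smul_span, fi_prod_smul_span, fi_prod_smul_smul σ hσp] at h1
  have hP : ∏ i ∈ Finset.range p, (σ ^ i) • A ≠ 0 :=
    Finset.prod_ne_zero_iff.mpr fun _ _ => fi_smul_ne_bot _ hA
  have h2 := mul_right_cancel₀ hP h1
  exact Ideal.span_singleton_eq_span_singleton.mp h2

theorem fi_unit_fixed (σ : L ≃ₐ[K] L) {p : ℕ} (hσp : σ ^ p = 1) {x y : 𝓞 L} (hx : x ≠ 0)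
    {u : (𝓞 L)ˣ} (h : fiNm σ p x * u = fiNm σ p y) : Kummer.unitsAut σ u = u := by
  have h1 : σ • (fiNm σ p x * (u : 𝓞 L)) = σ • fiNm σ p y := by rw [h]
  rw [smul_mul', smul_fiNm σ hσp, smul_fiNm σ hσp, ← h] at h1
  have h2 := mul_left_cancel₀ (fiNm_ne_zero σ p hx) h1
  exact Units.ext h2

/-- Hilbert 90 with an integral solution. -/
theorem fi_hilbert90 [IsGalois K L] (σ : L ≃ₐ[K] L) (hσ : ∀ τ, τ ∈ Subgroup.zpowers σ)
    {num den : 𝓞 L} (hnum : num ≠ 0) (hden : den ≠ 0)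
    (h : fiNm σ (Module.finrank K L) num = fiNm σ (Module.finrank K L) den) :
    ∃ b : 𝓞 L, b ≠ 0 ∧ num * σ • b = den * b := by
  have hnum' : (num : L) ≠ 0 := RingOfIntegers.coe_ne_zero_iff.mpr hnum
  have hden' : (den : L) ≠ 0 := RingOfIntegers.coe_ne_zero_iff.mpr hden
  have hnorm : Algebra.norm K ((num : L) / (den : L)) = 1 := by
    apply FaithfulSMul.algebraMap_injective K L
    rw [Algebra.norm_eq_prod_automorphisms, Kummer.h92_prod_aut_eq σ hσ, map_one]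
    simp only [map_div₀]
    rw [Finset.prod_div_distrib, ← coe_fiNm, ← coe_fiNm, h, div_self]
    exact RingOfIntegers.coe_ne_zero_iff.mpr (fiNm_ne_zero σ _ hden)
  have : IsCyclic (L ≃ₐ[K] L) := ⟨σ, hσ⟩
  obtain ⟨y, hy⟩ := groupCohomology.exists_div_of_norm_eq_one hσ hnorm
  have hy0 : (y : L) ≠ 0 := y.ne_zero
  have hσy0 : σ (y : L) ≠ 0 := (map_ne_zero _).mpr hy0
  have hy' : (y : L) * (den : L) = (num : L) * σ (y : L) := by
    rw [div_eq_div_iff hσy0 hden'] at hy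
    rw [hy]
  obtain ⟨d, hd0, hd⟩ : ∃ d : ℤ, d ≠ 0 ∧ IsIntegral ℤ (d • (y : L)) :=
    ((IsFractionRing.isAlgebraic_iff ℤ ℚ L).mpr
      (Algebra.IsAlgebraic.isAlgebraic (R := ℚ) (y : L))).exists_integral_multiple
  refine ⟨⟨d • (y : L), hd⟩, ?_, ?_⟩
  · intro h0
    have h1 : d • (y : L) = 0 := congrArg (fun z : 𝓞 L => (z : L)) h0
    rw [zsmul_eq_mul, mul_eq_zero] at h1
    rcases h1 with h1 | h1
    · exact hd0 (by exact_mod_cast h1)
    · exact hy0 h1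
  · apply RingOfIntegers.ext
    change (num : L) * σ (d • (y : L)) = (den : L) * (d • (y : L))
    rw [map_zsmul, mul_smul_comm, mul_smul_comm, ← hy', mul_comm]

end norms

/-! ## Ambiguous classes, capitulation and the unit index -/

section main

variable {K L : Type} [Field K] [Field L] [NumberField K] [NumberField L] [Algebra K L]
  [IsGalois K L]

theorem fi_smul_algebraMap (σ : L ≃ₐ[K] L) (x : 𝓞 K) :
    σ • algebraMap (𝓞 K) (𝓞 L) x = algebraMap (𝓞 K) (𝓞 L) x := by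
  apply RingOfIntegers.ext
  change σ (algebraMap K L (x : K)) = algebraMap K L (x : K)
  rw [AlgEquiv.commutes]

theorem fi_stable (σ : L ≃ₐ[K] L) (hσ : ∀ τ, τ ∈ Subgroup.zpowers σ) {B : Ideal (𝓞 L)}
    (hB : σ • B = B) (τ : L ≃ₐ[K] L) : τ • B = B := by
  have h1 : Subgroup.zpowers σ ≤ MulAction.stabilizer (L ≃ₐ[K] L) B := by
    rw [Subgroup.zpowers_le]
    exact MulAction.mem_stabilizer_iff.mpr hB
  exact MulAction.mem_stabilizer_iff.mp (h1 (hσ τ))

/-- Two ambiguous classes with the same unit invariant differ by an extended class. -/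
theorem fi_mem_range (hunr : differentIdeal (𝓞 K) (𝓞 L) = ⊤) (σ : L ≃ₐ[K] L)
    (hσ : ∀ τ, τ ∈ Subgroup.zpowers σ)
    {A A' : Ideal (𝓞 L)} (hA : A ≠ ⊥) (hA' : A' ≠ ⊥) {x y x' y' : 𝓞 L} (hx : x ≠ 0)
    (hy : y ≠ 0) (hx' : x' ≠ 0) (hy' : y' ≠ 0)
    (h : Ideal.span {x} * σ • A = Ideal.span {y} * A)
    (h' : Ideal.span {x'} * σ • A' = Ideal.span {y'} * A')
    {u u' ε : (𝓞 L)ˣ}
    (hu : fiNm σ (Module.finrank K L) x * u = fiNm σ (Module.finrank K L) y)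
    (hu' : fiNm σ (Module.finrank K L) x' * u' = fiNm σ (Module.finrank K L) y')
    (hε : u = u' * Kummer.unitsNorm σ (Module.finrank K L) ε) :
    ClassGroup.mk0 ⟨A, mem_nonZeroDivisors_of_ne_zero hA⟩ /
      ClassGroup.mk0 ⟨A', mem_nonZeroDivisors_of_ne_zero hA'⟩ ∈
        (ClassGroup.extendedHom (𝓞 K) (𝓞 L)).range := by
  have hσp : σ ^ Module.finrank K L = 1 := Kummer.h92_pow_finrank_eq_one σ
  -- an integral ideal in the inverse class of `A'`
  obtain ⟨A''s, hA''⟩ := ClassGroup.mk0_surjective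
    (ClassGroup.mk0 ⟨A', mem_nonZeroDivisors_of_ne_zero hA'⟩)⁻¹
  obtain ⟨a, ha0, ha⟩ := ClassGroup.mk0_eq_mk0_inv_iff.mp hA''
  set A'' : Ideal (𝓞 L) := (A''s : Ideal (𝓞 L)) with hA''def
  have hA''0 : A'' ≠ ⊥ := nonZeroDivisors.coe_ne_zero A''s
  change A'' * A' = Ideal.span {a} at ha
  have hσa : σ • A'' * σ • A' = Ideal.span {σ • a} := by
    rw [← smul_mul', ha, fi_smul_span]
  -- the element of norm one
  have hnum : y * x' * σ • a ≠ 0 :=
    mul_ne_zero (mul_ne_zero hy hx') ((smul_ne_zero_iff_ne σ).mpr ha0)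
  have hden : x * y' * a * (ε : 𝓞 L) ≠ 0 :=
    mul_ne_zero (mul_ne_zero (mul_ne_zero hx hy') ha0) ε.ne_zero
  have hε' : (u : 𝓞 L) = (u' : 𝓞 L) * fiNm σ (Module.finrank K L) (ε : 𝓞 L) := by
    rw [fiNm_unit, ← Units.val_mul, hε]
  have hNm : fiNm σ (Module.finrank K L) (y * x' * σ • a) =
      fiNm σ (Module.finrank K L) (x * y' * a * (ε : 𝓞 L)) := by
    rw [fiNm_mul, fiNm_mul, fiNm_mul, fiNm_mul, fiNm_mul, fiNm_smul σ hσp, ← hu, ← hu', hε']
    ring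
  obtain ⟨b, hb0, hb⟩ := fi_hilbert90 σ hσ hnum hden hNm
  -- the ambiguous ideal
  set B : Ideal (𝓞 L) := Ideal.span {b} * A * A'' with hBdef
  have hB0 : B ≠ ⊥ := mul_ne_zero (mul_ne_zero (fi_span_ne_bot hb0) hA) hA''0
  have hMu : Ideal.span {x} * Ideal.span {x'} * σ • A' ≠ 0 :=
    mul_ne_zero (mul_ne_zero (fi_span_ne_bot hx) (fi_span_ne_bot hx')) (fi_smul_ne_bot σ hA')
  have e1 : σ • B * (Ideal.span {x} * Ideal.span {x'} * σ • A') =
      Ideal.span {y * x' * σ • a * σ • b} * A := by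
    calc σ • B * (Ideal.span {x} * Ideal.span {x'} * σ • A')
        = (Ideal.span {x} * σ • A) * (σ • A'' * σ • A') *
            (Ideal.span {σ • b} * Ideal.span {x'}) := by
          rw [hBdef, smul_mul', smul_mul', fi_smul_span]
          ring
      _ = (Ideal.span {y} * A) * Ideal.span {σ • a} *
            (Ideal.span {σ • b} * Ideal.span {x'}) := by rw [h, hσa]
      _ = Ideal.span {y * x' * σ • a * σ • b} * A := by
          simp only [← Ideal.span_singleton_mul_span_singleton]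
          ring
  have e2 : B * (Ideal.span {x} * Ideal.span {x'} * σ • A') =
      Ideal.span {x * y' * a * b} * A := by
    calc B * (Ideal.span {x} * Ideal.span {x'} * σ • A')
        = (Ideal.span {x'} * σ • A') * (A'' * A) * (Ideal.span {b} * Ideal.span {x}) := by
          rw [hBdef]
          ring
      _ = (Ideal.span {y'} * A') * (A'' * A) * (Ideal.span {b} * Ideal.span {x}) := by rw [h']
      _ = (A'' * A') * (Ideal.span {y'} * A) * (Ideal.span {b} * Ideal.span {x}) := by ring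
      _ = Ideal.span {x * y' * a * b} * A := by
          rw [ha]
          simp only [← Ideal.span_singleton_mul_span_singleton]
          ring
  have e3 : Ideal.span {y * x' * σ • a * σ • b} = Ideal.span {x * y' * a * b} := by
    rw [Ideal.span_singleton_eq_span_singleton]
    refine ⟨ε⁻¹, ?_⟩
    rw [hb]
    have : x * y' * a * (ε : 𝓞 L) * b * ((ε⁻¹ : (𝓞 L)ˣ) : 𝓞 L) =
        x * y' * a * b * ((ε : 𝓞 L) * ((ε⁻¹ : (𝓞 L)ˣ) : 𝓞 L)) := by ring
    rw [this, ← Units.val_mul, mul_inv_cancel, Units.val_one, mul_one]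
  have hσB : σ • B = B := by
    apply mul_right_cancel₀ hMu
    rw [e1, e2, e3]
  obtain ⟨J, hJ⟩ := Kummer.h94_ambiguous hunr B hB0 (fi_stable σ hσ hσB)
  have hJ0 : J ≠ ⊥ := by
    rintro rfl
    rw [Ideal.map_bot] at hJ
    exact hB0 hJ
  refine ⟨ClassGroup.mk0 ⟨J, mem_nonZeroDivisors_of_ne_zero hJ0⟩, ?_⟩
  rw [ClassGroup.extendedHom_mk0, div_eq_mul_inv, ← hA'', ← map_mul,
    ClassGroup.mk0_eq_mk0_iff]
  refine ⟨1, b, one_ne_zero, hb0, ?_⟩
  change Ideal.span {1} * Ideal.map (algebraMap (𝓞 K) (𝓞 L)) J = Ideal.span {b} * (A * A'')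
  rw [← hJ, hBdef, Ideal.span_singleton_one, Ideal.top_mul, mul_assoc]

/-- A unit of norm one comes from a capitulating ideal. -/
theorem fi_cap_exists (hunr : differentIdeal (𝓞 K) (𝓞 L) = ⊤) (σ : L ≃ₐ[K] L)
    (hσ : ∀ τ, τ ∈ Subgroup.zpowers σ) {ε : (𝓞 L)ˣ}
    (hε : Kummer.unitsNorm σ (Module.finrank K L) ε = 1) :
    ∃ (α : 𝓞 L) (J : Ideal (𝓞 K)), α ≠ 0 ∧ J ≠ ⊥ ∧ (ε : 𝓞 L) * σ • α = α ∧
      Ideal.span {α} = J.map (algebraMap (𝓞 K) (𝓞 L)) := by
  have hNm : fiNm σ (Module.finrank K L) (ε : 𝓞 L) = fiNm σ (Module.finrank K L) 1 := by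
    rw [fiNm_unit, hε]
    simp [fiNm]
  obtain ⟨b, hb0, hb⟩ := fi_hilbert90 σ hσ ε.ne_zero one_ne_zero hNm
  rw [one_mul] at hb
  have hσB : σ • (Ideal.span {b} : Ideal (𝓞 L)) = Ideal.span {b} := by
    rw [fi_smul_span, Ideal.span_singleton_eq_span_singleton]
    exact ⟨ε, by rw [mul_comm]; exact hb⟩
  obtain ⟨J, hJ⟩ := Kummer.h94_ambiguous hunr _ (fi_span_ne_bot hb0) (fi_stable σ hσ hσB)
  refine ⟨b, J, hb0, ?_, hb, hJ⟩
  rintro rfl
  rw [Ideal.map_bot] at hJ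
  exact fi_span_ne_bot hb0 hJ

/-- Units of norm one attached to the same ideal class differ by an element `u / σ u`. -/
theorem fi_cap_inj (σ : L ≃ₐ[K] L) {ε ε' : (𝓞 L)ˣ} {α α' : 𝓞 L} {J J' : Ideal (𝓞 K)}
    (hα : α ≠ 0) (hJ : J ≠ ⊥) (hJ' : J' ≠ ⊥)
    (h1 : (ε : 𝓞 L) * σ • α = α) (h2 : Ideal.span {α} = J.map (algebraMap (𝓞 K) (𝓞 L)))
    (h1' : (ε' : 𝓞 L) * σ • α' = α')
    (h2' : Ideal.span {α'} = J'.map (algebraMap (𝓞 K) (𝓞 L)))
    (hc : ClassGroup.mk0 ⟨J, mem_nonZeroDivisors_of_ne_zero hJ⟩ =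
      ClassGroup.mk0 ⟨J', mem_nonZeroDivisors_of_ne_zero hJ'⟩) :
    ε⁻¹ * ε' ∈ (Kummer.unitsDelta σ).range := by
  obtain ⟨x, y, hx, hy, hxy⟩ := ClassGroup.mk0_eq_mk0_iff.mp hc
  change Ideal.span {x} * J = Ideal.span {y} * J' at hxy
  have h3 := congrArg (Ideal.map (algebraMap (𝓞 K) (𝓞 L))) hxy
  rw [Ideal.map_mul, Ideal.map_mul, Ideal.map_span, Ideal.map_span, Set.image_singleton,
    Set.image_singleton, ← h2, ← h2', Ideal.span_singleton_mul_span_singleton,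
    Ideal.span_singleton_mul_span_singleton, Ideal.span_singleton_eq_span_singleton] at h3
  obtain ⟨u, hu⟩ := h3
  have hx' : algebraMap (𝓞 K) (𝓞 L) x ≠ 0 := by
    rw [Ne, map_eq_zero_iff _ (FaithfulSMul.algebraMap_injective (𝓞 K) (𝓞 L))]
    exact hx
  have hσu : σ • (algebraMap (𝓞 K) (𝓞 L) x * α * (u : 𝓞 L)) =
      σ • (algebraMap (𝓞 K) (𝓞 L) y * α') := by rw [hu]
  rw [smul_mul', smul_mul', smul_mul', fi_smul_algebraMap, fi_smul_algebraMap] at hσu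
  have key : algebraMap (𝓞 K) (𝓞 L) x * α * (σ • (u : 𝓞 L) * (ε' : 𝓞 L)) =
      algebraMap (𝓞 K) (𝓞 L) x * α * ((ε : 𝓞 L) * (u : 𝓞 L)) := by
    calc algebraMap (𝓞 K) (𝓞 L) x * α * (σ • (u : 𝓞 L) * (ε' : 𝓞 L))
        = algebraMap (𝓞 K) (𝓞 L) x * ((ε : 𝓞 L) * σ • α) * (σ • (u : 𝓞 L) * (ε' : 𝓞 L)) := by
          rw [h1]
      _ = (ε : 𝓞 L) * (ε' : 𝓞 L) *
            (algebraMap (𝓞 K) (𝓞 L) x * σ • α * σ • (u : 𝓞 L)) := by ring
      _ = (ε : 𝓞 L) * (algebraMap (𝓞 K) (𝓞 L) y * ((ε' : 𝓞 L) * σ • α')) := by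
          rw [hσu]
          ring
      _ = (ε : 𝓞 L) * (algebraMap (𝓞 K) (𝓞 L) x * α * (u : 𝓞 L)) := by rw [h1', hu]
      _ = algebraMap (𝓞 K) (𝓞 L) x * α * ((ε : 𝓞 L) * (u : 𝓞 L)) := by ring
  have key2 := mul_left_cancel₀ (mul_ne_zero hx' hα) key
  refine ⟨u, ?_⟩
  rw [Kummer.unitsDelta_apply, div_eq_iff_eq_mul, mul_assoc, eq_inv_mul_iff_mul_eq]
  apply Units.ext
  rw [Units.val_mul, Units.val_mul]
  change (ε : 𝓞 L) * (u : 𝓞 L) = (ε' : 𝓞 L) * σ • (u : 𝓞 L)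
  rw [← key2, mul_comm]

/-- The unit index computation: `|H¹(E_L)| = |Ĥ⁰(E_L)| * h` with `h ≠ 1`. -/
theorem fi_herbrand (p : ℕ) [Fact p.Prime] (hp : p ≠ 2) (hKL : Module.finrank K L = p)
    (σ : L ≃ₐ[K] L) (hσ : ∀ τ, τ ∈ Subgroup.zpowers σ) :
    ∃ h : ℕ, h ≠ 1 ∧ (Kummer.unitsDelta σ).range.relIndex (Kummer.unitsNorm σ p).ker =
      (Kummer.unitsNorm σ p).range.relIndex (Kummer.unitsDelta σ).ker * h := by
  obtain ⟨B, hBfin, hBσ, hBfix, y0, hy0B, hy0N, hy0⟩ :=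
    Kummer.h92_exists_units_subgroup p hp hKL σ hσ
  have hσp : σ ^ p = 1 := by
    rw [← hKL]
    exact Kummer.h92_pow_finrank_eq_one σ
  have hpow : ∀ (i : ℕ), ∀ x ∈ B, Kummer.unitsAut (σ ^ i) x ∈ B := by
    intro i
    induction i with
    | zero =>
      intro x hx
      have h0 : Kummer.unitsAut (σ ^ 0) x = x := Kummer.h92_units_ext rfl
      rw [h0]
      exact hx
    | succ i ih =>
      intro x hx
      rw [pow_succ, Kummer.unitsAut_mul]
      exact ih _ (hBσ x hx)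
  have hfB : ∀ x ∈ B, Kummer.unitsNorm σ p x ∈ B := by
    intro x hx
    rw [Kummer.unitsNorm_apply]
    exact Subgroup.prod_mem B fun i _ => hpow i x hx
  have hgB : ∀ x ∈ B, Kummer.unitsDelta σ x ∈ B := by
    intro x hx
    rw [Kummer.unitsDelta_apply]
    exact B.div_mem hx (hBσ x hx)
  have key := @Kummer.herbrand_index _ _ (Kummer.unitsNorm σ p) (Kummer.unitsDelta σ)
    (Kummer.h92_unitsNorm_unitsDelta σ hσp) (Kummer.h92_unitsDelta_unitsNorm σ hσp) B hBfin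
    hfB hgB
  have h1 : (B.map (Kummer.unitsNorm σ p)).relIndex ((Kummer.unitsDelta σ).ker ⊓ B) = 1 := by
    rw [Subgroup.relIndex_eq_one]
    rintro x ⟨hx1, hx2⟩
    have hx1' : x / Kummer.unitsAut σ x = 1 := by
      rw [← Kummer.unitsDelta_apply]
      exact MonoidHom.mem_ker.mp hx1
    obtain ⟨y, hy, hxy⟩ := hBfix x hx2 (div_eq_one.mp hx1').symm
    exact ⟨y, hy, hxy⟩
  have h2 : (B.map (Kummer.unitsDelta σ)).relIndex ((Kummer.unitsNorm σ p).ker ⊓ B) ≠ 1 := by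
    rw [Ne, Subgroup.relIndex_eq_one]
    intro hle
    have hy0mem : y0 ∈ (Kummer.unitsNorm σ p).ker ⊓ B := ⟨MonoidHom.mem_ker.mpr hy0N, hy0B⟩
    obtain ⟨y, hy, hyy0⟩ := hle hy0mem
    exact hy0 y hy hyy0.symm
  refine ⟨_, h2, ?_⟩
  rw [← key, h1, mul_one]

end main

/-! ## The first inequality -/

/-- **First inequality** for an unramified cyclic extension of odd prime degree: the norm
classes do not fill the class group of the base field. -/
theorem normClassGroup_ne_top (p : ℕ) [Fact p.Prime] (hp : p ≠ 2) (K L : Type) [Field K]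
    [Field L] [NumberField K] [NumberField L] [Algebra K L] [IsGalois K L]
    (hdeg : Module.finrank K L = p) (hunr : differentIdeal (𝓞 K) (𝓞 L) = ⊤) :
    normClassGroup K L ≠ ⊤ := by
  intro htop
  -- a generator of the Galois group
  have hcard : Nat.card (L ≃ₐ[K] L) = p := by
    rw [IsGalois.card_aut_eq_finrank, hdeg]
  have : IsCyclic (L ≃ₐ[K] L) := isCyclic_of_prime_card hcard
  obtain ⟨σ, hσ⟩ := IsCyclic.exists_generator (α := L ≃ₐ[K] L)
  have hσp : σ ^ p = 1 := by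
    rw [← hdeg]
    exact Kummer.h92_pow_finrank_eq_one σ
  obtain ⟨s, hs⟩ := fi_exists_classAut σ
  obtain ⟨nrm, hnrm⟩ := fi_exists_classNorm (K := K) (L := L)
  -- the norm map is surjective
  have hsurj : Function.Surjective nrm := by
    intro c
    have hc : c ∈ normClassGroup K L := by
      rw [htop]
      trivial
    obtain ⟨J, I, hJ, hI, rfl⟩ := mem_normClassGroup_iff.mp hc
    refine ⟨ClassGroup.mk0 ⟨J, mem_nonZeroDivisors_of_ne_zero hJ⟩, ?_⟩
    rw [hnrm]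
    congr 1
    exact Subtype.ext hI.symm
  -- `δ = s - 1`
  let δ : ClassGroup (𝓞 L) →* ClassGroup (𝓞 L) := s / MonoidHom.id _
  have hδ_apply : ∀ c, δ c = s c / c := fun c => rfl
  have hδ : δ.range ≤ nrm.ker := by
    rintro _ ⟨c, rfl⟩
    obtain ⟨I, rfl⟩ := ClassGroup.mk0_surjective c
    rw [MonoidHom.mem_ker, hδ_apply, map_div, hs, hnrm, hnrm, fi_normHom_smul, div_self']
  -- first count: `h_K ≤ |ker δ|`
  have c1 : Nat.card (ClassGroup (𝓞 K)) ≤ Nat.card δ.ker := by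
    have e1 : Nat.card nrm.ker * Nat.card (ClassGroup (𝓞 K)) = Nat.card (ClassGroup (𝓞 L)) := by
      rw [← Subgroup.card_mul_index nrm.ker, Subgroup.index_ker,
        MonoidHom.range_eq_top.mpr hsurj, Subgroup.card_top]
    have e2 : Nat.card δ.ker * Nat.card δ.range = Nat.card (ClassGroup (𝓞 L)) := by
      rw [← Subgroup.card_mul_index δ.ker, Subgroup.index_ker]
    have e3 : Nat.card δ.range ≤ Nat.card nrm.ker := Subgroup.card_le_of_le hδ
    have e4 : 0 < Nat.card nrm.ker := Nat.card_pos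
    have e5 : Nat.card nrm.ker * Nat.card (ClassGroup (𝓞 K)) ≤
        Nat.card nrm.ker * Nat.card δ.ker := by
      rw [e1, ← e2, mul_comm]
      exact Nat.mul_le_mul_right _ e3
    exact Nat.le_of_mul_le_mul_left e5 e4
  -- capitulation: `[ker N : im Δ] ≤ |ker j|`
  have hcap : ∀ ε : (Kummer.unitsNorm σ p).ker, ∃ (α : 𝓞 L) (J : Ideal (𝓞 K)), α ≠ 0 ∧
      J ≠ ⊥ ∧ ((ε : (𝓞 L)ˣ) : 𝓞 L) * σ • α = α ∧
      Ideal.span {α} = J.map (algebraMap (𝓞 K) (𝓞 L)) := by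
    intro ε
    have h1 : Kummer.unitsNorm σ (Module.finrank K L) (ε : (𝓞 L)ˣ) = 1 := by
      rw [hdeg]
      exact MonoidHom.mem_ker.mp ε.2
    exact fi_cap_exists hunr σ hσ h1
  choose α J hα hJ hcap1 hcap2 using hcap
  have hjJ : ∀ ε : (Kummer.unitsNorm σ p).ker,
      ClassGroup.mk0 ⟨J ε, mem_nonZeroDivisors_of_ne_zero (hJ ε)⟩ ∈
        (ClassGroup.extendedHom (𝓞 K) (𝓞 L)).ker := by
    intro ε
    rw [MonoidHom.mem_ker, ClassGroup.extendedHom_mk0, ClassGroup.mk0_eq_one_iff]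
    change (Ideal.map (algebraMap (𝓞 K) (𝓞 L)) (J ε)).IsPrincipal
    rw [← hcap2 ε]
    exact ⟨⟨_, rfl⟩⟩
  have c2 := fi_index_le ((Kummer.unitsDelta σ).range.subgroupOf (Kummer.unitsNorm σ p).ker)
    (X := (ClassGroup.extendedHom (𝓞 K) (𝓞 L)).ker)
    (fun ε => ⟨_, hjJ ε⟩) (by
      intro a b hab
      have h1 : ClassGroup.mk0 ⟨J a, mem_nonZeroDivisors_of_ne_zero (hJ a)⟩ =
          ClassGroup.mk0 ⟨J b, mem_nonZeroDivisors_of_ne_zero (hJ b)⟩ :=
        congrArg Subtype.val hab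
      rw [Subgroup.mem_subgroupOf]
      exact fi_cap_inj σ (hα a) (hJ a) (hJ b) (hcap1 a) (hcap2 a) (hcap1 b) (hcap2 b) h1)
  obtain ⟨hn1, hn1le⟩ := c2
  change (Kummer.unitsDelta σ).range.relIndex (Kummer.unitsNorm σ p).ker ≠ 0 at hn1
  change (Kummer.unitsDelta σ).range.relIndex (Kummer.unitsNorm σ p).ker ≤ _ at hn1le
  -- the unit index
  obtain ⟨h, hh1, hh⟩ := fi_herbrand p hp hdeg σ hσ
  have hm0 : (Kummer.unitsNorm σ p).range.relIndex (Kummer.unitsDelta σ).ker ≠ 0 := by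
    intro h0
    rw [h0, zero_mul] at hh
    exact hn1 hh
  have hh0 : h ≠ 0 := by
    rintro rfl
    rw [mul_zero] at hh
    exact hn1 hh
  -- ambiguous classes: `|ker δ| ≤ [ker Δ : im N] * |range j|`
  have : ((Kummer.unitsNorm σ p).range.subgroupOf (Kummer.unitsDelta σ).ker).FiniteIndex :=
    ⟨hm0⟩
  have hamb : ∀ c : δ.ker, ∃ (A : Ideal (𝓞 L)) (hA : A ≠ ⊥) (x y : 𝓞 L) (u : (𝓞 L)ˣ),
      x ≠ 0 ∧ y ≠ 0 ∧
      ClassGroup.mk0 ⟨A, mem_nonZeroDivisors_of_ne_zero hA⟩ = (c : ClassGroup (𝓞 L)) ∧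
      Ideal.span {x} * σ • A = Ideal.span {y} * A ∧
      fiNm σ p x * u = fiNm σ p y ∧ u ∈ (Kummer.unitsDelta σ).ker := by
    intro c
    obtain ⟨I, hI⟩ := ClassGroup.mk0_surjective (c : ClassGroup (𝓞 L))
    have hc : s (c : ClassGroup (𝓞 L)) = c := by
      have h1 := MonoidHom.mem_ker.mp c.2
      rw [hδ_apply] at h1
      exact div_eq_one.mp h1
    rw [← hI, hs] at hc
    obtain ⟨x, y, hx, hy, hxy⟩ := ClassGroup.mk0_eq_mk0_iff.mp hc
    rw [coe_fiSmulHom] at hxy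
    have hI0 : (I : Ideal (𝓞 L)) ≠ ⊥ := nonZeroDivisors.coe_ne_zero I
    obtain ⟨u, hu⟩ := fi_exists_unit σ hσp hI0 hxy
    have hfix := fi_unit_fixed σ hσp hx hu
    refine ⟨I, hI0, x, y, u, hx, hy, hI, hxy, hu, ?_⟩
    rw [MonoidHom.mem_ker, Kummer.unitsDelta_apply, hfix, div_self']
  choose A hA x y u hx hy hAc hxy hu hker using hamb
  have c3 := fi_card_le_mul δ.ker (ClassGroup.extendedHom (𝓞 K) (𝓞 L)).range
    (X := (Kummer.unitsDelta σ).ker ⧸
      (Kummer.unitsNorm σ p).range.subgroupOf (Kummer.unitsDelta σ).ker)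
    (fun c => QuotientGroup.mk ⟨u c, hker c⟩) (by
      intro c c' hcc
      have h1 := QuotientGroup.eq.mp hcc
      rw [Subgroup.mem_subgroupOf] at h1
      obtain ⟨ε, hε⟩ := h1
      have h2 : u c' = u c * Kummer.unitsNorm σ (Module.finrank K L) ε := by
        rw [hdeg, hε]
        change u c' = u c * ((u c)⁻¹ * u c')
        rw [mul_inv_cancel_left]
      have h3 := fi_mem_range hunr σ hσ (hA c') (hA c) (hx c') (hy c') (hx c) (hy c)
        (hxy c') (hxy c) (hdeg ▸ hu c') (hdeg ▸ hu c) h2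
      rw [hAc, hAc] at h3
      have h4 := inv_mem h3
      rwa [inv_div] at h4)
  have hQ : Nat.card ((Kummer.unitsDelta σ).ker ⧸
      (Kummer.unitsNorm σ p).range.subgroupOf (Kummer.unitsDelta σ).ker) =
      (Kummer.unitsNorm σ p).range.relIndex (Kummer.unitsDelta σ).ker := rfl
  rw [hQ] at c3
  -- `|ker j| * |range j| = h_K`
  have c4 : Nat.card (ClassGroup.extendedHom (𝓞 K) (𝓞 L)).ker *
      Nat.card (ClassGroup.extendedHom (𝓞 K) (𝓞 L)).range = Nat.card (ClassGroup (𝓞 K)) := by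
    rw [← Subgroup.card_mul_index (ClassGroup.extendedHom (𝓞 K) (𝓞 L)).ker, Subgroup.index_ker]
  -- arithmetic
  have hK0 : 0 < Nat.card (ClassGroup (𝓞 K)) := Nat.card_pos
  generalize Nat.card (ClassGroup (𝓞 K)) = hK at *
  generalize Nat.card δ.ker = a at *
  generalize Nat.card (ClassGroup.extendedHom (𝓞 K) (𝓞 L)).ker = kj at *
  generalize Nat.card (ClassGroup.extendedHom (𝓞 K) (𝓞 L)).range = rj at *
  generalize (Kummer.unitsDelta σ).range.relIndex (Kummer.unitsNorm σ p).ker = n1 at *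
  generalize (Kummer.unitsNorm σ p).range.relIndex (Kummer.unitsDelta σ).ker = m at *
  have h2 : 2 ≤ h := by omega
  have h3 : 2 * m ≤ n1 := by
    rw [hh, mul_comm]
    exact Nat.mul_le_mul_left m h2
  have h4 : 2 * m * rj ≤ hK := by
    rw [← c4]
    exact Nat.mul_le_mul_right rj (h3.trans hn1le)
  have h5 : 2 * a ≤ hK := by
    calc 2 * a ≤ 2 * (m * rj) := Nat.mul_le_mul_left 2 c3
      _ = 2 * m * rj := by ring
      _ ≤ hK := h4
  omega

end Fermat.Agent.S14
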