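/-
S14 project, package FROB: Frobenius elements for a Galois extension `L/K` of number fields.

* `exists_isFrobOver`            : existence (abelian case: one `σ` for all primes above `𝔮`)
* `IsFrobOver.unique`            : uniqueness in the unramified case
* `inertiaDeg_eq_one_of_isFrobOver_one`, `mk0_mem_normClassGroup_of_isFrobOver_one` :
  trivial Frobenius ⟹ residue degree one ⟹ `𝔮` is a norm
* `mk0_pow_finrank_mem_normClassGroup` : `𝔮 ^ [L:K]` is a norm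
* `IsFrobOver.conj`              : conjugation by `τ ∈ Gal(L/ℚ)`
-/
import Fermat.Agent.S14.Defs

set_option autoImplicit false
set_option linter.unusedSectionVars false

open NumberField
open scoped Pointwise

namespace Fermat.Agent.S14

section Frob

variable {K L : Type} [Field K] [Field L] [NumberField K] [NumberField L] [Algebra K L]
  [IsGalois K L]

theorem frob_isArith_iff (σ : L ≃ₐ[K] L) (𝔮 : Ideal (𝓞 K)) (𝔔 : Ideal (𝓞 L)) [h : 𝔔.LiesOver 𝔮] :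
    IsArithFrobAt (𝓞 K) σ 𝔔 ↔ ∀ x : 𝓞 L, σ • x - x ^ Ideal.absNorm 𝔮 ∈ 𝔔 := by
  have h1 : Nat.card (𝓞 K ⧸ 𝔔.under (𝓞 K)) = Ideal.absNorm 𝔮 := by
    rw [← h.over]
    rfl
  unfold IsArithFrobAt AlgHom.IsArithFrobAt
  rw [h1]
  rfl

omit [IsGalois K L] [NumberField L] in
theorem frob_exists_prime (𝔮 : Ideal (𝓞 K)) (h𝔮 : 𝔮.IsPrime) (h0 : 𝔮 ≠ ⊥) :
    ∃ 𝔔 : Ideal (𝓞 L), 𝔔.IsMaximal ∧ 𝔔.LiesOver 𝔮 ∧ 𝔔 ≠ ⊥ := by
  have : 𝔮.IsMaximal := h𝔮.isMaximal h0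
  obtain ⟨𝔔, h1, h2⟩ := Ideal.exists_maximal_ideal_liesOver_of_isIntegral (S := 𝓞 L) 𝔮
  refine ⟨𝔔, h1, h2, ?_⟩
  rintro rfl
  apply h0
  rw [h2.over]
  exact Ideal.under_bot (𝓞 K) (𝓞 L)

theorem exists_isFrobOver (hcomm : ∀ σ τ : L ≃ₐ[K] L, σ * τ = τ * σ) (𝔮 : Ideal (𝓞 K))
    (h𝔮 : 𝔮.IsPrime) (h0 : 𝔮 ≠ ⊥) : ∃ σ : L ≃ₐ[K] L, IsFrobOver σ 𝔮 := by
  obtain ⟨𝔔₀, h𝔔₀, hlo₀, hne₀⟩ := frob_exists_prime (L := L) 𝔮 h𝔮 h0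
  have : 𝔮.IsMaximal := h𝔮.isMaximal h0
  have hfin : Finite (𝓞 L ⧸ 𝔔₀) := Ideal.finiteQuotientOfFreeOfNeBot 𝔔₀ hne₀
  obtain ⟨σ, hσ⟩ := IsArithFrobAt.exists_of_isInvariant (𝓞 K) (L ≃ₐ[K] L) 𝔔₀
  refine ⟨σ, fun 𝔔 h𝔔 hlo x => ?_⟩
  obtain ⟨τ, rfl⟩ := Ideal.exists_smul_eq_of_isGaloisGroup 𝔮 𝔔₀ 𝔔 (L ≃ₐ[K] L)
  have h2 := hσ.conj τ
  have h3 : τ * σ * τ⁻¹ = σ := by rw [hcomm τ σ, mul_inv_cancel_right]
  rw [h3] at h2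
  exact (frob_isArith_iff σ 𝔮 (τ • 𝔔₀)).mp h2 x

theorem IsFrobOver.unique (hunr : differentIdeal (𝓞 K) (𝓞 L) = ⊤) {𝔮 : Ideal (𝓞 K)}
    (h𝔮 : 𝔮.IsPrime) (h0 : 𝔮 ≠ ⊥) {σ σ' : L ≃ₐ[K] L} (h : IsFrobOver σ 𝔮)
    (h' : IsFrobOver σ' 𝔮) : σ = σ' := by
  obtain ⟨𝔔, h𝔔, hlo, hne⟩ := frob_exists_prime (L := L) 𝔮 h𝔮 h0
  have h𝔔p : 𝔔.IsPrime := h𝔔.isPrime
  have hunr' : Algebra.IsUnramifiedAt (𝓞 K) 𝔔 := by
    rw [← not_dvd_differentIdeal_iff, hunr, Ideal.dvd_iff_le, top_le_iff]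
    exact h𝔔p.ne_top
  have h1 : IsArithFrobAt (𝓞 K) σ 𝔔 := (frob_isArith_iff σ 𝔮 𝔔).mpr (h 𝔔 h𝔔p hlo)
  have h2 : IsArithFrobAt (𝓞 K) σ' 𝔔 := (frob_isArith_iff σ' 𝔮 𝔔).mpr (h' 𝔔 h𝔔p hlo)
  have h3 := AlgHom.IsArithFrobAt.eq_of_isUnramifiedAt h1 h2 (by
    intro x hx
    exact mem_nonZeroDivisors_of_ne_zero (fun h0 => hx (h0 ▸ 𝔔.zero_mem)))
  have hf : FaithfulSMul (L ≃ₐ[K] L) (𝓞 L) := IsGaloisGroup.faithful (𝓞 K)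
  apply hf.eq_of_smul_eq_smul
  intro x
  exact DFunLike.congr_fun h3 x

omit [IsGalois K L] in
/-- if every element of the residue field of `𝔔` is fixed by `x ↦ x ^ N𝔮`, the residue degree
is one -/
theorem frob_inertiaDeg_eq_one {𝔮 : Ideal (𝓞 K)} (h𝔮 : 𝔮.IsPrime) (h0 : 𝔮 ≠ ⊥)
    (𝔔 : Ideal (𝓞 L)) (h𝔔 : 𝔔.IsPrime) (hlo : 𝔔.LiesOver 𝔮)
    (h : ∀ x : 𝓞 L, x - x ^ Ideal.absNorm 𝔮 ∈ 𝔔) : 𝔔.inertiaDeg (𝓞 K) = 1 := by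
  have h𝔮m : 𝔮.IsMaximal := h𝔮.isMaximal h0
  have h𝔔0 : 𝔔 ≠ ⊥ := by
    rintro rfl
    apply h0
    rw [hlo.over]
    exact Ideal.under_bot (𝓞 K) (𝓞 L)
  have h𝔔m : 𝔔.IsMaximal := h𝔔.isMaximal h𝔔0
  have hfin : Finite (𝓞 L ⧸ 𝔔) := Ideal.finiteQuotientOfFreeOfNeBot 𝔔 h𝔔0
  set q := Ideal.absNorm 𝔮 with hq
  have hq2 : 2 ≤ q := by
    have h1 : q ≠ 0 := fun h => h0 (Ideal.absNorm_eq_zero_iff.mp h)
    have h2 : q ≠ 1 := fun h => h𝔮.ne_top (Ideal.absNorm_eq_one_iff.mp h)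
    omega
  -- the cardinality of the residue field is at most `q`
  have hcard : Nat.card (𝓞 L ⧸ 𝔔) ≤ q := by
    classical
    have := Fintype.ofFinite (𝓞 L ⧸ 𝔔)
    let f : Polynomial (𝓞 L ⧸ 𝔔) := Polynomial.X ^ q - Polynomial.X
    have hdeg : (Polynomial.X : Polynomial (𝓞 L ⧸ 𝔔)).degree <
        (Polynomial.X ^ q : Polynomial (𝓞 L ⧸ 𝔔)).degree := by
      rw [Polynomial.degree_X_pow, Polynomial.degree_X]
      exact_mod_cast (by omega : 1 < q)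
    have hfdeg : f.natDegree = q := by
      rw [Polynomial.natDegree_eq_of_degree_eq (Polynomial.degree_sub_eq_left_of_degree_lt hdeg),
        Polynomial.natDegree_X_pow]
    have hf0 : f ≠ 0 := Polynomial.ne_zero_of_natDegree_gt (n := 1) (by rw [hfdeg]; omega)
    have hroots : ∀ y : 𝓞 L ⧸ 𝔔, y ∈ f.roots := by
      intro y
      obtain ⟨x, rfl⟩ := Ideal.Quotient.mk_surjective y
      rw [Polynomial.mem_roots hf0, Polynomial.IsRoot.def]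
      simp only [f, Polynomial.eval_sub, Polynomial.eval_pow, Polynomial.eval_X]
      rw [← map_pow, ← map_sub, Ideal.Quotient.eq_zero_iff_mem]
      have := 𝔔.neg_mem (h x)
      rwa [neg_sub] at this
    have h1 : (Finset.univ : Finset (𝓞 L ⧸ 𝔔)).card ≤ f.roots.toFinset.card :=
      Finset.card_le_card (fun y _ => Multiset.mem_toFinset.mpr (hroots y))
    calc Nat.card (𝓞 L ⧸ 𝔔) = (Finset.univ : Finset (𝓞 L ⧸ 𝔔)).card := by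
          rw [Nat.card_eq_fintype_card, Finset.card_univ]
      _ ≤ f.roots.toFinset.card := h1
      _ ≤ Multiset.card f.roots := Multiset.toFinset_card_le _
      _ ≤ f.natDegree := Polynomial.card_roots' f
      _ = q := hfdeg
  have hpow : Ideal.absNorm 𝔔 = q ^ 𝔔.inertiaDeg (𝓞 K) := by
    rw [← Ideal.inertiaDeg'_eq_inertiaDeg 𝔮 𝔔]
    exact Ideal.absNorm_eq_pow_inertiaDeg'_of_liesOver 𝔔 𝔮 h𝔮 h0
  have hpos : 0 < 𝔔.inertiaDeg (𝓞 K) := Ideal.inertiaDeg_pos 𝔔 (𝓞 K)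
  have hle : q ^ 𝔔.inertiaDeg (𝓞 K) ≤ q ^ 1 := by
    rw [← hpow, pow_one]
    exact hcard
  have := (Nat.pow_le_pow_iff_right (by omega : 1 < q)).mp hle
  omega

theorem inertiaDeg_eq_one_of_isFrobOver_one {𝔮 : Ideal (𝓞 K)} (h𝔮 : 𝔮.IsPrime) (h0 : 𝔮 ≠ ⊥)
    (h : IsFrobOver (1 : L ≃ₐ[K] L) 𝔮) (𝔔 : Ideal (𝓞 L)) (h𝔔 : 𝔔.IsPrime)
    (hlo : 𝔔.LiesOver 𝔮) : 𝔔.inertiaDeg (𝓞 K) = 1 := by
  apply frob_inertiaDeg_eq_one h𝔮 h0 𝔔 h𝔔 hlo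
  intro x
  have := h 𝔔 h𝔔 hlo x
  rwa [one_smul] at this

theorem mk0_mem_normClassGroup_of_isFrobOver_one (𝔮 : nonZeroDivisors (Ideal (𝓞 K)))
    (h𝔮 : (𝔮 : Ideal (𝓞 K)).IsPrime) (h : IsFrobOver (1 : L ≃ₐ[K] L) (𝔮 : Ideal (𝓞 K))) :
    ClassGroup.mk0 𝔮 ∈ normClassGroup K L := by
  have h0 : (𝔮 : Ideal (𝓞 K)) ≠ ⊥ := nonZeroDivisors.coe_ne_zero 𝔮
  obtain ⟨𝔔, h𝔔, hlo, hne⟩ := frob_exists_prime (L := L) (𝔮 : Ideal (𝓞 K)) h𝔮 h0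
  have h𝔮m : (𝔮 : Ideal (𝓞 K)).IsMaximal := h𝔮.isMaximal h0
  have hf := inertiaDeg_eq_one_of_isFrobOver_one h𝔮 h0 h 𝔔 h𝔔.isPrime hlo
  refine mk0_relNorm_mem 𝔔 hne 𝔮 ?_
  rw [Ideal.relNorm_eq_pow_of_isMaximal 𝔔 (𝔮 : Ideal (𝓞 K)), hf, pow_one]

theorem mk0_pow_finrank_mem_normClassGroup (𝔮 : nonZeroDivisors (Ideal (𝓞 K))) :
    ClassGroup.mk0 𝔮 ^ Module.finrank K L ∈ normClassGroup K L := by
  have h0 : (𝔮 : Ideal (𝓞 K)) ≠ ⊥ := nonZeroDivisors.coe_ne_zero 𝔮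
  rw [← map_pow]
  refine mk0_relNorm_mem ((𝔮 : Ideal (𝓞 K)).map (algebraMap (𝓞 K) (𝓞 L))) ?_ (𝔮 ^ Module.finrank K L) ?_
  · intro h
    apply h0
    rw [Ideal.map_eq_bot_iff_of_injective (FaithfulSMul.algebraMap_injective (𝓞 K) (𝓞 L))] at h
    exact h
  · rw [Ideal.relNorm_algebraMap, IsFractionRing.finrank_eq (𝓞 K) K (𝓞 L) L]
    rfl

/-- the absolute norm is invariant under ring automorphisms -/
theorem frob_absNorm_smul {F : Type} [Field F] [NumberField F] {G : Type} [Group G]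
    [MulSemiringAction G F] (g : G) (I : Ideal (𝓞 F)) :
    Ideal.absNorm (g • I) = Ideal.absNorm I := by
  rw [Ideal.absNorm_apply, Ideal.absNorm_apply]
  exact (Nat.card_congr (Ideal.quotientEquiv I (g • I)
    (MulSemiringAction.toRingEquiv G (𝓞 F) g) rfl).toEquiv).symm

theorem IsFrobOver.conj [IsGalois ℚ K] [IsGalois ℚ L] (τ : L ≃ₐ[ℚ] L) {σ : L ≃ₐ[K] L}
    {𝔮 : Ideal (𝓞 K)} (h : IsFrobOver σ 𝔮) :
    ∃ σ' : L ≃ₐ[K] L, σ'.restrictScalars ℚ = τ * σ.restrictScalars ℚ * τ⁻¹ ∧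
      IsFrobOver σ' ((τ.restrictNormal K) • 𝔮) := by
  have hcomm : ∀ k : K, (τ * σ.restrictScalars ℚ * τ⁻¹).toRingEquiv (algebraMap K L k) =
      algebraMap K L k := by
    intro k
    show τ (σ (τ⁻¹ (algebraMap K L k))) = algebraMap K L k
    have h1 : τ⁻¹ (algebraMap K L k) = algebraMap K L ((τ⁻¹).restrictNormal K k) :=
      (AlgEquiv.restrictNormal_commutes τ⁻¹ K k).symm
    rw [h1, σ.commutes, ← h1]
    show (τ * τ⁻¹) (algebraMap K L k) = _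
    rw [mul_inv_cancel, AlgEquiv.one_apply]
  refine ⟨AlgEquiv.ofRingEquiv hcomm, AlgEquiv.ext fun x => rfl, ?_⟩
  intro 𝔔' h𝔔' hlo' x
  -- compatibility of the two actions with the inclusion of `𝓞 K`
  have hcompat : ∀ (ρ : L ≃ₐ[ℚ] L) (a : 𝓞 K), ρ • (algebraMap (𝓞 K) (𝓞 L) a) =
      algebraMap (𝓞 K) (𝓞 L) ((ρ.restrictNormal K) • a) := by
    intro ρ a
    apply Subtype.ext
    exact (AlgEquiv.restrictNormal_commutes ρ K (a : K)).symm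
  have h𝔔 : (τ⁻¹ • 𝔔').IsPrime := Ideal.IsPrime.smul τ⁻¹
  have hlo : (τ⁻¹ • 𝔔').LiesOver 𝔮 := by
    constructor
    ext a
    rw [Ideal.mem_comap, Ideal.mem_pointwise_smul_iff_inv_smul_mem, inv_inv, hcompat,
      ← Ideal.mem_comap, ← Ideal.under_def, ← hlo'.over,
      Ideal.mem_pointwise_smul_iff_inv_smul_mem, inv_smul_smul]
  have h1 := h (τ⁻¹ • 𝔔') h𝔔 hlo (τ⁻¹ • x)
  rw [Ideal.mem_pointwise_smul_iff_inv_smul_mem, inv_inv, smul_sub, smul_pow', smul_inv_smul]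
    at h1
  rw [frob_absNorm_smul]
  exact h1

end Frob

end Fermat.Agent.S14
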