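/-
S14 project, package STK: the ideal of the Jacobi sum `J(χ, χ)` in `ℤ[ζ_p]`
(Stickelberger's relation for Jacobi sums, degree one primes).
-/
import Mathlib

set_option autoImplicit false
set_option linter.style.haveILetI false

open NumberField
open scoped Pointwise

namespace Fermat.Agent.S14

/-- In a finite field with `q` elements, `∑ x, x ^ a * (1 - x) ^ a = 0` when `2 * a < q - 1`. -/
theorem stk_sum_pow_mul_one_sub_pow (k : Type*) [Field k] [Fintype k] (a : ℕ)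
    (ha : 2 * a < Fintype.card k - 1) : ∑ x : k, x ^ a * (1 - x) ^ a = 0 := by
  have h1 : ∀ x : k, x ^ a * (1 - x) ^ a =
      ∑ j ∈ Finset.range (a + 1), ((-1 : k) ^ j * (a.choose j : k)) * x ^ (a + j) := by
    intro x
    have h2 : (1 - x) ^ a = (-x + 1) ^ a := by ring
    rw [h2, add_pow, Finset.mul_sum]
    refine Finset.sum_congr rfl fun j _ => ?_
    rw [one_pow, mul_one, neg_pow, pow_add]
    ring
  simp_rw [h1]
  rw [Finset.sum_comm]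
  refine Finset.sum_eq_zero fun j hj => ?_
  rw [← Finset.mul_sum, FiniteField.sum_pow_lt_card_sub_one, mul_zero]
  have := Finset.mem_range.mp hj
  omega

/-- If a nontrivial `p`-th root of unity is congruent to `1` modulo an ideal, then `p` lies in
the ideal. -/
theorem stk_natCast_mem_of_root {R : Type*} [CommRing R] [IsDomain R] (𝔮 : Ideal R) (p : ℕ)
    (ξ : R) (h1 : ξ ^ p = 1) (hne : ξ ≠ 1) (hmem : ξ - 1 ∈ 𝔮) : (p : R) ∈ 𝔮 := by
  have hsum : ∑ i ∈ Finset.range p, ξ ^ i = 0 := by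
    have h2 := mul_geom_sum ξ p
    rw [h1, sub_self] at h2
    exact (mul_eq_zero.mp h2).resolve_left (sub_ne_zero.mpr hne)
  have h2 : ∀ i : ℕ, ξ ^ i - 1 ∈ 𝔮 := fun i => by
    rw [← mul_geom_sum]
    exact 𝔮.mul_mem_right _ hmem
  have h3 : (∑ i ∈ Finset.range p, ξ ^ i) - p ∈ 𝔮 := by
    have h4 : (∑ i ∈ Finset.range p, ξ ^ i) - p = ∑ i ∈ Finset.range p, (ξ ^ i - 1) := by
      simp [Finset.sum_sub_distrib]
    rw [h4]
    exact 𝔮.sum_mem fun i _ => h2 i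
  rw [hsum, zero_sub] at h3
  simpa using 𝔮.neg_mem h3

/-- Existence of the `p`-th power residue character with values in `R`. -/
theorem stk_exists_char {R k : Type*} [CommRing R] [IsDomain R] [Field k] [Fintype k]
    (π : R →+* k) (p : ℕ) (hp : p.Prime) (ζ : R) (hζ : ζ ^ p = 1)
    (hζ' : ∀ l, 0 < l → l < p → π ζ ^ l ≠ 1) :
    ∃ (m : ℕ) (χ : MulChar k R), Fintype.card k - 1 = p * m ∧ 0 < m ∧
      (∀ x : k, π (χ x) = x ^ m) ∧ (∀ x : k, x ≠ 0 → (χ x) ^ p = 1) ∧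
      (∀ e : ℕ, (∀ x : k, x ≠ 0 → (χ x) ^ e = 1) → p ∣ e) := by
  classical
  have : NeZero p := ⟨hp.ne_zero⟩
  obtain ⟨g, hg⟩ := IsCyclic.exists_generator (α := kˣ)
  have hordg : orderOf g = Fintype.card k - 1 := by
    rw [orderOf_eq_card_of_forall_mem_zpowers hg, Nat.card_eq_fintype_card, Fintype.card_units]
  -- the image of `ζ` is a primitive `p`-th root of unity of `k`
  have hprim : IsPrimitiveRoot (π ζ) p :=
    IsPrimitiveRoot.mk_of_lt _ hp.pos (by rw [← map_pow, hζ, map_one]) hζ'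
  -- `p ∣ q - 1`
  have hpdvd : p ∣ Fintype.card k - 1 := by
    have h1 : (π ζ) ^ (Fintype.card k - 1) = 1 := by
      have hne : π ζ ≠ 0 := by
        intro h0
        have := hprim.pow_eq_one
        rw [h0, zero_pow hp.ne_zero] at this
        exact zero_ne_one this
      exact FiniteField.pow_card_sub_one_eq_one _ hne
    exact hprim.dvd_of_pow_eq_one _ h1
  obtain ⟨m, hm⟩ := hpdvd
  have hcard2 : 2 ≤ Fintype.card k := Fintype.one_lt_card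
  have hm0 : 0 < m := by
    rcases Nat.eq_zero_or_pos m with h | h
    · rw [h, mul_zero] at hm; omega
    · exact h
  -- `g ^ m` is a power of the image of `ζ`
  have hgm : ((g : k) ^ m) ^ p = 1 := by
    rw [← pow_mul, mul_comm, ← hm, ← hordg, ← Units.val_pow_eq_pow_val, pow_orderOf_eq_one,
      Units.val_one]
  obtain ⟨b, -, hb⟩ := hprim.eq_pow_of_pow_eq_one hgm
  -- the unit `ζ`
  let ζu : Rˣ := Units.ofPowEqOne ζ p hζ hp.ne_zero
  have hζu : (ζu : R) = ζ := rfl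
  have hζup : ζu ^ p = 1 := Units.ext (by rw [Units.val_pow_eq_pow_val, hζu, hζ, Units.val_one])
  have hdvd : orderOf (ζu ^ b) ∣ orderOf g := by
    rw [hordg, hm]
    refine Dvd.dvd.mul_right (orderOf_dvd_of_pow_eq_one ?_) m
    rw [← pow_mul, mul_comm, pow_mul, hζup, one_pow]
  let χ₀ : kˣ →* Rˣ := monoidHomOfForallMemZpowers hg hdvd
  have hχ₀g : χ₀ g = ζu ^ b := monoidHomOfForallMemZpowers_apply_gen hg hdvd
  have hpow : ∀ u : kˣ, ∃ n : ℕ, g ^ n = u := by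
    intro u
    have h1 : u ∈ Submonoid.powers g := mem_powers_iff_mem_zpowers.mpr (hg u)
    exact h1
  have hval : ∀ (u : kˣ) (n : ℕ), g ^ n = u → ((χ₀ u : Rˣ) : R) = (ζ ^ b) ^ n := by
    intro u n hn
    rw [← hn, map_pow, hχ₀g, Units.val_pow_eq_pow_val, Units.val_pow_eq_pow_val, hζu]
  refine ⟨m, MulChar.ofUnitHom χ₀, hm, hm0, ?_, ?_, ?_⟩
  · intro x
    rcases eq_or_ne x 0 with rfl | hx
    · rw [MulChar.map_zero, map_zero, zero_pow hm0.ne']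
    · obtain ⟨n, hn⟩ := hpow (Units.mk0 x hx)
      have hx' : x = ((Units.mk0 x hx : kˣ) : k) := rfl
      rw [hx', MulChar.ofUnitHom_coe, hval _ n hn, map_pow, map_pow, hb, ← hn,
        Units.val_pow_eq_pow_val, ← pow_mul, ← pow_mul, mul_comm]
  · intro x hx
    obtain ⟨n, hn⟩ := hpow (Units.mk0 x hx)
    have hx' : x = ((Units.mk0 x hx : kˣ) : k) := rfl
    rw [hx', MulChar.ofUnitHom_coe, hval _ n hn]
    have h1 : ((ζ ^ b) ^ n) ^ p = (ζ ^ p) ^ (b * n) := by ring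
    rw [h1, hζ, one_pow]
  · intro e he
    -- apply to the generator
    have h1 : π ((MulChar.ofUnitHom χ₀) (g : k)) ^ e = 1 := by
      rw [← map_pow, he _ (Units.ne_zero g), map_one]
    rw [MulChar.ofUnitHom_coe, hval g 1 (pow_one g), pow_one, map_pow, hb, ← pow_mul,
      ← Units.val_pow_eq_pow_val, Units.val_eq_one] at h1
    have h2 : orderOf g ∣ m * e := orderOf_dvd_of_pow_eq_one h1
    rw [hordg, hm] at h2
    exact (Nat.mul_dvd_mul_iff_left hm0).mp (by rwa [mul_comm p m] at h2)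

section Concrete

variable {K : Type} [Field K] [NumberField K]

/-- A prime `p` different from the (prime) norm of `𝔮` does not lie in `𝔮`. -/
theorem stk_natCast_not_mem (𝔮 : Ideal (𝓞 K)) (h𝔮 : 𝔮.IsPrime) (p : ℕ) (hp : p.Prime)
    (hq : (Ideal.absNorm 𝔮).Prime) (hqp : Ideal.absNorm 𝔮 ≠ p) : (p : 𝓞 K) ∉ 𝔮 := by
  intro hmem
  have hq' : ((Ideal.absNorm 𝔮 : ℕ) : 𝓞 K) ∈ 𝔮 := Ideal.absNorm_mem 𝔮
  have hcop : Nat.Coprime p (Ideal.absNorm 𝔮) := (Nat.coprime_primes hp hq).mpr (Ne.symm hqp)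
  obtain ⟨a, b, hab⟩ := Nat.isCoprime_iff_coprime.mpr hcop
  have h1 : (1 : 𝓞 K) ∈ 𝔮 := by
    have h2 : ((a * (p : ℤ) + b * ((Ideal.absNorm 𝔮 : ℕ) : ℤ) : ℤ) : 𝓞 K) = 1 := by
      rw [hab]; simp
    rw [← h2]
    push_cast
    exact 𝔮.add_mem (𝔮.mul_mem_left _ hmem) (𝔮.mul_mem_left _ hq')
  exact h𝔮.ne_top ((Ideal.eq_top_iff_one _).mpr h1)

/-- Modulo a prime of prime norm every integer of `K` is congruent to a natural number. -/
theorem stk_exists_natCast_sub_mem (𝔮 : Ideal (𝓞 K)) (hq : (Ideal.absNorm 𝔮).Prime) (x : 𝓞 K) :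
    ∃ n : ℕ, x - n ∈ 𝔮 := by
  classical
  have hcard : Nat.card (𝓞 K ⧸ 𝔮) = Ideal.absNorm 𝔮 := by
    rw [Ideal.absNorm_apply, Submodule.cardQuot_apply]
  have : Finite (𝓞 K ⧸ 𝔮) := Nat.finite_of_card_ne_zero (by rw [hcard]; exact hq.ne_zero)
  let _ : Fintype (𝓞 K ⧸ 𝔮) := Fintype.ofFinite _
  have hcard' : Fintype.card (𝓞 K ⧸ 𝔮) = Ideal.absNorm 𝔮 := by
    rw [← hcard, Nat.card_eq_fintype_card]
  have : NeZero (Ideal.absNorm 𝔮) := ⟨hq.ne_zero⟩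
  let e := ZMod.ringEquivOfPrime (R := 𝓞 K ⧸ 𝔮) hq hcard'
  refine ⟨(e.symm (Ideal.Quotient.mk 𝔮 x)).val, ?_⟩
  rw [← Ideal.Quotient.eq, map_natCast]
  have h1 : ((e.symm (Ideal.Quotient.mk 𝔮 x)).val : 𝓞 K ⧸ 𝔮) =
      e ((e.symm (Ideal.Quotient.mk 𝔮 x)).val : ZMod (Ideal.absNorm 𝔮)) := (map_natCast e _).symm
  rw [h1, ZMod.natCast_zmod_val, e.apply_symm_apply]

theorem stk_smul_natCast (σ : K ≃ₐ[ℚ] K) (n : ℕ) : σ • (n : 𝓞 K) = n :=
  map_natCast (MulSemiringAction.toRingHom (K ≃ₐ[ℚ] K) (𝓞 K) σ) n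

/-- The conjugates of a degree one prime (prime to `p`) under distinct `s t` are distinct. -/
theorem stk_conj_ne (p : ℕ) [Fact p.Prime] (ζ : K) (hζ : IsPrimitiveRoot ζ p)
    (s : ℕ → (K ≃ₐ[ℚ] K)) (hs : ∀ t, 1 ≤ t → t < p → s t ζ = ζ ^ t)
    (𝔮 : Ideal (𝓞 K)) (h𝔮 : 𝔮.IsPrime) (hq : (Ideal.absNorm 𝔮).Prime)
    (hqp : Ideal.absNorm 𝔮 ≠ p) (t t' : ℕ) (ht : 1 ≤ t) (htt' : t < t') (ht' : t' < p) :
    ((s t)⁻¹ • 𝔮 : Ideal (𝓞 K)) ≠ (s t')⁻¹ • 𝔮 := by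
  intro heq
  have hpp := (Fact.out : p.Prime)
  let ζ' : 𝓞 K := ⟨ζ, hζ.isIntegral hpp.pos⟩
  have hζ'p : ζ' ^ p = 1 := RingOfIntegers.ext (by
    show algebraMap (𝓞 K) K (ζ' ^ p) = algebraMap (𝓞 K) K 1
    rw [map_pow, map_one]; exact hζ.pow_eq_one)
  have hst : ∀ t, 1 ≤ t → t < p → s t • ζ' = ζ' ^ t := fun t h1 h2 =>
    RingOfIntegers.ext (by
      show s t ζ = algebraMap (𝓞 K) K (ζ' ^ t)
      rw [map_pow]; exact hs t h1 h2)
  obtain ⟨n, hn⟩ := stk_exists_natCast_sub_mem 𝔮 hq (ζ' ^ t)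
  have h1 : ζ' - n ∈ ((s t)⁻¹ • 𝔮 : Ideal (𝓞 K)) := by
    rw [Ideal.mem_inv_pointwise_smul_iff, smul_sub, hst t ht (htt'.trans ht'), stk_smul_natCast]
    exact hn
  rw [heq, Ideal.mem_inv_pointwise_smul_iff, smul_sub, hst t' (ht.trans htt'.le) ht',
    stk_smul_natCast] at h1
  have h2 : ζ' ^ t' - ζ' ^ t ∈ 𝔮 := by
    have h3 := 𝔮.sub_mem h1 hn
    have h4 : ζ' ^ t' - ↑n - (ζ' ^ t - ↑n) = ζ' ^ t' - ζ' ^ t := by ring
    rwa [h4] at h3
  have h3 : ζ' ^ t' - ζ' ^ t = ζ' ^ t * (ζ' ^ (t' - t) - 1) := by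
    rw [mul_sub, mul_one, ← pow_add, Nat.add_sub_cancel' htt'.le]
  rw [h3] at h2
  rcases h𝔮.mem_or_mem h2 with h4 | h4
  · have h5 : (ζ' ^ t) ^ p ∈ 𝔮 := 𝔮.pow_mem_of_mem h4 p hpp.pos
    rw [← pow_mul, mul_comm, pow_mul, hζ'p, one_pow] at h5
    exact h𝔮.ne_top ((Ideal.eq_top_iff_one _).mpr h5)
  · refine stk_natCast_not_mem 𝔮 h𝔮 p hpp hq hqp
      (stk_natCast_mem_of_root 𝔮 p (ζ' ^ (t' - t)) ?_ ?_ h4)
    · rw [← pow_mul, mul_comm, pow_mul, hζ'p, one_pow]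
    · intro h5
      have h6 : ζ ^ (t' - t) = 1 := by
        have h7 := congrArg (algebraMap (𝓞 K) K) h5
        rw [map_pow, map_one] at h7
        exact h7
      exact hζ.pow_ne_one_of_pos_of_lt (by omega) (by omega) h6

/-- Conjugate ideals have the same absolute norm. -/
theorem stk_absNorm_smul (σ : K ≃ₐ[ℚ] K) (𝔮 : Ideal (𝓞 K)) :
    Ideal.absNorm (σ • 𝔮 : Ideal (𝓞 K)) = Ideal.absNorm 𝔮 := by
  rw [Ideal.absNorm_apply, Submodule.cardQuot_apply, Ideal.absNorm_apply, Submodule.cardQuot_apply]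
  exact Nat.card_congr (Ideal.quotientEquiv 𝔮 (σ • 𝔮)
    (MulSemiringAction.toRingEquiv (K ≃ₐ[ℚ] K) (𝓞 K) σ) (by
      rw [Ideal.pointwise_smul_def]; rfl)).toEquiv.symm

/-- Conjugate elements have the same norm. -/
theorem stk_absNorm_span_smul (σ : K ≃ₐ[ℚ] K) (x : 𝓞 K) :
    Ideal.absNorm (Ideal.span {σ • x}) = Ideal.absNorm (Ideal.span {x}) := by
  rw [Ideal.absNorm_span_singleton, Ideal.absNorm_span_singleton]
  congr 1
  exact Algebra.norm_eq_of_algEquiv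
    (MulSemiringAction.toRingEquiv (K ≃ₐ[ℚ] K) (𝓞 K) σ).toIntAlgEquiv x

end Concrete

/-- **Stickelberger for the Jacobi sum `J(χ, χ)`**: for a degree one prime `𝔮` of `ℚ(ζ_p)` not
above `p`, the product of the conjugates `s_t⁻¹ 𝔮`, `1 ≤ t ≤ (p - 1) / 2`, is principal. -/
theorem stickelberger_jacobi (p : ℕ) [Fact p.Prime] (hp : p ≠ 2) (K : Type) [Field K]
    [NumberField K] [IsCyclotomicExtension {p} ℚ K] (ζ : K) (hζ : IsPrimitiveRoot ζ p)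
    (s : ℕ → (K ≃ₐ[ℚ] K)) (hs : ∀ t, 1 ≤ t → t < p → s t ζ = ζ ^ t)
    (𝔮 : Ideal (𝓞 K)) (h𝔮 : 𝔮.IsPrime) (hq : (Ideal.absNorm 𝔮).Prime)
    (hqp : Ideal.absNorm 𝔮 ≠ p) :
    (∏ t ∈ Finset.Ico 1 ((p + 1) / 2), ((s t)⁻¹ • 𝔮 : Ideal (𝓞 K))).IsPrincipal := by
  classical
  have hpp := (Fact.out : p.Prime)
  have hodd : p % 2 = 1 := hpp.eq_two_or_odd.resolve_left hp
  have hp3 : 3 ≤ p := by have := hpp.two_le; omega
  have h0 : 𝔮 ≠ ⊥ := by
    rintro rfl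
    rw [Ideal.absNorm_bot] at hq
    exact Nat.not_prime_zero hq
  have hmax : 𝔮.IsMaximal := h𝔮.isMaximal h0
  letI : Field (𝓞 K ⧸ 𝔮) := Ideal.Quotient.field 𝔮
  have hcard : Nat.card (𝓞 K ⧸ 𝔮) = Ideal.absNorm 𝔮 := by
    rw [Ideal.absNorm_apply, Submodule.cardQuot_apply]
  haveI : Finite (𝓞 K ⧸ 𝔮) := Nat.finite_of_card_ne_zero (by rw [hcard]; exact hq.ne_zero)
  letI : Fintype (𝓞 K ⧸ 𝔮) := Fintype.ofFinite _
  have hcard' : Fintype.card (𝓞 K ⧸ 𝔮) = Ideal.absNorm 𝔮 := by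
    rw [← hcard, Nat.card_eq_fintype_card]
  let ζ' : 𝓞 K := ⟨ζ, hζ.isIntegral hpp.pos⟩
  have hζ'p : ζ' ^ p = 1 := RingOfIntegers.ext (by
    show algebraMap (𝓞 K) K (ζ' ^ p) = algebraMap (𝓞 K) K 1
    rw [map_pow, map_one]; exact hζ.pow_eq_one)
  have hnotmem : (p : 𝓞 K) ∉ 𝔮 := stk_natCast_not_mem 𝔮 h𝔮 p hpp hq hqp
  have hζ'' : ∀ l, 0 < l → l < p → (Ideal.Quotient.mk 𝔮) ζ' ^ l ≠ 1 := by
    intro l hl hlp h1
    refine hnotmem (stk_natCast_mem_of_root 𝔮 p (ζ' ^ l) ?_ ?_ ?_)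
    · rw [← pow_mul, mul_comm, pow_mul, hζ'p, one_pow]
    · intro h5
      have h7 := congrArg (algebraMap (𝓞 K) K) h5
      rw [map_pow, map_one] at h7
      exact hζ.pow_ne_one_of_pos_of_lt hl.ne' hlp h7
    · rw [← Ideal.Quotient.eq, map_pow, map_one]
      exact h1
  obtain ⟨m, χ, hm, hm0, hχπ, hχp, hχe⟩ :=
    stk_exists_char (Ideal.Quotient.mk 𝔮) p hpp ζ' hζ'p hζ''
  -- Galois action on the values of `χ`
  have hσχ : ∀ t, 1 ≤ t → t < p → ∀ x : 𝓞 K ⧸ 𝔮, s t • χ x = χ x ^ t := by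
    intro t ht1 ht2 x
    rcases eq_or_ne x 0 with rfl | hx
    · rw [MulChar.map_zero, smul_zero, zero_pow (by omega)]
    · apply RingOfIntegers.ext
      have h1 : (algebraMap (𝓞 K) K (χ x)) ^ p = 1 := by
        rw [← map_pow, hχp x hx, map_one]
      haveI : NeZero p := ⟨hpp.ne_zero⟩
      obtain ⟨i, -, hi⟩ := hζ.eq_pow_of_pow_eq_one h1
      show s t (algebraMap (𝓞 K) K (χ x)) = algebraMap (𝓞 K) K (χ x ^ t)
      rw [map_pow, ← hi, map_pow, hs t ht1 ht2, ← pow_mul, ← pow_mul, mul_comm]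
  -- the Jacobi sum
  set J : 𝓞 K := jacobiSum χ χ with hJ
  have hmem : ∀ t ∈ Finset.Ico 1 ((p + 1) / 2), J ∈ ((s t)⁻¹ • 𝔮 : Ideal (𝓞 K)) := by
    intro t ht
    rw [Finset.mem_Ico] at ht
    have ht2 : t < p := by omega
    rw [Ideal.mem_inv_pointwise_smul_iff, ← Ideal.Quotient.eq_zero_iff_mem]
    have h1 : s t • J = ∑ x : 𝓞 K ⧸ 𝔮, χ x ^ t * χ (1 - x) ^ t := by
      rw [hJ, jacobiSum, Finset.smul_sum]
      refine Finset.sum_congr rfl fun x _ => ?_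
      rw [smul_mul', hσχ t ht.1 ht2, hσχ t ht.1 ht2]
    rw [h1, map_sum]
    have h2 : ∀ x : 𝓞 K ⧸ 𝔮, Ideal.Quotient.mk 𝔮 (χ x ^ t * χ (1 - x) ^ t) =
        x ^ (m * t) * (1 - x) ^ (m * t) := by
      intro x
      rw [map_mul, map_pow, map_pow, hχπ x, hχπ (1 - x), ← pow_mul, ← pow_mul]
    simp_rw [h2]
    apply stk_sum_pow_mul_one_sub_pow
    rw [hcard', ← hcard', hm]
    have h3 : 2 * t < p := by omega
    nlinarith
  -- `J * conj J = q`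
  have hJJ : J * (s (p - 1) • J) = ((Ideal.absNorm 𝔮 : ℕ) : 𝓞 K) := by
    apply RingOfIntegers.ext
    let ι : 𝓞 K →+* K := algebraMap (𝓞 K) K
    have hι : Function.Injective ι := RingOfIntegers.coe_injective
    let χ' : MulChar (𝓞 K ⧸ 𝔮) K := χ.ringHomComp ι
    have hχ'1 : χ' ≠ 1 := by
      intro h1
      have h2 : ∀ x : 𝓞 K ⧸ 𝔮, x ≠ 0 → χ x ^ 1 = 1 := by
        intro x hx
        have h3 : χ' (Units.mk0 x hx : (𝓞 K ⧸ 𝔮)ˣ) = 1 := by
          rw [h1, MulChar.one_apply_coe]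
        rw [MulChar.ringHomComp_apply] at h3
        rw [pow_one]
        exact hι (by rw [map_one]; exact h3)
      have h4 := Nat.le_of_dvd (by norm_num) (hχe 1 h2)
      omega
    have hχ'2 : χ' * χ' ≠ 1 := by
      intro h1
      have h2 : ∀ x : 𝓞 K ⧸ 𝔮, x ≠ 0 → χ x ^ 2 = 1 := by
        intro x hx
        have h3 : (χ' * χ') (Units.mk0 x hx : (𝓞 K ⧸ 𝔮)ˣ) = 1 := by
          rw [h1, MulChar.one_apply_coe]
        rw [MulChar.mul_apply, MulChar.ringHomComp_apply] at h3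
        exact hι (by rw [map_one, map_pow, sq]; exact h3)
      have h4 := Nat.le_of_dvd (by norm_num) (hχe 2 h2)
      omega
    have hchar : ringChar K ≠ ringChar (𝓞 K ⧸ 𝔮) := by
      rw [ringChar.eq_zero]
      exact (CharP.ringChar_ne_zero_of_finite (𝓞 K ⧸ 𝔮)).symm
    have h1 := jacobiSum_mul_jacobiSum_inv hchar hχ'1 hχ'1 hχ'2
    have h2 : jacobiSum χ' χ' = ι J := jacobiSum_ringHomComp χ χ ι
    have h3 : jacobiSum χ'⁻¹ χ'⁻¹ = ι (s (p - 1) • J) := by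
      have h4 : χ'⁻¹ = χ.ringHomComp
          (ι.comp (MulSemiringAction.toRingHom (K ≃ₐ[ℚ] K) (𝓞 K) (s (p - 1)))) := by
        ext a
        rw [MulChar.inv_apply_eq_inv', MulChar.ringHomComp_apply, MulChar.ringHomComp_apply,
          RingHom.comp_apply, MulSemiringAction.toRingHom_apply,
          hσχ (p - 1) (by omega) (by omega), map_pow]
        have h5 : ι (χ a) ^ p = 1 := by rw [← map_pow, hχp _ (Units.ne_zero a), map_one]
        refine inv_eq_of_mul_eq_one_right ?_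
        rw [← pow_succ', Nat.sub_add_cancel hpp.pos, h5]
      rw [h4, jacobiSum_ringHomComp, RingHom.comp_apply, MulSemiringAction.toRingHom_apply]
    rw [h2, h3, hcard'] at h1
    show ι (J * s (p - 1) • J) = ι ((Ideal.absNorm 𝔮 : ℕ) : 𝓞 K)
    rw [map_mul, map_natCast]
    exact h1
  -- conjugates of `𝔮`
  have hmaxconj : ∀ σ : K ≃ₐ[ℚ] K, (σ • 𝔮 : Ideal (𝓞 K)).IsMaximal := by
    intro σ
    have h1 : (σ • 𝔮 : Ideal (𝓞 K)).IsPrime := inferInstance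
    refine h1.isMaximal ?_
    intro h2
    have h3 := stk_absNorm_smul σ 𝔮
    rw [h2, Ideal.absNorm_bot] at h3
    exact hq.ne_zero h3.symm
  have hdvd : (∏ t ∈ Finset.Ico 1 ((p + 1) / 2), ((s t)⁻¹ • 𝔮 : Ideal (𝓞 K))) ∣
      Ideal.span {J} := by
    refine Finset.prod_dvd_of_coprime ?_ ?_
    · intro t ht t' ht' hne
      simp only [Finset.coe_Ico, Set.mem_Ico] at ht ht'
      rw [Function.onFun, Ideal.isCoprime_iff_sup_eq]
      refine Ideal.IsMaximal.coprime_of_ne (hmaxconj _) (hmaxconj _) ?_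
      rcases Nat.lt_or_gt_of_ne hne with h | h
      · exact stk_conj_ne p ζ hζ s hs 𝔮 h𝔮 hq hqp t t' ht.1 h (by omega)
      · exact (stk_conj_ne p ζ hζ s hs 𝔮 h𝔮 hq hqp t' t ht'.1 h (by omega)).symm
    · intro t ht
      exact Ideal.dvd_span_singleton.mpr (hmem t ht)
  obtain ⟨𝔅, h𝔅⟩ := hdvd
  have hN𝔄 : Ideal.absNorm (∏ t ∈ Finset.Ico 1 ((p + 1) / 2), ((s t)⁻¹ • 𝔮 : Ideal (𝓞 K))) =
      Ideal.absNorm 𝔮 ^ ((p - 1) / 2) := by
    rw [map_prod, Finset.prod_congr rfl (fun t _ => stk_absNorm_smul (s t)⁻¹ 𝔮),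
      Finset.prod_const, Nat.card_Ico]
    congr 1
    omega
  have hfin : Module.finrank ℤ (𝓞 K) = p - 1 := by
    haveI : NeZero p := ⟨hpp.ne_zero⟩
    rw [RingOfIntegers.rank, IsCyclotomicExtension.Rat.finrank p K, Nat.totient_prime hpp]
  have hNJ : Ideal.absNorm (Ideal.span {J}) = Ideal.absNorm 𝔮 ^ ((p - 1) / 2) := by
    have h1 : Ideal.absNorm (Ideal.span {J}) * Ideal.absNorm (Ideal.span {s (p - 1) • J}) =
        Ideal.absNorm 𝔮 ^ (p - 1) := by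
      rw [← map_mul, Ideal.span_singleton_mul_span_singleton, hJJ, Ideal.absNorm_span_natCast,
        hfin]
    rw [stk_absNorm_span_smul, ← sq] at h1
    have h3 : Ideal.absNorm 𝔮 ^ (p - 1) = (Ideal.absNorm 𝔮 ^ ((p - 1) / 2)) ^ 2 := by
      rw [← pow_mul]
      congr 1
      omega
    rw [h3] at h1
    exact Nat.pow_left_injective (by norm_num) h1
  have h𝔅top : 𝔅 = ⊤ := by
    rw [← Ideal.absNorm_eq_one_iff]
    have h1 := congrArg Ideal.absNorm h𝔅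
    rw [map_mul, hNJ, hN𝔄] at h1
    exact Nat.eq_of_mul_eq_mul_left (pow_pos hq.pos ((p - 1) / 2)) (by rw [mul_one]; exact h1.symm)
  rw [h𝔅top, Ideal.mul_top] at h𝔅
  exact ⟨⟨J, h𝔅.symm⟩⟩

end Fermat.Agent.S14
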