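/-
S14 project: the assembly.  `no_tower`: there is no tower `K = ℚ(ζ_p) ⊆ L` with the properties
`TowerProp p K L`.
-/
import Fermat.Agent.S14.Frob
import Fermat.Agent.S14.Stickelberger
import Fermat.Agent.S14.FirstIneq
import Fermat.Agent.S14.Density
import Fermat.Agent.S14.Crossing

set_option autoImplicit false
set_option linter.style.haveILetI false

open NumberField
open scoped Pointwise

namespace Fermat.Agent.S14

section helpers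

variable {K : Type} [Field K] [NumberField K]

theorem core_absNorm_smul (s : K ≃ₐ[ℚ] K) (𝔮 : Ideal (𝓞 K)) :
    Ideal.absNorm (s • 𝔮) = Ideal.absNorm 𝔮 := by
  have h1 := Ideal.relNorm_smul ℤ s 𝔮
  rw [Ideal.relNorm_int, Ideal.relNorm_int] at h1
  have h2 := congrArg Ideal.absNorm h1
  simpa using h2

theorem core_smul_isPrime (s : K ≃ₐ[ℚ] K) (𝔮 : Ideal (𝓞 K)) (_h : 𝔮.IsPrime) :
    (s • 𝔮).IsPrime := by
  rw [Ideal.pointwise_smul_eq_comap]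
  exact Ideal.comap_isPrime _ _

theorem core_smul_ne_bot (s : K ≃ₐ[ℚ] K) (𝔮 : Ideal (𝓞 K)) (h : 𝔮 ≠ ⊥) :
    (s • 𝔮) ≠ ⊥ := by
  intro h0
  apply h
  have : s⁻¹ • (s • 𝔮) = s⁻¹ • (⊥ : Ideal (𝓞 K)) := by rw [h0]
  rw [inv_smul_smul] at this
  rw [this]
  simp

theorem core_comm_identity {G : Type*} [CommGroup G] (a b c : G) (m t : ℕ) :
    a * (b ^ t)⁻¹ = (a * (c ^ (m * t))⁻¹) * ((b * (c ^ m)⁻¹) ^ t)⁻¹ := by
  rw [mul_pow, inv_pow, ← pow_mul, mul_inv, inv_inv]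
  rw [mul_assoc, mul_comm ((b ^ t)⁻¹), ← mul_assoc ((c ^ (m * t))⁻¹), inv_mul_cancel, one_mul]

theorem core_mem_of_pow_mem {G : Type*} [Group G] (H : Subgroup G) (c : G) {T p : ℕ}
    (hT : c ^ T ∈ H) (hp : c ^ p ∈ H) (hcop : Nat.Coprime T p) : c ∈ H := by
  have h1 : (T : ℤ) * Nat.gcdA T p + (p : ℤ) * Nat.gcdB T p = 1 := by
    have := Nat.gcd_eq_gcd_ab T p
    rw [hcop] at this
    simpa using this.symm
  have h2 : c = (c ^ T) ^ (Nat.gcdA T p) * (c ^ p) ^ (Nat.gcdB T p) := by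
    rw [← zpow_natCast c T, ← zpow_natCast c p, ← zpow_mul, ← zpow_mul, ← zpow_add, h1, zpow_one]
  rw [h2]
  exact H.mul_mem (H.zpow_mem hT _) (H.zpow_mem hp _)

theorem core_sum_Ico (n : ℕ) (hn : 1 ≤ n) : (∑ t ∈ Finset.Ico 1 n, t) * 2 = n * (n - 1) := by
  rw [← Finset.sum_range_id_mul_two, Finset.range_eq_Ico,
    Finset.sum_eq_sum_Ico_succ_bot (by omega : 0 < n)]
  simp

end helpers


section main

variable (p : ℕ) [hpf : Fact p.Prime] (K L : Type) [Field K] [Field L]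
  [NumberField K] [NumberField L] [Algebra K L]

/-- `restrictScalars` commutes with powers. -/
theorem core_restrictScalars_pow (σ : L ≃ₐ[K] L) (n : ℕ) :
    (σ ^ n).restrictScalars ℚ = (σ.restrictScalars ℚ) ^ n := by
  ext x
  simp [AlgEquiv.coe_pow]

theorem core_restrictScalars_injective :
    Function.Injective (fun σ : L ≃ₐ[K] L => σ.restrictScalars ℚ) := by
  intro σ τ h
  ext x
  exact congrArg (fun f : L ≃ₐ[ℚ] L => f x) h

include hpf in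
theorem no_tower (h3 : 3 ≤ p) (h : TowerProp p K L) : False := by
  haveI := h.cyc
  haveI := h.galKL
  haveI := h.galQL
  have hpp : p.Prime := hpf.out
  have hp2 : p ≠ 2 := by omega
  haveI : NeZero p := ⟨hpp.ne_zero⟩
  haveI : IsGalois ℚ K := IsCyclotomicExtension.isGalois {p} ℚ K
  have hcard : Nat.card (L ≃ₐ[K] L) = p := by rw [IsGalois.card_aut_eq_finrank, h.deg]
  have hcomm : ∀ σ τ : L ≃ₐ[K] L, σ * τ = τ * σ := by
    haveI := isCyclic_of_prime_card hcard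
    intro σ τ
    obtain ⟨g, hg⟩ := IsCyclic.exists_generator (α := L ≃ₐ[K] L)
    obtain ⟨a, rfl⟩ := hg σ
    obtain ⟨b, rfl⟩ := hg τ
    exact zpow_mul_comm g a b
  have hpow : ∀ σ τ : L ≃ₐ[K] L, σ ≠ 1 → ∃ k : ℕ, τ = σ ^ k := by
    intro σ τ hσ
    have htop := zpowers_eq_top_of_prime_card hcard hσ
    have hmem : τ ∈ Subgroup.zpowers σ := htop ▸ Subgroup.mem_top τ
    haveI : Finite (L ≃ₐ[K] L) := Nat.finite_of_card_ne_zero (by rw [hcard]; exact hpp.ne_zero)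
    obtain ⟨k, hk⟩ := mem_powers_iff_mem_zpowers.mpr hmem
    exact ⟨k, hk.symm⟩
  set Hn := normClassGroup K L with hHn
  -- the primitive root and the automorphisms `s t : ζ ↦ ζ ^ t`
  set ζ : K := IsCyclotomicExtension.zeta p ℚ K with hζdef
  have hζ : IsPrimitiveRoot ζ p := IsCyclotomicExtension.zeta_spec p ℚ K
  have hirr : Irreducible (Polynomial.cyclotomic p ℚ) :=
    Polynomial.cyclotomic.irreducible_rat hpp.pos
  classical
  let s : ℕ → (K ≃ₐ[ℚ] K) := fun t =>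
    if ht : t.Coprime p then IsCyclotomicExtension.fromZetaAut (hζ.pow_of_coprime t ht) hirr
    else 1
  have hs : ∀ t, 1 ≤ t → t < p → s t ζ = ζ ^ t := by
    intro t ht1 htp
    have hcop : t.Coprime p :=
      (Nat.coprime_comm.mp ((Nat.Prime.coprime_iff_not_dvd hpp).mpr
        (fun hdvd => absurd (Nat.le_of_dvd (by omega) hdvd) (by omega))))
    simp only [s, dif_pos hcop]
    exact IsCyclotomicExtension.fromZetaAut_spec (hζ.pow_of_coprime t hcop) hirr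
  -- the Frobenius of `(s t)⁻¹ • 𝔮` is the `t`-th power of the Frobenius of `𝔮`
  have hconjF : ∀ (𝔮 : Ideal (𝓞 K)) (σ : L ≃ₐ[K] L) (t : ℕ), 1 ≤ t → t < p →
      IsFrobOver σ 𝔮 → IsFrobOver (σ ^ t) ((s t)⁻¹ • 𝔮) := by
    intro 𝔮 σ t ht1 htp hF
    obtain ⟨τ, hτ⟩ := AlgEquiv.restrictNormalHom_surjective (F := ℚ) (K₁ := K) L ((s t)⁻¹)
    obtain ⟨σ', hσ', hF'⟩ := IsFrobOver.conj τ hF
    have hτ' : τ.restrictNormal K = (s t)⁻¹ := hτ
    rw [hτ'] at hF'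
    have h1 : τ⁻¹ (algebraMap K L ζ) = algebraMap K L ζ ^ t := by
      have h0 : (AlgEquiv.restrictNormalHom K τ⁻¹ : K ≃ₐ[ℚ] K) = s t := by
        rw [map_inv, hτ, inv_inv]
      have h2 := AlgEquiv.restrictNormal_commutes τ⁻¹ K ζ
      rw [← h2]
      change algebraMap K L ((AlgEquiv.restrictNormalHom K τ⁻¹) ζ) = _
      rw [h0, hs t ht1 htp, map_pow]
    have h3 := h.conj τ⁻¹ σ' ζ t hζ h1
    have h4 : τ⁻¹ * σ'.restrictScalars ℚ * τ⁻¹⁻¹ = σ.restrictScalars ℚ := by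
      rw [hσ']; group
    rw [h4] at h3
    have h5 : σ' = σ ^ t := by
      apply core_restrictScalars_injective K L
      simp only
      rw [core_restrictScalars_pow, h3]
    rw [← h5]
    exact hF'
  have hσp : ∀ σ : L ≃ₐ[K] L, σ ^ p = 1 := by
    intro σ
    rw [← hcard]
    exact pow_card_eq_one'
  -- an inert degree one prime has nontrivial Frobenius
  have hinert : ∀ (S : Finset ℕ), ∃ (𝔮 : nonZeroDivisors (Ideal (𝓞 K))) (σ : L ≃ₐ[K] L),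
      (𝔮 : Ideal (𝓞 K)).IsPrime ∧ (Ideal.absNorm (𝔮 : Ideal (𝓞 K))).Prime ∧
      Ideal.absNorm (𝔮 : Ideal (𝓞 K)) ∉ S ∧ σ ≠ 1 ∧ IsFrobOver σ (𝔮 : Ideal (𝓞 K)) := by
    intro S
    obtain ⟨𝔮, hprime, hq, hS, hin⟩ := exists_inert_prime K L p h.deg S
    have hne : (𝔮 : Ideal (𝓞 K)) ≠ ⊥ := nonZeroDivisors.coe_ne_zero 𝔮
    obtain ⟨σ, hF⟩ := exists_isFrobOver hcomm (𝔮 : Ideal (𝓞 K)) hprime hne
    refine ⟨𝔮, σ, hprime, hq, hS, ?_, hF⟩
    rintro rfl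
    haveI := hprime
    haveI : (𝔮 : Ideal (𝓞 K)).IsMaximal := Ideal.IsPrime.isMaximal hprime hne
    obtain ⟨𝔔, h𝔔max, h𝔔over⟩ :=
      Ideal.exists_maximal_ideal_liesOver_of_isIntegral (𝔮 : Ideal (𝓞 K)) (S := 𝓞 L)
    have e1 := inertiaDeg_eq_one_of_isFrobOver_one hprime hne hF 𝔔 h𝔔max.isPrime h𝔔over
    have e2 := hin 𝔔 h𝔔max.isPrime h𝔔over
    omega
  -- Claim A: inert degree one primes have norm classes
  have claimA : ∀ (𝔮₁ : nonZeroDivisors (Ideal (𝓞 K))), (𝔮₁ : Ideal (𝓞 K)).IsPrime →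
      (Ideal.absNorm (𝔮₁ : Ideal (𝓞 K))).Prime → Ideal.absNorm (𝔮₁ : Ideal (𝓞 K)) ≠ p →
      ∀ σ₁ : L ≃ₐ[K] L, σ₁ ≠ 1 → IsFrobOver σ₁ (𝔮₁ : Ideal (𝓞 K)) →
      ClassGroup.mk0 𝔮₁ ∈ Hn := by
    intro 𝔮₁ hprime hq hqp σ₁ hσ₁ hF₁
    have hne1 : (𝔮₁ : Ideal (𝓞 K)) ≠ ⊥ := nonZeroDivisors.coe_ne_zero 𝔮₁
    obtain ⟨𝔮₃, σ₃, h3prime, h3q, h3S, hσ₃, hF₃⟩ :=
      hinert {p, Ideal.absNorm (𝔮₁ : Ideal (𝓞 K))}
    have h3p : Ideal.absNorm (𝔮₃ : Ideal (𝓞 K)) ≠ p := by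
      intro h0; apply h3S; simp [h0]
    have h31 : Ideal.absNorm (𝔮₃ : Ideal (𝓞 K)) ≠ Ideal.absNorm (𝔮₁ : Ideal (𝓞 K)) := by
      intro h0; apply h3S; simp [h0]
    obtain ⟨k₁, hk₁⟩ := hpow σ₃ σ₁ hσ₃
    have hc1 : ClassGroup.mk0 𝔮₁ * (ClassGroup.mk0 𝔮₃ ^ k₁)⁻¹ ∈ Hn :=
      crossing p hp2 K L h.deg h.unram 𝔮₃ 𝔮₁ h3prime hprime h3q hq h31 h3p hqp σ₃ hσ₃ hF₃ k₁
        (hk₁ ▸ hF₁)
    -- the conjugate primes
    let Q : ℕ → nonZeroDivisors (Ideal (𝓞 K)) := fun t =>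
      ⟨(s t)⁻¹ • (𝔮₁ : Ideal (𝓞 K)),
        mem_nonZeroDivisors_of_ne_zero (core_smul_ne_bot _ _ hne1)⟩
    have hQ : ∀ t ∈ Finset.Ico 1 ((p + 1) / 2),
        ClassGroup.mk0 (Q t) * (ClassGroup.mk0 𝔮₁ ^ t)⁻¹ ∈ Hn := by
      intro t ht
      rw [Finset.mem_Ico] at ht
      have ht1 : 1 ≤ t := ht.1
      have htp : t < p := by omega
      have hFt : IsFrobOver (σ₃ ^ (k₁ * t)) ((Q t : nonZeroDivisors (Ideal (𝓞 K))) : Ideal (𝓞 K)) := by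
        have := hconjF (𝔮₁ : Ideal (𝓞 K)) σ₁ t ht1 htp hF₁
        rw [hk₁, ← pow_mul] at this
        exact this
      have hQprime : ((Q t : nonZeroDivisors (Ideal (𝓞 K))) : Ideal (𝓞 K)).IsPrime :=
        core_smul_isPrime _ _ hprime
      have hQnorm : Ideal.absNorm ((Q t : nonZeroDivisors (Ideal (𝓞 K))) : Ideal (𝓞 K)) =
          Ideal.absNorm (𝔮₁ : Ideal (𝓞 K)) := core_absNorm_smul _ _
      have hct : ClassGroup.mk0 (Q t) * (ClassGroup.mk0 𝔮₃ ^ (k₁ * t))⁻¹ ∈ Hn :=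
        crossing p hp2 K L h.deg h.unram 𝔮₃ (Q t) h3prime hQprime h3q (hQnorm ▸ hq)
          (hQnorm ▸ h31) h3p (hQnorm ▸ hqp) σ₃ hσ₃ hF₃ (k₁ * t) hFt
      rw [core_comm_identity (ClassGroup.mk0 (Q t)) (ClassGroup.mk0 𝔮₁) (ClassGroup.mk0 𝔮₃) k₁ t]
      exact Hn.mul_mem hct (Hn.inv_mem (Hn.pow_mem hc1 t))
    -- Stickelberger
    have hprin := stickelberger_jacobi p hp2 K ζ hζ s hs (𝔮₁ : Ideal (𝓞 K)) hprime hq hqp
    have hprod1 : ∏ t ∈ Finset.Ico 1 ((p + 1) / 2), ClassGroup.mk0 (Q t) = 1 := by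
      rw [← map_prod]
      have hcoe : ((∏ t ∈ Finset.Ico 1 ((p + 1) / 2), Q t : nonZeroDivisors (Ideal (𝓞 K))) :
          Ideal (𝓞 K)) = ∏ t ∈ Finset.Ico 1 ((p + 1) / 2), ((s t)⁻¹ • (𝔮₁ : Ideal (𝓞 K))) := by
        rw [Submonoid.coe_finsetProd]
      have hmem := (∏ t ∈ Finset.Ico 1 ((p + 1) / 2), Q t).2
      have := (ClassGroup.mk0_eq_one_iff hmem).mpr (by rw [hcoe]; exact hprin)
      exact this
    set T : ℕ := ∑ t ∈ Finset.Ico 1 ((p + 1) / 2), t with hT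
    have hTmem : ClassGroup.mk0 𝔮₁ ^ T ∈ Hn := by
      have h1 := Hn.prod_mem hQ
      rw [Finset.prod_mul_distrib, hprod1, one_mul, Finset.prod_inv_distrib,
        Finset.prod_pow_eq_pow_sum] at h1
      exact (Hn.inv_mem_iff).mp h1
    have hpmem : ClassGroup.mk0 𝔮₁ ^ p ∈ Hn := by
      have := mk0_pow_finrank_mem_normClassGroup (K := K) (L := L) 𝔮₁
      rwa [h.deg] at this
    have hcop : Nat.Coprime T p := by
      rw [Nat.coprime_comm, Nat.Prime.coprime_iff_not_dvd hpp]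
      intro hdvd
      have h2 : T * 2 = ((p + 1) / 2) * ((p + 1) / 2 - 1) := core_sum_Ico _ (by omega)
      have h3 : p ∣ ((p + 1) / 2) * ((p + 1) / 2 - 1) := h2 ▸ Dvd.dvd.mul_right hdvd 2
      rcases (Nat.Prime.dvd_mul hpp).mp h3 with h4 | h4
      · have := Nat.le_of_dvd (by omega) h4
        omega
      · have := Nat.le_of_dvd (by omega) h4
        omega
    exact core_mem_of_pow_mem Hn _ hTmem hpmem hcop
  -- Claim B: all degree one primes (of norm ≠ p) have norm classes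
  have claimB : ∀ (𝔮 : nonZeroDivisors (Ideal (𝓞 K))), (𝔮 : Ideal (𝓞 K)).IsPrime →
      (Ideal.absNorm (𝔮 : Ideal (𝓞 K))).Prime → Ideal.absNorm (𝔮 : Ideal (𝓞 K)) ≠ p →
      ClassGroup.mk0 𝔮 ∈ Hn := by
    intro 𝔮 hprime hq hqp
    have hne : (𝔮 : Ideal (𝓞 K)) ≠ ⊥ := nonZeroDivisors.coe_ne_zero 𝔮
    obtain ⟨𝔮₁, σ₁, h1prime, h1q, h1S, hσ₁, hF₁⟩ :=
      hinert {p, Ideal.absNorm (𝔮 : Ideal (𝓞 K))}
    have h1p : Ideal.absNorm (𝔮₁ : Ideal (𝓞 K)) ≠ p := by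
      intro h0; apply h1S; simp [h0]
    have h1ne : Ideal.absNorm (𝔮₁ : Ideal (𝓞 K)) ≠ Ideal.absNorm (𝔮 : Ideal (𝓞 K)) := by
      intro h0; apply h1S; simp [h0]
    have hA := claimA 𝔮₁ h1prime h1q h1p σ₁ hσ₁ hF₁
    obtain ⟨σ, hF⟩ := exists_isFrobOver hcomm (𝔮 : Ideal (𝓞 K)) hprime hne
    obtain ⟨k, hk⟩ := hpow σ₁ σ hσ₁
    have hc : ClassGroup.mk0 𝔮 * (ClassGroup.mk0 𝔮₁ ^ k)⁻¹ ∈ Hn :=
      crossing p hp2 K L h.deg h.unram 𝔮₁ 𝔮 h1prime hprime h1q hq h1ne h1p hqp σ₁ hσ₁ hF₁ k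
        (hk ▸ hF)
    have := Hn.mul_mem hc (Hn.pow_mem hA k)
    rwa [inv_mul_cancel_right] at this
  -- degree one primes generate the class group
  have hgen := closure_degree_one_primes K {p}
  have htop : Hn = ⊤ := by
    rw [eq_top_iff, ← hgen, Subgroup.closure_le]
    rintro c ⟨𝔮, hprime, hq, hS, rfl⟩
    exact claimB 𝔮 hprime hq (by simpa using hS)
  exact normClassGroup_ne_top p hp2 K L h.deg h.unram htop

end main

end Fermat.Agent.S14
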