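/-
S14 project, package Ra: from a non-split admissible extension to subgroup data.

`H := {σ | ∀ v, σ • v = v}` (the kernel of the action) is an open normal subgroup of index `p` in
the kernel of the mod `p` cyclotomic character, conjugation acts on the quotient through the
inverse of the cyclotomic character, and `H` contains every inertia element that lies in the
kernel of the cyclotomic character.
-/
import Mathlib
import Fermat.Prelude.Def_ExtCitation_AdmissibleExtension_v2
import Fermat.Prelude.Def_ExtCitation_KummerBridge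

set_option autoImplicit false
set_option linter.unusedSectionVars false

namespace Fermat.Agent.S14

open ExtCitation

section Ra

variable {p : ℕ} [Fact p.Prime]
variable {V : Type} [AddCommGroup V] [Module (ZMod p) V]
  [DistribMulAction (AlgebraicClosure ℚ ≃ₐ[ℚ] AlgebraicClosure ℚ) V]
  [SMulCommClass (AlgebraicClosure ℚ ≃ₐ[ℚ] AlgebraicClosure ℚ) (ZMod p) V]

/-- the kernel of the action of the absolute Galois group on `V` -/
def raKer (V : Type) [AddCommGroup V]
    [DistribMulAction (AlgebraicClosure ℚ ≃ₐ[ℚ] AlgebraicClosure ℚ) V] :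
    Subgroup (AlgebraicClosure ℚ ≃ₐ[ℚ] AlgebraicClosure ℚ) where
  carrier := {σ | ∀ v : V, σ • v = v}
  one_mem' := fun v => one_smul _ v
  mul_mem' := fun {a b} ha hb v => by rw [mul_smul, hb v, ha v]
  inv_mem' := fun {a} ha v => by rw [inv_smul_eq_iff, ha v]

theorem ra_mem_raKer (σ : AlgebraicClosure ℚ ≃ₐ[ℚ] AlgebraicClosure ℚ) :
    σ ∈ raKer V ↔ ∀ v : V, σ • v = v := Iff.rfl

theorem ra_normal : (raKer V).Normal :=
  ⟨fun n hn g v => by
    rw [mul_smul, mul_smul, (ra_mem_raKer n).mp hn, smul_inv_smul]⟩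

/-- the cast of the cyclotomic exponent of an element of the kernel of the cyclotomic character -/
theorem ra_cast_cycloExp {g : AlgebraicClosure ℚ ≃ₐ[ℚ] AlgebraicClosure ℚ}
    (hg : g ∈ (cycloChar p).ker) : (cycloExp p g : ZMod p) = 1 := by
  rw [← coe_cycloChar, MonoidHom.mem_ker.mp hg, Units.val_one]

variable {C : Submodule (ZMod p) V}

theorem ra_sub_mem (hadm : IsAdmissibleExtension p V C)
    {g : AlgebraicClosure ℚ ≃ₐ[ℚ] AlgebraicClosure ℚ} (hg : g ∈ (cycloChar p).ker) (x : V) :
    g • x - x ∈ C := by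
  have h := hadm.cyclo_quot g x
  rwa [ra_cast_cycloExp hg, one_smul] at h

theorem ra_mul (hadm : IsAdmissibleExtension p V C)
    {a b : AlgebraicClosure ℚ ≃ₐ[ℚ] AlgebraicClosure ℚ} (hb : b ∈ (cycloChar p).ker) (x : V) :
    (a * b) • x - x = (b • x - x) + (a • x - x) := by
  have h1 : a • (b • x - x) = b • x - x := hadm.fixed_sub a _ (ra_sub_mem hadm hb x)
  rw [smul_sub] at h1
  rw [mul_smul]
  have h2 : a • b • x = b • x - x + a • x := by rw [← h1]; abel
  rw [h2]; abel

theorem ra_pow (hadm : IsAdmissibleExtension p V C)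
    {a : AlgebraicClosure ℚ ≃ₐ[ℚ] AlgebraicClosure ℚ} (ha : a ∈ (cycloChar p).ker) (k : ℕ)
    (x : V) : (a ^ k) • x - x = k • (a • x - x) := by
  induction k with
  | zero => simp
  | succ k ih =>
    rw [pow_succ, ra_mul hadm ha, ih, succ_nsmul]; abel

theorem ra_inv (hadm : IsAdmissibleExtension p V C)
    {a : AlgebraicClosure ℚ ≃ₐ[ℚ] AlgebraicClosure ℚ} (ha : a ∈ (cycloChar p).ker) (x : V) :
    a⁻¹ • x - x = -(a • x - x) := by
  have h := ra_mul (a := a⁻¹) hadm ha x
  rw [inv_mul_cancel, one_smul, sub_self] at h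
  rw [eq_neg_iff_add_eq_zero, add_comm]
  exact h.symm

theorem ra_conj (hadm : IsAdmissibleExtension p V C)
    {g : AlgebraicClosure ℚ ≃ₐ[ℚ] AlgebraicClosure ℚ} (hg : g ∈ (cycloChar p).ker)
    (τ : AlgebraicClosure ℚ ≃ₐ[ℚ] AlgebraicClosure ℚ) (x : V) :
    (τ * g * τ⁻¹) • x - x = g • (τ⁻¹ • x) - τ⁻¹ • x := by
  have h1 : τ • (g • (τ⁻¹ • x) - τ⁻¹ • x) = g • (τ⁻¹ • x) - τ⁻¹ • x :=
    hadm.fixed_sub τ _ (ra_sub_mem hadm hg _)
  rw [smul_sub, smul_inv_smul] at h1
  rw [mul_smul, mul_smul, h1]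

theorem ra_smul (g : AlgebraicClosure ℚ ≃ₐ[ℚ] AlgebraicClosure ℚ) (c : ZMod p) (y : V) :
    g • (c • y) - c • y = c • (g • y - y) := by
  rw [smul_comm, smul_sub]

/-- the key relation: conjugation by `τ` divides the "translation part" by `χ(τ)` -/
theorem ra_conj_pow (hadm : IsAdmissibleExtension p V C)
    {g : AlgebraicClosure ℚ ≃ₐ[ℚ] AlgebraicClosure ℚ} (hg : g ∈ (cycloChar p).ker)
    (τ : AlgebraicClosure ℚ ≃ₐ[ℚ] AlgebraicClosure ℚ) (x : V) :
    ((τ * g * τ⁻¹) ^ (cycloExp p τ)) • x - x = g • x - x := by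
  have hconj : τ * g * τ⁻¹ ∈ (cycloChar p).ker :=
    (MonoidHom.normal_ker (cycloChar p)).conj_mem g hg τ
  rw [ra_pow hadm hconj, ra_conj hadm hg, ← Nat.cast_smul_eq_nsmul (ZMod p), ← ra_smul]
  -- `z := χ(τ) • τ⁻¹ x` is congruent to `x` modulo `C`
  have hz : x - (cycloExp p τ : ZMod p) • τ⁻¹ • x ∈ C := by
    have h := hadm.cyclo_quot τ (τ⁻¹ • x)
    rwa [smul_inv_smul] at h
  have h0 : g • (x - (cycloExp p τ : ZMod p) • τ⁻¹ • x) =
      x - (cycloExp p τ : ZMod p) • τ⁻¹ • x := hadm.fixed_sub g _ hz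
  rw [smul_sub] at h0
  rw [sub_eq_sub_iff_add_eq_add]
  rw [sub_eq_sub_iff_add_eq_add] at h0
  rw [h0, add_comm]

theorem ra_exists_not_mem (hadm : IsAdmissibleExtension p V C) : ∃ v₀ : V, v₀ ∉ C := by
  by_contra hcon
  have htop : C = ⊤ := by
    rw [eq_top_iff]
    intro x _
    by_contra hx
    exact hcon ⟨x, hx⟩
  have hcard : Nat.card C = Nat.card V := by
    rw [htop]
    exact Nat.card_congr (Submodule.topEquiv (R := ZMod p) (M := V)).toEquiv
  rw [hadm.card_sub, hadm.card_total] at hcard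
  have hp : p.Prime := Fact.out
  have h2 : p * 1 = p * p := by rw [mul_one, ← sq]; exact hcard
  have := Nat.eq_of_mul_eq_mul_left hp.pos h2
  exact hp.one_lt.ne this

/-- an element of the kernel of the cyclotomic character fixing a vector outside `C` acts
trivially -/
theorem ra_mem_of_fix (hadm : IsAdmissibleExtension p V C)
    {g : AlgebraicClosure ℚ ≃ₐ[ℚ] AlgebraicClosure ℚ}
    {v₀ : V} (hv₀ : v₀ ∉ C) (hfix : g • v₀ = v₀) : g ∈ raKer V := by
  have hp : p.Prime := Fact.out
  have hVfin : Finite V := by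
    apply Nat.finite_of_card_ne_zero
    rw [hadm.card_total]; exact pow_ne_zero 2 hp.ne_zero
  -- the additive subgroup of fixed vectors
  let F : AddSubgroup V :=
    { carrier := {x | g • x = x}
      zero_mem' := smul_zero g
      add_mem' := fun {a b} ha hb => by
        show g • (a + b) = a + b
        rw [smul_add, ha, hb]
      neg_mem' := fun {a} ha => by
        show g • (-a) = -a
        rw [smul_neg, ha] }
  have hCF : C.toAddSubgroup ≤ F := fun x hx => hadm.fixed_sub g x hx
  have h1 : Nat.card C.toAddSubgroup ∣ Nat.card F := AddSubgroup.card_dvd_of_le hCF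
  have h2 : Nat.card F ∣ Nat.card V := AddSubgroup.card_addSubgroup_dvd_card F
  have hC : Nat.card C.toAddSubgroup = p := hadm.card_sub
  rw [hadm.card_total] at h2
  rw [hC] at h1
  obtain ⟨i, hi, hFi⟩ := (Nat.dvd_prime_pow hp).mp h2
  have hFtop : F = ⊤ := by
    have hi2 : i = 2 := by
      by_contra hne
      have hi1 : i ≤ 1 := by omega
      -- then `card F ∣ p`, so `card F = p = card C`, so `F = C`
      have hFp : Nat.card F = p := by
        apply Nat.dvd_antisymm _ h1
        rw [hFi]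
        exact (pow_dvd_pow p hi1).trans (by rw [pow_one])
      have hEq : C.toAddSubgroup = F := by
        apply AddSubgroup.eq_of_le_of_card_ge hCF
        rw [hFp, hC]
      have : v₀ ∈ C.toAddSubgroup := by rw [hEq]; exact hfix
      exact hv₀ this
    apply AddSubgroup.eq_top_of_card_eq
    rw [hFi, hi2, hadm.card_total]
  intro v
  have : v ∈ F := by rw [hFtop]; exact AddSubgroup.mem_top v
  exact this

theorem ra_le_ker (hadm : IsAdmissibleExtension p V C) : raKer V ≤ (cycloChar p).ker := by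
  intro σ hσ
  rw [MonoidHom.mem_ker]
  by_contra hne
  obtain ⟨v₀, hv₀⟩ := ra_exists_not_mem hadm
  have h := hadm.cyclo_quot σ v₀
  rw [(ra_mem_raKer σ).mp hσ, ← coe_cycloChar] at h
  have hu : (1 : ZMod p) - (cycloChar p σ : ZMod p) ≠ 0 := by
    intro h0
    apply hne
    apply Units.ext
    rw [Units.val_one]
    exact (sub_eq_zero.mp h0).symm
  have h' : ((1 : ZMod p) - (cycloChar p σ : ZMod p)) • v₀ ∈ C := by
    rw [sub_smul, one_smul]; exact h
  have h'' := C.smul_mem ((1 : ZMod p) - (cycloChar p σ : ZMod p))⁻¹ h'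
  rw [smul_smul, inv_mul_cancel₀ hu, one_smul] at h''
  exact hv₀ h''


/-- if the kernel of the cyclotomic character acts trivially, the extension splits -/
theorem ra_splits_of_ker_le (hadm : IsAdmissibleExtension p V C)
    (hle : (cycloChar p).ker ≤ raKer V) : SplitsGlobally C := by
  by_cases hall : ∀ σ : AlgebraicClosure ℚ ≃ₐ[ℚ] AlgebraicClosure ℚ, cycloChar p σ = 1
  · -- the whole group acts trivially: any complement is stable
    obtain ⟨C', hC'⟩ := Submodule.exists_isCompl C
    refine ⟨C', fun σ x hx => ?_, hC'⟩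
    have : σ ∈ raKer V := hle (MonoidHom.mem_ker.mpr (hall σ))
    rw [(ra_mem_raKer σ).mp this x]
    exact hx
  · obtain ⟨σ₀, hσ₀⟩ := not_forall.mp hall
    have hu1 : (cycloChar p σ₀ : ZMod p) ≠ 1 := by
      intro h
      apply hσ₀
      apply Units.ext
      rw [Units.val_one]; exact h
    have hu : (1 : ZMod p) - (cycloChar p σ₀ : ZMod p) ≠ 0 := fun h0 =>
      hu1 (sub_eq_zero.mp h0).symm
    -- the eigenspace of `σ₀` for the eigenvalue `χ(σ₀)`
    let C' : Submodule (ZMod p) V :=
      { carrier := {x | σ₀ • x = (cycloChar p σ₀ : ZMod p) • x}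
        zero_mem' := by
          show σ₀ • (0 : V) = (cycloChar p σ₀ : ZMod p) • (0 : V)
          rw [smul_zero, smul_zero]
        add_mem' := fun {a b} ha hb => by
          show σ₀ • (a + b) = (cycloChar p σ₀ : ZMod p) • (a + b)
          rw [smul_add, smul_add, ha, hb]
        smul_mem' := fun c x hx => by
          show σ₀ • (c • x) = (cycloChar p σ₀ : ZMod p) • (c • x)
          rw [smul_comm σ₀ c x, hx, smul_comm] }
    have hmemC' : ∀ x : V, x ∈ C' ↔ σ₀ • x = (cycloChar p σ₀ : ZMod p) • x := fun x => Iff.rfl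
    refine ⟨C', fun τ x hx => ?_, ?_⟩
    · -- stability: `τ⁻¹ σ₀ τ` acts as `σ₀`
      rw [hmemC'] at hx ⊢
      have hcomm : σ₀⁻¹ * (τ⁻¹ * σ₀ * τ) ∈ (cycloChar p).ker := by
        rw [MonoidHom.mem_ker]
        simp only [map_mul, map_inv]
        rw [mul_comm ((cycloChar p τ)⁻¹) _, mul_assoc, inv_mul_cancel, mul_one, inv_mul_cancel]
      have h1 := (ra_mem_raKer _).mp (hle hcomm) x
      rw [mul_smul, inv_smul_eq_iff] at h1
      have h2 : σ₀ • τ • x = τ • ((τ⁻¹ * σ₀ * τ) • x) := by
        rw [← mul_smul, ← mul_smul]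
        congr 1
        group
      rw [h2, h1, hx, smul_comm]
    · rw [isCompl_iff]
      constructor
      · rw [Submodule.disjoint_def]
        intro x hxC hxC'
        rw [hmemC', hadm.fixed_sub σ₀ x hxC] at hxC'
        have h0 : ((1 : ZMod p) - (cycloChar p σ₀ : ZMod p)) • x = 0 := by
          rw [sub_smul, one_smul]; exact sub_eq_zero.mpr hxC'
        rcases smul_eq_zero.mp h0 with h | h
        · exact absurd h hu
        · exact h
      · rw [codisjoint_iff, eq_top_iff]
        intro x _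
        have hq : σ₀ • x - (cycloChar p σ₀ : ZMod p) • x ∈ C := by
          have h := hadm.cyclo_quot σ₀ x
          rwa [← coe_cycloChar] at h
        have hfix := hadm.fixed_sub σ₀ _ hq
        rw [smul_sub, smul_comm σ₀ (cycloChar p σ₀ : ZMod p) x] at hfix
        have hx' : x - σ₀ • x ∈ C' := by
          rw [hmemC', smul_sub, smul_sub]
          rw [sub_eq_sub_iff_add_eq_add] at hfix ⊢
          rw [← hfix, add_comm]
        have hsum : x = ((1 : ZMod p) - (cycloChar p σ₀ : ZMod p))⁻¹ •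
              (σ₀ • x - (cycloChar p σ₀ : ZMod p) • x) +
            ((1 : ZMod p) - (cycloChar p σ₀ : ZMod p))⁻¹ • (x - σ₀ • x) := by
          rw [← smul_add]
          have : σ₀ • x - (cycloChar p σ₀ : ZMod p) • x + (x - σ₀ • x) =
              ((1 : ZMod p) - (cycloChar p σ₀ : ZMod p)) • x := by
            rw [sub_smul, one_smul]; abel
          rw [this, smul_smul, inv_mul_cancel₀ hu, one_smul]
        rw [hsum]
        exact Submodule.add_mem_sup (C.smul_mem _ hq) (C'.smul_mem _ hx')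

/-- the index of the kernel of the action in the kernel of the cyclotomic character -/
theorem ra_relIndex (hadm : IsAdmissibleExtension p V C) (hns : ¬ SplitsGlobally C) :
    (raKer V).relIndex (cycloChar p).ker = p := by
  have hp : p.Prime := Fact.out
  obtain ⟨v₀, hv₀⟩ := ra_exists_not_mem hadm
  -- the translation part at `v₀`
  let b : (cycloChar p).ker →* Multiplicative C :=
    { toFun := fun g => Multiplicative.ofAdd ⟨(g : AlgebraicClosure ℚ ≃ₐ[ℚ] AlgebraicClosure ℚ) • v₀ - v₀,
        ra_sub_mem hadm g.2 v₀⟩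
      map_one' := by
        rw [← ofAdd_zero]
        congr 1
        apply Subtype.ext
        show ((1 : (cycloChar p).ker) : AlgebraicClosure ℚ ≃ₐ[ℚ] AlgebraicClosure ℚ) • v₀ - v₀ = 0
        rw [Subgroup.coe_one, one_smul, sub_self]
      map_mul' := fun g h => by
        rw [← ofAdd_add]
        congr 1
        apply Subtype.ext
        show ((g * h : (cycloChar p).ker) : AlgebraicClosure ℚ ≃ₐ[ℚ] AlgebraicClosure ℚ) • v₀ - v₀ =
          ((g : AlgebraicClosure ℚ ≃ₐ[ℚ] AlgebraicClosure ℚ) • v₀ - v₀) +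
            ((h : AlgebraicClosure ℚ ≃ₐ[ℚ] AlgebraicClosure ℚ) • v₀ - v₀)
        rw [Subgroup.coe_mul, ra_mul hadm h.2, add_comm] }
  have hb : ∀ g : (cycloChar p).ker, b g = 1 ↔
      (g : AlgebraicClosure ℚ ≃ₐ[ℚ] AlgebraicClosure ℚ) • v₀ = v₀ := by
    intro g
    constructor
    · intro h
      have h1 : Multiplicative.toAdd (b g) = 0 := by rw [h]; rfl
      have h2 : ((Multiplicative.toAdd (b g) : C) : V) = 0 := by rw [h1]; rfl
      exact sub_eq_zero.mp h2
    · intro h
      show Multiplicative.ofAdd (⟨(g : AlgebraicClosure ℚ ≃ₐ[ℚ] AlgebraicClosure ℚ) • v₀ - v₀,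
        ra_sub_mem hadm g.2 v₀⟩ : C) = 1
      rw [← ofAdd_zero]
      congr 1
      apply Subtype.ext
      exact sub_eq_zero.mpr h
  have hker : b.ker = (raKer V).subgroupOf (cycloChar p).ker := by
    ext g
    rw [MonoidHom.mem_ker, hb, Subgroup.mem_subgroupOf]
    constructor
    · intro h
      exact ra_mem_of_fix hadm hv₀ h
    · intro h
      exact (ra_mem_raKer _).mp h v₀
  have hidx : (raKer V).relIndex (cycloChar p).ker = Nat.card b.range := by
    rw [Subgroup.relIndex, ← hker, Subgroup.index_ker]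
  have hdvd : Nat.card b.range ∣ p := by
    have h := Subgroup.card_subgroup_dvd_card b.range
    have hc : Nat.card (Multiplicative C) = p := by
      rw [Nat.card_congr Multiplicative.toAdd]; exact hadm.card_sub
    rwa [hc] at h
  rw [hidx]
  rcases (Nat.dvd_prime hp).mp hdvd with h1 | h1
  · exfalso
    apply hns
    apply ra_splits_of_ker_le hadm
    rw [← hidx] at h1
    exact Subgroup.relIndex_eq_one.mp h1
  · exact h1

/-- inertia elements in the kernel of the cyclotomic character act trivially -/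
theorem ra_inertia (hadm : IsAdmissibleExtension p V C) (ℓ : ℕ) (hℓ : ℓ.Prime)
    (A : ValuationSubring (AlgebraicClosure ℚ)) (hA : A.LiesOverPrime ℓ)
    (σ : AlgebraicClosure ℚ ≃ₐ[ℚ] AlgebraicClosure ℚ) (hσ : σ ∈ A.inertiaSubgroupIn ℚ)
    (hker : σ ∈ (cycloChar p).ker) : σ ∈ raKer V := by
  by_cases hℓp : ℓ = p
  · subst hℓp
    obtain ⟨C', hstab, hcompl⟩ := hadm.locally_split A hA
    have hdec : σ ∈ A.decompositionSubgroup ℚ := by
      obtain ⟨s, -, rfl⟩ := Subgroup.mem_map.mp hσ
      exact s.2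
    intro v
    have hv : v ∈ C ⊔ C' := by rw [hcompl.sup_eq_top]; exact Submodule.mem_top
    obtain ⟨c, hc, c', hc', rfl⟩ := Submodule.mem_sup.mp hv
    have h1 : σ • c' - c' ∈ C ⊓ C' :=
      ⟨ra_sub_mem hadm hker c', C'.sub_mem (hstab σ hdec c' hc') hc'⟩
    rw [hcompl.inf_eq_bot, Submodule.mem_bot] at h1
    rw [smul_add, hadm.fixed_sub σ c hc, sub_eq_zero.mp h1]
  · exact fun v => hadm.unramified_outside ℓ hℓ hℓp A hA σ hσ v

end Ra

/-- **Package Ra.** A non-split admissible extension yields an open normal subgroup `H` of index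
`p` in the kernel of the mod `p` cyclotomic character, on which conjugation acts through the
inverse of the cyclotomic character, and which contains all inertia elements lying in the kernel
of the cyclotomic character. -/
theorem exists_subgroup_of_not_split {p : ℕ} [Fact p.Prime] (h3 : 3 ≤ p)
    (V : Type) [AddCommGroup V] [Module (ZMod p) V]
    [DistribMulAction (AlgebraicClosure ℚ ≃ₐ[ℚ] AlgebraicClosure ℚ) V]
    [SMulCommClass (AlgebraicClosure ℚ ≃ₐ[ℚ] AlgebraicClosure ℚ) (ZMod p) V]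
    (C : Submodule (ZMod p) V) (hadm : ExtCitation.IsAdmissibleExtensionCts p V C)
    (hns : ¬ ExtCitation.SplitsGlobally C) :
    ∃ H : Subgroup (AlgebraicClosure ℚ ≃ₐ[ℚ] AlgebraicClosure ℚ),
      H.Normal ∧ IsOpen (H : Set (AlgebraicClosure ℚ ≃ₐ[ℚ] AlgebraicClosure ℚ)) ∧
      H ≤ (ExtCitation.cycloChar p).ker ∧
      H.relIndex (ExtCitation.cycloChar p).ker = p ∧
      (∀ τ g : AlgebraicClosure ℚ ≃ₐ[ℚ] AlgebraicClosure ℚ, g ∈ (ExtCitation.cycloChar p).ker →
        (τ * g * τ⁻¹) ^ (ExtCitation.cycloExp p τ) * g⁻¹ ∈ H) ∧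
      (∀ ℓ : ℕ, ℓ.Prime → ∀ A : ValuationSubring (AlgebraicClosure ℚ), A.LiesOverPrime ℓ →
        ∀ σ ∈ A.inertiaSubgroupIn ℚ, σ ∈ (ExtCitation.cycloChar p).ker → σ ∈ H) := by
  have hadm' := hadm.toIsAdmissibleExtension
  refine ⟨raKer V, ra_normal, hadm.open_kernel, ra_le_ker hadm', ra_relIndex hadm' hns, ?_, ?_⟩
  · intro τ g hg v
    have hconj : τ * g * τ⁻¹ ∈ (cycloChar p).ker :=
      (MonoidHom.normal_ker (cycloChar p)).conj_mem g hg τ
    have hinv : g⁻¹ ∈ (cycloChar p).ker := inv_mem hg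
    have h := ra_mul (a := (τ * g * τ⁻¹) ^ (cycloExp p τ)) hadm' hinv v
    rw [ra_inv hadm' hg, ra_conj_pow hadm' hg, neg_add_cancel] at h
    exact sub_eq_zero.mp h
  · intro ℓ hℓ A hA σ hσ hker
    exact ra_inertia hadm' ℓ hℓ A hA σ hσ hker

end Fermat.Agent.S14
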