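import Mathlib
import Fermat.Agent.S14.Defs
import Fermat.Agent.S14.Rep
import Fermat.Prelude.Def_ExtCitation_AdmissibleExtension_v2
import Fermat.Prelude.Def_ExtCitation_KummerBridge
import Fermat.Agent.S13.Global
import Fermat.Agent.Lib.FrobeniusExists

/-!
# S14, package Rb: the number field tower attached to a subgroup of the absolute Galois group

Given a normal subgroup `H` of `Gal(Qbar/ℚ)`, of index `p` in the kernel of the mod `p` cyclotomic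
character, we build `K = ℚ(ζ_p)` and `L = Qbar ^ H` and check `TowerProp p K L`.
-/

set_option autoImplicit false
set_option linter.style.haveILetI false

open NumberField
open Fermat.Agent.Lib.FrobeniusExists
open scoped Pointwise

namespace Fermat.Agent.S14

local notation "Qbar" => AlgebraicClosure ℚ

local instance twIsAlgebraicQbar : Algebra.IsAlgebraic ℚ Qbar :=
  AlgebraicClosure.isAlgebraic ℚ
local instance twIsAlgClosureQbar : IsAlgClosure ℚ Qbar :=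
  ⟨inferInstance, inferInstance⟩
local instance twIsGaloisQbar : IsGalois ℚ Qbar :=
  IsAlgClosure.isGalois ℚ Qbar

/-! ### The cyclotomic character -/

section Cyclo

variable {p : ℕ} [Fact p.Prime]

theorem tw_cyclo_spec (σ : Qbar ≃ₐ[ℚ] Qbar) (ζ : Qbar) (hζ : ζ ^ p = 1) :
    σ ζ = ζ ^ (ExtCitation.cycloExp p σ) := by
  haveI : NeZero p := ⟨(Fact.out : p.Prime).ne_zero⟩
  have hζ0 : ζ ≠ 0 := by
    rintro rfl
    rw [zero_pow (NeZero.ne p)] at hζ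
    exact zero_ne_one hζ
  have ht : Units.mk0 ζ hζ0 ∈ rootsOfUnity p Qbar := by
    rw [mem_rootsOfUnity]
    ext
    simpa using hζ
  exact modularCyclotomicCharacter.spec Qbar (ExtCitation.card_rootsOfUnity_eq_self p)
    (σ : Qbar ≃+* Qbar) ht

theorem tw_cycloExp_lt (σ : Qbar ≃ₐ[ℚ] Qbar) : ExtCitation.cycloExp p σ < p := by
  haveI : NeZero p := ⟨(Fact.out : p.Prime).ne_zero⟩
  exact ZMod.val_lt _

theorem tw_mem_ker_iff (σ : Qbar ≃ₐ[ℚ] Qbar) (ζ : Qbar) (hζ : IsPrimitiveRoot ζ p) :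
    σ ∈ (ExtCitation.cycloChar p).ker ↔ σ ζ = ζ := by
  haveI : NeZero p := ⟨(Fact.out : p.Prime).ne_zero⟩
  have hp1 : 1 < p := (Fact.out : p.Prime).one_lt
  haveI : Fact (1 < p) := ⟨hp1⟩
  rw [MonoidHom.mem_ker, tw_cyclo_spec σ ζ hζ.pow_eq_one]
  constructor
  · intro h
    have h1 : ExtCitation.cycloExp p σ = 1 := by
      rw [← ExtCitation.val_cycloChar, h, Units.val_one, ZMod.val_one]
    rw [h1, pow_one]
  · intro h
    have h1 : ExtCitation.cycloExp p σ = 1 :=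
      hζ.pow_inj (tw_cycloExp_lt σ) hp1 (by rw [h, pow_one])
    apply Units.ext
    rw [ExtCitation.coe_cycloChar, h1, Nat.cast_one, Units.val_one]

end Cyclo

/-! ### Abstract number field lemmas -/

/-- a ramified Galois extension of number fields has a nontrivial inertia element. -/
theorem tw_exists_inertia (K L : Type*) [Field K] [Field L] [NumberField K] [NumberField L]
    [Algebra K L] [IsGalois K L] (h : differentIdeal (𝓞 K) (𝓞 L) ≠ ⊤) :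
    ∃ (𝔓 : Ideal (𝓞 L)) (τ : L ≃ₐ[K] L), 𝔓.IsMaximal ∧ τ ≠ 1 ∧
      ∀ x : 𝓞 L, ∃ y ∈ 𝔓, (y : L) = τ (x : L) - (x : L) := by
  classical
  obtain ⟨𝔓, h𝔓max, hle⟩ := Ideal.exists_le_maximal _ h
  haveI : 𝔓.IsPrime := h𝔓max.isPrime
  have hdvd : 𝔓 ∣ differentIdeal (𝓞 K) (𝓞 L) := Ideal.dvd_iff_le.mpr hle
  have hram : ¬ Algebra.IsUnramifiedAt (𝓞 K) 𝔓 := fun h => (not_dvd_differentIdeal_iff.mpr h) hdvd
  let act : MulSemiringAction Gal(L/K) (𝓞 L) := IsIntegralClosure.MulSemiringAction (𝓞 K) K L (𝓞 L)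
  have := IsGaloisGroup.of_isFractionRing Gal(L/K) (𝓞 K) (𝓞 L) K L
  have hact : ∀ (τ : Gal(L/K)) (x : 𝓞 L), ((τ • x : 𝓞 L) : L) = τ (x : L) := fun τ x =>
    algebraMap_galRestrict_apply (𝓞 K) τ x
  have hcard : Nat.card (𝔓.toAddSubgroup.inertia Gal(L/K)) ≠ 1 := by
    intro h1
    apply hram
    rw [← Ideal.ramificationIdx_eq_one_iff,
      ← Ideal.ramificationIdxIn_eq_ramificationIdx (𝔓.under (𝓞 K)) 𝔓 Gal(L/K),
      ← Ideal.card_inertia_eq_ramificationIdxIn (G := Gal(L/K)) (𝔓.under (𝓞 K)) 𝔓]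
    exact h1
  obtain ⟨τ, hτmem, hτne⟩ : ∃ τ ∈ 𝔓.toAddSubgroup.inertia Gal(L/K), τ ≠ 1 := by
    by_contra hcon
    push Not at hcon
    apply hcard
    have hbot : 𝔓.toAddSubgroup.inertia Gal(L/K) = ⊥ := (Subgroup.eq_bot_iff_forall _).mpr hcon
    rw [hbot]
    exact Subgroup.card_bot
  refine ⟨𝔓, τ, h𝔓max, hτne, fun x => ⟨τ • x - x, hτmem x, ?_⟩⟩
  rw [show ((τ • x - x : 𝓞 L) : L) = ((τ • x : 𝓞 L) : L) - (x : L) from rfl, hact]

/-- a prime ideal containing a natural number at least two contains a prime number. -/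
theorem tw_exists_prime_mem {R : Type*} [CommRing R] (P : Ideal R) [hP : P.IsPrime] :
    ∀ n : ℕ, 2 ≤ n → (n : R) ∈ P → ∃ ℓ : ℕ, ℓ.Prime ∧ (ℓ : R) ∈ P := by
  intro n
  induction n using Nat.strong_induction_on with
  | _ n ih =>
    intro hn hmem
    by_cases hpr : n.Prime
    · exact ⟨n, hpr, hmem⟩
    · obtain ⟨a, hdvd, ha1, han⟩ := (Nat.not_prime_iff_exists_dvd_lt hn).mp hpr
      obtain ⟨b, rfl⟩ := hdvd
      rw [Nat.cast_mul] at hmem
      have hb2 : 2 ≤ b := by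
        by_contra hb
        have : b ≤ 1 := by omega
        nlinarith
      have hba : b < a * b := by nlinarith
      rcases hP.mem_or_mem hmem with h | h
      · exact ih a han ha1 h
      · exact ih b hba hb2 h

/-- two primes of a Galois number field over the same rational prime are conjugate. -/
theorem tw_exists_conj (L : Type*) [Field L] [NumberField L] [IsGalois ℚ L]
    (𝔓 𝔓' : Ideal (𝓞 L)) [𝔓.IsPrime] [𝔓'.IsPrime] (ℓ : ℕ) (hℓ : ℓ.Prime)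
    (h : ((ℓ : ℕ) : 𝓞 L) ∈ 𝔓) (h' : ((ℓ : ℕ) : 𝓞 L) ∈ 𝔓') :
    ∃ g : L ≃ₐ[ℚ] L, ∀ x : 𝓞 L, x ∈ 𝔓 → ∃ y ∈ 𝔓', (y : L) = g (x : L) := by
  classical
  let act : MulSemiringAction Gal(L/ℚ) (𝓞 L) := IsIntegralClosure.MulSemiringAction ℤ ℚ L (𝓞 L)
  have := IsGaloisGroup.of_isFractionRing Gal(L/ℚ) ℤ (𝓞 L) ℚ L
  have hact : ∀ (τ : Gal(L/ℚ)) (x : 𝓞 L), ((τ • x : 𝓞 L) : L) = τ (x : L) := fun τ x =>
    algebraMap_galRestrict_apply ℤ τ x
  haveI : Fact ℓ.Prime := ⟨hℓ⟩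
  have hmax := Int.ideal_span_isMaximal_of_prime ℓ
  have hu : ∀ (Q : Ideal (𝓞 L)) [Q.IsPrime], ((ℓ : ℕ) : 𝓞 L) ∈ Q →
      Q.under ℤ = Ideal.span {(ℓ : ℤ)} := by
    intro Q hQ hmem
    symm
    apply hmax.eq_of_le (Ideal.IsPrime.under ℤ Q).ne_top
    rw [Ideal.span_singleton_le_iff_mem, Ideal.under_def, Ideal.mem_comap]
    simpa using hmem
  obtain ⟨g, hg⟩ := Algebra.IsInvariant.exists_smul_of_under_eq ℤ (𝓞 L) Gal(L/ℚ) 𝔓 𝔓'
    ((hu 𝔓 h).trans (hu 𝔓' h').symm)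
  refine ⟨g, fun x hx => ⟨g • x, ?_, hact g x⟩⟩
  rw [hg]
  exact Ideal.smul_mem_pointwise_smul_iff.mpr hx

/-! ### The tower of fields -/

section Tower

variable {p : ℕ} [Fact p.Prime] (K₀ L₀ : IntermediateField ℚ Qbar) (hKL : K₀ ≤ L₀)

/-- the algebra structure of `L₀` over `K₀`. -/
@[reducible] noncomputable def twAlg : Algebra ↥K₀ ↥L₀ :=
  (IntermediateField.inclusion hKL).toRingHom.toAlgebra

/-- restriction to the normal field `L₀`. -/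
noncomputable def twRes [Normal ℚ L₀] : (Qbar ≃ₐ[ℚ] Qbar) →* (L₀ ≃ₐ[ℚ] L₀) :=
  AlgEquiv.restrictNormalHom L₀

theorem twRes_apply [Normal ℚ L₀] (σ : Qbar ≃ₐ[ℚ] Qbar) (x : L₀) :
    ((twRes L₀ σ x : L₀) : Qbar) = σ (x : Qbar) :=
  AlgEquiv.restrictNormal_commutes σ L₀ x

theorem twRes_surjective [Normal ℚ L₀] : Function.Surjective (twRes L₀) :=
  AlgEquiv.restrictNormalHom_surjective Qbar

theorem twRes_eq_one_iff [Normal ℚ L₀] (σ : Qbar ≃ₐ[ℚ] Qbar) :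
    twRes L₀ σ = 1 ↔ ∀ x : L₀, σ (x : Qbar) = x := by
  constructor
  · intro h x
    rw [← twRes_apply, h]
    rfl
  · intro h
    ext x
    rw [twRes_apply, h]
    rfl

/-- the automorphisms of `L₀` over `ℚ` fixing `K₀` pointwise. -/
def twFix : Subgroup (L₀ ≃ₐ[ℚ] L₀) where
  carrier := {τ | ∀ x : K₀, τ (IntermediateField.inclusion hKL x) = IntermediateField.inclusion hKL x}
  mul_mem' := by
    intro a b ha hb x
    rw [AlgEquiv.mul_apply, hb x, ha x]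
  one_mem' := fun x => rfl
  inv_mem' := by
    intro a ha x
    show a.symm _ = _
    rw [AlgEquiv.symm_apply_eq]
    exact (ha x).symm

/-- automorphisms of `L₀` over `K₀` are the automorphisms over `ℚ` fixing `K₀`. -/
noncomputable def twFixEquiv :
    letI := twAlg K₀ L₀ hKL
    (L₀ ≃ₐ[K₀] L₀) ≃ twFix K₀ L₀ hKL :=
  letI := twAlg K₀ L₀ hKL
  { toFun := fun σ => ⟨σ.restrictScalars ℚ, fun x => σ.commutes x⟩
    invFun := fun τ => AlgEquiv.ofRingEquiv (f := τ.1.toRingEquiv) τ.2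
    left_inv := fun σ => by ext x; rfl
    right_inv := fun τ => by ext x; rfl }

theorem tw_card_gal [FiniteDimensional ℚ L₀] [IsGalois ℚ L₀] (H : Subgroup (Qbar ≃ₐ[ℚ] Qbar))
    (hLfix : ∀ σ : Qbar ≃ₐ[ℚ] Qbar, (∀ x : L₀, σ (x : Qbar) = x) ↔ σ ∈ H)
    (hKfix : ∀ σ : Qbar ≃ₐ[ℚ] Qbar, (∀ x : K₀, σ (x : Qbar) = x) ↔
      σ ∈ (ExtCitation.cycloChar p).ker)
    (hidx : H.relIndex (ExtCitation.cycloChar p).ker = p) :
    letI := twAlg K₀ L₀ hKL
    Nat.card (L₀ ≃ₐ[K₀] L₀) = p := by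
  letI := twAlg K₀ L₀ hKL
  rw [Nat.card_congr (twFixEquiv K₀ L₀ hKL)]
  have h1 : (twRes L₀).ker = H := by
    ext σ
    rw [MonoidHom.mem_ker, twRes_eq_one_iff, hLfix]
  have h2 : (twFix K₀ L₀ hKL).comap (twRes L₀) = (ExtCitation.cycloChar p).ker := by
    ext σ
    rw [Subgroup.mem_comap, ← hKfix]
    constructor
    · intro h x
      have h' := congrArg Subtype.val (h x)
      rw [twRes_apply] at h'
      exact h'
    · intro h x
      apply Subtype.ext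
      rw [twRes_apply]
      exact h x
  rw [← hidx, ← h1, ← h2, ← MonoidHom.comap_bot, Subgroup.relIndex_comap,
    Subgroup.map_comap_eq_self_of_surjective (twRes_surjective L₀), Subgroup.relIndex_bot_left]

theorem tw_restrictScalars_pow (σ : letI := twAlg K₀ L₀ hKL; L₀ ≃ₐ[K₀] L₀) (n : ℕ) (x : L₀) :
    letI := twAlg K₀ L₀ hKL
    ((σ.restrictScalars ℚ) ^ n) x = (σ ^ n) x := by
  letI := twAlg K₀ L₀ hKL
  induction n generalizing x with
  | zero => rfl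
  | succ n ih =>
    rw [pow_succ, pow_succ, AlgEquiv.mul_apply, AlgEquiv.mul_apply, ih]
    rfl

theorem tw_conj [FiniteDimensional ℚ L₀] [IsGalois ℚ L₀] (H : Subgroup (Qbar ≃ₐ[ℚ] Qbar))
    (hLfix : ∀ σ : Qbar ≃ₐ[ℚ] Qbar, (∀ x : L₀, σ (x : Qbar) = x) ↔ σ ∈ H)
    (hKfix : ∀ σ : Qbar ≃ₐ[ℚ] Qbar, (∀ x : K₀, σ (x : Qbar) = x) ↔
      σ ∈ (ExtCitation.cycloChar p).ker)
    (hconj : ∀ τ g : Qbar ≃ₐ[ℚ] Qbar, g ∈ (ExtCitation.cycloChar p).ker →
        (τ * g * τ⁻¹) ^ (ExtCitation.cycloExp p τ) * g⁻¹ ∈ H)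
    (hcard : letI := twAlg K₀ L₀ hKL; Nat.card (L₀ ≃ₐ[K₀] L₀) = p) :
    letI := twAlg K₀ L₀ hKL
    ∀ (τ : L₀ ≃ₐ[ℚ] L₀) (σ : L₀ ≃ₐ[K₀] L₀) (ζ : K₀) (k : ℕ), IsPrimitiveRoot ζ p →
      τ (algebraMap K₀ L₀ ζ) = algebraMap K₀ L₀ ζ ^ k →
      (τ * σ.restrictScalars ℚ * τ⁻¹) ^ k = σ.restrictScalars ℚ := by
  letI := twAlg K₀ L₀ hKL
  intro τ σ ζ k hζ hτ
  obtain ⟨τ', rfl⟩ := twRes_surjective L₀ τ
  obtain ⟨σ', hσ'⟩ := twRes_surjective L₀ (σ.restrictScalars ℚ)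
  have hζ' : IsPrimitiveRoot ((ζ : K₀) : Qbar) p :=
    hζ.map_of_injective (f := algebraMap K₀ Qbar) (algebraMap K₀ Qbar).injective
  have hσker : σ' ∈ (ExtCitation.cycloChar p).ker := by
    rw [← hKfix]
    intro x
    have h1 := twRes_apply L₀ σ' (algebraMap K₀ L₀ x)
    rw [hσ'] at h1
    rw [show (x : Qbar) = ((algebraMap K₀ L₀ x : L₀) : Qbar) from rfl, ← h1]
    exact congrArg Subtype.val (σ.commutes x)
  have hk : k ≡ ExtCitation.cycloExp p τ' [MOD p] := by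
    have h1 := twRes_apply L₀ τ' (algebraMap K₀ L₀ ζ)
    rw [hτ] at h1
    have h2 := tw_cyclo_spec τ' ((ζ : K₀) : Qbar) hζ'.pow_eq_one
    have h3 : ((ζ : K₀) : Qbar) ^ k = ((ζ : K₀) : Qbar) ^ (ExtCitation.cycloExp p τ') := by
      rw [← h2]
      exact h1
    have hp0 : 0 < p := (Fact.out : p.Prime).pos
    rw [pow_eq_pow_mod k hζ'.pow_eq_one,
      pow_eq_pow_mod (ExtCitation.cycloExp p τ') hζ'.pow_eq_one] at h3
    exact hζ'.pow_inj (Nat.mod_lt _ hp0) (Nat.mod_lt _ hp0) h3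
  have hH := hconj τ' σ' hσker
  have h1 : twRes L₀ ((τ' * σ' * τ'⁻¹) ^ (ExtCitation.cycloExp p τ') * σ'⁻¹) = 1 := by
    rw [twRes_eq_one_iff, hLfix]
    exact hH
  rw [map_mul, map_pow, map_mul, map_mul, map_inv, map_inv, hσ', mul_inv_eq_one] at h1
  have hp : (twRes L₀ τ' * σ.restrictScalars ℚ * (twRes L₀ τ')⁻¹) ^ p = 1 := by
    rw [conj_pow]
    have h2 : σ ^ p = 1 := by
      rw [← hcard]
      exact pow_card_eq_one'
    have h3 : (σ.restrictScalars ℚ) ^ p = 1 := by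
      ext x
      rw [tw_restrictScalars_pow K₀ L₀ hKL σ p x, h2]
      rfl
    rw [h3, mul_one, mul_inv_cancel]
  rw [pow_eq_pow_mod k hp, hk, ← pow_eq_pow_mod _ hp, h1]

/-- the integers of `L₀` as algebraic integers. -/
noncomputable def twIota : 𝓞 L₀ →+* Zbar :=
  ((algebraMap L₀ Qbar).comp (algebraMap (𝓞 L₀) L₀)).codRestrict Zbar
    (fun x => (x.2 : IsIntegral ℤ (x : L₀)).map (IsScalarTower.toAlgHom ℤ L₀ Qbar))

theorem twIota_coe (x : 𝓞 L₀) : ((twIota L₀ x : Zbar) : Qbar) = ((x : L₀) : Qbar) := rfl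

/-- the prime of the integers of `L₀` below a valuation subring of `Qbar`. -/
noncomputable def twPrime (V : ValuationSubring Qbar) : Ideal (𝓞 L₀) :=
  (primeBelow V).comap (twIota L₀)

instance twPrime_isPrime (V : ValuationSubring Qbar) : (twPrime L₀ V).IsPrime :=
  Ideal.comap_isPrime (twIota L₀) (primeBelow V)

theorem mem_twPrime (V : ValuationSubring Qbar) (x : 𝓞 L₀) :
    x ∈ twPrime L₀ V ↔ V.valuation (((x : L₀) : Qbar)) < 1 := by
  show twIota L₀ x ∈ primeBelow V ↔ _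
  rw [mem_primeBelow, twIota_coe]

theorem tw_unram [FiniteDimensional ℚ L₀] [IsGalois ℚ L₀] [NumberField K₀] [NumberField L₀]
    (H : Subgroup (Qbar ≃ₐ[ℚ] Qbar))
    (hLfix : ∀ σ : Qbar ≃ₐ[ℚ] Qbar, (∀ x : L₀, σ (x : Qbar) = x) ↔ σ ∈ H)
    (hKfix : ∀ σ : Qbar ≃ₐ[ℚ] Qbar, (∀ x : K₀, σ (x : Qbar) = x) ↔
      σ ∈ (ExtCitation.cycloChar p).ker)
    (hKnormal : ∀ (σ : Qbar ≃ₐ[ℚ] Qbar) (x : K₀), σ (x : Qbar) ∈ K₀)
    (hin : ∀ ℓ : ℕ, ℓ.Prime → ∀ A : ValuationSubring Qbar, A.LiesOverPrime ℓ →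
        ∀ σ ∈ A.inertiaSubgroupIn ℚ, σ ∈ (ExtCitation.cycloChar p).ker → σ ∈ H) :
    letI := twAlg K₀ L₀ hKL
    differentIdeal (𝓞 K₀) (𝓞 L₀) = ⊤ := by
  letI := twAlg K₀ L₀ hKL
  haveI : IsGalois K₀ L₀ := IsGalois.tower_top_of_isGalois ℚ K₀ L₀
  by_contra hne
  obtain ⟨𝔓, τ, h𝔓max, hτne, hτ⟩ := tw_exists_inertia K₀ L₀ hne
  haveI : 𝔓.IsPrime := h𝔓max.isPrime
  have h𝔓bot : 𝔓 ≠ ⊥ :=
    Ring.ne_bot_of_isMaximal_of_not_isField h𝔓max (RingOfIntegers.not_isField L₀)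
  have hn0 : Ideal.absNorm 𝔓 ≠ 0 := fun h0 => h𝔓bot (Ideal.absNorm_eq_zero_iff.mp h0)
  have hn1 : Ideal.absNorm 𝔓 ≠ 1 := fun h1 => h𝔓max.ne_top (Ideal.absNorm_eq_one_iff.mp h1)
  obtain ⟨ℓ, hℓ, hℓmem⟩ := tw_exists_prime_mem 𝔓 (Ideal.absNorm 𝔓) (by omega)
    (Ideal.absNorm_mem 𝔓)
  obtain ⟨V, hV⟩ := exists_valuationSubring_over ℓ hℓ
  have hℓmem' : ((ℓ : ℕ) : 𝓞 L₀) ∈ twPrime L₀ V := by
    rw [mem_twPrime]
    have : ((((ℓ : ℕ) : 𝓞 L₀) : L₀) : Qbar) = (ℓ : Qbar) := by simp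
    rw [this]
    exact (V.mem_nonunits_iff).mp hV
  obtain ⟨g, hg⟩ := tw_exists_conj L₀ 𝔓 (twPrime L₀ V) ℓ hℓ hℓmem hℓmem'
  let τ₁ : L₀ ≃ₐ[ℚ] L₀ := τ.restrictScalars ℚ
  let τ₂ : L₀ ≃ₐ[ℚ] L₀ := g * τ₁ * g⁻¹
  have hτ₂ : ∀ x : L₀, IsIntegral ℤ (x : Qbar) →
      V.valuation (((τ₂ x : L₀) : Qbar) - (x : Qbar)) < 1 := by
    intro x hx
    have hxL : IsIntegral ℤ x := (isIntegral_algebraMap_iff (algebraMap L₀ Qbar).injective).mp hx
    have hyL : IsIntegral ℤ (g⁻¹ x) := map_isIntegral_int g⁻¹ hxL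
    obtain ⟨y, hy⟩ : ∃ y : 𝓞 L₀, (y : L₀) = g⁻¹ x := ⟨⟨g⁻¹ x, hyL⟩, rfl⟩
    obtain ⟨z, hz𝔓, hz⟩ := hτ y
    obtain ⟨w, hw, hwz⟩ := hg z hz𝔓
    have hgg : g (g⁻¹ x) = x := AlgEquiv.apply_symm_apply g x
    have h1 : (w : L₀) = τ₂ x - x := by
      rw [hwz, hz, hy, map_sub, hgg]
      rfl
    have h2 := (mem_twPrime L₀ V w).mp hw
    rw [h1] at h2
    exact h2
  obtain ⟨σ, hσI, hσL⟩ := Fermat.Agent.S13.exists_inertia_lift L₀ V ℓ hℓ hV τ₂ hτ₂
  have hσK : ∀ x : K₀, σ (x : Qbar) = x := by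
    intro x
    have h1 := hσL (IntermediateField.inclusion hKL x)
    obtain ⟨g', hg'⟩ := twRes_surjective L₀ g⁻¹
    have h2 : ((g⁻¹ (IntermediateField.inclusion hKL x) : L₀) : Qbar) ∈ K₀ := by
      rw [← hg', twRes_apply]
      exact hKnormal g' x
    have h3 : g⁻¹ (IntermediateField.inclusion hKL x) =
        IntermediateField.inclusion hKL ⟨_, h2⟩ := Subtype.ext rfl
    have h4 : τ₂ (IntermediateField.inclusion hKL x) = IntermediateField.inclusion hKL x := by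
      show g (τ₁ (g⁻¹ (IntermediateField.inclusion hKL x))) = IntermediateField.inclusion hKL x
      rw [h3]
      have h5 : τ₁ (IntermediateField.inclusion hKL ⟨_, h2⟩) =
          IntermediateField.inclusion hKL ⟨_, h2⟩ := τ.commutes ⟨_, h2⟩
      rw [h5, ← h3]
      exact AlgEquiv.apply_symm_apply g _
    rw [h4] at h1
    exact h1
  have hσker : σ ∈ (ExtCitation.cycloChar p).ker := (hKfix σ).mp hσK
  have hσH : σ ∈ H := hin ℓ hℓ V hV σ hσI hσker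
  have hσfix := (hLfix σ).mpr hσH
  have hτ₂1 : τ₂ = 1 := by
    ext x
    have h1 := hσL x
    rw [hσfix x] at h1
    exact h1.symm
  have hτ₁ : τ₁ = 1 := by
    have h1 : g * τ₁ * g⁻¹ = 1 := hτ₂1
    calc τ₁ = g⁻¹ * (g * τ₁ * g⁻¹) * g := by group
      _ = 1 := by rw [h1]; group
  apply hτne
  refine AlgEquiv.ext fun x => ?_
  exact congrArg (fun f : L₀ ≃ₐ[ℚ] L₀ => f x) hτ₁

end Tower

/-! ### The main statement -/

theorem tw_fixed_of_adjoin (σ : Qbar ≃ₐ[ℚ] Qbar) (ζ : Qbar) (h : σ ζ = ζ) (x : Qbar)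
    (hx : x ∈ IntermediateField.adjoin ℚ {ζ}) : σ x = x := by
  have hle : IntermediateField.adjoin ℚ {ζ} ≤
      IntermediateField.fixedField (MulAction.stabilizer (Qbar ≃ₐ[ℚ] Qbar) ζ) := by
    rw [IntermediateField.adjoin_simple_le_iff]
    intro f
    exact f.2
  exact hle hx ⟨σ, h⟩

theorem tw_map_adjoin (σ : Qbar ≃ₐ[ℚ] Qbar) (ζ : Qbar)
    (h : σ ζ ∈ IntermediateField.adjoin ℚ {ζ}) (x : Qbar)
    (hx : x ∈ IntermediateField.adjoin ℚ {ζ}) : σ x ∈ IntermediateField.adjoin ℚ {ζ} := by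
  have hle : (IntermediateField.adjoin ℚ {ζ}).map (σ : Qbar →ₐ[ℚ] Qbar) ≤
      IntermediateField.adjoin ℚ {ζ} := by
    rw [IntermediateField.adjoin_map, Set.image_singleton, IntermediateField.adjoin_simple_le_iff]
    exact h
  exact hle ((IntermediateField.mem_map _).mpr ⟨x, hx, rfl⟩)

/-- **S14, package Rb.** -/
theorem exists_tower_of_subgroup {p : ℕ} [Fact p.Prime] (h3 : 3 ≤ p)
    (H : Subgroup (AlgebraicClosure ℚ ≃ₐ[ℚ] AlgebraicClosure ℚ)) (hn : H.Normal)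
    (ho : IsOpen (H : Set (AlgebraicClosure ℚ ≃ₐ[ℚ] AlgebraicClosure ℚ)))
    (hle : H ≤ (ExtCitation.cycloChar p).ker)
    (hidx : H.relIndex (ExtCitation.cycloChar p).ker = p)
    (hconj : ∀ τ g : AlgebraicClosure ℚ ≃ₐ[ℚ] AlgebraicClosure ℚ,
      g ∈ (ExtCitation.cycloChar p).ker →
        (τ * g * τ⁻¹) ^ (ExtCitation.cycloExp p τ) * g⁻¹ ∈ H)
    (hin : ∀ ℓ : ℕ, ℓ.Prime → ∀ A : ValuationSubring (AlgebraicClosure ℚ), A.LiesOverPrime ℓ →
        ∀ σ ∈ A.inertiaSubgroupIn ℚ, σ ∈ (ExtCitation.cycloChar p).ker → σ ∈ H) :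
    ∃ (K L : Type) (_ : Field K) (_ : Field L) (_ : NumberField K) (_ : NumberField L)
      (_ : Algebra K L), TowerProp p K L := by
  classical
  haveI : NeZero p := ⟨(Fact.out : p.Prime).ne_zero⟩
  haveI : NeZero ((p : ℕ) : Qbar) := ⟨Nat.cast_ne_zero.mpr (NeZero.ne p)⟩
  obtain ⟨ζ₀, hζ₀⟩ := HasEnoughRootsOfUnity.exists_primitiveRoot Qbar p
  let K₀ : IntermediateField ℚ Qbar := IntermediateField.adjoin ℚ {ζ₀}
  let L₀ : IntermediateField ℚ Qbar := IntermediateField.fixedField H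
  have hclosed : IsClosed (H : Set (Qbar ≃ₐ[ℚ] Qbar)) := Subgroup.isClosed_of_isOpen _ ho
  have hLfix' : L₀.fixingSubgroup = H := InfiniteGalois.fixingSubgroup_fixedField ⟨H, hclosed⟩
  have hLfix : ∀ σ : Qbar ≃ₐ[ℚ] Qbar, (∀ x : L₀, σ (x : Qbar) = x) ↔ σ ∈ H := by
    intro σ
    rw [← hLfix', IntermediateField.mem_fixingSubgroup_iff]
    exact ⟨fun h x hx => h ⟨x, hx⟩, fun h x => h x x.2⟩
  have hLfin : FiniteDimensional ℚ L₀ := by
    rw [← InfiniteGalois.isOpen_iff_finite, hLfix']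
    exact ho
  have hLgal : IsGalois ℚ L₀ := by
    have hn' : L₀.fixingSubgroup.Normal := by rw [hLfix']; exact hn
    convert (InfiniteGalois.normal_iff_isGalois L₀).mp hn'
    exact Subsingleton.elim _ _
  have hKfix : ∀ σ : Qbar ≃ₐ[ℚ] Qbar, (∀ x : K₀, σ (x : Qbar) = x) ↔
      σ ∈ (ExtCitation.cycloChar p).ker := by
    intro σ
    rw [tw_mem_ker_iff σ ζ₀ hζ₀]
    constructor
    · intro h
      exact h ⟨ζ₀, IntermediateField.mem_adjoin_simple_self ℚ ζ₀⟩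
    · intro h x
      exact tw_fixed_of_adjoin σ ζ₀ h x.1 x.2
  have hKL : K₀ ≤ L₀ := by
    rw [IntermediateField.adjoin_simple_le_iff]
    intro f
    exact (tw_mem_ker_iff (f : Qbar ≃ₐ[ℚ] Qbar) ζ₀ hζ₀).mp (hle f.2)
  have hKnormal : ∀ (σ : Qbar ≃ₐ[ℚ] Qbar) (x : K₀), σ (x : Qbar) ∈ K₀ := by
    intro σ x
    apply tw_map_adjoin σ ζ₀ _ x.1 x.2
    rw [tw_cyclo_spec σ ζ₀ hζ₀.pow_eq_one]
    exact pow_mem (IntermediateField.mem_adjoin_simple_self ℚ ζ₀) _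
  haveI : NumberField L₀ := ⟨⟩
  haveI : FiniteDimensional ℚ K₀ :=
    IntermediateField.adjoin.finiteDimensional (Algebra.IsIntegral.isIntegral ζ₀)
  haveI : NumberField K₀ := ⟨⟩
  letI := twAlg K₀ L₀ hKL
  have hcard := tw_card_gal K₀ L₀ hKL H hLfix hKfix hidx
  have hgalKL : IsGalois K₀ L₀ := IsGalois.tower_top_of_isGalois ℚ K₀ L₀
  have hcyc : IsCyclotomicExtension {p} ℚ K₀ := by
    convert hζ₀.intermediateField_adjoin_isCyclotomicExtension ℚ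
    · rfl
    · exact Subsingleton.elim _ _
  refine ⟨K₀, L₀, inferInstance, inferInstance, inferInstance, inferInstance, twAlg K₀ L₀ hKL, ?_⟩
  exact
    { cyc := hcyc
      galKL := hgalKL
      galQL := hLgal
      deg := by
        rw [← IsGalois.card_aut_eq_finrank]
        exact hcard
      unram := tw_unram K₀ L₀ hKL H hLfix hKfix hKnormal hin
      conj := tw_conj K₀ L₀ hKL H hLfix hKfix hconj hcard }

/-- **S14, packages Ra + Rb.** A non-split admissible extension produces a number field tower. -/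
theorem exists_tower {p : ℕ} [Fact p.Prime] (h3 : 3 ≤ p)
    (V : Type) [AddCommGroup V] [Module (ZMod p) V]
    [DistribMulAction (AlgebraicClosure ℚ ≃ₐ[ℚ] AlgebraicClosure ℚ) V]
    [SMulCommClass (AlgebraicClosure ℚ ≃ₐ[ℚ] AlgebraicClosure ℚ) (ZMod p) V]
    (C : Submodule (ZMod p) V) (hadm : ExtCitation.IsAdmissibleExtensionCts p V C)
    (hns : ¬ ExtCitation.SplitsGlobally C) :
    ∃ (K L : Type) (_ : Field K) (_ : Field L) (_ : NumberField K) (_ : NumberField L)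
      (_ : Algebra K L), TowerProp p K L := by
  obtain ⟨H, hn, ho, hle, hidx, hconj, hin⟩ := exists_subgroup_of_not_split h3 V C hadm hns
  exact exists_tower_of_subgroup h3 H hn ho hle hidx hconj hin

end Fermat.Agent.S14
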