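/-
S14 project, package CP, tail T1 (pure group theory): the character `lam : (ℤ/r)ˣ → G`.

Given a prime `r ≡ 1 (mod p)` such that `q₁` is not a `p`-th power modulo `r` while
`q₂ * q₁ ^ ((p - 1) * k)` is, there is a homomorphism `lam` from `(ℤ/r)ˣ` to a group `G` of
order `p` with `lam q₁ = σ` and `lam q₂ = σ ^ k`.
-/
import Mathlib

set_option autoImplicit false

namespace Fermat.Agent.S14

theorem cpt_exists_lam (p : ℕ) [Fact p.Prime] {G : Type} [Group G] (hG : Nat.card G = p) (σ : G)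
    (k : ℕ) (q₁ q₂ : ℕ) (r : ℕ) [Fact r.Prime] (hq₁r : q₁ ≠ r) (hq₂r : q₂ ≠ r)
    (hq₁ : q₁.Prime) (hq₂ : q₂.Prime) (hpr : p ∣ r - 1)
    (hu : ∃ c : ZMod r, c ^ p = (q₂ : ZMod r) * (q₁ : ZMod r) ^ ((p - 1) * k))
    (hnq : ∀ c : ZMod r, c ^ p ≠ (q₁ : ZMod r)) :
    ∃ (lam : (ZMod r)ˣ →* G) (u₁ u₂ : (ZMod r)ˣ), (u₁ : ZMod r) = (q₁ : ZMod r) ∧
      (u₂ : ZMod r) = (q₂ : ZMod r) ∧ lam u₁ = σ ∧ lam u₂ = σ ^ k := by
  have hp : p.Prime := Fact.out
  have hr : r.Prime := Fact.out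
  have hGfin : Finite G := Nat.finite_of_card_ne_zero (by rw [hG]; exact hp.ne_zero)
  have hpowG : ∀ x : G, x ^ p = 1 := fun x => by rw [← hG]; exact pow_card_eq_one'
  -- the units `u₁`, `u₂`
  have hc₁ : Nat.Coprime q₁ r := (Nat.coprime_primes hq₁ hr).mpr hq₁r
  have hc₂ : Nat.Coprime q₂ r := (Nat.coprime_primes hq₂ hr).mpr hq₂r
  set u₁ : (ZMod r)ˣ := ZMod.unitOfCoprime q₁ hc₁ with hu₁
  set u₂ : (ZMod r)ˣ := ZMod.unitOfCoprime q₂ hc₂ with hu₂
  have hu₁c : (u₁ : ZMod r) = (q₁ : ZMod r) := ZMod.coe_unitOfCoprime q₁ hc₁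
  have hu₂c : (u₂ : ZMod r) = (q₂ : ZMod r) := ZMod.coe_unitOfCoprime q₂ hc₂
  -- a generator of `(ℤ/r)ˣ`
  obtain ⟨g, hg⟩ := IsCyclic.exists_generator (α := (ZMod r)ˣ)
  have hordg : orderOf g = r - 1 := by
    rw [orderOf_eq_card_of_forall_mem_zpowers hg, Nat.card_eq_fintype_card, ZMod.card_units]
  obtain ⟨a, ha⟩ := Subgroup.mem_zpowers_iff.mp (hg u₁)
  -- `p ∤ a` since `q₁` is not a `p`-th power
  have hpa : ¬ (p : ℤ) ∣ a := by
    rintro ⟨b, rfl⟩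
    apply hnq (((g ^ b : (ZMod r)ˣ) : (ZMod r)ˣ) : ZMod r)
    rw [← hu₁c, ← ha, ← Units.val_pow_eq_pow_val, ← zpow_natCast, ← zpow_mul, mul_comm]
  -- an inverse `a'` of `a` modulo `p`
  have hcop : IsCoprime a (p : ℤ) := by
    have h1 : Nat.Coprime p a.natAbs :=
      (Nat.Prime.coprime_iff_not_dvd hp).mpr (fun h => hpa (Int.natCast_dvd.mpr h))
    rw [Int.isCoprime_iff_gcd_eq_one, Int.gcd_eq_natAbs, Int.natAbs_natCast, Nat.gcd_comm]
    exact h1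
  obtain ⟨a', t, hat⟩ := hcop
  -- the image of the generator
  set τ : G := σ ^ a' with hτ
  have hτa : τ ^ a = σ := by
    rw [hτ, ← zpow_mul]
    have : a' * a = 1 - t * p := by linarith
    rw [this, zpow_sub, zpow_one, zpow_mul, zpow_natCast]
    have : (σ ^ t) ^ p = 1 := hpowG _
    rw [this, inv_one, mul_one]
  have hdvd : orderOf τ ∣ orderOf g := by
    rw [hordg]
    exact (orderOf_dvd_of_pow_eq_one (hpowG τ)).trans hpr
  refine ⟨monoidHomOfForallMemZpowers hg hdvd, u₁, u₂, hu₁c, hu₂c, ?_, ?_⟩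
  · rw [← ha, map_zpow, monoidHomOfForallMemZpowers_apply_gen, hτa]
  · -- `u₂ * u₁ ^ ((p - 1) * k)` is a `p`-th power of a unit
    obtain ⟨c, hc⟩ := hu
    have hcu : IsUnit c := by
      have : IsUnit (c ^ p) := by
        rw [hc, ← hu₁c, ← hu₂c]
        exact (u₂.isUnit).mul ((u₁.isUnit).pow _)
      exact (isUnit_pow_iff hp.ne_zero).mp this
    obtain ⟨w, rfl⟩ := hcu
    have hw : w ^ p = u₂ * u₁ ^ ((p - 1) * k) := by
      apply Units.ext
      rw [Units.val_pow_eq_pow_val, hc, Units.val_mul, Units.val_pow_eq_pow_val, hu₁c, hu₂c]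
    have h1 := congr_arg (monoidHomOfForallMemZpowers hg hdvd) hw
    rw [map_pow, hpowG, map_mul, map_pow, ← ha, map_zpow,
      monoidHomOfForallMemZpowers_apply_gen, hτa] at h1
    -- `lam u₂ * σ ^ ((p - 1) * k) = 1`, and `σ ^ ((p - 1) * k) * σ ^ k = 1`
    have h2 : σ ^ ((p - 1) * k) * σ ^ k = 1 := by
      rw [← pow_add]
      have : (p - 1) * k + k = p * k := by
        have := hp.pos
        obtain ⟨m, rfl⟩ : ∃ m, p = m + 1 := ⟨p - 1, by omega⟩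
        rw [Nat.add_sub_cancel]; ring
      rw [this, pow_mul, hpowG, one_pow]
    calc (monoidHomOfForallMemZpowers hg hdvd) u₂
        = (monoidHomOfForallMemZpowers hg hdvd) u₂ * (σ ^ ((p - 1) * k) * σ ^ k) := by
          rw [h2, mul_one]
      _ = σ ^ k := by rw [← mul_assoc, ← h1, one_mul]

end Fermat.Agent.S14
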