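/-
S14 project, package CP, tail T2: from an inert prime of `N/N1` to the congruence facts.

`N/N1` is Galois of prime degree `p`, `N1 ∋ ζ_p` and `w` with `w ^ p = u`, `N ∋ β` with
`β ^ p = q₁` moved by some automorphism.  For a degree-one prime `𝔯` of `N1` of norm `r ∉ {p, q₁}`
which is inert in `N`: `p ∣ r - 1`, `u` is a `p`-th power modulo `r`, and `q₁` is not.
-/
import Mathlib

set_option autoImplicit false

open NumberField Polynomial
open scoped Pointwise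

namespace Fermat.Agent.S14

section PrimeNorm

variable {F : Type*} [Field F] [NumberField F] (P : Ideal (𝓞 F))

/-- modulo a prime of prime norm every integer of `F` is congruent to a rational integer -/
theorem cpt_exists_int (hr : (Ideal.absNorm P).Prime) (x : 𝓞 F) :
    ∃ n : ℤ, x - (n : 𝓞 F) ∈ P := by
  have : Fact (Ideal.absNorm P).Prime := ⟨hr⟩
  have hcard : Nat.card (𝓞 F ⧸ P) = Ideal.absNorm P := rfl
  have hne : (1 : 𝓞 F ⧸ P) ≠ 0 := by
    intro h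
    have h1 : (1 : 𝓞 F) ∈ P := Ideal.Quotient.eq_zero_iff_mem.mp h
    have htop : P = ⊤ := (Ideal.eq_top_iff_one P).mpr h1
    rw [htop, Ideal.absNorm_top] at hr
    exact Nat.not_prime_one hr
  have hmem : Ideal.Quotient.mk P x ∈ AddSubgroup.zmultiples (1 : 𝓞 F ⧸ P) :=
    mem_zmultiples_of_prime_card hcard hne
  obtain ⟨n, hn⟩ := AddSubgroup.mem_zmultiples_iff.mp hmem
  refine ⟨n, ?_⟩
  rw [← Ideal.Quotient.eq, ← hn]
  simp

/-- a rational integer lies in a prime of prime norm `r` iff it is divisible by `r` -/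
theorem cpt_intCast_mem_iff (hr : (Ideal.absNorm P).Prime) (m : ℤ) :
    (m : 𝓞 F) ∈ P ↔ ((Ideal.absNorm P : ℕ) : ℤ) ∣ m := by
  constructor
  · intro hm
    by_contra hndvd
    have hcop : IsCoprime ((Ideal.absNorm P : ℕ) : ℤ) m :=
      (Nat.prime_iff_prime_int.mp hr).coprime_iff_not_dvd.mpr hndvd
    obtain ⟨a, b, hab⟩ := hcop
    have h1 : ((a * ((Ideal.absNorm P : ℕ) : ℤ) + b * m : ℤ) : 𝓞 F) ∈ P := by
      push_cast
      exact P.add_mem (P.mul_mem_left _ (Ideal.absNorm_mem P)) (P.mul_mem_left _ hm)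
    rw [hab, Int.cast_one] at h1
    have htop : P = ⊤ := (Ideal.eq_top_iff_one P).mpr h1
    rw [htop, Ideal.absNorm_top] at hr
    exact Nat.not_prime_one hr
  · rintro ⟨t, rfl⟩
    push_cast
    exact P.mul_mem_right _ (Ideal.absNorm_mem P)

/-- a natural number lies in a prime of prime norm `r` iff it is divisible by `r` -/
theorem cpt_natCast_mem_iff (hr : (Ideal.absNorm P).Prime) (m : ℕ) :
    (m : 𝓞 F) ∈ P ↔ Ideal.absNorm P ∣ m := by
  have := cpt_intCast_mem_iff P hr (m : ℤ)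
  rw [Int.natCast_dvd_natCast] at this
  rw [← this, Int.cast_natCast]

end PrimeNorm

/-- if `η - 1` lies in an ideal for a primitive `p`-th root of unity `η`, so does `p` -/
theorem cpt_natCast_mem_of_sub_one_mem {A : Type*} [CommRing A] [IsDomain A] (I : Ideal A)
    {p : ℕ} (hp : 1 < p) (η : A) (hη : IsPrimitiveRoot η p) (h : η - 1 ∈ I) : (p : A) ∈ I := by
  have hsum := hη.geom_sum_eq_zero hp
  have h2 : ∑ i ∈ Finset.range p, (η ^ i - 1) ∈ I := by
    apply Ideal.sum_mem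
    intro i _
    obtain ⟨c, hc⟩ := sub_dvd_pow_sub_pow η 1 i
    rw [one_pow] at hc
    rw [hc]
    exact I.mul_mem_right _ h
  rw [Finset.sum_sub_distrib, hsum, Finset.sum_const, Finset.card_range, nsmul_eq_mul, mul_one,
    zero_sub] at h2
  have := I.neg_mem h2
  rwa [neg_neg] at this


/-- **CP, tail T2.** From an inert degree-one prime to the three congruence facts. -/
theorem cpt_of_inert (p : ℕ) [Fact p.Prime] (N1 N : Type) [Field N1] [Field N] [NumberField N1]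
    [NumberField N] [Algebra N1 N] [IsGalois N1 N] (hdeg : Module.finrank N1 N = p)
    (ζ : N1) (hζ : IsPrimitiveRoot ζ p) (w : N1) (u : ℕ) (hw : w ^ p = (u : N1))
    (β : N) (q₁ : ℕ) (hq₁ : q₁.Prime) (hβ : β ^ p = (q₁ : N))
    (hβ' : ∃ g : N ≃ₐ[N1] N, g β ≠ β)
    (𝔯 : nonZeroDivisors (Ideal (𝓞 N1))) (h𝔯 : (𝔯 : Ideal (𝓞 N1)).IsPrime)
    (hr : (Ideal.absNorm (𝔯 : Ideal (𝓞 N1))).Prime)
    (hrp : Ideal.absNorm (𝔯 : Ideal (𝓞 N1)) ≠ p) (hrq : Ideal.absNorm (𝔯 : Ideal (𝓞 N1)) ≠ q₁)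
    (hinert : ∀ 𝔔 : Ideal (𝓞 N), 𝔔.IsPrime → 𝔔.LiesOver (𝔯 : Ideal (𝓞 N1)) →
      𝔔.inertiaDeg (𝓞 N1) = p) :
    p ∣ Ideal.absNorm (𝔯 : Ideal (𝓞 N1)) - 1 ∧
      (∃ c : ZMod (Ideal.absNorm (𝔯 : Ideal (𝓞 N1))),
        c ^ p = (u : ZMod (Ideal.absNorm (𝔯 : Ideal (𝓞 N1))))) ∧
      ∀ c : ZMod (Ideal.absNorm (𝔯 : Ideal (𝓞 N1))),
        c ^ p ≠ (q₁ : ZMod (Ideal.absNorm (𝔯 : Ideal (𝓞 N1)))) := by
  have hp : p.Prime := Fact.out
  generalize hPdef : (𝔯 : Ideal (𝓞 N1)) = P at *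
  generalize hrdef : Ideal.absNorm P = r at *
  have hrP : ∀ m : ℤ, (m : 𝓞 N1) ∈ P ↔ (r : ℤ) ∣ m := by
    intro m; rw [← hrdef]; exact cpt_intCast_mem_iff P (hrdef ▸ hr) m
  have hrP' : ∀ m : ℕ, (m : 𝓞 N1) ∈ P ↔ r ∣ m := by
    intro m; rw [← hrdef]; exact cpt_natCast_mem_iff P (hrdef ▸ hr) m
  have hexP : ∀ x : 𝓞 N1, ∃ n : ℤ, x - (n : 𝓞 N1) ∈ P := cpt_exists_int P (hrdef ▸ hr)
  have : Fact r.Prime := ⟨hr⟩
  have : NeZero p := ⟨hp.ne_zero⟩
  -- the root of unity as an integer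
  have hζ' : IsPrimitiveRoot hζ.toInteger p := hζ.toInteger_isPrimitiveRoot
  have hpP : (p : 𝓞 N1) ∉ P := by
    rw [hrP']
    intro hdvd
    exact hrp ((Nat.prime_dvd_prime_iff_eq hr hp).mp hdvd)
  have hζ1 : hζ.toInteger - 1 ∉ P := fun h =>
    hpP (cpt_natCast_mem_of_sub_one_mem P hp.one_lt _ hζ' h)
  -- `x ≡ n` implies `x ^ p ≡ n ^ p`
  have hpow : ∀ (x : 𝓞 N1) (n : ℤ), x - (n : 𝓞 N1) ∈ P →
      x ^ p - ((n ^ p : ℤ) : 𝓞 N1) ∈ P := by
    intro x n h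
    obtain ⟨c, hc⟩ := sub_dvd_pow_sub_pow x (n : 𝓞 N1) p
    rw [Int.cast_pow, hc]
    exact P.mul_mem_right _ h
  refine ⟨?_, ?_, ?_⟩
  · -- `p ∣ r - 1`: the class of `ζ` has order `p` in `(ℤ/r)ˣ`
    obtain ⟨n, hn⟩ := hexP hζ.toInteger
    have h1 := hpow _ n hn
    rw [hζ'.pow_eq_one] at h1
    have h2 : ((1 - n ^ p : ℤ) : 𝓞 N1) ∈ P := by push_cast; push_cast at h1; exact h1
    rw [hrP] at h2
    have h3 : (n : ZMod r) ^ p = 1 := by
      have := (ZMod.intCast_zmod_eq_zero_iff_dvd _ r).mpr h2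
      push_cast at this
      exact (sub_eq_zero.mp this).symm
    have h4 : (n : ZMod r) ≠ 1 := by
      intro h
      have h5 : ((n - 1 : ℤ) : ZMod r) = 0 := by push_cast; rw [h, sub_self]
      rw [ZMod.intCast_zmod_eq_zero_iff_dvd] at h5
      have hmem := (hrP (n - 1)).mpr h5
      apply hζ1
      have h6 : hζ.toInteger - 1 = (hζ.toInteger - (n : 𝓞 N1)) + ((n - 1 : ℤ) : 𝓞 N1) := by
        push_cast; ring
      rw [h6]
      exact P.add_mem hn hmem
    have hord : orderOf (n : ZMod r) = p := orderOf_eq_prime h3 h4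
    have hn0 : (n : ZMod r) ≠ 0 := by
      intro h0
      rw [h0, zero_pow hp.ne_zero] at h3
      exact zero_ne_one h3
    have h7 := ZMod.pow_card_sub_one_eq_one hn0
    rw [← hord]
    exact orderOf_dvd_of_pow_eq_one h7
  · -- `u` is a `p`-th power modulo `r`
    have hwint : IsIntegral ℤ w := by
      apply IsIntegral.of_pow hp.pos
      rw [hw]
      exact isIntegral_algebraMap (R := ℤ) (A := N1) (x := (u : ℤ)) |> fun h => by simpa using h
    obtain ⟨w', hw'c⟩ : ∃ w' : 𝓞 N1, algebraMap (𝓞 N1) N1 w' = w := ⟨⟨w, hwint⟩, rfl⟩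
    have hw' : w' ^ p = (u : 𝓞 N1) := by
      apply RingOfIntegers.ext
      show algebraMap (𝓞 N1) N1 (w' ^ p) = algebraMap (𝓞 N1) N1 (u : 𝓞 N1)
      rw [map_pow, hw'c, map_natCast]
      exact hw
    obtain ⟨n, hn⟩ := hexP w'
    have h1 := hpow _ n hn
    rw [hw'] at h1
    have h2 : (((u : ℤ) - n ^ p : ℤ) : 𝓞 N1) ∈ P := by push_cast; push_cast at h1; exact h1
    rw [hrP] at h2
    refine ⟨(n : ZMod r), ?_⟩
    have := (ZMod.intCast_zmod_eq_zero_iff_dvd _ r).mpr h2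
    push_cast at this
    exact (sub_eq_zero.mp this).symm
  · -- `q₁` is not a `p`-th power modulo `r`
    intro c hc
    obtain ⟨n, rfl⟩ := ZMod.intCast_surjective c
    have h1 : ((n ^ p - (q₁ : ℤ) : ℤ) : ZMod r) = 0 := by push_cast; rw [hc, sub_self]
    rw [ZMod.intCast_zmod_eq_zero_iff_dvd] at h1
    have h2 := (hrP _).mpr h1
    -- `β` as an integer of `N`
    have hβint : IsIntegral ℤ β := by
      apply IsIntegral.of_pow hp.pos
      rw [hβ]
      exact isIntegral_algebraMap (R := ℤ) (A := N) (x := (q₁ : ℤ)) |> fun h => by simpa using h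
    obtain ⟨β', hβcoe⟩ : ∃ β' : 𝓞 N, algebraMap (𝓞 N) N β' = β := ⟨⟨β, hβint⟩, rfl⟩
    have hβp : β' ^ p = (q₁ : 𝓞 N) := by
      apply RingOfIntegers.ext
      show algebraMap (𝓞 N) N (β' ^ p) = algebraMap (𝓞 N) N (q₁ : 𝓞 N)
      rw [map_pow, hβcoe, map_natCast]
      exact hβ
    -- a prime `𝔔` of `N` above `P`; it is stable under the Galois group
    have hPprime : P.IsPrime := h𝔯
    obtain ⟨⟨𝔔, h𝔔, hlo⟩⟩ := P.nonempty_primesOver (S := 𝓞 N)
    have hf := hinert 𝔔 h𝔔 hlo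
    have hstab : ∀ g : N ≃ₐ[N1] N, g • 𝔔 = 𝔔 := by
      have hcardG : Nat.card (N ≃ₐ[N1] N) = p := by rw [IsGalois.card_aut_eq_finrank, hdeg]
      have h1 := Ideal.card_stabilizer_eq_card_inertia_mul_finrank (G := N ≃ₐ[N1] N) P 𝔔
      rw [hf] at h1
      have hle : Nat.card (MulAction.stabilizer (N ≃ₐ[N1] N) 𝔔) ≤ p := by
        rw [← hcardG]
        exact Subgroup.card_le_card_group _
      have heq : Nat.card (MulAction.stabilizer (N ≃ₐ[N1] N) 𝔔) = Nat.card (N ≃ₐ[N1] N) := by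
        rw [hcardG]
        apply le_antisymm hle
        rw [h1]
        exact Nat.le_mul_of_pos_left _ Nat.card_pos
      have htop := Subgroup.eq_top_of_card_eq _ heq
      intro g
      have hg : g ∈ MulAction.stabilizer (N ≃ₐ[N1] N) 𝔔 := by rw [htop]; trivial
      exact hg
    have hmemQ : ∀ m : ℕ, (m : 𝓞 N) ∈ 𝔔 → r ∣ m := by
      intro m hm
      rw [← hrP', hlo.over, Ideal.mem_comap]
      simpa using hm
    -- the root of unity in `𝓞 N`
    have hζN : IsPrimitiveRoot (algebraMap (𝓞 N1) (𝓞 N) hζ.toInteger) p :=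
      hζ'.map_of_injective (FaithfulSMul.algebraMap_injective (𝓞 N1) (𝓞 N))
    -- first factorisation: `β' ≡ a` modulo `𝔔` for some `a` in the image of `𝓞 N1`
    have hmem1 : β' ^ p - (n : 𝓞 N) ^ p ∈ 𝔔 := by
      rw [hβp]
      have h3 : (q₁ : 𝓞 N) - (n : 𝓞 N) ^ p =
          -algebraMap (𝓞 N1) (𝓞 N) ((n ^ p - (q₁ : ℤ) : ℤ) : 𝓞 N1) := by
        push_cast
        simp
      rw [h3]
      apply 𝔔.neg_mem
      rw [← Ideal.mem_comap]
      have h4 : P = Ideal.comap (algebraMap (𝓞 N1) (𝓞 N)) 𝔔 := hlo.over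
      rw [← h4]
      exact h2
    rw [hζN.pow_sub_pow_eq_prod_sub_mul _ _ hp.pos] at hmem1
    obtain ⟨η, hη, hηmem⟩ := (h𝔔.prod_mem_iff).mp hmem1
    have hηp : η ^ p = 1 := (mem_nthRootsFinset hp.pos 1).mp hη
    obtain ⟨j, -, hj⟩ := hζN.eq_pow_of_pow_eq_one hηp
    have ha : β' - algebraMap (𝓞 N1) (𝓞 N) (hζ.toInteger ^ j * (n : 𝓞 N1)) ∈ 𝔔 := by
      rw [map_mul, map_pow, map_intCast, hj]
      exact hηmem
    -- apply an automorphism moving `β`
    obtain ⟨g, hg⟩ := hβ'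
    have hga : g • β' - algebraMap (𝓞 N1) (𝓞 N) (hζ.toInteger ^ j * (n : 𝓞 N1)) ∈ 𝔔 := by
      have h5 := (Ideal.smul_mem_pointwise_smul_iff (a := g)).mpr ha
      rw [hstab g, smul_sub, smul_algebraMap] at h5
      exact h5
    have hdiff : g • β' - β' ∈ 𝔔 := by
      have h6 := 𝔔.sub_mem hga ha
      rwa [sub_sub_sub_cancel_right] at h6
    -- second factorisation: `g β' = η' β'` with `η' ≠ 1`
    have hgp : (g • β') ^ p = β' ^ p := by
      rw [← smul_pow', hβp]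
      exact map_natCast (MulSemiringAction.toRingHom (N ≃ₐ[N1] N) (𝓞 N) g) q₁
    have hprod2 := hζN.pow_sub_pow_eq_prod_sub_mul (g • β') β' hp.pos
    rw [hgp, sub_self] at hprod2
    obtain ⟨η', hη', hη'0⟩ := Finset.prod_eq_zero_iff.mp hprod2.symm
    have hη'p : η' ^ p = 1 := (mem_nthRootsFinset hp.pos 1).mp hη'
    have hgβ : g • β' = η' * β' := sub_eq_zero.mp hη'0
    have hη'1 : η' ≠ 1 := by
      rintro rfl
      rw [one_mul] at hgβ
      apply hg
      have h7 := congr_arg (algebraMap (𝓞 N) N) hgβ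
      rw [← hβcoe]
      exact h7
    have hη'prim : IsPrimitiveRoot η' p := by
      rw [← orderOf_eq_prime hη'p hη'1]
      exact IsPrimitiveRoot.orderOf η'
    rw [hgβ] at hdiff
    have h8 : (η' - 1) * β' ∈ 𝔔 := by rw [sub_mul, one_mul]; exact hdiff
    rcases h𝔔.mem_or_mem h8 with h | h
    · have h9 := hmemQ p (cpt_natCast_mem_of_sub_one_mem 𝔔 hp.one_lt η' hη'prim h)
      exact hrp ((Nat.prime_dvd_prime_iff_eq hr hp).mp h9)
    · have h9 : (q₁ : 𝓞 N) ∈ 𝔔 := by rw [← hβp]; exact 𝔔.pow_mem_of_mem h p hp.pos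
      exact hrq ((Nat.prime_dvd_prime_iff_eq hr hq₁).mp (hmemQ q₁ h9))

end Fermat.Agent.S14
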