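/-
S14 project, package CP, assembly: the auxiliary prime `r` and the character `lam` from the
Kummer tower `N/N1` (field construction given as a hypothesis), via `exists_inert_prime`
(Density.lean), `cpt_of_inert` (CrossPrimeB.lean) and `cpt_exists_lam` (CrossPrimeA.lean).
-/
import Fermat.Agent.S14.CrossPrimeA
import Fermat.Agent.S14.CrossPrimeB
import Fermat.Agent.S14.Density

set_option autoImplicit false

open NumberField

namespace Fermat.Agent.S14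

/-- `exists_aux_prime` from the field construction: `N/N1` Galois of degree `p`, `N1` containing
a primitive `p`-th root of unity and a `p`-th root of `u = q₂ * q₁ ^ ((p - 1) * k)`, `N` containing
a `p`-th root of `q₁` moved by some automorphism. -/
theorem cpt_exists_aux_prime_of_fields (p : ℕ) [Fact p.Prime] {G : Type} [Group G]
    (hG : Nat.card G = p) (σ : G) (k : ℕ) (q₁ q₂ : ℕ) (hq₁ : q₁.Prime) (hq₂ : q₂.Prime)
    (hfields : ∃ (N1 N : Type) (_ : Field N1) (_ : Field N) (_ : NumberField N1)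
      (_ : NumberField N) (_ : Algebra N1 N) (_ : IsGalois N1 N), Module.finrank N1 N = p ∧
      ∃ (ζ w : N1) (β : N), IsPrimitiveRoot ζ p ∧
        w ^ p = ((q₂ * q₁ ^ ((p - 1) * k) : ℕ) : N1) ∧ β ^ p = (q₁ : N) ∧
        ∃ g : N ≃ₐ[N1] N, g β ≠ β) :
    ∃ (r : ℕ) (_ : Fact r.Prime) (lam : (ZMod r)ˣ →* G) (u₁ u₂ : (ZMod r)ˣ),
      r ≠ p ∧ (u₁ : ZMod r) = (q₁ : ZMod r) ∧ (u₂ : ZMod r) = (q₂ : ZMod r) ∧
      lam u₁ = σ ∧ lam u₂ = σ ^ k := by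
  obtain ⟨N1, N, _, _, _, _, _, _, hdeg, ζ, w, β, hζ, hw, hβ, hg⟩ := hfields
  obtain ⟨𝔯, h𝔯, hr, hrS, hinert⟩ := exists_inert_prime N1 N p hdeg {p, q₁, q₂}
  have hrp : Ideal.absNorm (𝔯 : Ideal (𝓞 N1)) ≠ p := fun h => hrS (by rw [h]; simp)
  have hrq₁ : Ideal.absNorm (𝔯 : Ideal (𝓞 N1)) ≠ q₁ := fun h => hrS (by rw [h]; simp)
  have hrq₂ : Ideal.absNorm (𝔯 : Ideal (𝓞 N1)) ≠ q₂ := fun h => hrS (by rw [h]; simp)
  obtain ⟨hpr, ⟨c, hc⟩, hnq⟩ := cpt_of_inert p N1 N hdeg ζ hζ w (q₂ * q₁ ^ ((p - 1) * k)) hw β q₁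
    hq₁ hβ hg 𝔯 h𝔯 hr hrp hrq₁ hinert
  have hfact : Fact (Ideal.absNorm (𝔯 : Ideal (𝓞 N1))).Prime := ⟨hr⟩
  obtain ⟨lam, u₁, u₂, h1, h2, h3, h4⟩ := cpt_exists_lam p hG σ k q₁ q₂
    (Ideal.absNorm (𝔯 : Ideal (𝓞 N1))) hrq₁.symm hrq₂.symm hq₁ hq₂ hpr
    ⟨c, by rw [hc]; push_cast; rfl⟩ hnq
  exact ⟨_, hfact, lam, u₁, u₂, hrp, h1, h2, h3, h4⟩

end Fermat.Agent.S14
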