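/-
S14 project, package AN5 (elementary part): the two prime-sum statements that need no analytic
input beyond the convergence of `∑ n^(-s)`.

* `an5e_primeSum_summable`  : `∑_𝔭 N𝔭^(-s)` converges for `s > 1`;
* `an5e_primeSum_bad_bound` : the primes of non-prime norm, or of norm in a finite set `S`,
  contribute `O(1)` uniformly in `s > 1`.

Both come from: `N𝔭 = q^f` with `q = absNorm (𝔭 ∩ ℤ)` a prime number, and at most `[F : ℚ]`
primes lie over a given `q`.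
-/
import Fermat.Agent.S14.Defs

set_option autoImplicit false

open NumberField

namespace Fermat.Agent.S14

/-- Fibre bound: if every fibre of `π` has at most `n` elements, `g ≥ 0` is summable and
`0 ≤ f a ≤ g (π a)`, then `f` is summable and `∑ f ≤ n * ∑ g`. -/
theorem an5e_tsum_le_of_fibres {α β : Type*} (π : α → β) (n : ℕ)
    (hfib : ∀ (b : β) (s : Finset α), (∀ a ∈ s, π a = b) → s.card ≤ n)
    (g : β → ℝ) (hg0 : ∀ b, 0 ≤ g b) (hg : Summable g)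
    (f : α → ℝ) (hf0 : ∀ a, 0 ≤ f a) (hfg : ∀ a, f a ≤ g (π a)) :
    Summable f ∧ ∑' a, f a ≤ (n : ℝ) * ∑' b, g b := by
  classical
  have key : ∀ s : Finset α, ∑ a ∈ s, f a ≤ (n : ℝ) * ∑' b, g b := by
    intro s
    calc ∑ a ∈ s, f a ≤ ∑ a ∈ s, g (π a) := Finset.sum_le_sum fun a _ => hfg a
      _ = ∑ b ∈ s.image π, (s.filter (fun a => π a = b)).card • g b := Finset.sum_comp g π
      _ ≤ ∑ b ∈ s.image π, (n : ℝ) * g b := by
          refine Finset.sum_le_sum fun b _ => ?_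
          rw [nsmul_eq_mul]
          refine mul_le_mul_of_nonneg_right ?_ (hg0 b)
          exact_mod_cast hfib b _ (fun a ha => (Finset.mem_filter.mp ha).2)
      _ = (n : ℝ) * ∑ b ∈ s.image π, g b := by rw [Finset.mul_sum]
      _ ≤ (n : ℝ) * ∑' b, g b :=
          mul_le_mul_of_nonneg_left (hg.sum_le_tsum _ (fun b _ => hg0 b)) (Nat.cast_nonneg n)
  have hsum : Summable f := summable_of_sum_le hf0 key
  exact ⟨hsum, hsum.tsum_le_of_sum_le key⟩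

section

variable (F : Type*) [Field F] [NumberField F]

/-- For a nonzero prime `𝔓` of `𝓞 F`: `q = absNorm (𝔓 ∩ ℤ)` is a prime number and
`N𝔓 = q ^ f` with `f ≠ 0`. -/
theorem an5e_absNorm_eq_pow (𝔓 : Ideal (𝓞 F)) (hP : 𝔓.IsPrime) (h0 : 𝔓 ≠ ⊥) :
    (𝔓.under ℤ).IsPrime ∧ 𝔓.under ℤ ≠ ⊥ ∧ (Ideal.absNorm (𝔓.under ℤ)).Prime ∧
      𝔓.inertiaDeg ℤ ≠ 0 ∧
      Ideal.absNorm 𝔓 = Ideal.absNorm (𝔓.under ℤ) ^ 𝔓.inertiaDeg ℤ := by
  have hPm : 𝔓.IsMaximal := Ring.DimensionLEOne.maximalOfPrime h0 hP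
  have hup : (𝔓.under ℤ).IsPrime := inferInstance
  have hu0 : 𝔓.under ℤ ≠ ⊥ := by
    intro hbot
    have : 𝔓.LiesOver (⊥ : Ideal ℤ) := ⟨hbot.symm⟩
    exact h0 (Ideal.eq_bot_of_liesOver_bot ℤ 𝔓)
  have hum : (𝔓.under ℤ).IsMaximal := Ring.DimensionLEOne.maximalOfPrime hu0 hup
  have hlo : 𝔓.LiesOver (𝔓.under ℤ) := ⟨rfl⟩
  have hrel : Ideal.relNorm ℤ 𝔓 = (𝔓.under ℤ) ^ 𝔓.inertiaDeg ℤ :=
    Ideal.relNorm_eq_pow_of_isMaximal 𝔓 (𝔓.under ℤ)
  have habs : Ideal.absNorm (𝔓.under ℤ) ^ 𝔓.inertiaDeg ℤ = Ideal.absNorm 𝔓 := by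
    rw [← map_pow, ← hrel, Ideal.absNorm_relNorm]
  have hq0 : (Ideal.absNorm (𝔓.under ℤ) : ℤ) ≠ 0 := by
    intro hz
    apply hu0
    rw [← Int.ideal_span_absNorm_eq_self (𝔓.under ℤ), hz]
    simp
  have hqp : (Ideal.absNorm (𝔓.under ℤ)).Prime := by
    rw [Nat.prime_iff_prime_int, ← Ideal.span_singleton_prime hq0,
      Int.ideal_span_absNorm_eq_self]
    exact hup
  exact ⟨hup, hu0, hqp, (Ideal.inertiaDeg_pos (R := ℤ) 𝔓).ne', habs.symm⟩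

/-- At most `[F : ℚ]` primes of `𝓞 F` lie over a given nonzero prime of `ℤ`. -/
theorem an5e_card_primes_over_le (𝔮 : Ideal ℤ) (h𝔮 : 𝔮.IsPrime) (h0 : 𝔮 ≠ ⊥)
    (s : Finset (Ideal (𝓞 F))) (hs : ∀ 𝔓 ∈ s, 𝔓.IsPrime ∧ 𝔓.under ℤ = 𝔮) :
    s.card ≤ Module.finrank ℚ F := by
  classical
  have hmax : 𝔮.IsMaximal := Ring.DimensionLEOne.maximalOfPrime h0 h𝔮
  have hsum := Ideal.sum_ramification_inertia_eq_finrank 𝔮 (𝓞 F)
  rw [RingOfIntegers.rank] at hsum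
  rw [← hsum]
  have hmem : ∀ 𝔓 ∈ s, 𝔓 ∈ 𝔮.primesOver (𝓞 F) := fun 𝔓 h𝔓 =>
    ⟨(hs 𝔓 h𝔓).1, ⟨(hs 𝔓 h𝔓).2.symm⟩⟩
  calc s.card
      = (s.attach.image (fun 𝔓 => (⟨𝔓.1, hmem 𝔓.1 𝔓.2⟩ : 𝔮.primesOver (𝓞 F)))).card := by
        rw [Finset.card_image_of_injective, Finset.card_attach]
        intro a b hab
        exact Subtype.ext (congrArg (fun x : 𝔮.primesOver (𝓞 F) => x.1) hab)
    _ ≤ (Finset.univ : Finset (𝔮.primesOver (𝓞 F))).card :=
        Finset.card_le_card (Finset.subset_univ _)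
    _ = ∑ q : 𝔮.primesOver (𝓞 F), 1 := by simp
    _ ≤ ∑ q : 𝔮.primesOver (𝓞 F), q.1.ramificationIdx ℤ * q.1.inertiaDeg ℤ := by
        refine Finset.sum_le_sum fun q _ => ?_
        have : q.1.IsPrime := q.2.1
        exact Nat.one_le_iff_ne_zero.mpr
          (Nat.mul_ne_zero (Ideal.ramificationIdx_pos (R := ℤ) q.1).ne'
            (Ideal.inertiaDeg_pos (R := ℤ) q.1).ne')

/-- The fibres of `𝔭 ↦ absNorm (𝔭 ∩ ℤ)` on the height one primes have at most `[F : ℚ]`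
elements. -/
theorem an5e_fibre_card_le (b : ℕ)
    (fs : Finset (IsDedekindDomain.HeightOneSpectrum (𝓞 F)))
    (hfs : ∀ 𝔭 ∈ fs, Ideal.absNorm (𝔭.asIdeal.under ℤ) = b) :
    fs.card ≤ Module.finrank ℚ F := by
  classical
  rcases fs.eq_empty_or_nonempty with rfl | ⟨𝔭₀, h𝔭₀⟩
  · simp
  have hinj : Function.Injective
      (fun a : IsDedekindDomain.HeightOneSpectrum (𝓞 F) => a.asIdeal) :=
    fun a a' haa => IsDedekindDomain.HeightOneSpectrum.ext haa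
  rw [← Finset.card_image_of_injective fs hinj]
  obtain ⟨hup, hu0, -, -, -⟩ := an5e_absNorm_eq_pow F 𝔭₀.asIdeal 𝔭₀.isPrime 𝔭₀.ne_bot
  refine an5e_card_primes_over_le F (𝔭₀.asIdeal.under ℤ) hup hu0 _ ?_
  intro 𝔓 h𝔓
  obtain ⟨a, ha, rfl⟩ := Finset.mem_image.mp h𝔓
  refine ⟨a.isPrime, ?_⟩
  show a.asIdeal.under ℤ = 𝔭₀.asIdeal.under ℤ
  rw [← Int.ideal_span_absNorm_eq_self (a.asIdeal.under ℤ),
    ← Int.ideal_span_absNorm_eq_self (𝔭₀.asIdeal.under ℤ), hfs a ha, hfs 𝔭₀ h𝔭₀]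

/-- **AN5, elementary part 1**: the prime sum converges for `s > 1`. -/
theorem an5e_primeSum_summable {s : ℝ} (hs : 1 < s) :
    Summable (fun 𝔭 : IsDedekindDomain.HeightOneSpectrum (𝓞 F) =>
      (Ideal.absNorm 𝔭.asIdeal : ℝ) ^ (-s)) := by
  have hg : Summable (fun n : ℕ => (n : ℝ) ^ (-s)) := Real.summable_nat_rpow.mpr (by linarith)
  refine (an5e_tsum_le_of_fibres
    (fun 𝔭 : IsDedekindDomain.HeightOneSpectrum (𝓞 F) => Ideal.absNorm (𝔭.asIdeal.under ℤ))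
    (Module.finrank ℚ F) (fun b fs hfs => an5e_fibre_card_le F b fs hfs)
    (fun n : ℕ => (n : ℝ) ^ (-s)) (fun n => Real.rpow_nonneg (Nat.cast_nonneg n) _) hg
    _ (fun 𝔭 => Real.rpow_nonneg (Nat.cast_nonneg _) _) ?_).1
  intro 𝔭
  obtain ⟨-, -, hqp, hf, habs⟩ := an5e_absNorm_eq_pow F 𝔭.asIdeal 𝔭.isPrime 𝔭.ne_bot
  have hq1 : (1 : ℝ) ≤ (Ideal.absNorm (𝔭.asIdeal.under ℤ) : ℝ) := by
    exact_mod_cast hqp.one_lt.le
  have hle : (Ideal.absNorm (𝔭.asIdeal.under ℤ) : ℝ) ≤ (Ideal.absNorm 𝔭.asIdeal : ℝ) := by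
    rw [habs]; push_cast
    exact le_self_pow₀ hq1 hf
  exact Real.rpow_le_rpow_of_nonpos (by linarith) hle (by linarith)

open NumberField.Set in
/-- **AN5, elementary part 2**: the primes whose norm is not a prime number, or lies in the
finite set `S`, contribute a bounded amount. -/
theorem an5e_primeSum_bad_bound (S : Finset ℕ) :
    ∃ C : ℝ, ∀ s : ℝ, 1 < s →
      primeIdealZetaSum {𝔭 : IsDedekindDomain.HeightOneSpectrum (𝓞 F) |
        ¬ (Ideal.absNorm 𝔭.asIdeal).Prime ∨ Ideal.absNorm 𝔭.asIdeal ∈ S} s ≤ C := by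
  classical
  set g : ℕ → ℝ := fun n => (n : ℝ) ^ (-2 : ℝ) + (if n ∈ S then 1 else 0) with hg
  have hg0 : ∀ n, 0 ≤ g n := fun n => by
    have := Real.rpow_nonneg (Nat.cast_nonneg n) (-2 : ℝ)
    simp only [hg]; split_ifs <;> linarith
  have hgs : Summable g := by
    refine (Real.summable_nat_rpow.mpr (by norm_num)).add ?_
    refine summable_of_ne_finset_zero (s := S) ?_
    intro n hn
    simp [hn]
  refine ⟨(Module.finrank ℚ F : ℝ) * ∑' n, g n, fun s hs => ?_⟩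
  rw [primeIdealZetaSum_def]
  set Bad : Set (IsDedekindDomain.HeightOneSpectrum (𝓞 F)) :=
    {𝔭 | ¬ (Ideal.absNorm 𝔭.asIdeal).Prime ∨ Ideal.absNorm 𝔭.asIdeal ∈ S} with hBad
  refine (an5e_tsum_le_of_fibres
    (fun 𝔭 : ↥Bad => Ideal.absNorm (𝔭.1.asIdeal.under ℤ))
    (Module.finrank ℚ F) ?_ g hg0 hgs
    _ (fun 𝔭 => Real.rpow_nonneg (Nat.cast_nonneg _) _) ?_).2
  · intro b fs hfs
    have hinj : Function.Injective (fun a : ↥Bad => a.1) := Subtype.val_injective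
    rw [← Finset.card_image_of_injective fs hinj]
    refine an5e_fibre_card_le F b _ ?_
    intro 𝔭 h𝔭
    obtain ⟨a, ha, rfl⟩ := Finset.mem_image.mp h𝔭
    exact hfs a ha
  · rintro ⟨𝔭, h𝔭⟩
    obtain ⟨-, -, hqp, hf, habs⟩ := an5e_absNorm_eq_pow F 𝔭.asIdeal 𝔭.isPrime 𝔭.ne_bot
    set q := Ideal.absNorm (𝔭.asIdeal.under ℤ) with hq
    have hq1 : (1 : ℝ) < (q : ℝ) := by exact_mod_cast hqp.one_lt
    show (Ideal.absNorm 𝔭.asIdeal : ℝ) ^ (-s) ≤ (q : ℝ) ^ (-2 : ℝ) + (if q ∈ S then 1 else 0)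
    by_cases hf1 : 𝔭.asIdeal.inertiaDeg ℤ = 1
    · -- degree one: the norm is the prime `q`, so it lies in `S`
      rw [hf1, pow_one] at habs
      have hmem : q ∈ S := by
        rcases h𝔭 with h | h
        · exact absurd (habs ▸ hqp) h
        · exact habs ▸ h
      rw [if_pos hmem, habs]
      have h1 : (q : ℝ) ^ (-s) ≤ 1 :=
        Real.rpow_le_one_of_one_le_of_nonpos hq1.le (by linarith)
      have h2 := Real.rpow_nonneg (Nat.cast_nonneg q) (-2 : ℝ)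
      linarith
    · -- degree at least two
      have hf2 : 2 ≤ 𝔭.asIdeal.inertiaDeg ℤ := by omega
      have hle : (q : ℝ) ^ (2 : ℕ) ≤ (Ideal.absNorm 𝔭.asIdeal : ℝ) := by
        rw [habs]; push_cast
        exact pow_le_pow_right₀ hq1.le hf2
      have hpos : (0 : ℝ) < (q : ℝ) ^ (2 : ℕ) := by positivity
      have h1 : (Ideal.absNorm 𝔭.asIdeal : ℝ) ^ (-s) ≤ ((q : ℝ) ^ (2 : ℕ)) ^ (-s) :=
        Real.rpow_le_rpow_of_nonpos hpos hle (by linarith)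
      have h2 : ((q : ℝ) ^ (2 : ℕ)) ^ (-s) ≤ ((q : ℝ) ^ (2 : ℕ)) ^ (-1 : ℝ) :=
        Real.rpow_le_rpow_of_exponent_le (one_le_pow₀ hq1.le) (by linarith)
      have h3 : ((q : ℝ) ^ (2 : ℕ)) ^ (-1 : ℝ) = (q : ℝ) ^ (-2 : ℝ) := by
        rw [← Real.rpow_natCast, ← Real.rpow_mul (by linarith)]
        norm_num
      have h4 : (0 : ℝ) ≤ (if q ∈ S then (1 : ℝ) else 0) := by split_ifs <;> norm_num
      linarith

end

end Fermat.Agent.S14
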